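import Fermat.Agent.S41.h30_Hecke2

/-!
# S41, block (D): restriction, transfer and the Atkin-Lehner conjugation between the levels
`N` and `N * q`  (`q` prime, `q ∤ N`)

* `h30_res N q : Hom(Γ₀(N), A) → Hom(Γ₀(N q), A)`  restriction;
* `h30_tr N q hqN : Hom(Γ₀(N q), A) → Hom(Γ₀(N), A)`  transfer (coset representatives
  `h30_rep`: `1` and `t' * [1 j; 0 1]`, `j` mod `q`);
* `h30_W N q hqN : Hom(Γ₀(N q), A) → Hom(Γ₀(N q), A)`  conjugation by the Atkin-Lehner element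
  `w = t' * diag(q, 1) = [q, b; N q, q d]`  (`q d - N b = 1`, `t' = [1, b; N, q d] ∈ Γ₀(N)`).

The level-raising maps of Ribet's argument are
`α (φ₁, φ₂) = res φ₁ + W (res φ₂)` and `β ψ = (tr ψ, tr (W ψ))`.
-/

set_option autoImplicit false

namespace Fermat.Agent.S41

open CongruenceSubgroup Matrix.SpecialLinearGroup ModularCurve.Period
open scoped MatrixGroups
open Fermat.Agent.S16
open P2MW.S_ModularForm_heckeT_slash_eq_self_of_mem_Gamma0.ModularForm.HeckeSlashInvariance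

/-! ### Small matrix tools -/

theorem h30_mul_inv_10 (a b : SL(2, ℤ)) :
    (a * b⁻¹) 1 0 = a 1 0 * b 1 1 - a 1 1 * b 1 0 := by
  rw [coe_mul, coe_inv, Matrix.adjugate_fin_two, Matrix.mul_apply, Fin.sum_univ_two]
  simp
  ring

theorem h30_mul_00 (a b : SL(2, ℤ)) : (a * b) 0 0 = a 0 0 * b 0 0 + a 0 1 * b 1 0 := by
  rw [coe_mul, Matrix.mul_apply, Fin.sum_univ_two]

theorem h30_mul_01 (a b : SL(2, ℤ)) : (a * b) 0 1 = a 0 0 * b 0 1 + a 0 1 * b 1 1 := by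
  rw [coe_mul, Matrix.mul_apply, Fin.sum_univ_two]

theorem h30_mul_10 (a b : SL(2, ℤ)) : (a * b) 1 0 = a 1 0 * b 0 0 + a 1 1 * b 1 0 := by
  rw [coe_mul, Matrix.mul_apply, Fin.sum_univ_two]

theorem h30_mul_11 (a b : SL(2, ℤ)) : (a * b) 1 1 = a 1 0 * b 0 1 + a 1 1 * b 1 1 := by
  rw [coe_mul, Matrix.mul_apply, Fin.sum_univ_two]

theorem h30_mem_Gamma0_iff {N : ℕ} {g : SL(2, ℤ)} : g ∈ Gamma0 N ↔ (N : ℤ) ∣ g 1 0 := by
  rw [Gamma0_mem, ZMod.intCast_zmod_eq_zero_iff_dvd]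

theorem h30_dvd_of_mem {N : ℕ} (γ : Gamma0 N) : (N : ℤ) ∣ (γ : SL(2, ℤ)) 1 0 :=
  h30_mem_Gamma0_iff.mp γ.2

/-- Constructor for elements of `Γ₀(N)`. -/
def h30_mk (N : ℕ) (a b c d : ℤ) (hdet : a * d - b * c = 1) (hc : (N : ℤ) ∣ c) : Gamma0 N :=
  ⟨⟨!![a, b; c, d], by rw [Matrix.det_fin_two_of]; exact hdet⟩, by
    rw [h30_mem_Gamma0_iff]
    simpa using hc⟩

section Mk

variable {N : ℕ} (a b c d : ℤ) (hdet : a * d - b * c = 1) (hc : (N : ℤ) ∣ c)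

@[simp] theorem h30_mk_00 : (h30_mk N a b c d hdet hc : SL(2, ℤ)) 0 0 = a := rfl
@[simp] theorem h30_mk_01 : (h30_mk N a b c d hdet hc : SL(2, ℤ)) 0 1 = b := rfl
@[simp] theorem h30_mk_10 : (h30_mk N a b c d hdet hc : SL(2, ℤ)) 1 0 = c := rfl
@[simp] theorem h30_mk_11 : (h30_mk N a b c d hdet hc : SL(2, ℤ)) 1 1 = d := rfl

theorem h30_mapGL_mk : ((mapGL ℝ (h30_mk N a b c d hdet hc : SL(2, ℤ)) : GL (Fin 2) ℝ) :
    Matrix (Fin 2) (Fin 2) ℝ) = !![(a : ℝ), (b : ℝ); (c : ℝ), (d : ℝ)] := by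
  rw [h30_coe_mapGL]
  rfl

end Mk

theorem h30_upper_eq (N : ℕ) (k : ℤ) :
    h30_upper N k = h30_mk N 1 k 0 1 (by ring) (dvd_zero _) := rfl

/-- The scalar matrix `q`. -/
noncomputable def h30_sc (q : ℕ) [NeZero q] : GL (Fin 2) ℝ :=
  Matrix.GeneralLinearGroup.mkOfDetNeZero !![(q : ℝ), 0; 0, (q : ℝ)] (by
    rw [Matrix.det_fin_two_of]
    have : (q : ℝ) ≠ 0 := Nat.cast_ne_zero.mpr (NeZero.ne q)
    simp [this])

theorem h30_coe_sc (q : ℕ) [NeZero q] :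
    ((h30_sc q : GL (Fin 2) ℝ) : Matrix (Fin 2) (Fin 2) ℝ) = !![(q : ℝ), 0; 0, (q : ℝ)] := rfl

theorem h30_sc_comm (q : ℕ) [NeZero q] (g : GL (Fin 2) ℝ) : h30_sc q * g = g * h30_sc q := by
  ext i j
  fin_cases i <;> fin_cases j <;>
    simp [h30_sc, Matrix.mul_apply, Fin.sum_univ_two, mul_comm]

/-! ### The Bezout data -/

/-- `b` with `q d - N b = 1`. -/
def h30_bb (N q : ℕ) : ℤ := -Int.gcdB q N

/-- `d` with `q d - N b = 1`. -/
def h30_dd (N q : ℕ) : ℤ := Int.gcdA q N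

theorem h30_bez {N q : ℕ} (h : Nat.Coprime q N) :
    (q : ℤ) * h30_dd N q - N * h30_bb N q = 1 := by
  have h1 := Int.gcd_eq_gcd_ab (q : ℤ) (N : ℤ)
  rw [Int.gcd_natCast_natCast, h] at h1
  rw [h30_dd, h30_bb]
  push_cast at h1
  linarith

variable (N q : ℕ)

/-- `t' = [1, b; N, q d] ∈ Γ₀(N)`. -/
def h30_tp (h : Nat.Coprime q N) : Gamma0 N :=
  h30_mk N 1 (h30_bb N q) N (q * h30_dd N q) (by linarith [h30_bez h]) (dvd_refl _)

/-- `t = [q, b; N, d] ∈ Γ₀(N)`. -/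
def h30_tt (h : Nat.Coprime q N) : Gamma0 N :=
  h30_mk N q (h30_bb N q) N (h30_dd N q) (by linarith [h30_bez h]) (dvd_refl _)

/-- The Atkin-Lehner element `w = t' * diag(q, 1) = [q, b; N q, q d]`. -/
noncomputable def h30_w (h : Nat.Coprime q N) : GL (Fin 2) ℝ :=
  mapGL ℝ (h30_tp N q h : SL(2, ℤ)) * ModularForm.heckeDiagMatrix q

/-! ### Matrix identities -/

section Identities

variable {q}
variable (hq : q ≠ 0) (h : Nat.Coprime q N)
include hq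

/-- `diag(q, 1) * (t' * [1 j; 0 1]) = t * [1 j; 0 q]`. -/
theorem h30_diag_mul_tp_upper (j : ℕ) :
    ModularForm.heckeDiagMatrix q *
        mapGL ℝ ((h30_tp N q h * h30_upper N j : Gamma0 N) : SL(2, ℤ)) =
      mapGL ℝ (h30_tt N q h : SL(2, ℤ)) * ModularForm.heckeMatrix q j := by
  apply Units.ext
  rw [Subgroup.coe_mul, map_mul, h30_upper_eq, h30_tp, h30_tt]
  simp only [Matrix.GeneralLinearGroup.coe_mul, ModularForm.val_heckeDiagMatrix hq,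
    ModularForm.val_heckeMatrix hq, h30_mapGL_mk, Matrix.mul_fin_two]
  congr 1
  ext i k
  fin_cases i <;> fin_cases k <;> simp <;> ring

/-- `diag(q, 1) * [1 j; 0 q] = q * [1 j; 0 1]`. -/
theorem h30_diag_mul_heckeMatrix [NeZero q] (j : ℕ) :
    ModularForm.heckeDiagMatrix q * ModularForm.heckeMatrix q j =
      h30_sc q * mapGL ℝ ((h30_upper N j : Gamma0 N) : SL(2, ℤ)) := by
  apply Units.ext
  rw [h30_upper_eq]
  simp only [Matrix.GeneralLinearGroup.coe_mul, ModularForm.val_heckeDiagMatrix hq,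
    ModularForm.val_heckeMatrix hq, h30_mapGL_mk, h30_coe_sc, Matrix.mul_fin_two]
  congr 1
  ext i k
  fin_cases i <;> fin_cases k <;> simp

/-- `diag(q, 1) * t' * diag(q, 1) = q * t`. -/
theorem h30_diag_tp_diag [NeZero q] :
    ModularForm.heckeDiagMatrix q * mapGL ℝ (h30_tp N q h : SL(2, ℤ)) *
        ModularForm.heckeDiagMatrix q =
      h30_sc q * mapGL ℝ (h30_tt N q h : SL(2, ℤ)) := by
  apply Units.ext
  rw [h30_tp, h30_tt]
  simp only [Matrix.GeneralLinearGroup.coe_mul, ModularForm.val_heckeDiagMatrix hq,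
    h30_mapGL_mk, h30_coe_sc, Matrix.mul_fin_two]
  congr 1
  ext i k
  fin_cases i <;> fin_cases k <;> simp <;> ring

end Identities

/-! ### Conjugation by `diag(q, 1)` and by `w` -/

section Conj

variable {N q}

theorem h30_q_dvd (γ : Gamma0 (N * q)) : (q : ℤ) ∣ (γ : SL(2, ℤ)) 1 0 :=
  (Dvd.intro_left (N : ℤ) (by push_cast; ring)).trans (h30_dvd_of_mem γ)

theorem h30_N_dvd (γ : Gamma0 (N * q)) : (N : ℤ) ∣ (γ : SL(2, ℤ)) 1 0 :=
  (Dvd.intro (q : ℤ) (by push_cast; ring)).trans (h30_dvd_of_mem γ)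

theorem h30_N_dvd_div [NeZero q] (γ : Gamma0 (N * q)) :
    (N : ℤ) ∣ (γ : SL(2, ℤ)) 1 0 / q := by
  obtain ⟨k, hk⟩ := h30_dvd_of_mem γ
  have hq0 : (q : ℤ) ≠ 0 := Nat.cast_ne_zero.mpr (NeZero.ne q)
  refine ⟨k, ?_⟩
  rw [hk]
  push_cast
  rw [show (N : ℤ) * q * k = q * (N * k) by ring, Int.mul_ediv_cancel_left _ hq0]

variable (N q) in
/-- `γ ↦ diag(q, 1) γ diag(q, 1)⁻¹ = [a, q b; c / q, d]`, from `Γ₀(N q)` to `Γ₀(N)`. -/
def h30_cj [NeZero q] (γ : Gamma0 (N * q)) : Gamma0 N :=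
  h30_mk N ((γ : SL(2, ℤ)) 0 0) (q * (γ : SL(2, ℤ)) 0 1) ((γ : SL(2, ℤ)) 1 0 / q)
    ((γ : SL(2, ℤ)) 1 1)
    (by
      rw [mul_assoc, mul_comm ((γ : SL(2, ℤ)) 0 1), ← mul_assoc,
        Int.mul_ediv_cancel' (h30_q_dvd γ)]
      have := (γ : SL(2, ℤ)).det_coe
      rw [Matrix.det_fin_two] at this
      linarith)
    (h30_N_dvd_div γ)

theorem h30_cj_spec [NeZero q] (γ : Gamma0 (N * q)) :
    ModularForm.heckeDiagMatrix q * mapGL ℝ (γ : SL(2, ℤ)) =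
      mapGL ℝ (h30_cj N q γ : SL(2, ℤ)) * ModularForm.heckeDiagMatrix q := by
  have hq : q ≠ 0 := NeZero.ne q
  have hc : (((γ : SL(2, ℤ)) 1 0 / (q : ℤ) : ℤ) : ℝ) * (q : ℝ) =
      (((γ : SL(2, ℤ)) 1 0 : ℤ) : ℝ) := by
    have := Int.ediv_mul_cancel (h30_q_dvd γ)
    exact_mod_cast this
  apply Units.ext
  rw [h30_cj]
  simp only [Matrix.GeneralLinearGroup.coe_mul, ModularForm.val_heckeDiagMatrix hq,
    h30_mapGL_mk, h30_coe_mapGL, Matrix.mul_fin_two]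
  congr 1
  ext i k
  fin_cases i <;> fin_cases k <;> simp [hc, mul_comm]

variable (N q) in
/-- `γ ↦ w γ w⁻¹ = t' (diag(q,1) γ diag(q,1)⁻¹) t'⁻¹`, an automorphism of `Γ₀(N q)`. -/
def h30_wc [NeZero q] (h : Nat.Coprime q N) (γ : Gamma0 (N * q)) : Gamma0 (N * q) :=
  ⟨((h30_tp N q h * h30_cj N q γ * (h30_tp N q h)⁻¹ : Gamma0 N) : SL(2, ℤ)), by
    rw [h30_mem_Gamma0_iff, Subgroup.coe_mul, Subgroup.coe_inv, h30_mul_inv_10, Subgroup.coe_mul,
      h30_mul_10, h30_mul_11]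
    obtain ⟨k, hk⟩ := h30_N_dvd_div γ
    refine ⟨(γ : SL(2, ℤ)) 0 0 * h30_dd N q + q * h30_dd N q * h30_dd N q * k -
      N * (γ : SL(2, ℤ)) 0 1 - h30_dd N q * (γ : SL(2, ℤ)) 1 1, ?_⟩
    simp only [h30_tp, h30_cj, h30_mk_00, h30_mk_01, h30_mk_10, h30_mk_11, hk]
    push_cast
    ring⟩

theorem h30_wc_coe [NeZero q] (h : Nat.Coprime q N) (γ : Gamma0 (N * q)) :
    ((h30_wc N q h γ : Gamma0 (N * q)) : SL(2, ℤ)) =
      (h30_tp N q h : SL(2, ℤ)) * (h30_cj N q γ : SL(2, ℤ)) * (h30_tp N q h : SL(2, ℤ))⁻¹ := rfl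

theorem h30_wc_spec [NeZero q] (h : Nat.Coprime q N) (γ : Gamma0 (N * q)) :
    h30_w N q h * mapGL ℝ (γ : SL(2, ℤ)) =
      mapGL ℝ (h30_wc N q h γ : SL(2, ℤ)) * h30_w N q h := by
  rw [h30_w, mul_assoc, h30_cj_spec γ, h30_wc_coe, map_mul, map_mul, map_inv]
  group

theorem h30_wc_trace [NeZero q] (h : Nat.Coprime q N) (γ : Gamma0 (N * q)) :
    ((h30_wc N q h γ : Gamma0 (N * q)) : SL(2, ℤ)).1.trace = (γ : SL(2, ℤ)).1.trace :=
  h30_trace_of_conj (h30_wc_spec h γ)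

variable (N q) in
/-- `w² = q * g₀` with `g₀ = t' * t ∈ Γ₀(N q)`. -/
def h30_g0 (h : Nat.Coprime q N) : Gamma0 (N * q) :=
  ⟨((h30_tp N q h * h30_tt N q h : Gamma0 N) : SL(2, ℤ)), by
    rw [h30_mem_Gamma0_iff, Subgroup.coe_mul, h30_mul_10]
    refine ⟨1 + h30_dd N q, ?_⟩
    simp only [h30_tp, h30_tt, h30_mk_00, h30_mk_01, h30_mk_10, h30_mk_11]
    push_cast
    ring⟩

theorem h30_w_mul_w [NeZero q] (h : Nat.Coprime q N) :
    h30_w N q h * h30_w N q h = h30_sc q * mapGL ℝ (h30_g0 N q h : SL(2, ℤ)) := by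
  have h1 := h30_diag_tp_diag N (NeZero.ne q) h
  have h2 : ((h30_g0 N q h : Gamma0 (N * q)) : SL(2, ℤ)) =
      (h30_tp N q h : SL(2, ℤ)) * (h30_tt N q h : SL(2, ℤ)) := rfl
  rw [h30_w, h2, map_mul, ← mul_assoc (h30_sc q), h30_sc_comm, mul_assoc (mapGL ℝ _) (h30_sc q),
    ← h1]
  group

end Conj

/-! ### The operators `res`, `W`, `tr` -/

theorem h30_coprime {N q : ℕ} [Fact q.Prime] (hqN : ¬ q ∣ N) : Nat.Coprime q N :=
  (Nat.Prime.coprime_iff_not_dvd Fact.out).mpr hqN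

section Res

variable (N q : ℕ) {A : Type*} [AddCommGroup A]

/-- The inclusion `Γ₀(N q) ≤ Γ₀(N)`. -/
def h30_incl : Gamma0 (N * q) →* Gamma0 N where
  toFun γ := ⟨(γ : SL(2, ℤ)), h30_mem_Gamma0_iff.mpr (h30_N_dvd γ)⟩
  map_one' := rfl
  map_mul' _ _ := rfl

@[simp] theorem h30_incl_coe (γ : Gamma0 (N * q)) :
    ((h30_incl N q γ : Gamma0 N) : SL(2, ℤ)) = (γ : SL(2, ℤ)) := rfl

/-- Restriction `Hom(Γ₀(N), A) → Hom(Γ₀(N q), A)`. -/
def h30_res : (Additive (Gamma0 N) →+ A) →+ (Additive (Gamma0 (N * q)) →+ A) where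
  toFun φ := φ.comp (MonoidHom.toAdditive (h30_incl N q))
  map_zero' := rfl
  map_add' _ _ := rfl

theorem h30_res_apply (φ : Additive (Gamma0 N) →+ A) (γ : Gamma0 (N * q)) :
    h30_res N q φ (Additive.ofMul γ) = φ (Additive.ofMul (h30_incl N q γ)) := rfl

theorem h30_res_comp {B : Type*} [AddCommGroup B] (g : A →+ B) (φ : Additive (Gamma0 N) →+ A) :
    h30_res N q (g.comp φ) = g.comp (h30_res N q φ) := rfl

end Res

section W

variable (N q : ℕ) [Fact q.Prime] (hqN : ¬ q ∣ N) {A : Type*} [AddCommGroup A]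

theorem h30_inj_unit (M : ℕ) (a : GL (Fin 2) ℝ) : h30_Inj2 M (fun _ : Unit => a) :=
  fun _ _ _ => rfl

theorem h30_ex_W : h30_Ex2 (N * q) (N * q) (fun _ : Unit => h30_w N q (h30_coprime hqN)) :=
  fun γ _ => ⟨h30_wc N q (h30_coprime hqN) γ, (), h30_wc_spec _ γ⟩

/-- The Atkin-Lehner conjugation `(W ψ)(γ) = ψ(w γ w⁻¹)` on `Hom(Γ₀(N q), A)`. -/
noncomputable def h30_W :
    (Additive (Gamma0 (N * q)) →+ A) →+ (Additive (Gamma0 (N * q)) →+ A) :=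
  h30_hecke2 (h30_ex_W N q hqN) (h30_inj_unit _ _)

theorem h30_W_apply (ψ : Additive (Gamma0 (N * q)) →+ A) (γ : Gamma0 (N * q)) :
    h30_W N q hqN ψ (Additive.ofMul γ) =
      ψ (Additive.ofMul (h30_wc N q (h30_coprime hqN) γ)) := by
  rw [h30_W, h30_hecke2_apply_of _ _ ψ γ (fun _ => h30_wc N q (h30_coprime hqN) γ) (fun _ => ())
    (fun _ => h30_wc_spec _ γ)]
  simp

theorem h30_W_comp {B : Type*} [AddCommGroup B] (g : A →+ B)
    (ψ : Additive (Gamma0 (N * q)) →+ A) :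
    h30_W N q hqN (g.comp ψ) = g.comp (h30_W N q hqN ψ) :=
  h30_hecke2_comp _ _ g ψ

/-- `w² = q g₀` acts trivially. -/
theorem h30_wc_wc (γ : Gamma0 (N * q)) :
    h30_wc N q (h30_coprime hqN) (h30_wc N q (h30_coprime hqN) γ) =
      h30_g0 N q (h30_coprime hqN) * γ * (h30_g0 N q (h30_coprime hqN))⁻¹ := by
  set h := h30_coprime hqN
  have h1 : h30_w N q h * h30_w N q h * mapGL ℝ (γ : SL(2, ℤ)) =
      mapGL ℝ (h30_wc N q h (h30_wc N q h γ) : SL(2, ℤ)) * (h30_w N q h * h30_w N q h) := by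
    rw [mul_assoc, h30_wc_spec h γ, ← mul_assoc, h30_wc_spec h (h30_wc N q h γ), mul_assoc]
  rw [h30_w_mul_w h, ← mul_assoc, ← h30_sc_comm, mul_assoc, mul_assoc] at h1
  have h2 := mul_left_cancel h1
  rw [← map_mul, ← map_mul] at h2
  have h3 := mapGL_injective h2
  rw [eq_mul_inv_iff_mul_eq]
  apply Subtype.ext
  rw [Subgroup.coe_mul, Subgroup.coe_mul]
  exact h3.symm

/-- (I4) `W ∘ W = 1`. -/
theorem h30_W_W (ψ : Additive (Gamma0 (N * q)) →+ A) : h30_W N q hqN (h30_W N q hqN ψ) = ψ := by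
  refine AddMonoidHom.ext fun γa => ?_
  obtain ⟨γ, rfl⟩ : ∃ γ : Gamma0 (N * q), Additive.ofMul γ = γa := ⟨Additive.toMul γa, rfl⟩
  rw [h30_W_apply, h30_W_apply, h30_wc_wc N q hqN, ofMul_mul, ofMul_mul, ofMul_inv, map_add,
    map_add, map_neg]
  abel

/-- `W` preserves parabolic homomorphisms (any coefficients). -/
theorem h30_W_parabolic (ψ : Additive (Gamma0 (N * q)) →+ A)
    (hψ : IsParabolicHom (Gamma0 (N * q)) ψ) :
    IsParabolicHom (Gamma0 (N * q)) (h30_W N q hqN ψ) := by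
  intro γ hγ
  rw [h30_W_apply]
  apply hψ
  rw [h30_wc_trace]
  exact hγ

end W

section Tr

variable (N q : ℕ) [Fact q.Prime] (hqN : ¬ q ∣ N) {A : Type*} [AddCommGroup A]

/-- Coset representatives of `Γ₀(N q) \ Γ₀(N)`: `1` and `t' * [1 j; 0 1]`, `j` mod `q`. -/
def h30_rep (x : OnePoint (ZMod q)) : Gamma0 N :=
  OnePoint.elim x 1 (fun j => h30_tp N q (h30_coprime hqN) * h30_upper N (j.val : ℤ))

@[simp] theorem h30_rep_infty : h30_rep N q hqN OnePoint.infty = 1 := rfl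

@[simp] theorem h30_rep_coe (j : ZMod q) : h30_rep N q hqN (j : OnePoint (ZMod q)) =
    h30_tp N q (h30_coprime hqN) * h30_upper N (j.val : ℤ) := rfl

theorem h30_rep_coe_10 (j : ZMod q) :
    ((h30_rep N q hqN (j : OnePoint (ZMod q)) : Gamma0 N) : SL(2, ℤ)) 1 0 = N := by
  rw [h30_rep_coe, Subgroup.coe_mul, h30_mul_10, h30_upper_eq, h30_tp]
  simp

theorem h30_rep_coe_11 (j : ZMod q) :
    ((h30_rep N q hqN (j : OnePoint (ZMod q)) : Gamma0 N) : SL(2, ℤ)) 1 1 =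
      N * (j.val : ℤ) + q * h30_dd N q := by
  rw [h30_rep_coe, Subgroup.coe_mul, h30_mul_11, h30_upper_eq, h30_tp]
  simp

/-- The representatives as elements of `GL (Fin 2) ℝ`. -/
noncomputable def h30_repGL (x : OnePoint (ZMod q)) : GL (Fin 2) ℝ :=
  mapGL ℝ (h30_rep N q hqN x : SL(2, ℤ))

include hqN in
theorem h30_isCoprime_int : IsCoprime (N : ℤ) (q : ℤ) :=
  (Nat.isCoprime_iff_coprime.mpr (h30_coprime hqN)).symm

/-- The representatives are complete. -/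
theorem h30_rep_complete (g : Gamma0 N) :
    ∃ (γ' : Gamma0 (N * q)) (y : OnePoint (ZMod q)),
      (g : SL(2, ℤ)) = (γ' : SL(2, ℤ)) * (h30_rep N q hqN y : SL(2, ℤ)) := by
  have hcop := h30_isCoprime_int N q hqN
  have hNg := h30_dvd_of_mem g
  by_cases hc : (q : ℤ) ∣ (g : SL(2, ℤ)) 1 0
  · refine ⟨⟨(g : SL(2, ℤ)), ?_⟩, OnePoint.infty, ?_⟩
    · rw [h30_mem_Gamma0_iff]
      push_cast
      exact hcop.mul_dvd hNg hc
    · rw [h30_rep_infty, OneMemClass.coe_one, mul_one]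
  · have hc0 : (((g : SL(2, ℤ)) 1 0 : ℤ) : ZMod q) ≠ 0 := by
      rwa [Ne, ZMod.intCast_zmod_eq_zero_iff_dvd]
    set j : ZMod q := (((g : SL(2, ℤ)) 1 1 : ℤ) : ZMod q) * (((g : SL(2, ℤ)) 1 0 : ℤ) : ZMod q)⁻¹
      with hj
    refine ⟨⟨(g : SL(2, ℤ)) * (h30_rep N q hqN (j : OnePoint (ZMod q)) : SL(2, ℤ))⁻¹, ?_⟩,
      (j : OnePoint (ZMod q)), ?_⟩
    · rw [h30_mem_Gamma0_iff, h30_mul_inv_10, h30_rep_coe_10, h30_rep_coe_11]
      push_cast
      apply hcop.mul_dvd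
      · obtain ⟨k, hk⟩ := hNg
        exact ⟨k * (N * (j.val : ℤ) + q * h30_dd N q) - (g : SL(2, ℤ)) 1 1, by rw [hk]; ring⟩
      · rw [← ZMod.intCast_zmod_eq_zero_iff_dvd]
        push_cast
        rw [ZMod.natCast_zmod_val, ZMod.natCast_self, zero_mul, add_zero, hj]
        have : (((g : SL(2, ℤ)) 1 0 : ℤ) : ZMod q) * ((N : ZMod q) *
            ((((g : SL(2, ℤ)) 1 1 : ℤ) : ZMod q) * (((g : SL(2, ℤ)) 1 0 : ℤ) : ZMod q)⁻¹)) =
            (N : ZMod q) * (((g : SL(2, ℤ)) 1 1 : ℤ) : ZMod q) *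
              ((((g : SL(2, ℤ)) 1 0 : ℤ) : ZMod q) * (((g : SL(2, ℤ)) 1 0 : ℤ) : ZMod q)⁻¹) := by
          ring
        rw [this, mul_inv_cancel₀ hc0]
        ring
    · rw [inv_mul_cancel_right]

/-- The representatives lie in distinct cosets. -/
theorem h30_rep_inj (x y : OnePoint (ZMod q)) (δ : Gamma0 (N * q))
    (hxy : (h30_rep N q hqN x : SL(2, ℤ)) = (δ : SL(2, ℤ)) * (h30_rep N q hqN y : SL(2, ℤ))) :
    x = y := by
  have hq : (q : ℤ) ∣ ((h30_rep N q hqN x : SL(2, ℤ)) * (h30_rep N q hqN y : SL(2, ℤ))⁻¹) 1 0 := by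
    rw [hxy, mul_inv_cancel_right]
    exact h30_q_dvd δ
  rw [h30_mul_inv_10] at hq
  have hqN' : ¬ (q : ℤ) ∣ (N : ℤ) := fun h => hqN (Int.natCast_dvd_natCast.mp h)
  have hprime : Prime (q : ℤ) := Nat.prime_iff_prime_int.mp Fact.out
  induction x using OnePoint.rec with
  | infty =>
    induction y using OnePoint.rec with
    | infty => rfl
    | coe j' =>
      exfalso
      rw [h30_rep_infty, h30_rep_coe_10, h30_rep_coe_11] at hq
      simp at hq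
      exact hqN' hq
  | coe j =>
    induction y using OnePoint.rec with
    | infty =>
      exfalso
      rw [h30_rep_infty, h30_rep_coe_10, h30_rep_coe_11] at hq
      simp at hq
      exact hqN' hq
    | coe j' =>
      rw [h30_rep_coe_10, h30_rep_coe_11, h30_rep_coe_10, h30_rep_coe_11] at hq
      have h1 : (q : ℤ) ∣ (N : ℤ) * ((N : ℤ) * ((j'.val : ℤ) - (j.val : ℤ))) := by
        have : (N : ℤ) * ((N : ℤ) * ((j'.val : ℤ) - (j.val : ℤ))) =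
            (N : ℤ) * (N * (j'.val : ℤ) + q * h30_dd N q) -
              (N * (j.val : ℤ) + q * h30_dd N q) * N := by ring
        rw [this]
        exact hq
      have h2 := (hprime.dvd_or_dvd h1).resolve_left hqN'
      have h3 := (hprime.dvd_or_dvd h2).resolve_left hqN'
      have h4 : (((j'.val : ℤ) - (j.val : ℤ) : ℤ) : ZMod q) = 0 :=
        (ZMod.intCast_zmod_eq_zero_iff_dvd _ _).mpr h3
      push_cast at h4
      rw [ZMod.natCast_zmod_val, ZMod.natCast_zmod_val] at h4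
      rw [sub_eq_zero.mp h4]

theorem h30_ex_tr : h30_Ex2 (N * q) N (h30_repGL N q hqN) := by
  intro γ x
  obtain ⟨γ', y, hy⟩ := h30_rep_complete N q hqN (h30_rep N q hqN x * γ)
  refine ⟨γ', y, ?_⟩
  rw [h30_repGL, h30_repGL, ← map_mul, ← map_mul, ← hy]
  rfl

theorem h30_inj_tr : h30_Inj2 (N * q) (h30_repGL N q hqN) := by
  rintro x y ⟨δ, hδ⟩
  apply h30_rep_inj N q hqN x y δ
  apply mapGL_injective (S := ℝ)
  rw [map_mul]
  exact hδ

/-- Transfer `Hom(Γ₀(N q), A) → Hom(Γ₀(N), A)`. -/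
noncomputable def h30_tr : (Additive (Gamma0 (N * q)) →+ A) →+ (Additive (Gamma0 N) →+ A) :=
  h30_hecke2 (h30_ex_tr N q hqN) (h30_inj_tr N q hqN)

/-- The value of the transfer from ANY decomposition `r_x γ = γ'_x r_{y x}`. -/
theorem h30_tr_apply_of (ψ : Additive (Gamma0 (N * q)) →+ A) (γ : Gamma0 N)
    (γ' : OnePoint (ZMod q) → Gamma0 (N * q)) (y : OnePoint (ZMod q) → OnePoint (ZMod q))
    (h : ∀ x, h30_repGL N q hqN x * mapGL ℝ (γ : SL(2, ℤ)) =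
      mapGL ℝ (γ' x : SL(2, ℤ)) * h30_repGL N q hqN (y x)) :
    h30_tr N q hqN ψ (Additive.ofMul γ) = ∑ x, ψ (Additive.ofMul (γ' x)) :=
  h30_hecke2_apply_of _ _ ψ γ γ' y h

/-- A decomposition always exists; the index map is a permutation. -/
theorem h30_tr_exists (γ : Gamma0 N) :
    ∃ (γ' : OnePoint (ZMod q) → Gamma0 (N * q)) (y : Equiv.Perm (OnePoint (ZMod q))),
      (∀ x, h30_repGL N q hqN x * mapGL ℝ (γ : SL(2, ℤ)) =
        mapGL ℝ (γ' x : SL(2, ℤ)) * h30_repGL N q hqN (y x)) ∧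
      ∀ (B : Type*) [AddCommGroup B] (ψ : Additive (Gamma0 (N * q)) →+ B),
        h30_tr N q hqN ψ (Additive.ofMul γ) = ∑ x, ψ (Additive.ofMul (γ' x)) :=
  ⟨h30_step2 (h30_ex_tr N q hqN) γ, h30_idxEquiv2 (h30_ex_tr N q hqN) (h30_inj_tr N q hqN) γ,
    fun x => h30_step2_spec (h30_ex_tr N q hqN) γ x, fun _ _ _ => rfl⟩

theorem h30_tr_comp {B : Type*} [AddCommGroup B] (g : A →+ B)
    (ψ : Additive (Gamma0 (N * q)) →+ A) :
    h30_tr N q hqN (g.comp ψ) = g.comp (h30_tr N q hqN ψ) :=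
  h30_hecke2_comp _ _ g ψ

/-- The transfer preserves parabolic homomorphisms (torsion-free coefficients). -/
theorem h30_tr_parabolic [IsAddTorsionFree A] (ψ : Additive (Gamma0 (N * q)) →+ A)
    (hψ : IsParabolicHom (Gamma0 (N * q)) ψ) :
    IsParabolicHom (Gamma0 N) (h30_tr N q hqN ψ) :=
  h30_hecke2_parabolic _ _ ψ hψ

/-! ### The two family identities -/

/-- `τ ∞ = t'`, `τ j = t' * t`. -/
def h30_tau (x : OnePoint (ZMod q)) : Gamma0 N :=
  OnePoint.elim x (h30_tp N q (h30_coprime hqN))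
    (fun _ => h30_tp N q (h30_coprime hqN) * h30_tt N q (h30_coprime hqN))

/-- (F1) `w * r_x = τ_x * heckeRep q x`. -/
theorem h30_w_mul_repGL (x : OnePoint (ZMod q)) :
    h30_w N q (h30_coprime hqN) * h30_repGL N q hqN x =
      mapGL ℝ (h30_tau N q hqN x : SL(2, ℤ)) * heckeRep q x := by
  have hq : q ≠ 0 := NeZero.ne q
  induction x using OnePoint.rec with
  | infty =>
    rw [h30_repGL, h30_rep_infty, OneMemClass.coe_one, map_one, mul_one]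
    rfl
  | coe j =>
    rw [h30_repGL, h30_rep_coe, h30_w, mul_assoc]
    have h1 := h30_diag_mul_tp_upper N hq (h30_coprime hqN) j.val
    rw [show ((j.val : ℕ) : ℤ) = (j.val : ℤ) from rfl] at h1
    rw [h1, ← mul_assoc, ← map_mul]
    rfl

/-- (F2) `w * [1 j; 0 q] = q * r_j`. -/
theorem h30_w_mul_heckeMatrix (j : ZMod q) :
    h30_w N q (h30_coprime hqN) * ModularForm.heckeMatrix q j.val =
      h30_sc q * h30_repGL N q hqN (j : OnePoint (ZMod q)) := by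
  have hq : q ≠ 0 := NeZero.ne q
  rw [h30_repGL, h30_rep_coe, h30_w, mul_assoc, h30_diag_mul_heckeMatrix N hq j.val,
    ← mul_assoc, ← h30_sc_comm, mul_assoc, Subgroup.coe_mul, map_mul]

end Tr

end Fermat.Agent.S41
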