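import Fermat.Agent.S16.h30_HeckeHom

/-!
# S41, row S41-A2: the Hecke sum `T_ℓ φ (g)` sorted by bottom rows

For `g = [a b; c d] ∈ Γ₀(N)` with `ℓ ∤ c`, the `ℓ + 1` translates `γ'_x` of the decomposition
`α_x g = γ'_x α_{y(x)}` (`α = heckeRep ℓ`) have bottom rows

* `(c, ℓ d)` (once: `x = y⁻¹ ∞`),
* `(c, e)` with `ℓ e ≡ d mod c` (once: `x = ∞`),
* `(ℓ c, d')` with `d' ≡ d mod c`, `d' ≡ t mod ℓ`, once for every unit `t` of `ZMod ℓ`.
-/

set_option autoImplicit false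

namespace Fermat.Agent.S41

open CongruenceSubgroup Matrix.SpecialLinearGroup
open scoped MatrixGroups
open Fermat.Agent.S16
open P2MW.S_ModularForm_heckeT_slash_eq_self_of_mem_Gamma0.ModularForm.HeckeSlashInvariance

/-- `[1 j; 0 ℓ] g = g' [1 j'; 0 ℓ]`: bottom row of `g'`. -/
theorem h30_rows_coe_coe {l : ℕ} (hl : l ≠ 0) {j j' : ℕ} {g g' : SL(2, ℤ)}
    (h : ModularForm.heckeMatrix l j * mapGL ℝ g = mapGL ℝ g' * ModularForm.heckeMatrix l j') :
    g' 1 0 = l * g 1 0 ∧ g' 1 1 = g 1 1 - g 1 0 * j' := by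
  have h' := congrArg (fun M : GL (Fin 2) ℝ => (M : Matrix (Fin 2) (Fin 2) ℝ)) h
  simp only [Matrix.GeneralLinearGroup.coe_mul, ModularForm.val_heckeMatrix hl,
    h30_coe_mapGL] at h'
  have h10 := congrFun (congrFun h' 1) 0
  have h11 := congrFun (congrFun h' 1) 1
  simp [Matrix.mul_apply, Fin.sum_univ_two] at h10 h11
  have e10 : (g' 1 0 : ℤ) = l * g 1 0 := by exact_mod_cast h10.symm
  have e11 : (l : ℤ) * g 1 1 = g' 1 0 * j' + g' 1 1 * l := by exact_mod_cast h11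
  refine ⟨e10, ?_⟩
  rw [e10] at e11
  have hl' : (l : ℤ) ≠ 0 := by exact_mod_cast hl
  have : (l : ℤ) * g' 1 1 = l * (g 1 1 - g 1 0 * j') := by linarith
  exact mul_left_cancel₀ hl' this

/-- `[1 j; 0 ℓ] g = g' [ℓ 0; 0 1]`: bottom row of `g'`. -/
theorem h30_rows_coe_infty {l : ℕ} (hl : l ≠ 0) {j : ℕ} {g g' : SL(2, ℤ)}
    (h : ModularForm.heckeMatrix l j * mapGL ℝ g = mapGL ℝ g' * ModularForm.heckeDiagMatrix l) :
    g' 1 0 = g 1 0 ∧ g' 1 1 = l * g 1 1 := by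
  have h' := congrArg (fun M : GL (Fin 2) ℝ => (M : Matrix (Fin 2) (Fin 2) ℝ)) h
  simp only [Matrix.GeneralLinearGroup.coe_mul, ModularForm.val_heckeMatrix hl,
    ModularForm.val_heckeDiagMatrix hl, h30_coe_mapGL] at h'
  have h10 := congrFun (congrFun h' 1) 0
  have h11 := congrFun (congrFun h' 1) 1
  simp [Matrix.mul_apply, Fin.sum_univ_two] at h10 h11
  have e10 : (l : ℤ) * g 1 0 = g' 1 0 * l := by exact_mod_cast h10
  have e11 : (g' 1 1 : ℤ) = l * g 1 1 := by exact_mod_cast h11.symm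
  have hl' : (l : ℤ) ≠ 0 := by exact_mod_cast hl
  refine ⟨?_, e11⟩
  have : (l : ℤ) * g' 1 0 = l * g 1 0 := by linarith
  exact mul_left_cancel₀ hl' this

/-- `[ℓ 0; 0 1] g = g' [1 j'; 0 ℓ]`: bottom row of `g'`. -/
theorem h30_rows_infty_coe {l : ℕ} (hl : l ≠ 0) {j' : ℕ} {g g' : SL(2, ℤ)}
    (h : ModularForm.heckeDiagMatrix l * mapGL ℝ g = mapGL ℝ g' * ModularForm.heckeMatrix l j') :
    g' 1 0 = g 1 0 ∧ g 1 1 = g 1 0 * j' + l * g' 1 1 := by
  have h' := congrArg (fun M : GL (Fin 2) ℝ => (M : Matrix (Fin 2) (Fin 2) ℝ)) h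
  simp only [Matrix.GeneralLinearGroup.coe_mul, ModularForm.val_heckeMatrix hl,
    ModularForm.val_heckeDiagMatrix hl, h30_coe_mapGL] at h'
  have h10 := congrFun (congrFun h' 1) 0
  have h11 := congrFun (congrFun h' 1) 1
  simp [Matrix.mul_apply, Fin.sum_univ_two] at h10 h11
  have e10 : (g' 1 0 : ℤ) = g 1 0 := by exact_mod_cast h10.symm
  have e11 : (g 1 1 : ℤ) = g' 1 0 * j' + g' 1 1 * l := by exact_mod_cast h11
  refine ⟨e10, ?_⟩
  rw [e10] at e11
  linarith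

/-- `[ℓ 0; 0 1] g = g' [ℓ 0; 0 1]` forces `ℓ ∣ c`. -/
theorem h30_rows_infty_infty {l : ℕ} (hl : l ≠ 0) {g g' : SL(2, ℤ)}
    (h : ModularForm.heckeDiagMatrix l * mapGL ℝ g =
      mapGL ℝ g' * ModularForm.heckeDiagMatrix l) :
    (l : ℤ) ∣ g 1 0 := by
  have h' := congrArg (fun M : GL (Fin 2) ℝ => (M : Matrix (Fin 2) (Fin 2) ℝ)) h
  simp only [Matrix.GeneralLinearGroup.coe_mul, ModularForm.val_heckeDiagMatrix hl,
    h30_coe_mapGL] at h'
  have h10 := congrFun (congrFun h' 1) 0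
  simp [Matrix.mul_apply, Fin.sum_univ_two] at h10
  have e10 : (g 1 0 : ℤ) = g' 1 0 * l := by exact_mod_cast h10
  exact ⟨g' 1 0, by linarith⟩

/-- Sum over a finite field = value at `0` + sum over the units. -/
theorem h30_sum_zmod_units {l : ℕ} [Fact l.Prime] {F : Type*} [AddCommMonoid F]
    (K : ZMod l → F) : ∑ s, K s = K 0 + ∑ t : (ZMod l)ˣ, K (t : ZMod l) := by
  classical
  rw [← Finset.add_sum_erase Finset.univ K (Finset.mem_univ (0 : ZMod l))]
  congr 1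
  have hmap : (Finset.univ : Finset (ZMod l)ˣ).map ⟨Units.val, Units.val_injective⟩ =
      Finset.univ.erase (0 : ZMod l) := by
    ext s
    simp only [Finset.mem_map, Finset.mem_univ, true_and, Function.Embedding.coeFn_mk,
      Finset.mem_erase, and_true]
    constructor
    · rintro ⟨t, rfl⟩
      exact t.ne_zero
    · intro hs
      exact ⟨Units.mk0 s hs, rfl⟩
  rw [← hmap, Finset.sum_map]
  rfl

/-- **Row S41-A2.** The Hecke sum `T_ℓ φ (g)` sorted by the bottom rows of the translates. -/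
theorem h30_hecke_rows {N : ℕ} {F : Type*} [AddCommGroup F] (l : ℕ) [Fact l.Prime]
    (hlN : ¬ l ∣ N) (φ : Additive (Gamma0 N) →+ F) (g : Gamma0 N)
    (hlc : ¬ (l : ℤ) ∣ (g : SL(2, ℤ)) 1 0) :
    ∃ (γA γB : Gamma0 N) (γ : (ZMod l)ˣ → Gamma0 N),
      h30_heckeT N l hlN φ (Additive.ofMul g) =
        φ (Additive.ofMul γA) + φ (Additive.ofMul γB) + ∑ t, φ (Additive.ofMul (γ t)) ∧
      (γA : SL(2, ℤ)) 1 0 = (g : SL(2, ℤ)) 1 0 ∧
      (γA : SL(2, ℤ)) 1 1 = l * (g : SL(2, ℤ)) 1 1 ∧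
      (γB : SL(2, ℤ)) 1 0 = (g : SL(2, ℤ)) 1 0 ∧
      (g : SL(2, ℤ)) 1 0 ∣ l * (γB : SL(2, ℤ)) 1 1 - (g : SL(2, ℤ)) 1 1 ∧
      ∀ t : (ZMod l)ˣ, ((γ t : Gamma0 N) : SL(2, ℤ)) 1 0 = l * (g : SL(2, ℤ)) 1 0 ∧
        (g : SL(2, ℤ)) 1 0 ∣ ((γ t : Gamma0 N) : SL(2, ℤ)) 1 1 - (g : SL(2, ℤ)) 1 1 ∧
        ((((γ t : Gamma0 N) : SL(2, ℤ)) 1 1 : ℤ) : ZMod l) = (t : ZMod l) := by
  classical
  have hl0 : l ≠ 0 := (Fact.out : l.Prime).ne_zero
  obtain ⟨γ', y, hdec, hval⟩ := h30_heckeT_exists l hlN g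
  set c : ℤ := (g : SL(2, ℤ)) 1 0 with hc
  set d : ℤ := (g : SL(2, ℤ)) 1 1 with hd
  -- `c` is a unit mod `l`
  have hcl : (c : ZMod l) ≠ 0 := by
    rw [Ne, ZMod.intCast_zmod_eq_zero_iff_dvd]
    exact hlc
  -- the image of `∞`
  have hy_infty : y OnePoint.infty = (((d : ZMod l) * (c : ZMod l)⁻¹ : ZMod l) : OnePoint (ZMod l)) ∧
      ((γ' OnePoint.infty : Gamma0 N) : SL(2, ℤ)) 1 0 = c ∧
      c ∣ l * ((γ' OnePoint.infty : Gamma0 N) : SL(2, ℤ)) 1 1 - d := by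
    have h := hdec OnePoint.infty
    generalize hyx : y OnePoint.infty = z at h
    induction z using OnePoint.rec with
    | infty =>
      rw [heckeRep_infty] at h
      exact absurd (h30_rows_infty_infty hl0 h) hlc
    | coe j' =>
      rw [heckeRep_infty, heckeRep_coe] at h
      obtain ⟨e1, e2⟩ := h30_rows_infty_coe hl0 h
      refine ⟨?_, e1, ⟨-(j'.val : ℤ), ?_⟩⟩
      · congr 1
        have e3 : (d : ZMod l) = (c : ZMod l) * j' := by
          have := congrArg (Int.cast : ℤ → ZMod l) e2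
          push_cast at this
          rw [ZMod.natCast_zmod_val] at this
          simpa using this
        rw [e3, mul_comm, ← mul_assoc, inv_mul_cancel₀ hcl, one_mul]
      · show (l : ℤ) * _ - (g : SL(2, ℤ)) 1 1 = (g : SL(2, ℤ)) 1 0 * _
        rw [e2]
        ring
  -- the translates with `y x = ↑j'`, `j' ≠ d / c`
  have hy_coe : ∀ (x : OnePoint (ZMod l)) (j' : ZMod l), y x = (j' : OnePoint (ZMod l)) →
      j' ≠ (d : ZMod l) * (c : ZMod l)⁻¹ →
      ((γ' x : Gamma0 N) : SL(2, ℤ)) 1 0 = l * c ∧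
        ((γ' x : Gamma0 N) : SL(2, ℤ)) 1 1 = d - c * (j'.val : ℤ) := by
    intro x j' hyx hj'
    have h := hdec x
    rw [hyx] at h
    induction x using OnePoint.rec with
    | infty =>
      exfalso
      rw [hy_infty.1] at hyx
      exact hj' (OnePoint.coe_injective hyx).symm
    | coe j =>
      rw [heckeRep_coe, heckeRep_coe] at h
      exact h30_rows_coe_coe hl0 h
  -- the translate with `y x = ∞`
  have hy_A : ((γ' (y.symm OnePoint.infty) : Gamma0 N) : SL(2, ℤ)) 1 0 = c ∧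
      ((γ' (y.symm OnePoint.infty) : Gamma0 N) : SL(2, ℤ)) 1 1 = l * d := by
    have h := hdec (y.symm OnePoint.infty)
    rw [Equiv.apply_symm_apply] at h
    generalize hx : y.symm OnePoint.infty = x at h
    induction x using OnePoint.rec with
    | infty =>
      rw [heckeRep_infty] at h
      exact absurd (h30_rows_infty_infty hl0 h) hlc
    | coe j =>
      rw [heckeRep_coe, heckeRep_infty] at h
      exact h30_rows_coe_infty hl0 h
  -- the index of the generic translates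
  let J : ZMod l → ZMod l := fun s => ((d : ZMod l) - s) * (c : ZMod l)⁻¹
  have hJ0 : J 0 = (d : ZMod l) * (c : ZMod l)⁻¹ := by simp [J]
  have hJne : ∀ t : (ZMod l)ˣ, J (t : ZMod l) ≠ (d : ZMod l) * (c : ZMod l)⁻¹ := by
    intro t h
    have := congrArg (· * (c : ZMod l)) h
    simp [J, mul_assoc, inv_mul_cancel₀ hcl] at this
  have hJbij : Function.Bijective J := by
    refine ⟨fun s s' h => ?_, fun j => ⟨(d : ZMod l) - j * c, ?_⟩⟩
    · have := congrArg (· * (c : ZMod l)) h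
      simpa [J, mul_assoc, inv_mul_cancel₀ hcl] using this
    · simp [J, mul_assoc, mul_inv_cancel₀ hcl]
  refine ⟨γ' (y.symm OnePoint.infty), γ' OnePoint.infty,
    fun t => γ' (y.symm ((J (t : ZMod l) : ZMod l) : OnePoint (ZMod l))), ?_, hy_A.1, hy_A.2,
    hy_infty.2.1, hy_infty.2.2, fun t => ?_⟩
  · -- the sum
    rw [hval F φ]
    rw [← Equiv.sum_comp y.symm (fun x => φ (Additive.ofMul (γ' x)))]
    have hopt : ∑ z : OnePoint (ZMod l), φ (Additive.ofMul (γ' (y.symm z))) =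
        φ (Additive.ofMul (γ' (y.symm OnePoint.infty))) +
          ∑ j : ZMod l, φ (Additive.ofMul (γ' (y.symm (j : OnePoint (ZMod l))))) :=
      Fintype.sum_option (fun z : OnePoint (ZMod l) => φ (Additive.ofMul (γ' (y.symm z))))
    rw [hopt, add_assoc]
    congr 1
    rw [← Equiv.sum_comp (Equiv.ofBijective J hJbij)
      (fun j : ZMod l => φ (Additive.ofMul (γ' (y.symm (j : OnePoint (ZMod l))))))]
    rw [h30_sum_zmod_units]
    congr 1
    simp only [Equiv.ofBijective_apply]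
    rw [hJ0, ← hy_infty.1, Equiv.symm_apply_apply]
  · obtain ⟨e1, e2⟩ := hy_coe (y.symm ((J (t : ZMod l) : ZMod l) : OnePoint (ZMod l)))
      (J (t : ZMod l)) (Equiv.apply_symm_apply _ _) (hJne t)
    refine ⟨e1, ⟨-((J (t : ZMod l)).val : ℤ), ?_⟩, ?_⟩
    · rw [e2]
      ring
    · rw [e2]
      push_cast
      rw [ZMod.natCast_zmod_val]
      simp only [J]
      rw [mul_comm ((d : ZMod l) - t), ← mul_assoc, mul_inv_cancel₀ hcl, one_mul]
      ring

end Fermat.Agent.S41
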