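import Fermat.Agent.S41.h30_LRDefs
import Fermat.Agent.S41.h30_HeckeRows

/-!
# S41, row D-I5c: `T_ℓ ∘ tr = tr ∘ T_ℓ`  (`ℓ ∤ N q`)

Both sides are sums over `OnePoint (ZMod q) × OnePoint (ZMod ℓ)` of `ψ` of the `Γ₀(N q)`-steps of
a product family of representatives: `r_u * α_x` for `T_ℓ (tr ψ)` and `α_x * r_u` for
`tr (T_ℓ ψ)`  (`α = heckeRep ℓ`, `r = h30_repGL N q`).  The two families represent the same
left `Γ₀(N q)`-cosets (`h24_exQP`, `h24_injQ`, `h24_injP`), and the sums of the steps of two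
such families agree (`h24_sum_compare`).
-/

set_option autoImplicit false

namespace Fermat.Agent.S41

open CongruenceSubgroup Matrix.SpecialLinearGroup ModularCurve.Period
open scoped MatrixGroups
open Fermat.Agent.S16
open P2MW.S_ModularForm_heckeT_slash_eq_self_of_mem_Gamma0.ModularForm.HeckeSlashInvariance

/-- Two families of representatives of the same left `Γ₀(M)`-cosets have the same sum of
steps. -/
theorem h24_sum_compare {M N : ℕ} {ι : Type*} [Fintype ι] {A : Type*} [AddCommGroup A]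
    (P Q : ι → GL (Fin 2) ℝ) (hP : h30_Inj2 M P)
    (τ : Equiv.Perm ι) (κ : ι → Gamma0 M)
    (hκ : ∀ j, Q j = mapGL ℝ (κ j : SL(2, ℤ)) * P (τ j))
    (γ : Gamma0 N) (δ : ι → Gamma0 M) (nP : ι → ι)
    (hδ : ∀ i, P i * mapGL ℝ (γ : SL(2, ℤ)) = mapGL ℝ (δ i : SL(2, ℤ)) * P (nP i))
    (ε : ι → Gamma0 M) (nQ : Equiv.Perm ι)
    (hε : ∀ j, Q j * mapGL ℝ (γ : SL(2, ℤ)) = mapGL ℝ (ε j : SL(2, ℤ)) * Q (nQ j))
    (ψ : Additive (Gamma0 M) →+ A) :
    ∑ j, ψ (Additive.ofMul (ε j)) = ∑ i, ψ (Additive.ofMul (δ i)) := by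
  have key : ∀ j, ε j = ((κ j)⁻¹)⁻¹ * δ (τ j) * (κ (nQ j))⁻¹ := by
    intro j
    have h1 : mapGL ℝ (ε j : SL(2, ℤ)) * (mapGL ℝ (κ (nQ j) : SL(2, ℤ)) * P (τ (nQ j))) =
        mapGL ℝ (κ j : SL(2, ℤ)) * (mapGL ℝ (δ (τ j) : SL(2, ℤ)) * P (nP (τ j))) := by
      rw [← hκ (nQ j), ← hε j, hκ j, mul_assoc, hδ (τ j)]
    have h2 : nP (τ j) = τ (nQ j) := by
      apply hP
      refine ⟨(δ (τ j))⁻¹ * (κ j)⁻¹ * ε j * κ (nQ j), ?_⟩
      have h3 : P (nP (τ j)) = (mapGL ℝ (δ (τ j) : SL(2, ℤ)))⁻¹ *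
          ((mapGL ℝ (κ j : SL(2, ℤ)))⁻¹ * (mapGL ℝ (ε j : SL(2, ℤ)) *
            (mapGL ℝ (κ (nQ j) : SL(2, ℤ)) * P (τ (nQ j))))) := by
        rw [h1, inv_mul_cancel_left, inv_mul_cancel_left]
      rw [h3]
      simp only [Subgroup.coe_mul, Subgroup.coe_inv, map_mul, map_inv, mul_assoc]
    rw [h2] at h1
    rw [← mul_assoc, ← mul_assoc] at h1
    have h4 := mul_right_cancel h1
    rw [← map_mul, ← map_mul] at h4
    have h5 := mapGL_injective h4
    rw [inv_inv, eq_mul_inv_iff_mul_eq]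
    apply Subtype.ext
    rw [Subgroup.coe_mul, Subgroup.coe_mul]
    exact h5
  rw [Finset.sum_congr rfl fun j _ => by rw [key j],
    h30_sum_twist ψ (fun j => (κ j)⁻¹) (fun j => δ (τ j)) nQ,
    Equiv.sum_comp τ (fun i => ψ (Additive.ofMul (δ i)))]

/-- `α_x g = g' α_{x'}` with `q ∣ g'₁₀`, `q ≠ ℓ` prime, forces `q ∣ g₁₀`. -/
theorem h24_rows_10 {q : ℕ} [Fact q.Prime] (l : ℕ) [Fact l.Prime] (hlq : l ≠ q)
    (x x' : OnePoint (ZMod l)) (g g' : SL(2, ℤ))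
    (h : heckeRep l x * mapGL ℝ g = mapGL ℝ g' * heckeRep l x') (hq : (q : ℤ) ∣ g' 1 0) :
    (q : ℤ) ∣ g 1 0 := by
  have hl0 : l ≠ 0 := (Fact.out : l.Prime).ne_zero
  induction x using OnePoint.rec with
  | infty =>
    induction x' using OnePoint.rec with
    | infty =>
      rw [heckeRep_infty] at h
      have h' := congrArg (fun M : GL (Fin 2) ℝ => (M : Matrix (Fin 2) (Fin 2) ℝ)) h
      simp only [Matrix.GeneralLinearGroup.coe_mul, ModularForm.val_heckeDiagMatrix hl0,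
        h30_coe_mapGL] at h'
      have h10 := congrFun (congrFun h' 1) 0
      simp [Matrix.mul_apply, Fin.sum_univ_two] at h10
      have e10 : (g 1 0 : ℤ) = g' 1 0 * l := by exact_mod_cast h10
      rw [e10]
      exact Dvd.dvd.mul_right hq _
    | coe j' =>
      rw [heckeRep_infty, heckeRep_coe] at h
      rw [← (h30_rows_infty_coe hl0 h).1]
      exact hq
  | coe j =>
    induction x' using OnePoint.rec with
    | infty =>
      rw [heckeRep_coe, heckeRep_infty] at h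
      rw [← (h30_rows_coe_infty hl0 h).1]
      exact hq
    | coe j' =>
      rw [heckeRep_coe, heckeRep_coe] at h
      have h1 := (h30_rows_coe_coe hl0 h).1
      rw [h1] at hq
      have hprime : Prime (q : ℤ) := Nat.prime_iff_prime_int.mp Fact.out
      refine (hprime.dvd_or_dvd hq).resolve_left fun hql => hlq ?_
      have h2 : q ∣ l := Int.natCast_dvd_natCast.mp hql
      exact ((Nat.prime_dvd_prime_iff_eq Fact.out Fact.out).mp h2).symm

variable {N q : ℕ} [Fact q.Prime] (hqN : ¬ q ∣ N) {A : Type*} [AddCommGroup A]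

/-- The family `r_u * α_x` lies in distinct left cosets of `Γ₀(N q)`. -/
theorem h24_injP (l : ℕ) [Fact l.Prime] :
    h30_Inj2 (N * q) (fun i : OnePoint (ZMod q) × OnePoint (ZMod l) =>
      h30_repGL N q hqN i.1 * heckeRep l i.2) := by
  rintro ⟨u, x⟩ ⟨u', x'⟩ ⟨δ, hδ⟩
  simp only at hδ
  have hx : x = x' := by
    apply h30_inj_T l
    refine ⟨(h30_rep N q hqN u : SL(2, ℤ))⁻¹ * (δ : SL(2, ℤ)) *
      (h30_rep N q hqN u' : SL(2, ℤ)), ?_⟩
    have h1 : heckeRep l x = (h30_repGL N q hqN u)⁻¹ * (mapGL ℝ (δ : SL(2, ℤ)) *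
        (h30_repGL N q hqN u' * heckeRep l x')) := by
      rw [← hδ, inv_mul_cancel_left]
    rw [h1, h30_repGL, h30_repGL]
    simp only [map_mul, map_inv, mul_assoc]
  subst hx
  have hu : u = u' := by
    apply h30_rep_inj N q hqN u u' δ
    apply mapGL_injective (S := ℝ)
    rw [map_mul]
    exact mul_right_cancel (hδ.trans (mul_assoc _ _ _).symm)
  rw [hu]

/-- The family `α_x * r_u` lies in distinct left cosets of `Γ₀(N q)`. -/
theorem h24_injQ (l : ℕ) [Fact l.Prime] (hlq : l ≠ q) :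
    h30_Inj2 (N * q) (fun i : OnePoint (ZMod q) × OnePoint (ZMod l) =>
      heckeRep l i.2 * h30_repGL N q hqN i.1) := by
  rintro ⟨u, x⟩ ⟨u', x'⟩ ⟨δ, hδ⟩
  simp only at hδ
  set g : Gamma0 N := h30_rep N q hqN u * (h30_rep N q hqN u')⁻¹ with hg
  have h1 : heckeRep l x * mapGL ℝ (g : SL(2, ℤ)) =
      mapGL ℝ (δ : SL(2, ℤ)) * heckeRep l x' := by
    rw [hg, Subgroup.coe_mul, Subgroup.coe_inv, map_mul, map_inv, ← mul_assoc]
    show heckeRep l x * h30_repGL N q hqN u * (h30_repGL N q hqN u')⁻¹ = _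
    rw [hδ, ← mul_assoc, mul_inv_cancel_right]
  have h2 : (q : ℤ) ∣ (g : SL(2, ℤ)) 1 0 := h24_rows_10 l hlq x x' _ _ h1 (h30_q_dvd δ)
  have h3 : (g : SL(2, ℤ)) ∈ Gamma0 (N * q) := by
    rw [h30_mem_Gamma0_iff]
    push_cast
    exact (h30_isCoprime_int N q hqN).mul_dvd (h30_dvd_of_mem g) h2
  have hu : u = u' := by
    apply h30_rep_inj N q hqN u u' ⟨_, h3⟩
    show (h30_rep N q hqN u : SL(2, ℤ)) = (g : SL(2, ℤ)) * (h30_rep N q hqN u' : SL(2, ℤ))
    rw [hg, Subgroup.coe_mul, Subgroup.coe_inv, inv_mul_cancel_right]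
  subst hu
  have hx : x = x' := by
    apply h30_inj_T l
    exact ⟨(δ : SL(2, ℤ)), mul_right_cancel (hδ.trans (mul_assoc _ _ _).symm)⟩
  rw [hx]

/-- Every `α_x * r_u` is a `Γ₀(N q)`-translate of some `r_{u'} * α_{x'}`. -/
theorem h24_exQP (l : ℕ) [Fact l.Prime] (hlN : ¬ l ∣ N)
    (j : OnePoint (ZMod q) × OnePoint (ZMod l)) :
    ∃ (κ : Gamma0 (N * q)) (i : OnePoint (ZMod q) × OnePoint (ZMod l)),
      heckeRep l j.2 * h30_repGL N q hqN j.1 =
        mapGL ℝ (κ : SL(2, ℤ)) * (h30_repGL N q hqN i.1 * heckeRep l i.2) := by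
  obtain ⟨g', y, hy⟩ := h30_ex_T N l hlN (h30_rep N q hqN j.1) j.2
  obtain ⟨κ, u, hu⟩ := h30_rep_complete N q hqN g'
  refine ⟨κ, (u, y), ?_⟩
  rw [h30_repGL, hy, hu, map_mul, mul_assoc]
  rfl

/-- **Row D-I5c.** `T_ℓ ∘ tr = tr ∘ T_ℓ` for `ℓ ∤ N q`. -/
theorem h24_heckeT_tr (l : ℕ) [Fact l.Prime] (hl : ¬ l ∣ N * q)
    (ψ : Additive (Gamma0 (N * q)) →+ A) :
    h30_heckeT N l (fun h => hl (Dvd.dvd.mul_right h q)) (h30_tr N q hqN ψ) =
      h30_tr N q hqN (h30_heckeT (N * q) l hl ψ) := by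
  classical
  have hlN : ¬ l ∣ N := fun h => hl (Dvd.dvd.mul_right h q)
  have hlq : l ≠ q := fun h => hl (by rw [h]; exact dvd_mul_left q N)
  refine AddMonoidHom.ext fun γa => ?_
  obtain ⟨γ, rfl⟩ : ∃ γ : Gamma0 N, Additive.ofMul γ = γa := ⟨Additive.toMul γa, rfl⟩
  -- the left-hand side
  obtain ⟨γ', y, hy, hvalT⟩ := h30_heckeT_exists l hlN γ
  have hex1 : ∀ x, ∃ (δ : OnePoint (ZMod q) → Gamma0 (N * q))
      (z : Equiv.Perm (OnePoint (ZMod q))),
      (∀ u, h30_repGL N q hqN u * mapGL ℝ (γ' x : SL(2, ℤ)) =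
        mapGL ℝ (δ u : SL(2, ℤ)) * h30_repGL N q hqN (z u)) ∧
      h30_tr N q hqN ψ (Additive.ofMul (γ' x)) = ∑ u, ψ (Additive.ofMul (δ u)) := by
    intro x
    obtain ⟨δ, z, h1, h2⟩ := h30_tr_exists N q hqN (γ' x)
    exact ⟨δ, z, h1, h2 A ψ⟩
  choose δ z hδ hδval using hex1
  -- the right-hand side
  obtain ⟨γ'', w, hw, hvaltr⟩ := h30_tr_exists N q hqN γ
  have hex2 : ∀ u, ∃ (ε : OnePoint (ZMod l) → Gamma0 (N * q))
      (v : Equiv.Perm (OnePoint (ZMod l))),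
      (∀ x, heckeRep l x * mapGL ℝ (γ'' u : SL(2, ℤ)) =
        mapGL ℝ (ε x : SL(2, ℤ)) * heckeRep l (v x)) ∧
      h30_heckeT (N * q) l hl ψ (Additive.ofMul (γ'' u)) = ∑ x, ψ (Additive.ofMul (ε x)) := by
    intro u
    obtain ⟨ε, v, h1, h2⟩ := h30_heckeT_exists l hl (γ'' u)
    exact ⟨ε, v, h1, h2 A ψ⟩
  choose ε v hε hεval using hex2
  rw [hvalT A (h30_tr N q hqN ψ), hvaltr A (h30_heckeT (N * q) l hl ψ)]
  simp only [hδval, hεval]
  -- the two product families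
  set P : OnePoint (ZMod q) × OnePoint (ZMod l) → GL (Fin 2) ℝ :=
    fun i => h30_repGL N q hqN i.1 * heckeRep l i.2 with hPdef
  set Q : OnePoint (ZMod q) × OnePoint (ZMod l) → GL (Fin 2) ℝ :=
    fun i => heckeRep l i.2 * h30_repGL N q hqN i.1 with hQdef
  have hδP : ∀ i : OnePoint (ZMod q) × OnePoint (ZMod l),
      P i * mapGL ℝ (γ : SL(2, ℤ)) =
        mapGL ℝ (δ i.2 i.1 : SL(2, ℤ)) * P (z i.2 i.1, y i.2) := by
    intro i
    simp only [hPdef]
    rw [mul_assoc, hy, ← mul_assoc, hδ, mul_assoc]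
  have hεQ : ∀ j : OnePoint (ZMod q) × OnePoint (ZMod l),
      Q j * mapGL ℝ (γ : SL(2, ℤ)) =
        mapGL ℝ (ε j.1 j.2 : SL(2, ℤ)) * Q (w j.1, v j.1 j.2) := by
    intro j
    simp only [hQdef]
    rw [mul_assoc, hw, ← mul_assoc, hε, mul_assoc]
  let nQ : Equiv.Perm (OnePoint (ZMod q) × OnePoint (ZMod l)) :=
    { toFun := fun j => (w j.1, v j.1 j.2)
      invFun := fun j => (w.symm j.1, (v (w.symm j.1)).symm j.2)
      left_inv := fun j => by simp
      right_inv := fun j => by simp }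
  -- the comparison of the two families
  choose κ τ hκ using h24_exQP hqN l hlN
  have hτ : Function.Injective τ := by
    intro j j' hjj
    apply h24_injQ hqN l hlq
    refine ⟨κ j * (κ j')⁻¹, ?_⟩
    show heckeRep l j.2 * h30_repGL N q hqN j.1 = _ * (heckeRep l j'.2 * h30_repGL N q hqN j'.1)
    rw [hκ j, hκ j', hjj, Subgroup.coe_mul, Subgroup.coe_inv, map_mul, map_inv,
      mul_assoc (mapGL ℝ (κ j : SL(2, ℤ))), inv_mul_cancel_left]
  have hcmp := h24_sum_compare (N := N) P Q (h24_injP hqN l)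
    (Equiv.ofBijective τ (Finite.injective_iff_bijective.mp hτ)) κ (fun j => hκ j) γ
    (fun i => δ i.2 i.1) (fun i => (z i.2 i.1, y i.2)) hδP (fun j => ε j.1 j.2) nQ hεQ ψ
  rw [Finset.sum_comm, ← Fintype.sum_prod_type' (fun u x => ψ (Additive.ofMul (δ x u))),
    ← Fintype.sum_prod_type' (fun u x => ψ (Additive.ofMul (ε u x)))]
  exact hcmp.symm

end Fermat.Agent.S41
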