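import Fermat.Agent.S41.h7_Delta

/-!
# S41, block (D), (I5b): `T_l ∘ W = W ∘ T_l` on `Hom(Γ₀(N q), A)`  (`l ∤ N q` prime)

The Atkin-Lehner element `w` permutes the cosets `Γ₀(N q) · heckeRep l x`:
`w * heckeRep l x = τ_x * heckeRep l (e x) * w` with `τ_x ∈ Γ₀(N q)` and `e` a permutation.
-/

set_option autoImplicit false

namespace Fermat.Agent.S41

open CongruenceSubgroup Matrix.SpecialLinearGroup ModularCurve.Period
open scoped MatrixGroups
open Fermat.Agent.S16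
open P2MW.S_ModularForm_heckeT_slash_eq_self_of_mem_Gamma0.ModularForm.HeckeSlashInvariance

/-- The matrix of `w`. -/
theorem h7_coe_w (N q : ℕ) (hq : q ≠ 0) (h : Nat.Coprime q N) :
    ((h30_w N q h : GL (Fin 2) ℝ) : Matrix (Fin 2) (Fin 2) ℝ) =
      !![(q : ℝ), (h30_bb N q : ℝ); (N : ℝ) * (q : ℝ), (q : ℝ) * (h30_dd N q : ℝ)] := by
  rw [h30_w, Matrix.GeneralLinearGroup.coe_mul, ModularForm.val_heckeDiagMatrix hq, h30_tp,
    h30_mapGL_mk, Matrix.mul_fin_two]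
  refine h7_mat_eq ?_ ?_ ?_ ?_ <;> push_cast <;> ring

/-- From an integral matrix `[a, b; c, d]` with `[a, b; c, d] * w = w * heckeRep l x`, the
decomposition `w * heckeRep l x = τ * heckeRep l y * w`. -/
theorem h7_w_heckeRep_of {N q : ℕ} [Fact q.Prime] (hqN : ¬ q ∣ N) (l : ℕ) [Fact l.Prime]
    (hl : ¬ l ∣ N * q) (x : OnePoint (ZMod l)) (a b c d : ℤ) (hdet : a * d - b * c = l)
    (hc : ((N * q : ℕ) : ℤ) ∣ c)
    (hmat : !![(a : ℝ), (b : ℝ); (c : ℝ), (d : ℝ)] *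
        ((h30_w N q (h30_coprime hqN) : GL (Fin 2) ℝ) : Matrix (Fin 2) (Fin 2) ℝ) =
      ((h30_w N q (h30_coprime hqN) : GL (Fin 2) ℝ) : Matrix (Fin 2) (Fin 2) ℝ) *
        ((heckeRep l x : GL (Fin 2) ℝ) : Matrix (Fin 2) (Fin 2) ℝ)) :
    ∃ (τ : Gamma0 (N * q)) (y : OnePoint (ZMod l)),
      h30_w N q (h30_coprime hqN) * heckeRep l x =
        mapGL ℝ (τ : SL(2, ℤ)) * heckeRep l y * h30_w N q (h30_coprime hqN) := by
  have hl0 : (l : ℝ) ≠ 0 := Nat.cast_ne_zero.mpr (Fact.out : l.Prime).ne_zero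
  have hdetR : (a : ℝ) * (d : ℝ) - (b : ℝ) * (c : ℝ) = (l : ℝ) := by exact_mod_cast hdet
  set X : GL (Fin 2) ℝ := Matrix.GeneralLinearGroup.mkOfDetNeZero
    !![(a : ℝ), (b : ℝ); (c : ℝ), (d : ℝ)] (by rw [Matrix.det_fin_two_of, hdetR]; exact hl0)
    with hXdef
  have hX : (X : Matrix (Fin 2) (Fin 2) ℝ) = !![(a : ℝ), (b : ℝ); (c : ℝ), (d : ℝ)] := rfl
  obtain ⟨τ, y, hτ⟩ := h7_delta_decomp l hl a b c d hdet hc X hX
  refine ⟨τ, y, ?_⟩
  rw [← hτ]
  apply Units.ext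
  rw [Matrix.GeneralLinearGroup.coe_mul, Matrix.GeneralLinearGroup.coe_mul, hX]
  exact hmat.symm

/-- Pointwise: `w * heckeRep l x = τ * heckeRep l y * w`. -/
theorem h7_w_heckeRep_pt {N q : ℕ} [Fact q.Prime] (hqN : ¬ q ∣ N) (l : ℕ) [Fact l.Prime]
    (hl : ¬ l ∣ N * q) (x : OnePoint (ZMod l)) :
    ∃ (τ : Gamma0 (N * q)) (y : OnePoint (ZMod l)),
      h30_w N q (h30_coprime hqN) * heckeRep l x =
        mapGL ℝ (τ : SL(2, ℤ)) * heckeRep l y * h30_w N q (h30_coprime hqN) := by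
  have hq0 : q ≠ 0 := (Fact.out : q.Prime).ne_zero
  have hl0 : l ≠ 0 := (Fact.out : l.Prime).ne_zero
  have hbez := h30_bez (h30_coprime hqN)
  have hbezR : (q : ℝ) * (h30_dd N q : ℝ) - (N : ℝ) * (h30_bb N q : ℝ) = 1 := by
    exact_mod_cast hbez
  set B : ℤ := h30_bb N q with hB
  set D : ℤ := h30_dd N q with hD
  induction x using OnePoint.rec with
  | infty =>
    refine h7_w_heckeRep_of hqN l hl OnePoint.infty ((q : ℤ) * l * D - N * B) (B * (1 - l))
      ((N : ℤ) * q * D * (l - 1)) ((q : ℤ) * D - N * l * B) ?_ ?_ ?_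
    · linear_combination ((l : ℤ) * ((q : ℤ) * D - N * B + 1)) * hbez
    · exact ⟨D * (l - 1), by push_cast; ring⟩
    · rw [h7_coe_w N q hq0, heckeRep_infty, ModularForm.val_heckeDiagMatrix hl0,
        Matrix.mul_fin_two, Matrix.mul_fin_two]
      refine h7_mat_eq ?_ ?_ ?_ ?_
      · push_cast
        linear_combination ((q : ℝ) * l) * hbezR
      · push_cast
        linear_combination (B : ℝ) * hbezR
      · push_cast
        linear_combination ((N : ℝ) * q * l) * hbezR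
      · push_cast
        linear_combination ((q : ℝ) * D) * hbezR
  | coe j =>
    refine h7_w_heckeRep_of hqN l hl (j : OnePoint (ZMod l))
      ((q : ℤ) * D - N * q * (j.val : ℤ) - N * B * l) (-B + q * (j.val : ℤ) + B * l)
      ((N : ℤ) * q * (D - N * (j.val : ℤ) - D * l))
      (-(N : ℤ) * B + N * q * (j.val : ℤ) + q * D * l) ?_ ?_ ?_
    · linear_combination ((l : ℤ) * ((q : ℤ) * D - N * B + 1)) * hbez
    · exact ⟨D - N * (j.val : ℤ) - D * l, by push_cast; ring⟩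
    · rw [h7_coe_w N q hq0, heckeRep_coe, ModularForm.val_heckeMatrix hl0,
        Matrix.mul_fin_two, Matrix.mul_fin_two]
      refine h7_mat_eq ?_ ?_ ?_ ?_
      · push_cast
        linear_combination (q : ℝ) * hbezR
      · push_cast
        linear_combination ((q : ℝ) * (j.val : ℝ) + B * l) * hbezR
      · push_cast
        linear_combination ((N : ℝ) * q) * hbezR
      · push_cast
        linear_combination ((N : ℝ) * q * (j.val : ℝ) + q * D * l) * hbezR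

/-- `w⁻¹ δ w ∈ Γ₀(N q)`: every `δ ∈ Γ₀(N q)` is of the form `wc δ'`. -/
theorem h7_wc_surj {N q : ℕ} [Fact q.Prime] (hqN : ¬ q ∣ N) (δ : Gamma0 (N * q)) :
    ∃ δ' : Gamma0 (N * q), h30_wc N q (h30_coprime hqN) δ' = δ := by
  refine ⟨h30_wc N q (h30_coprime hqN)
    ((h30_g0 N q (h30_coprime hqN))⁻¹ * δ * h30_g0 N q (h30_coprime hqN)), ?_⟩
  rw [h30_wc_wc N q hqN]
  group

/-- `w` permutes the cosets `Γ₀(N q) · heckeRep l x`. -/
theorem h7_w_heckeRep {N q : ℕ} [Fact q.Prime] (hqN : ¬ q ∣ N) (l : ℕ) [Fact l.Prime]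
    (hl : ¬ l ∣ N * q) :
    ∃ (τ : OnePoint (ZMod l) → Gamma0 (N * q)) (e : Equiv.Perm (OnePoint (ZMod l))),
      ∀ x, h30_w N q (h30_coprime hqN) * heckeRep l x =
        mapGL ℝ (τ x : SL(2, ℤ)) * heckeRep l (e x) * h30_w N q (h30_coprime hqN) := by
  choose τ e he using h7_w_heckeRep_pt hqN l hl
  have hinj : Function.Injective e := by
    intro x x' hxx
    obtain ⟨δ', hδ'⟩ := h7_wc_surj hqN (τ x' * (τ x)⁻¹)
    have h1 := he x
    have h2 := he x'
    rw [← hxx] at h2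
    have h3 := h30_wc_spec (h30_coprime hqN) δ'
    rw [hδ', Subgroup.coe_mul, Subgroup.coe_inv, map_mul, map_inv] at h3
    symm
    apply h30_inj_T l x' x
    refine ⟨(δ' : SL(2, ℤ)), ?_⟩
    apply mul_left_cancel (a := h30_w N q (h30_coprime hqN))
    rw [← mul_assoc, h3, h2, mul_assoc _ _ (heckeRep l x), h1]
    group
  exact ⟨τ, Equiv.ofBijective e (Finite.injective_iff_bijective.mp hinj), he⟩

/-- The group-theoretic core of the computation. -/
theorem h7_group_aux {G : Type*} [Group G] {w ax au tx g wg g' azx wg' tzx aezx : G}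
    (h1 : w * ax = tx * au * w) (h2 : w * g = wg * w) (h3 : ax * g = g' * azx)
    (h4 : w * g' = wg' * w) (h5 : w * azx = tzx * aezx * w) :
    au * wg = tx⁻¹ * wg' * tzx * aezx := by
  have e1 : au = tx⁻¹ * w * ax * w⁻¹ := by
    rw [mul_assoc tx⁻¹, h1]
    group
  have e2 : wg = w * g * w⁻¹ := by
    rw [h2]
    group
  have e3 : wg' = w * g' * w⁻¹ := by
    rw [h4]
    group
  have e4 : aezx = tzx⁻¹ * w * azx * w⁻¹ := by
    rw [mul_assoc tzx⁻¹, h5]
    group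
  have e5 : g' = ax * g * azx⁻¹ := by
    rw [h3]
    group
  rw [e1, e2, e3, e4, e5]
  group

variable {N q : ℕ} [Fact q.Prime] (hqN : ¬ q ∣ N) {A : Type*} [AddCommGroup A]

/-- (I5b) `T_l ∘ W = W ∘ T_l`. -/
theorem h7_heckeT_W (l : ℕ) [Fact l.Prime] (hl : ¬ l ∣ N * q)
    (ψ : Additive (Gamma0 (N * q)) →+ A) :
    h30_heckeT (N * q) l hl (h30_W N q hqN ψ) = h30_W N q hqN (h30_heckeT (N * q) l hl ψ) := by
  obtain ⟨τ, e, he⟩ := h7_w_heckeRep hqN l hl
  refine AddMonoidHom.ext fun γa => ?_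
  obtain ⟨γ, rfl⟩ : ∃ γ : Gamma0 (N * q), Additive.ofMul γ = γa := ⟨Additive.toMul γa, rfl⟩
  obtain ⟨γ', z, hz, hT⟩ := h30_heckeT_exists l hl γ
  rw [hT A (h30_W N q hqN ψ), h30_W_apply]
  have hdec : ∀ u, heckeRep l u * mapGL ℝ (h30_wc N q (h30_coprime hqN) γ : SL(2, ℤ)) =
      mapGL ℝ (((τ (e.symm u))⁻¹ * h30_wc N q (h30_coprime hqN) (γ' (e.symm u)) *
        τ (z (e.symm u)) : Gamma0 (N * q)) : SL(2, ℤ)) * heckeRep l (e (z (e.symm u))) := by
    intro u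
    have h1 := he (e.symm u)
    rw [Equiv.apply_symm_apply] at h1
    rw [Subgroup.coe_mul, Subgroup.coe_mul, Subgroup.coe_inv, map_mul, map_mul, map_inv]
    exact h7_group_aux h1 (h30_wc_spec (h30_coprime hqN) γ) (hz (e.symm u))
      (h30_wc_spec (h30_coprime hqN) (γ' (e.symm u))) (he (z (e.symm u)))
  rw [h30_heckeT_apply_of l hl ψ (h30_wc N q (h30_coprime hqN) γ) _ _ hdec]
  simp only [h30_W_apply]
  rw [← Equiv.sum_comp e (fun u => ψ (Additive.ofMul ((τ (e.symm u))⁻¹ *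
    h30_wc N q (h30_coprime hqN) (γ' (e.symm u)) * τ (z (e.symm u)))))]
  simp only [Equiv.symm_apply_apply]
  exact (h30_sum_twist ψ τ (fun x => h30_wc N q (h30_coprime hqN) (γ' x)) z).symm

end Fermat.Agent.S41
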