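import Mathlib

/-!
# S41, block (C'): the abstract Galois-side core

A group `G` acts on a plane `V` over `𝔽_p` (`p` odd) irreducibly.  `H` is a normal subgroup
containing all commutators, and every element of `H` outside a subgroup `H₂ ≠ H` acts
unipotently (this is what the averaging form of Ihara's lemma gives through Frobenius elements
and the Kummer layer).  If moreover every element generates the same cyclic group as some `σ`
killed by `X² - t X + χ(σ)` (Frobenius relation; `χ` a character with `χ(c) = -1` for some `c`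
with `c² = 1` on `V`), we get a contradiction.  No determinant/Weil-pairing input is needed: the
determinant is recovered from the quadratic relation on non-scalar elements.
-/

set_option autoImplicit false
set_option linter.unusedSimpArgs false

namespace Fermat.Agent.S41

/-! ### `2 × 2` matrices -/

section mat

variable {F : Type*} [Field F]

theorem h45_mat_mul_00 (A B : Matrix (Fin 2) (Fin 2) F) :
    (A * B) 0 0 = A 0 0 * B 0 0 + A 0 1 * B 1 0 := by
  simp [Matrix.mul_apply, Fin.sum_univ_two]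

theorem h45_mat_mul_01 (A B : Matrix (Fin 2) (Fin 2) F) :
    (A * B) 0 1 = A 0 0 * B 0 1 + A 0 1 * B 1 1 := by
  simp [Matrix.mul_apply, Fin.sum_univ_two]

theorem h45_mat_mul_10 (A B : Matrix (Fin 2) (Fin 2) F) :
    (A * B) 1 0 = A 1 0 * B 0 0 + A 1 1 * B 1 0 := by
  simp [Matrix.mul_apply, Fin.sum_univ_two]

theorem h45_mat_mul_11 (A B : Matrix (Fin 2) (Fin 2) F) :
    (A * B) 1 1 = A 1 0 * B 0 1 + A 1 1 * B 1 1 := by
  simp [Matrix.mul_apply, Fin.sum_univ_two]

/-- Entries of a quadratic relation `M² - t M + d = 0`. -/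
theorem h45_mat_quad_entries (M : Matrix (Fin 2) (Fin 2) F) (t d : F)
    (h : M * M - t • M + d • (1 : Matrix (Fin 2) (Fin 2) F) = 0) :
    (M 0 0 * M 0 0 + M 0 1 * M 1 0 - t * M 0 0 + d = 0) ∧
    (M 0 0 * M 0 1 + M 0 1 * M 1 1 - t * M 0 1 = 0) ∧
    (M 1 0 * M 0 0 + M 1 1 * M 1 0 - t * M 1 0 = 0) ∧
    (M 1 0 * M 0 1 + M 1 1 * M 1 1 - t * M 1 1 + d = 0) := by
  have e00 := congrFun (congrFun h 0) 0
  have e01 := congrFun (congrFun h 0) 1
  have e10 := congrFun (congrFun h 1) 0
  have e11 := congrFun (congrFun h 1) 1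
  simp only [Matrix.add_apply, Matrix.sub_apply, Matrix.smul_apply, Matrix.zero_apply,
    h45_mat_mul_00, h45_mat_mul_01, h45_mat_mul_10, h45_mat_mul_11, Matrix.one_apply_eq,
    smul_eq_mul, mul_one] at e00 e01 e10 e11
  have o01 : (1 : Matrix (Fin 2) (Fin 2) F) 0 1 = 0 := Matrix.one_apply_ne (by decide)
  have o10 : (1 : Matrix (Fin 2) (Fin 2) F) 1 0 = 0 := Matrix.one_apply_ne (by decide)
  rw [o01, mul_zero, add_zero] at e01
  rw [o10, mul_zero, add_zero] at e10
  exact ⟨e00, e01, e10, e11⟩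

/-- A unipotent `2 × 2` matrix has trace `2` and determinant `1`. -/
theorem h45_mat_unip (M : Matrix (Fin 2) (Fin 2) F)
    (h : M * M - (2 : F) • M + (1 : F) • (1 : Matrix (Fin 2) (Fin 2) F) = 0) :
    M 0 0 + M 1 1 = 2 ∧ M 0 0 * M 1 1 - M 0 1 * M 1 0 = 1 := by
  obtain ⟨e00, e01, e10, e11⟩ := h45_mat_quad_entries M 2 1 h
  have htr : M 0 0 + M 1 1 = 2 := by
    by_contra hne
    have hne' : M 0 0 + M 1 1 - 2 ≠ 0 := sub_ne_zero.mpr hne
    have hb : M 0 1 = 0 := by
      have : M 0 1 * (M 0 0 + M 1 1 - 2) = 0 := by linear_combination e01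
      rcases mul_eq_zero.mp this with h | h
      · exact h
      · exact absurd h hne'
    have hc : M 1 0 = 0 := by
      have : M 1 0 * (M 0 0 + M 1 1 - 2) = 0 := by linear_combination e10
      rcases mul_eq_zero.mp this with h | h
      · exact h
      · exact absurd h hne'
    have ha : M 0 0 = 1 := by
      have : (M 0 0 - 1) * (M 0 0 - 1) = 0 := by rw [hb] at e00; linear_combination e00
      rcases mul_eq_zero.mp this with h | h <;> exact sub_eq_zero.mp h
    have hd : M 1 1 = 1 := by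
      have : (M 1 1 - 1) * (M 1 1 - 1) = 0 := by rw [hb] at e11; linear_combination e11
      rcases mul_eq_zero.mp this with h | h <;> exact sub_eq_zero.mp h
    apply hne
    rw [ha, hd]; norm_num
  refine ⟨htr, ?_⟩
  linear_combination (-1 : F) * e00 + M 0 0 * htr

/-- Key computation 1: if `u = [1 1; 0 1]` and both `u R`, `u² R` are unipotent, then `R` fixes
the first basis vector. -/
theorem h45_mat_U2 (U R : Matrix (Fin 2) (Fin 2) F) (hU : U 0 0 = 1 ∧ U 0 1 = 1 ∧ U 1 0 = 0 ∧
    U 1 1 = 1)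
    (hA : (U * R) * (U * R) - (2 : F) • (U * R) + (1 : F) • (1 : Matrix (Fin 2) (Fin 2) F) = 0)
    (hB : (U * U * R) * (U * U * R) - (2 : F) • (U * U * R) +
      (1 : F) • (1 : Matrix (Fin 2) (Fin 2) F) = 0) :
    R 1 0 = 0 ∧ R 0 0 = 1 := by
  obtain ⟨u00, u01, u10, u11⟩ := hU
  obtain ⟨tA, dA⟩ := h45_mat_unip _ hA
  obtain ⟨tB, -⟩ := h45_mat_unip _ hB
  simp only [h45_mat_mul_00, h45_mat_mul_01, h45_mat_mul_10, h45_mat_mul_11, u00, u01, u10, u11,
    one_mul, zero_mul, zero_add, mul_one, add_zero] at tA dA tB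
  have hc : R 1 0 = 0 := by linear_combination tB - tA
  rw [hc] at tA dA
  refine ⟨hc, ?_⟩
  have : (R 0 0 - 1) * (R 0 0 - 1) = 0 := by linear_combination (R 0 0) * tA - dA
  rcases mul_eq_zero.mp this with h | h <;> exact sub_eq_zero.mp h

/-- Key computation 2: if `u = [1 1; 0 1]` and both `R`, `u R` are unipotent, then `R` fixes the
first basis vector. -/
theorem h45_mat_U3 (U R : Matrix (Fin 2) (Fin 2) F) (hU : U 0 0 = 1 ∧ U 0 1 = 1 ∧ U 1 0 = 0 ∧
    U 1 1 = 1)
    (hR : R * R - (2 : F) • R + (1 : F) • (1 : Matrix (Fin 2) (Fin 2) F) = 0)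
    (hA : (U * R) * (U * R) - (2 : F) • (U * R) + (1 : F) • (1 : Matrix (Fin 2) (Fin 2) F) = 0) :
    R 1 0 = 0 ∧ R 0 0 = 1 := by
  obtain ⟨u00, u01, u10, u11⟩ := hU
  obtain ⟨tA, -⟩ := h45_mat_unip _ hA
  obtain ⟨tR, dR⟩ := h45_mat_unip _ hR
  simp only [h45_mat_mul_00, h45_mat_mul_01, h45_mat_mul_10, h45_mat_mul_11, u00, u01, u10, u11,
    one_mul, zero_mul, zero_add, mul_one, add_zero] at tA
  have hc : R 1 0 = 0 := by linear_combination tA - tR
  rw [hc] at dR
  refine ⟨hc, ?_⟩
  have : (R 0 0 - 1) * (R 0 0 - 1) = 0 := by linear_combination (R 0 0) * tR - dR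
  rcases mul_eq_zero.mp this with h | h <;> exact sub_eq_zero.mp h

/-- A non-scalar `2 × 2` matrix killed by `X² - t X + d` has determinant `d`. -/
theorem h45_mat_det_of_quad (M : Matrix (Fin 2) (Fin 2) F) (t d : F)
    (h : M * M - t • M + d • (1 : Matrix (Fin 2) (Fin 2) F) = 0)
    (hns : ¬ (M 0 1 = 0 ∧ M 1 0 = 0 ∧ M 0 0 = M 1 1)) : M.det = d := by
  obtain ⟨e00, e01, e10, e11⟩ := h45_mat_quad_entries M t d h
  rw [Matrix.det_fin_two]
  have htr : M 0 0 + M 1 1 - t = 0 := by
    by_contra hne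
    apply hns
    have hb : M 0 1 = 0 := by
      have : M 0 1 * (M 0 0 + M 1 1 - t) = 0 := by linear_combination e01
      rcases mul_eq_zero.mp this with h | h
      · exact h
      · exact absurd h hne
    have hc : M 1 0 = 0 := by
      have : M 1 0 * (M 0 0 + M 1 1 - t) = 0 := by linear_combination e10
      rcases mul_eq_zero.mp this with h | h
      · exact h
      · exact absurd h hne
    refine ⟨hb, hc, ?_⟩
    have : (M 0 0 - M 1 1) * (M 0 0 + M 1 1 - t) = 0 := by
      rw [hb] at e00 e11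
      linear_combination e00 - e11
    rcases mul_eq_zero.mp this with h | h
    · exact sub_eq_zero.mp h
    · exact absurd h hne
  linear_combination (-1 : F) * e00 + M 0 0 * htr

end mat

/-! ### The action as linear maps -/

section rho

open Module

variable (p : ℕ) [Fact p.Prime] {G : Type*} [Group G] {V : Type*} [AddCommGroup V]
  [Module (ZMod p) V] [DistribMulAction G V]

/-- The action of `g` as an `𝔽_p`-linear map. -/
noncomputable def h45_rho (g : G) : V →ₗ[ZMod p] V :=
  (DistribSMul.toAddMonoidHom V g).toZModLinearMap p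

@[simp] theorem h45_rho_apply (g : G) (v : V) : h45_rho p g v = g • v := rfl

theorem h45_rho_mul (g h : G) : (h45_rho p (g * h) : V →ₗ[ZMod p] V) = h45_rho p g * h45_rho p h := by
  ext v
  simp [mul_smul]

theorem h45_rho_one : (h45_rho p (1 : G) : V →ₗ[ZMod p] V) = 1 := by
  ext v
  simp

theorem h45_rho_pow (g : G) (n : ℕ) :
    (h45_rho p (g ^ n) : V →ₗ[ZMod p] V) = h45_rho p g ^ n := by
  induction n with
  | zero => rw [pow_zero, pow_zero, h45_rho_one]
  | succ n ih => rw [pow_succ, pow_succ, h45_rho_mul, ih]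

theorem h45_smul_zmod (g : G) (s : ZMod p) (v : V) : g • (s • v) = s • (g • v) :=
  (h45_rho p g).map_smul s v

variable {p}

theorem h45_finrank (hcard : Nat.card V = p ^ 2) : finrank (ZMod p) V = 2 := by
  have hp : p.Prime := Fact.out
  have : Finite V := Nat.finite_of_card_ne_zero (by rw [hcard]; exact pow_ne_zero _ hp.ne_zero)
  have h := Module.natCard_eq_pow_finrank (K := ZMod p) (V := V)
  rw [hcard, Nat.card_zmod] at h
  exact (Nat.pow_right_injective hp.two_le h).symm

/-- The quadratic relation `σ² - t σ + d = 0` on `V`, in `End V`. -/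
theorem h45_quad_end (g : G) (t d : ZMod p)
    (h : ∀ v : V, g • g • v - t • g • v + d • v = 0) :
    (h45_rho p g : V →ₗ[ZMod p] V) * h45_rho p g - t • h45_rho p g +
      d • (1 : V →ₗ[ZMod p] V) = 0 := by
  ext v
  simpa using h v

/-- The unipotent relation `(u - 1)² = 0` on `V`, in `End V`. -/
theorem h45_unip_end (g : G) (h : ∀ v : V, g • g • v - (2 : ℤ) • g • v + v = 0) :
    (h45_rho p g : V →ₗ[ZMod p] V) * h45_rho p g - (2 : ZMod p) • h45_rho p g +
      (1 : ZMod p) • (1 : V →ₗ[ZMod p] V) = 0 := by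
  apply h45_quad_end
  intro v
  have := h v
  rw [one_smul]
  rw [← Int.cast_smul_eq_zsmul (ZMod p)] at this
  simpa using this

/-- Transport of a quadratic relation to matrices. -/
theorem h45_quad_mat (b : Basis (Fin 2) (ZMod p) V) (A : V →ₗ[ZMod p] V) (t d : ZMod p)
    (h : A * A - t • A + d • (1 : V →ₗ[ZMod p] V) = 0) :
    LinearMap.toMatrix b b A * LinearMap.toMatrix b b A - t • LinearMap.toMatrix b b A +
      d • (1 : Matrix (Fin 2) (Fin 2) (ZMod p)) = 0 := by
  have := congrArg (LinearMap.toMatrix b b) h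
  rw [map_add, map_sub, map_smul, map_smul, LinearMap.toMatrix_mul, LinearMap.toMatrix_one,
    map_zero] at this
  exact this

end rho

/-- A power of a unipotent element is unipotent. -/
theorem h45_unip_pow {G : Type*} [Group G] {V : Type*} [AddCommGroup V] [DistribMulAction G V]
    (σ u : G) (b : ℕ) (hb : ∀ v : V, σ ^ b • v = u • v)
    (h : ∀ v : V, σ • σ • v - (2 : ℤ) • σ • v + v = 0) :
    ∀ v : V, u • u • v - (2 : ℤ) • u • v + v = 0 := by
  set A : AddMonoid.End V := DistribMulAction.toAddMonoidEnd G V σ with hA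
  have hAv : ∀ v : V, A v = σ • v := fun v => rfl
  have hsub : ∀ (B : AddMonoid.End V) (w : V), (B - 1) w = B w - w := fun B w => rfl
  have hmul : ∀ (B C : AddMonoid.End V) (w : V), (B * C) w = B (C w) := fun B C w => rfl
  have hsq : (A - 1) * (A - 1) = 0 := by
    ext v
    have := h v
    rw [two_zsmul] at this
    rw [hmul, hsub, hsub, hAv, hAv, smul_sub]
    change _ = (0 : V)
    rw [← this]
    abel
  have e1 : A ^ b - 1 = (∑ i ∈ Finset.range b, A ^ i) * (A - 1) := (geom_sum_mul A b).symm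
  have e2 : A ^ b - 1 = (A - 1) * ∑ i ∈ Finset.range b, A ^ i := (mul_geom_sum A b).symm
  have hpow : (A ^ b - 1) * (A ^ b - 1) = 0 := by
    calc (A ^ b - 1) * (A ^ b - 1)
        = ((∑ i ∈ Finset.range b, A ^ i) * (A - 1)) * ((A - 1) * ∑ i ∈ Finset.range b, A ^ i) := by
          rw [← e1, ← e2]
      _ = (∑ i ∈ Finset.range b, A ^ i) * ((A - 1) * (A - 1)) * ∑ i ∈ Finset.range b, A ^ i := by
          simp only [mul_assoc]
      _ = 0 := by rw [hsq, mul_zero, zero_mul]
  have hAb : ∀ v : V, (A ^ b) v = u • v := by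
    intro v
    rw [hA, ← map_pow]
    exact hb v
  intro v
  have h2 : ((A ^ b - 1) * (A ^ b - 1)) v = 0 := by rw [hpow]; rfl
  rw [hmul, hsub, hsub, hAb, hAb, smul_sub] at h2
  rw [two_zsmul, ← h2]
  abel

/-! ### Part 1: unipotent outside `H₂` implies trivial -/

section core

open Module

variable {p : ℕ} [Fact p.Prime] {G : Type*} [Group G] {V : Type*} [AddCommGroup V]
  [Module (ZMod p) V] [DistribMulAction G V]

/-- **Part 1.**  A normal subgroup `H` all of whose elements outside a subgroup `H₂` (with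
`H ⊄ H₂`, and `u² ∈ H₂ → u ∈ H₂` on `H`) act unipotently on an irreducible plane acts
trivially. -/
theorem h45_unip_trivial (hcard : Nat.card V = p ^ 2)
    (hirr : ∀ N : Submodule (ZMod p) V, (∀ (g : G), ∀ x ∈ N, g • x ∈ N) → N = ⊥ ∨ N = ⊤)
    (H : Subgroup G) [H.Normal] (H₂ : Subgroup G)
    (hsq : ∀ u ∈ H, u * u ∈ H₂ → u ∈ H₂) (hne : ∃ u ∈ H, u ∉ H₂)
    (hU : ∀ u ∈ H, u ∉ H₂ → ∀ v : V, u • u • v - (2 : ℤ) • u • v + v = 0) :
    ∀ h ∈ H, ∀ v : V, h • v = v := by
  -- Step A: every `u ∈ H \ H₂` acts trivially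
  have stepA : ∀ u ∈ H, u ∉ H₂ → ∀ v : V, u • v = v := by
    intro u huH hu2
    by_contra hcon
    push Not at hcon
    obtain ⟨e₂, he₂⟩ := hcon
    set e₁ : V := u • e₂ - e₂ with he₁
    have he₁0 : e₁ ≠ 0 := sub_ne_zero.mpr he₂
    have hue₂ : u • e₂ = e₁ + e₂ := by rw [he₁]; abel
    have hue₁ : u • e₁ = e₁ := by
      have := hU u huH hu2 e₂
      rw [two_zsmul] at this
      rw [he₁, smul_sub]
      calc u • u • e₂ - u • e₂ = (u • u • e₂ - (u • e₂ + u • e₂) + e₂) + (u • e₂ - e₂) := by abel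
        _ = u • e₂ - e₂ := by rw [this, zero_add]
    -- the adapted basis
    have hli : LinearIndependent (ZMod p) ![e₁, e₂] := by
      rw [LinearIndependent.pair_iff]
      intro s t hst
      have h1 : u • (s • e₁ + t • e₂) - (s • e₁ + t • e₂) = t • e₁ := by
        rw [smul_add, h45_smul_zmod, h45_smul_zmod, hue₁, hue₂, smul_add]
        abel
      rw [hst, smul_zero, sub_zero] at h1
      have ht : t = 0 := by
        rcases smul_eq_zero.mp h1.symm with h | h
        · exact h
        · exact absurd h he₁0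
      rw [ht, zero_smul, add_zero] at hst
      have hs : s = 0 := by
        rcases smul_eq_zero.mp hst with h | h
        · exact h
        · exact absurd h he₁0
      exact ⟨hs, ht⟩
    have hfr := h45_finrank hcard
    let b : Basis (Fin 2) (ZMod p) V :=
      basisOfLinearIndependentOfCardEqFinrank hli (by rw [hfr]; rfl)
    have hb : ⇑b = ![e₁, e₂] := coe_basisOfLinearIndependentOfCardEqFinrank hli _
    have hb0 : b 0 = e₁ := by rw [hb]; rfl
    have hb1 : b 1 = e₂ := by rw [hb]; rfl
    -- matrices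
    set m : G → Matrix (Fin 2) (Fin 2) (ZMod p) :=
      fun g => LinearMap.toMatrix b b (h45_rho p g) with hm
    have hm_mul : ∀ g h, m (g * h) = m g * m h := by
      intro g h
      simp only [hm]
      rw [h45_rho_mul, LinearMap.toMatrix_mul]
    have hm_entry : ∀ (g : G) (i j : Fin 2), m g i j = b.repr (g • b j) i := by
      intro g i j
      simp only [hm]
      rw [LinearMap.toMatrix_apply, h45_rho_apply]
    have hm_u : m u 0 0 = 1 ∧ m u 0 1 = 1 ∧ m u 1 0 = 0 ∧ m u 1 1 = 1 := by
      have r0 : b.repr (u • b 0) = b.repr (b 0) := by rw [hb0, hue₁]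
      have r1 : b.repr (u • b 1) = b.repr (b 0) + b.repr (b 1) := by
        rw [hb1, hue₂, ← map_add, hb0]
      refine ⟨?_, ?_, ?_, ?_⟩
      · rw [hm_entry, r0, Basis.repr_self]; simp
      · rw [hm_entry, r1, Basis.repr_self, Basis.repr_self]; simp
      · rw [hm_entry, r0, Basis.repr_self]; simp
      · rw [hm_entry, r1, Basis.repr_self, Basis.repr_self]; simp
    have hm_unip : ∀ x ∈ H, x ∉ H₂ → m x * m x - (2 : ZMod p) • m x +
        (1 : ZMod p) • (1 : Matrix (Fin 2) (Fin 2) (ZMod p)) = 0 := by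
      intro x hxH hx2
      exact h45_quad_mat b _ _ _ (h45_unip_end x (hU x hxH hx2))
    have hfix_of_mat : ∀ r : G, m r 0 0 = 1 → m r 1 0 = 0 → r • e₁ = e₁ := by
      intro r h00 h10
      have := b.sum_repr (r • b 0)
      rw [Fin.sum_univ_two, ← hm_entry, ← hm_entry, h00, h10, one_smul, zero_smul, add_zero,
        hb0] at this
      exact this.symm
    -- every element of `H` fixes `e₁`
    have hfix2 : ∀ r ∈ H, r ∈ H₂ → r • e₁ = e₁ := by
      intro r hrH hr2
      have h1 : u * r ∉ H₂ := fun h => hu2 (by simpa using H₂.mul_mem h (H₂.inv_mem hr2))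
      have h2 : u * u * r ∉ H₂ := fun h =>
        hu2 (hsq u huH (by simpa using H₂.mul_mem h (H₂.inv_mem hr2)))
      have hA := hm_unip (u * r) (H.mul_mem huH hrH) h1
      have hB := hm_unip (u * u * r) (H.mul_mem (H.mul_mem huH huH) hrH) h2
      rw [hm_mul] at hA
      rw [hm_mul, hm_mul] at hB
      obtain ⟨h10, h00⟩ := h45_mat_U2 (m u) (m r) hm_u hA hB
      exact hfix_of_mat r h00 h10
    have hfix : ∀ r ∈ H, r • e₁ = e₁ := by
      intro r hrH
      by_cases hr2 : r ∈ H₂
      · exact hfix2 r hrH hr2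
      · by_cases hur : u * r ∈ H₂
        · have := hfix2 (u * r) (H.mul_mem huH hrH) hur
          rw [mul_smul] at this
          exact (MulAction.injective u) (this.trans hue₁.symm)
        · have hR := hm_unip r hrH hr2
          have hA := hm_unip (u * r) (H.mul_mem huH hrH) hur
          rw [hm_mul] at hA
          obtain ⟨h10, h00⟩ := h45_mat_U3 (m u) (m r) hm_u hR hA
          exact hfix_of_mat r h00 h10
    -- the line of `H`-fixed vectors is stable
    let L : Submodule (ZMod p) V :=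
      { carrier := {w | ∀ h ∈ H, h • w = w}
        add_mem' := by
          intro x y hx hy h hh
          rw [smul_add, hx h hh, hy h hh]
        zero_mem' := by
          intro h _
          exact smul_zero h
        smul_mem' := by
          intro c x hx h hh
          rw [h45_smul_zmod, hx h hh] }
    have hLstab : ∀ (g : G), ∀ x ∈ L, g • x ∈ L := by
      intro g x hx h hh
      have hconj : g⁻¹ * h * g ∈ H := by
        have := (inferInstance : H.Normal).conj_mem h hh g⁻¹
        simpa using this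
      have h3 : (g⁻¹ * h * g) • x = x := hx _ hconj
      calc h • g • x = g • (g⁻¹ * h * g) • x := by simp [mul_smul]
        _ = g • x := by rw [h3]
    rcases hirr L hLstab with h | h
    · have : e₁ ∈ L := hfix
      rw [h, Submodule.mem_bot] at this
      exact he₁0 this
    · have : e₂ ∈ L := by rw [h]; trivial
      exact he₂ (this u huH)
  -- Step B
  obtain ⟨u₀, hu₀H, hu₀2⟩ := hne
  intro h hh v
  by_cases h2 : h ∈ H₂
  · have h1 : u₀ * h ∉ H₂ := fun hx => hu₀2 (by simpa using H₂.mul_mem hx (H₂.inv_mem h2))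
    have e1 := stepA (u₀ * h) (H.mul_mem hu₀H hh) h1 v
    rw [mul_smul, stepA u₀ hu₀H hu₀2] at e1
    exact e1
  · exact stepA h hh h2 v

/-! ### Part 2: the determinant from the quadratic relation, and the contradiction -/

/-- A non-scalar element killed by `X² - t X + d` on the plane `V` has determinant `d`. -/
theorem h45_det_of_quad (hcard : Nat.card V = p ^ 2) (g : G) (t d : ZMod p)
    (hns : ¬ ∃ lam : ZMod p, ∀ v : V, g • v = lam • v)
    (h : ∀ v : V, g • g • v - t • g • v + d • v = 0) :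
    LinearMap.det (h45_rho p g : V →ₗ[ZMod p] V) = d := by
  have hp : p.Prime := Fact.out
  have hfr := h45_finrank hcard
  have : Finite V := Nat.finite_of_card_ne_zero (by rw [hcard]; exact pow_ne_zero _ hp.ne_zero)
  let b : Basis (Fin 2) (ZMod p) V := Module.finBasisOfFinrankEq (ZMod p) V hfr
  rw [← LinearMap.det_toMatrix b]
  apply h45_mat_det_of_quad _ t d (h45_quad_mat b _ _ _ (h45_quad_end g t d h))
  rintro ⟨h01, h10, h00⟩
  apply hns
  refine ⟨LinearMap.toMatrix b b (h45_rho p g) 0 0, ?_⟩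
  have hcol : ∀ j : Fin 2, g • b j = LinearMap.toMatrix b b (h45_rho p g) 0 0 • b j := by
    intro j
    have := b.sum_repr (g • b j)
    rw [Fin.sum_univ_two] at this
    have e0 : b.repr (g • b j) 0 = LinearMap.toMatrix b b (h45_rho p g) 0 j := by
      rw [LinearMap.toMatrix_apply, h45_rho_apply]
    have e1 : b.repr (g • b j) 1 = LinearMap.toMatrix b b (h45_rho p g) 1 j := by
      rw [LinearMap.toMatrix_apply, h45_rho_apply]
    rw [e0, e1] at this
    fin_cases j
    · simp only [Fin.zero_eta] at this ⊢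
      rw [h10, zero_smul, add_zero] at this
      exact this.symm
    · simp only [Fin.mk_one] at this ⊢
      rw [h01, zero_smul, zero_add, ← h00] at this
      exact this.symm
  have hlin : (h45_rho p g : V →ₗ[ZMod p] V) =
      LinearMap.toMatrix b b (h45_rho p g) 0 0 • (1 : V →ₗ[ZMod p] V) := by
    apply b.ext
    intro j
    rw [h45_rho_apply, hcol j]
    rfl
  intro v
  have := congrArg (fun f : V →ₗ[ZMod p] V => f v) hlin
  simpa using this

/-- **The abstract Galois-side core of (C').** -/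
theorem h45_galois_core (hp2 : p ≠ 2) (hcard : Nat.card V = p ^ 2)
    (hirr : ∀ N : Submodule (ZMod p) V, (∀ (g : G), ∀ x ∈ N, g • x ∈ N) → N = ⊥ ∨ N = ⊤)
    (H : Subgroup G) [H.Normal] (hcomm : ∀ g₁ g₂ : G, g₁ * g₂ * g₁⁻¹ * g₂⁻¹ ∈ H)
    (H₂ : Subgroup G)
    (hsq : ∀ u ∈ H, u * u ∈ H₂ → u ∈ H₂) (hne : ∃ u ∈ H, u ∉ H₂)
    (hU : ∀ u ∈ H, u ∉ H₂ → ∃ (σ : G) (b : ℕ), (∀ v : V, σ ^ b • v = u • v) ∧
      ∀ v : V, σ • σ • v - (2 : ℤ) • σ • v + v = 0)
    (χ : G →* (ZMod p)ˣ)
    (hF : ∀ g : G, ∃ (σ : G) (b : ℕ) (t : ZMod p), (∀ v : V, σ ^ b • v = g • v) ∧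
      χ σ ^ b = χ g ∧
      ∀ v : V, σ • σ • v - t • σ • v + ((χ σ : (ZMod p)ˣ) : ZMod p) • v = 0)
    (c : G) (hc : ∀ v : V, c • c • v = v) (hχc : χ c = -1) : False := by
  have hp : p.Prime := Fact.out
  have hfr := h45_finrank hcard
  have hfin : Finite V :=
    Nat.finite_of_card_ne_zero (by rw [hcard]; exact pow_ne_zero _ hp.ne_zero)
  -- `H` acts trivially
  have hU' : ∀ u ∈ H, u ∉ H₂ → ∀ v : V, u • u • v - (2 : ℤ) • u • v + v = 0 := by
    intro u huH hu2
    obtain ⟨σ, b, hb, hσ⟩ := hU u huH hu2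
    exact h45_unip_pow σ u b hb hσ
  have htriv := h45_unip_trivial hcard hirr H H₂ hsq hne hU'
  -- the action is commutative
  have hcm : ∀ (g₁ g₂ : G) (v : V), g₁ • g₂ • v = g₂ • g₁ • v := by
    intro g₁ g₂ v
    have := htriv _ (hcomm g₁ g₂) (g₂ • g₁ • v)
    simpa [mul_smul] using this
  -- `c` acts as `±1`
  have hc_scalar : ∃ ε : ZMod p, ε ^ 2 = 1 ∧ ∀ v : V, c • v = ε • v := by
    let Vp : Submodule (ZMod p) V :=
      { carrier := {w | c • w = w}
        add_mem' := by
          intro x y hx hy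
          show c • (x + y) = x + y
          rw [smul_add, hx, hy]
        zero_mem' := smul_zero c
        smul_mem' := by
          intro a x hx
          show c • (a • x) = a • x
          rw [h45_smul_zmod, hx] }
    have hstab : ∀ (g : G), ∀ x ∈ Vp, g • x ∈ Vp := by
      intro g x hx
      show c • g • x = g • x
      rw [hcm, hx]
    rcases hirr Vp hstab with h | h
    · refine ⟨-1, by ring, fun v => ?_⟩
      have hmem : v + c • v ∈ Vp := by
        show c • (v + c • v) = v + c • v
        rw [smul_add, hc, add_comm]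
      rw [h, Submodule.mem_bot] at hmem
      rw [neg_one_smul]
      exact eq_neg_of_add_eq_zero_right hmem
    · refine ⟨1, by ring, fun v => ?_⟩
      have hmem : v ∈ Vp := by rw [h]; trivial
      rw [one_smul]
      exact hmem
  obtain ⟨ε, hε2, hε⟩ := hc_scalar
  -- a non-scalar element exists
  have hns : ∃ g₀ : G, ¬ ∃ lam : ZMod p, ∀ v : V, g₀ • v = lam • v := by
    by_contra hcon
    push Not at hcon
    have hnt : Nontrivial V := by
      rw [← Finite.one_lt_card_iff_nontrivial, hcard]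
      exact Nat.one_lt_pow (by norm_num) hp.one_lt
    obtain ⟨v₀, hv₀⟩ := exists_ne (0 : V)
    have hstab : ∀ (g : G), ∀ x ∈ Submodule.span (ZMod p) {v₀},
        g • x ∈ Submodule.span (ZMod p) {v₀} := by
      intro g x hx
      obtain ⟨lam, hl⟩ := hcon g
      rw [hl]
      exact Submodule.smul_mem _ _ hx
    rcases hirr _ hstab with h | h
    · have := Submodule.mem_span_singleton_self (R := ZMod p) v₀
      rw [h, Submodule.mem_bot] at this
      exact hv₀ this
    · have hsurj : Function.Surjective (fun a : ZMod p => a • v₀) := by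
        intro w
        have hw : w ∈ Submodule.span (ZMod p) {v₀} := by rw [h]; trivial
        exact Submodule.mem_span_singleton.mp hw
      have hle := Nat.card_le_card_of_surjective _ hsurj
      rw [hcard, Nat.card_zmod] at hle
      have := hp.two_le
      nlinarith
  obtain ⟨g₀, hg₀⟩ := hns
  -- the determinant of a non-scalar element is `χ`
  have hdet : ∀ g : G, (¬ ∃ lam : ZMod p, ∀ v : V, g • v = lam • v) →
      LinearMap.det (h45_rho p g : V →ₗ[ZMod p] V) = ((χ g : (ZMod p)ˣ) : ZMod p) := by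
    intro g hg
    obtain ⟨σ, b, t, hσb, hχ, hq⟩ := hF g
    have hpow : (h45_rho p g : V →ₗ[ZMod p] V) = h45_rho p σ ^ b := by
      rw [← h45_rho_pow]
      ext v
      simp [hσb v]
    have hσns : ¬ ∃ lam : ZMod p, ∀ v : V, σ • v = lam • v := by
      rintro ⟨lam, hl⟩
      apply hg
      refine ⟨lam ^ b, fun v => ?_⟩
      have hσ1 : (h45_rho p σ : V →ₗ[ZMod p] V) = lam • (1 : V →ₗ[ZMod p] V) := by
        ext w
        simp [hl w]
      have := congrArg (fun f : V →ₗ[ZMod p] V => f v) hpow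
      simp only [h45_rho_apply] at this
      rw [this, hσ1, smul_pow, one_pow]
      simp
    have hdσ := h45_det_of_quad hcard σ t _ hσns hq
    rw [hpow, map_pow, hdσ, ← hχ]
    simp
  have h1 := hdet g₀ hg₀
  have hcg₀ : ¬ ∃ lam : ZMod p, ∀ v : V, (c * g₀) • v = lam • v := by
    rintro ⟨lam, hl⟩
    apply hg₀
    refine ⟨ε * lam, fun v => ?_⟩
    have := hl v
    rw [mul_smul] at this
    calc g₀ • v = c • c • g₀ • v := (hc _).symm
      _ = c • (lam • v) := by rw [this]
      _ = ε • (lam • v) := hε _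
      _ = (ε * lam) • v := by rw [mul_smul]
  have h2 := hdet (c * g₀) hcg₀
  have hlin : (h45_rho p (c * g₀) : V →ₗ[ZMod p] V) = ε • h45_rho p g₀ := by
    ext v
    simp [mul_smul, hε]
  have : Module.Free (ZMod p) V := Module.Free.of_divisionRing _ _
  rw [hlin, LinearMap.det_smul, hfr, hε2, one_mul, h1, map_mul, hχc] at h2
  -- `χ g₀ = - χ g₀` in `ZMod p`
  have h3 : ((χ g₀ : (ZMod p)ˣ) : ZMod p) = -((χ g₀ : (ZMod p)ˣ) : ZMod p) := by
    have h2' := h2
    rw [neg_one_mul, Units.val_neg] at h2'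
    exact h2'
  have h4 : (2 : ZMod p) * ((χ g₀ : (ZMod p)ˣ) : ZMod p) = 0 := by
    linear_combination h3
  have h2ne : (2 : ZMod p) ≠ 0 := by
    intro h
    have : ((2 : ℕ) : ZMod p) = 0 := by exact_mod_cast h
    rw [ZMod.natCast_eq_zero_iff] at this
    exact hp2 ((Nat.prime_dvd_prime_iff_eq hp Nat.prime_two).mp this)
  rcases mul_eq_zero.mp h4 with h | h
  · exact h2ne h
  · exact (χ g₀).ne_zero h

end core

end Fermat.Agent.S41
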