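import Mathlib
import Fermat.Agent.S05.h18_Red
import Fermat.Agent.S05.h86_Formal

/-
helper48, project S41 block (C'3), core: reduction of torsion points modulo a valuation ring with
good reduction.  `A` is a valuation subring of a field `K`, `WA` a Weierstrass curve over `A` with
unit discriminant; the reduction map from the points of `WA` over `K` to the points of `WA` over
the residue field is additive and injective on every subgroup meeting the kernel of reduction
trivially (e.g. prime-to-residue-characteristic torsion), and it intertwines coordinatewise maps.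
Consequence (`h48_rel_core`): a polynomial relation `s² - c s + d = 0` for a coordinatewise map on
the reduced curve lifts to torsion points over `K`.
-/

set_option autoImplicit false
set_option linter.unusedSectionVars false
set_option linter.unusedVariables false

namespace Fermat.Agent.S41

open WeierstrassCurve WeierstrassCurve.Affine Fermat.Agent.S05

section slopes

variable {R F : Type*} [CommRing R] [Field F] [DecidableEq F] (W : WeierstrassCurve R)
  (f : R →+* F)

theorem h48_slope_chord (a₁ b₁ a₂ b₂ v : R) (hne : f a₁ ≠ f a₂) (hv : (a₁ - a₂) * v = 1) :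
    (W.map f).toAffine.slope (f a₁) (f a₂) (f b₁) (f b₂) = f ((b₁ - b₂) * v) := by
  rw [slope_of_X_ne hne, div_eq_iff (sub_ne_zero.mpr hne)]
  have h := congrArg f hv
  simp only [map_mul, map_sub, map_one] at h ⊢
  linear_combination (-(f b₁ - f b₂)) * h

theorem h48_slope_tangent (a b v : R)
    (hne : f b ≠ (W.map f).toAffine.negY (f a) (f b))
    (hv : (b - W.toAffine.negY a b) * v = 1) :
    (W.map f).toAffine.slope (f a) (f a) (f b) (f b) =
      f ((3 * a ^ 2 + 2 * W.a₂ * a + W.a₄ - W.a₁ * b) * v) := by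
  rw [slope_of_Y_ne rfl hne, div_eq_iff (sub_ne_zero.mpr hne)]
  have h := congrArg f hv
  rw [map_negY]
  simp only [map_mul, map_sub, map_one, map_add, map_pow, map_ofNat, WeierstrassCurve.map_a₁,
    WeierstrassCurve.map_a₂, WeierstrassCurve.map_a₄] at h ⊢
  linear_combination
    (-(3 * f a ^ 2 + 2 * f W.a₂ * f a + f W.a₄ - f W.a₁ * f b)) * h

end slopes

section red

variable {K : Type*} [Field K] [DecidableEq K] (A : ValuationSubring K)
  [DecidableEq (IsLocalRing.ResidueField A)] (WA : WeierstrassCurve A)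

theorem h48_integral : h18_Integral A (WA.map A.subtype).toAffine :=
  ⟨WA.a₁.2, WA.a₂.2, WA.a₃.2, WA.a₄.2, WA.a₆.2⟩

theorem h48_integral86 : h86_Integral A (WA.map A.subtype) :=
  ⟨WA.a₁.2, WA.a₂.2, WA.a₃.2, WA.a₄.2, WA.a₆.2⟩

theorem h48_residue_eq_zero_iff (a : A) :
    IsLocalRing.residue A a = 0 ↔ (a : K) ∈ A.nonunits := by
  rw [IsLocalRing.residue_eq_zero_iff, ValuationSubring.coe_mem_nonunits_iff]

theorem h48_residue_ne_zero_iff (a : A) :
    IsLocalRing.residue A a ≠ 0 ↔ ∃ v : A, a * v = 1 := by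
  rw [Ne, IsLocalRing.residue_eq_zero_iff, IsLocalRing.notMem_maximalIdeal]
  exact isUnit_iff_exists_inv

variable {A WA}

theorem h48_Δ_notMem (hΔ : IsUnit WA.Δ) : (WA.map A.subtype).Δ ∉ A.nonunits := by
  rw [WeierstrassCurve.map_Δ]
  intro h
  have h1 : ((WA.Δ : A) : K) ∈ A.nonunits := h
  rw [ValuationSubring.coe_mem_nonunits_iff] at h1
  exact (IsLocalRing.notMem_maximalIdeal.mpr hΔ) h1

theorem h48_Δ_ne_zero (hΔ : IsUnit WA.Δ) : (WA.map (IsLocalRing.residue A)).Δ ≠ 0 := by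
  rw [WeierstrassCurve.map_Δ]
  exact (hΔ.map (IsLocalRing.residue A)).ne_zero

/-- the reduction of an integral affine point is a nonsingular point of the reduced curve -/
theorem h48_nonsingular_red (hΔ : IsUnit WA.Δ) {a b : A}
    (h : (WA.map A.subtype).toAffine.Equation (A.subtype a) (A.subtype b)) :
    (WA.map (IsLocalRing.residue A)).toAffine.Nonsingular
      (IsLocalRing.residue A a) (IsLocalRing.residue A b) :=
  (equation_iff_nonsingular_of_Δ_ne_zero (h48_Δ_ne_zero hΔ)).mp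
    (Equation.map (IsLocalRing.residue A)
      ((map_equation WA.toAffine (f := A.subtype) Subtype.val_injective a b).mp h))

theorem h48_y_mem {x y : K} (h : (WA.map A.subtype).toAffine.Nonsingular x y) (hx : x ∈ A) :
    y ∈ A :=
  h18_y_mem (h48_integral A WA) h.1 hx

open scoped Classical in
variable (A WA) in
/-- The reduction map on points (zero on the kernel of reduction). -/
noncomputable def h48_red (hΔ : IsUnit WA.Δ) :
    (WA.map A.subtype).toAffine.Point → (WA.map (IsLocalRing.residue A)).toAffine.Point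
  | .zero => 0
  | .some x y h =>
    if hx : x ∈ A then
      .some (IsLocalRing.residue A ⟨x, hx⟩) (IsLocalRing.residue A ⟨y, h48_y_mem h hx⟩)
        (h48_nonsingular_red hΔ (a := ⟨x, hx⟩) (b := ⟨y, h48_y_mem h hx⟩) h.1)
    else 0

theorem h48_red_zero (hΔ : IsUnit WA.Δ) : h48_red A WA hΔ 0 = 0 := rfl

theorem h48_red_some (hΔ : IsUnit WA.Δ) {x y : K}
    (h : (WA.map A.subtype).toAffine.Nonsingular x y) (a b : A) (hx : x = a) (hy : y = b) :
    ∃ h', h48_red A WA hΔ (.some x y h) =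
      .some (IsLocalRing.residue A a) (IsLocalRing.residue A b) h' := by
  subst hx hy
  refine ⟨h48_nonsingular_red hΔ h.1, ?_⟩
  simp only [h48_red]
  rw [dif_pos a.2]

theorem h48_red_some_of_notMem (hΔ : IsUnit WA.Δ) {x y : K}
    (h : (WA.map A.subtype).toAffine.Nonsingular x y) (hx : x ∉ A) :
    h48_red A WA hΔ (.some x y h) = 0 := by
  simp only [h48_red]
  rw [dif_neg hx]

theorem h48_red_eq_zero (hΔ : IsUnit WA.Δ) {P : (WA.map A.subtype).toAffine.Point}
    (h0 : h48_red A WA hΔ P = 0) :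
    P = 0 ∨ ∃ (x y : K) (h : (WA.map A.subtype).toAffine.Nonsingular x y),
      P = Point.some x y h ∧ x ∉ A := by
  rcases P with _ | ⟨x, y, h⟩
  · exact Or.inl rfl
  · right
    refine ⟨x, y, h, rfl, fun hx => ?_⟩
    obtain ⟨h', e⟩ := h48_red_some hΔ h ⟨x, hx⟩ ⟨y, h48_y_mem h hx⟩ rfl rfl
    rw [e] at h0
    exact Point.some_ne_zero _ h0

end red

section add

variable {K : Type*} [Field K] [DecidableEq K] {A : ValuationSubring K}
  [DecidableEq (IsLocalRing.ResidueField A)] {WA : WeierstrassCurve A}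

/-- two points of a subgroup meeting the kernel of reduction trivially which are congruent
modulo the maximal ideal are equal -/
theorem h48_eq_of_congr (hΔ : IsUnit WA.Δ) (T : AddSubgroup (WA.map A.subtype).toAffine.Point)
    (hT : ∀ P ∈ T, (P = 0 ∨ ∃ (x y : K) (h : (WA.map A.subtype).toAffine.Nonsingular x y),
      P = Point.some x y h ∧ x ∉ A) → P = 0)
    {x₁ y₁ x₂ y₂ : K} (h₁ : (WA.map A.subtype).toAffine.Nonsingular x₁ y₁)
    (h₂ : (WA.map A.subtype).toAffine.Nonsingular x₂ y₂)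
    (hP : Point.some x₁ y₁ h₁ ∈ T) (hQ : Point.some x₂ y₂ h₂ ∈ T)
    (hx₂ : x₂ ∈ A) (hxx : x₁ - x₂ ∈ A.nonunits) (hyy : y₁ - y₂ ∈ A.nonunits) :
    Point.some x₁ y₁ h₁ = Point.some x₂ y₂ h₂ := by
  have hy₂ := h48_y_mem h₂ hx₂
  have hns := h18_nonsingular_reduction_of_Δ_unit (h48_integral A WA) (h48_Δ_notMem hΔ) h₂.1 hx₂
  have key := h18_sub_mem_E1 (h48_integral A WA) h₂ h₁ hx₂ hy₂ hxx hyy hns
  exact sub_eq_zero.mp (hT _ (T.sub_mem hP hQ) key)

/-- the generic case of additivity: the slope is integral and reduces to the slope -/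
theorem h48_red_add_generic (hΔ : IsUnit WA.Δ) {a₁ b₁ a₂ b₂ l : A}
    (h₁ : (WA.map A.subtype).toAffine.Nonsingular (a₁ : K) (b₁ : K))
    (h₂ : (WA.map A.subtype).toAffine.Nonsingular (a₂ : K) (b₂ : K))
    (k₁ : (WA.map (IsLocalRing.residue A)).toAffine.Nonsingular
      (IsLocalRing.residue A a₁) (IsLocalRing.residue A b₁))
    (k₂ : (WA.map (IsLocalRing.residue A)).toAffine.Nonsingular
      (IsLocalRing.residue A a₂) (IsLocalRing.residue A b₂))
    (hK : ¬ ((a₁ : K) = a₂ ∧ (b₁ : K) = (WA.map A.subtype).toAffine.negY a₂ b₂))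
    (hk : ¬ (IsLocalRing.residue A a₁ = IsLocalRing.residue A a₂ ∧ IsLocalRing.residue A b₁ =
      (WA.map (IsLocalRing.residue A)).toAffine.negY (IsLocalRing.residue A a₂)
        (IsLocalRing.residue A b₂)))
    (hsK : (WA.map A.subtype).toAffine.slope (a₁ : K) a₂ b₁ b₂ = (l : K))
    (hsk : (WA.map (IsLocalRing.residue A)).toAffine.slope (IsLocalRing.residue A a₁)
      (IsLocalRing.residue A a₂) (IsLocalRing.residue A b₁) (IsLocalRing.residue A b₂) =
        IsLocalRing.residue A l) :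
    h48_red A WA hΔ (Point.some _ _ h₁ + Point.some _ _ h₂) =
      Point.some _ _ k₁ + Point.some _ _ k₂ := by
  rw [Point.add_some hK, Point.add_some hk]
  obtain ⟨k₃, e₃⟩ := h48_red_some hΔ (nonsingular_add h₁ h₂ hK) (WA.toAffine.addX a₁ a₂ l)
    (WA.toAffine.addY a₁ a₂ b₁ l)
    (by rw [hsK]; exact map_addX (W' := WA.toAffine) A.subtype a₁ a₂ l)
    (by rw [hsK]; exact map_addY (W' := WA.toAffine) A.subtype a₁ b₁ a₂ l)
  rw [e₃]
  simp only [Point.some.injEq]
  rw [hsk]
  exact ⟨(map_addX (W' := WA.toAffine) (IsLocalRing.residue A) a₁ a₂ l).symm,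
    (map_addY (W' := WA.toAffine) (IsLocalRing.residue A) a₁ b₁ a₂ l).symm⟩

/-- **Additivity of reduction** on a subgroup meeting the kernel of reduction trivially. -/
theorem h48_red_add (hΔ : IsUnit WA.Δ) (T : AddSubgroup (WA.map A.subtype).toAffine.Point)
    (hT : ∀ P ∈ T, (P = 0 ∨ ∃ (x y : K) (h : (WA.map A.subtype).toAffine.Nonsingular x y),
      P = Point.some x y h ∧ x ∉ A) → P = 0)
    {P Q : (WA.map A.subtype).toAffine.Point} (hP : P ∈ T) (hQ : Q ∈ T) :
    h48_red A WA hΔ (P + Q) = h48_red A WA hΔ P + h48_red A WA hΔ Q := by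
  rcases P with _ | ⟨x₁, y₁, h₁⟩
  · rw [← Point.zero_def, zero_add, h48_red_zero, zero_add]
  rcases Q with _ | ⟨x₂, y₂, h₂⟩
  · rw [← Point.zero_def, add_zero, h48_red_zero, add_zero]
  have hx₁ : x₁ ∈ A := by
    by_contra hx
    exact Point.some_ne_zero _ (hT _ hP (Or.inr ⟨x₁, y₁, h₁, rfl, hx⟩))
  have hx₂ : x₂ ∈ A := by
    by_contra hx
    exact Point.some_ne_zero _ (hT _ hQ (Or.inr ⟨x₂, y₂, h₂, rfl, hx⟩))
  have hy₁ := h48_y_mem h₁ hx₁
  have hy₂ := h48_y_mem h₂ hx₂
  obtain ⟨a₁, rfl⟩ : ∃ a : A, (a : K) = x₁ := ⟨⟨x₁, hx₁⟩, rfl⟩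
  obtain ⟨b₁, rfl⟩ : ∃ b : A, (b : K) = y₁ := ⟨⟨y₁, hy₁⟩, rfl⟩
  obtain ⟨a₂, rfl⟩ : ∃ a : A, (a : K) = x₂ := ⟨⟨x₂, hx₂⟩, rfl⟩
  obtain ⟨b₂, rfl⟩ : ∃ b : A, (b : K) = y₂ := ⟨⟨y₂, hy₂⟩, rfl⟩
  obtain ⟨k₁, e₁⟩ := h48_red_some hΔ h₁ a₁ b₁ rfl rfl
  obtain ⟨k₂, e₂⟩ := h48_red_some hΔ h₂ a₂ b₂ rfl rfl
  rw [e₁, e₂]
  have eK : ∀ a b : A, (WA.map A.subtype).toAffine.negY (a : K) (b : K) =
      ((WA.toAffine.negY a b : A) : K) := fun a b => map_negY (W' := WA.toAffine) A.subtype a b
  have ek : ∀ a b : A, (WA.map (IsLocalRing.residue A)).toAffine.negY (IsLocalRing.residue A a)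
      (IsLocalRing.residue A b) = IsLocalRing.residue A (WA.toAffine.negY a b) :=
    fun a b => map_negY (W' := WA.toAffine) (IsLocalRing.residue A) a b
  have hcong : ∀ a a' : A, IsLocalRing.residue A a = IsLocalRing.residue A a' →
      (a : K) - (a' : K) ∈ A.nonunits := by
    intro a a' h
    have h0 : IsLocalRing.residue A (a - a') = 0 := by rw [map_sub, h, sub_self]
    exact (h48_residue_eq_zero_iff A (a - a')).mp h0
  by_cases hx : IsLocalRing.residue A a₁ = IsLocalRing.residue A a₂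
  · by_cases hyn : IsLocalRing.residue A b₁ =
        (WA.map (IsLocalRing.residue A)).toAffine.negY (IsLocalRing.residue A a₂)
          (IsLocalRing.residue A b₂)
    · -- `P ≡ -Q`, so `P = -Q`
      have hQ' : Point.some _ _ ((nonsingular_neg _ _).mpr h₂) ∈ T := by
        have hneg := T.neg_mem hQ
        rwa [Point.neg_some] at hneg
      have hPQ := h48_eq_of_congr hΔ T hT h₁ ((nonsingular_neg _ _).mpr h₂) hP hQ' a₂.2
        (hcong a₁ a₂ hx) (by rw [eK]; exact hcong _ _ (by rw [hyn, ek]))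
      rw [hPQ, Point.add_of_Y_eq rfl rfl, h48_red_zero, Point.add_of_Y_eq hx hyn]
    · -- `P ≡ Q`, so `P = Q`, and the tangent slope is integral
      have hy : IsLocalRing.residue A b₁ = IsLocalRing.residue A b₂ :=
        (Y_eq_of_X_eq k₁.1 k₂.1 hx).resolve_right hyn
      have hPQ := h48_eq_of_congr hΔ T hT h₁ h₂ hP hQ a₂.2 (hcong a₁ a₂ hx) (hcong b₁ b₂ hy)
      obtain ⟨rfl, rfl⟩ : a₁ = a₂ ∧ b₁ = b₂ := by
        simp only [Point.some.injEq] at hPQ
        exact ⟨Subtype.ext hPQ.1, Subtype.ext hPQ.2⟩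
      rw [ek] at hyn
      have hne : IsLocalRing.residue A (b₁ - WA.toAffine.negY a₁ b₁) ≠ 0 := by
        rw [map_sub]; exact sub_ne_zero.mpr hyn
      obtain ⟨v, hv⟩ := (h48_residue_ne_zero_iff A _).mp hne
      have hKne : (b₁ : K) ≠ (WA.map A.subtype).toAffine.negY (a₁ : K) (b₁ : K) := by
        rw [eK]
        intro h
        exact hyn (congrArg _ (Subtype.ext h))
      have hsK : (WA.map A.subtype).toAffine.slope (a₁ : K) (a₁ : K) (b₁ : K) (b₁ : K) =
          (((3 * a₁ ^ 2 + 2 * WA.a₂ * a₁ + WA.a₄ - WA.a₁ * b₁) * v : A) : K) :=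
        h48_slope_tangent WA A.subtype a₁ b₁ v hKne hv
      have hsk := h48_slope_tangent WA (IsLocalRing.residue A) a₁ b₁ v (by rw [ek]; exact hyn) hv
      exact h48_red_add_generic hΔ h₁ h₂ k₁ k₂ (fun h => hKne h.2)
        (fun h => hyn (by rw [← ek]; exact h.2)) hsK hsk
  · -- distinct `x` modulo the maximal ideal: the chord slope is integral
    have hne : IsLocalRing.residue A (a₁ - a₂) ≠ 0 := by
      rw [map_sub]; exact sub_ne_zero.mpr hx
    obtain ⟨v, hv⟩ := (h48_residue_ne_zero_iff A _).mp hne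
    have hKne : (a₁ : K) ≠ (a₂ : K) := fun h => hx (congrArg _ (Subtype.ext h))
    exact h48_red_add_generic (l := (b₁ - b₂) * v) hΔ h₁ h₂ k₁ k₂ (fun h => hKne h.1)
      (fun h => hx h.1)
      (h48_slope_chord WA A.subtype a₁ b₁ a₂ b₂ v hKne hv)
      (h48_slope_chord WA (IsLocalRing.residue A) a₁ b₁ a₂ b₂ v hx hv)

end add

section rel

variable {K : Type*} [Field K] [DecidableEq K] {A : ValuationSubring K}
  [DecidableEq (IsLocalRing.ResidueField A)] {WA : WeierstrassCurve A}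

/-- reduction intertwines coordinatewise maps which are compatible modulo the maximal ideal -/
theorem h48_red_equivariant (hΔ : IsUnit WA.Δ)
    (sK : (WA.map A.subtype).toAffine.Point → (WA.map A.subtype).toAffine.Point) (f : K → K)
    (hsK0 : sK 0 = 0)
    (hsK : ∀ (x y : K) (h : (WA.map A.subtype).toAffine.Nonsingular x y),
      ∃ h', sK (Point.some x y h) = Point.some (f x) (f y) h')
    (hfA : ∀ x : K, f x ∈ A ↔ x ∈ A)
    (sk : (WA.map (IsLocalRing.residue A)).toAffine.Point →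
      (WA.map (IsLocalRing.residue A)).toAffine.Point)
    (g : IsLocalRing.ResidueField A → IsLocalRing.ResidueField A)
    (hsk0 : sk 0 = 0)
    (hsk : ∀ (x y : IsLocalRing.ResidueField A)
      (h : (WA.map (IsLocalRing.residue A)).toAffine.Nonsingular x y),
      ∃ h', sk (Point.some x y h) = Point.some (g x) (g y) h')
    (hfg : ∀ (a : A) (ha : f a ∈ A),
      IsLocalRing.residue A ⟨f a, ha⟩ = g (IsLocalRing.residue A a))
    (P : (WA.map A.subtype).toAffine.Point) :
    h48_red A WA hΔ (sK P) = sk (h48_red A WA hΔ P) := by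
  rcases P with _ | ⟨x, y, h⟩
  · rw [← Point.zero_def, hsK0, h48_red_zero, hsk0]
  obtain ⟨h', e⟩ := hsK x y h
  rw [e]
  by_cases hx : x ∈ A
  · have hy := h48_y_mem h hx
    have hfx : f x ∈ A := (hfA x).mpr hx
    have hfy : f y ∈ A := (hfA y).mpr hy
    obtain ⟨k, ek⟩ := h48_red_some hΔ h ⟨x, hx⟩ ⟨y, hy⟩ rfl rfl
    obtain ⟨k', ek'⟩ := h48_red_some hΔ h' ⟨f x, hfx⟩ ⟨f y, hfy⟩ rfl rfl
    obtain ⟨k'', ek''⟩ := hsk _ _ k
    rw [ek, ek', ek'']
    simp only [Point.some.injEq]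
    exact ⟨hfg ⟨x, hx⟩ hfx, hfg ⟨y, hy⟩ hfy⟩
  · rw [h48_red_some_of_notMem hΔ h hx,
      h48_red_some_of_notMem hΔ h' (fun hh => hx ((hfA x).mp hh)), hsk0]

/-- **Lifting a quadratic relation.**  If a coordinatewise map `sk` of the reduced curve satisfies
`sk² - c sk + d = 0`, then a coordinatewise additive map `sK` over `K` which reduces to `sk`
satisfies the same relation on `n`-torsion points, `n` a unit of `A`. -/
theorem h48_rel_core (hΔ : IsUnit WA.Δ) (n : ℕ) (hn : (n : K) ∉ A.nonunits)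
    (sK : (WA.map A.subtype).toAffine.Point →+ (WA.map A.subtype).toAffine.Point) (f : K → K)
    (hsK : ∀ (x y : K) (h : (WA.map A.subtype).toAffine.Nonsingular x y),
      ∃ h', sK (Point.some x y h) = Point.some (f x) (f y) h')
    (hfA : ∀ x : K, f x ∈ A ↔ x ∈ A)
    (sk : (WA.map (IsLocalRing.residue A)).toAffine.Point →
      (WA.map (IsLocalRing.residue A)).toAffine.Point)
    (g : IsLocalRing.ResidueField A → IsLocalRing.ResidueField A)
    (hsk0 : sk 0 = 0)
    (hsk : ∀ (x y : IsLocalRing.ResidueField A)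
      (h : (WA.map (IsLocalRing.residue A)).toAffine.Nonsingular x y),
      ∃ h', sk (Point.some x y h) = Point.some (g x) (g y) h')
    (hfg : ∀ (a : A) (ha : f a ∈ A),
      IsLocalRing.residue A ⟨f a, ha⟩ = g (IsLocalRing.residue A a))
    (c d : ℤ) (hrel : ∀ Q, sk (sk Q) - c • sk Q + d • Q = 0)
    (P : (WA.map A.subtype).toAffine.Point) (hP : n • P = 0) :
    sK (sK P) - c • sK P + d • P = 0 := by
  let T : AddSubgroup (WA.map A.subtype).toAffine.Point := (nsmulAddMonoidHom n).ker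
  have hTmem : ∀ Q, Q ∈ T ↔ n • Q = 0 := fun Q => AddMonoidHom.mem_ker
  have hT : ∀ Q ∈ T, (Q = 0 ∨ ∃ (x y : K) (h : (WA.map A.subtype).toAffine.Nonsingular x y),
      Q = Point.some x y h ∧ x ∉ A) → Q = 0 := fun Q hQ h =>
    h86_torsion_free A (WA.map A.subtype) WA.a₁.2 WA.a₂.2 WA.a₃.2 WA.a₄.2 WA.a₆.2 hn Q h
      ((hTmem Q).mp hQ)
  let r : T →+ (WA.map (IsLocalRing.residue A)).toAffine.Point :=
    AddMonoidHom.mk' (fun Q => h48_red A WA hΔ Q.1) (fun Q Q' => h48_red_add hΔ T hT Q.2 Q'.2)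
  have hr : ∀ Q : T, r Q = h48_red A WA hΔ Q.1 := fun Q => rfl
  have hP' : P ∈ T := (hTmem P).mpr hP
  have hs : ∀ Q ∈ T, sK Q ∈ T := fun Q hQ => by
    rw [hTmem] at hQ ⊢
    rw [← map_nsmul, hQ, map_zero]
  have heq := h48_red_equivariant hΔ sK f (map_zero sK) hsK hfA sk g hsk0 hsk hfg
  have hXT : sK (sK P) - c • sK P + d • P ∈ T :=
    T.add_mem (T.sub_mem (hs _ (hs _ hP')) (T.zsmul_mem (hs _ hP') c)) (T.zsmul_mem hP' d)
  have h0 : h48_red A WA hΔ (sK (sK P) - c • sK P + d • P) = 0 := by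
    have e : (⟨sK (sK P) - c • sK P + d • P, hXT⟩ : T) =
        ⟨sK (sK P), hs _ (hs _ hP')⟩ - c • ⟨sK P, hs _ hP'⟩ + d • ⟨P, hP'⟩ := rfl
    have e2 := congrArg r e
    rw [map_add, map_sub, map_zsmul, map_zsmul, hr, hr, hr, hr] at e2
    rw [e2]
    change h48_red A WA hΔ (sK (sK P)) - c • h48_red A WA hΔ (sK P) + d • h48_red A WA hΔ P = 0
    rw [heq, heq]
    exact hrel _
  exact hT _ hXT (h48_red_eq_zero hΔ h0)

end rel

end Fermat.Agent.S41
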