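import Mathlib
import Fermat.Prelude.Def_EllipticCurve_FrobeniusTrace
import Fermat.Prelude.Def_FLTPrelim_Modularity
import Fermat.Agent.S41.h48_RedCore
import Fermat.Agent.S52.h5_FrobW
import Fermat.Agent.S05.h15_VarChange
import Fermat.Agent.GAL.h14_FrobCyc

/-
helper48, project S41 block (C'3): the characteristic equation of Frobenius on the
prime-to-`ℓ` torsion of an elliptic curve over the algebraic closure of `ℚ`.

For an integral model `W`, a good prime `ℓ ≥ 5`, a place `A` over `ℓ` and a Frobenius element `σ`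
at `A`:  `σ • σ • P - a_ℓ • σ • P + ℓ • P = 0` for every point `P` with `n • P = 0`, `ℓ ∤ n`.

Exports (namespace `Fermat.Agent.S41`):
* `h48_frob_rel`          : points of `W⁄ℚ̄`, `W : WeierstrassCurve ℤ`;
* `h48_frob_rel_E`        : points of `E⁄ℚ̄` for `E : WeierstrassCurve ℚ`, `W.IsIntegralModelOf E`;
* `h48_frob_rel_torsion`  : the same on `Submodule.torsionBy ℤ (E⁄ℚ̄).Point n`;
* `h48_frob_unipotent`    : `a_ℓ ≡ 2`, `ℓ ≡ 1 (mod p)` gives `σ • σ • x - 2 • σ • x + x = 0` on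
  `E[p]`.
-/

set_option autoImplicit false
set_option linter.unusedSectionVars false
set_option linter.unusedVariables false

namespace Fermat.Agent.S41

open WeierstrassCurve WeierstrassCurve.Affine WeierstrassCurve.Affine.Point
open scoped Pointwise

/-- transport of `h48_rel_core` along equalities of curves -/
theorem h48_rel_transport {K : Type*} [Field K] [DecidableEq K] {A : ValuationSubring K}
    [DecidableEq (IsLocalRing.ResidueField A)] (WA : WeierstrassCurve A) (hΔ : IsUnit WA.Δ)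
    (WK : WeierstrassCurve K) (hK : WA.map A.subtype = WK)
    (Wk : WeierstrassCurve (IsLocalRing.ResidueField A))
    (hk : WA.map (IsLocalRing.residue A) = Wk)
    (n : ℕ) (hn : (n : K) ∉ A.nonunits)
    (sK : WK.toAffine.Point →+ WK.toAffine.Point) (f : K → K)
    (hsK : ∀ (x y : K) (h : WK.toAffine.Nonsingular x y),
      ∃ h', sK (Point.some x y h) = Point.some (f x) (f y) h')
    (hfA : ∀ x : K, f x ∈ A ↔ x ∈ A)
    (sk : Wk.toAffine.Point → Wk.toAffine.Point)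
    (g : IsLocalRing.ResidueField A → IsLocalRing.ResidueField A)
    (hsk0 : sk 0 = 0)
    (hsk : ∀ (x y : IsLocalRing.ResidueField A) (h : Wk.toAffine.Nonsingular x y),
      ∃ h', sk (Point.some x y h) = Point.some (g x) (g y) h')
    (hfg : ∀ (a : A) (ha : f a ∈ A),
      IsLocalRing.residue A ⟨f a, ha⟩ = g (IsLocalRing.residue A a))
    (c d : ℤ) (hrel : ∀ Q, sk (sk Q) - c • sk Q + d • Q = 0)
    (P : WK.toAffine.Point) (hP : n • P = 0) :
    sK (sK P) - c • sK P + d • P = 0 := by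
  subst hK hk
  exact h48_rel_core hΔ n hn sK f hsK hfA sk g hsk0 hsk hfg c d hrel P hP

theorem h48_some_congr {F : Type*} [CommRing F] {W : Affine F} {x y x' y' : F}
    (h : W.Nonsingular x y) (hx : x = x') (hy : y = y') :
    ∃ h', Point.some x y h = Point.some x' y' h' := by
  subst hx hy
  exact ⟨h, rfl⟩

/-- an element of the decomposition group preserves the valuation ring -/
theorem h48_mem_iff {K L : Type*} [Field K] [Field L] [Algebra K L] (A : ValuationSubring L)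
    (σ : L ≃ₐ[K] L) (hσ : σ ∈ A.decompositionSubgroup K) (x : L) : σ x ∈ A ↔ x ∈ A := by
  have h : σ • A = A := hσ
  constructor
  · intro hx
    have hx' : σ x ∈ σ • A := by rw [h]; exact hx
    obtain ⟨s, hs, e⟩ := (ValuationSubring.mem_smul_pointwise_iff_exists σ (σ x) A).mp hx'
    have : s = x := σ.injective e
    exact this ▸ hs
  · intro hx
    have := ValuationSubring.smul_mem_pointwise_smul σ x A hx
    rw [h] at this
    exact this

/-- an integer prime to the residue characteristic is a unit of the valuation ring -/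
theorem h48_int_isUnit {K : Type*} [Field K] (A : ValuationSubring K) (ℓ : ℕ) (hℓ : ℓ.Prime)
    (hA : (ℓ : K) ∈ A.nonunits) (m : ℤ) (hm : ¬ (ℓ : ℤ) ∣ m) : IsUnit (algebraMap ℤ A m) := by
  rw [← IsLocalRing.notMem_maximalIdeal]
  intro hmem
  have hℓm : ((ℓ : ℕ) : A) ∈ IsLocalRing.maximalIdeal A := by
    rw [← ValuationSubring.coe_mem_nonunits_iff]
    exact_mod_cast hA
  obtain ⟨u, v, huv⟩ : IsCoprime (ℓ : ℤ) m :=
    (Nat.prime_iff_prime_int.mp hℓ).irreducible.coprime_iff_not_dvd.mpr hm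
  have h1 : (1 : A) ∈ IsLocalRing.maximalIdeal A := by
    have e : (1 : A) = algebraMap ℤ A u * ((ℓ : ℕ) : A) + algebraMap ℤ A v * algebraMap ℤ A m := by
      have := congrArg (algebraMap ℤ A) huv
      simp only [map_add, map_mul, map_one, map_natCast] at this
      exact this.symm
    rw [e]
    exact Ideal.add_mem _ (Ideal.mul_mem_left _ _ hℓm) (Ideal.mul_mem_left _ _ hmem)
  exact (Ideal.ne_top_iff_one _).mp (IsLocalRing.maximalIdeal.isMaximal A).ne_top h1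

/-- **Frobenius relation, abstract form.**  `WK` is a Weierstrass curve over `ℚ̄` equal to the
base change of the integral model `W`, and `sK` an additive map on its points which acts as `σ`
on coordinates. -/
theorem h48_frob_rel_aux (W : WeierstrassCurve ℤ) (WK : WeierstrassCurve (AlgebraicClosure ℚ))
    (hWK : WK = W.map (algebraMap ℤ (AlgebraicClosure ℚ)))
    (ℓ : ℕ) [Fact ℓ.Prime] (hℓ : 5 ≤ ℓ) (hgood : W.IsGoodPrimeFor ℓ)
    (A : ValuationSubring (AlgebraicClosure ℚ)) (hA : A.LiesOverPrime ℓ)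
    (σ : AlgebraicClosure ℚ ≃ₐ[ℚ] AlgebraicClosure ℚ) (hσ : A.IsFrobeniusAt σ ℓ)
    (n : ℕ) (hn : ¬ ℓ ∣ n)
    (sK : WK.toAffine.Point →+ WK.toAffine.Point)
    (hsK : ∀ (x y : AlgebraicClosure ℚ) (h : WK.toAffine.Nonsingular x y),
      ∃ h', sK (Point.some x y h) = Point.some (σ x) (σ y) h')
    (P : WK.toAffine.Point) (hP : n • P = 0) :
    sK (sK P) - W.apOfModel ℓ • sK P + (ℓ : ℤ) • P = 0 := by
  classical
  have hℓp : ℓ.Prime := Fact.out
  have hℓm : ((ℓ : ℕ) : A) ∈ IsLocalRing.maximalIdeal A := by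
    rw [← ValuationSubring.coe_mem_nonunits_iff]
    exact_mod_cast hA
  have hchar : CharP (IsLocalRing.ResidueField A) ℓ := by
    rw [CharP.charP_iff_prime_eq_zero hℓp]
    have h0 := (IsLocalRing.residue_eq_zero_iff _).mpr hℓm
    rwa [map_natCast] at h0
  let _ : Algebra (ZMod ℓ) (IsLocalRing.ResidueField A) := ZMod.algebra _ ℓ
  have hΔ : IsUnit (W.map (algebraMap ℤ A)).Δ := by
    rw [WeierstrassCurve.map_Δ]
    exact h48_int_isUnit A ℓ hℓp hA W.Δ hgood
  have hK : (W.map (algebraMap ℤ A)).map A.subtype = WK := by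
    have e : A.subtype.comp (algebraMap ℤ A) = algebraMap ℤ (AlgebraicClosure ℚ) :=
      RingHom.ext_int _ _
    rw [hWK, WeierstrassCurve.map_map, e]
  have hk : (W.map (algebraMap ℤ A)).map (IsLocalRing.residue A) =
      (W.reductionMod ℓ)⁄(IsLocalRing.ResidueField A) := by
    have e : (IsLocalRing.residue A).comp (algebraMap ℤ A) =
        (algebraMap (ZMod ℓ) (IsLocalRing.ResidueField A)).comp (Int.castRingHom (ZMod ℓ)) :=
      RingHom.ext_int _ _
    change (W.map (algebraMap ℤ A)).map (IsLocalRing.residue A) =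
      (W.map (Int.castRingHom (ZMod ℓ))).map (algebraMap (ZMod ℓ) (IsLocalRing.ResidueField A))
    rw [WeierstrassCurve.map_map, WeierstrassCurve.map_map, e]
  have hnA : ((n : ℕ) : AlgebraicClosure ℚ) ∉ A.nonunits := by
    have hu := h48_int_isUnit A ℓ hℓp hA (n : ℤ) (by rwa [Int.natCast_dvd_natCast])
    intro hmem
    have h1 : ((algebraMap ℤ A (n : ℤ) : A) : AlgebraicClosure ℚ) ∈ A.nonunits := by
      simpa using hmem
    rw [ValuationSubring.coe_mem_nonunits_iff] at h1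
    exact (IsLocalRing.notMem_maximalIdeal.mpr hu) h1
  have hfrob : ∀ x : IsLocalRing.ResidueField A,
      FiniteField.frobeniusAlgHom (ZMod ℓ) (IsLocalRing.ResidueField A) x = x ^ ℓ := by
    intro x
    rw [FiniteField.frobeniusAlgHom_apply, ZMod.card]
  exact h48_rel_transport (W.map (algebraMap ℤ A)) hΔ WK hK _ hk n hnA sK σ hsK
    (h48_mem_iff A σ hσ.mem_decompositionSubgroup)
    (Point.map (W' := (W.reductionMod ℓ).toAffine)
      (FiniteField.frobeniusAlgHom (ZMod ℓ) (IsLocalRing.ResidueField A)))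
    (fun x => x ^ ℓ) rfl
    (fun x y h => by
      rw [Point.map_some (W' := (W.reductionMod ℓ).toAffine)
        (FiniteField.frobeniusAlgHom (ZMod ℓ) (IsLocalRing.ResidueField A)) h]
      exact h48_some_congr _ (hfrob x) (hfrob y))
    (fun a ha => by
      have h1 := Fermat.Agent.GAL.h14_frob_sub_pow_mem A ℓ σ hσ (a : AlgebraicClosure ℚ) a.2
      have h2 : (((⟨σ a, ha⟩ : A) - a ^ ℓ : A) : AlgebraicClosure ℚ) ∈ A.nonunits := by
        simpa using h1
      rw [ValuationSubring.coe_mem_nonunits_iff, ← IsLocalRing.residue_eq_zero_iff, map_sub,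
        map_pow, sub_eq_zero] at h2
      exact h2)
    (W.apOfModel ℓ) (ℓ : ℤ)
    (fun Q => Fermat.Agent.S52.h5_frob_charpoly_int W ℓ hℓ hgood Q) P hP

/-- **Frobenius relation on prime-to-`ℓ` torsion**, integral model. -/
theorem h48_frob_rel (W : WeierstrassCurve ℤ) (ℓ : ℕ) [Fact ℓ.Prime] (hℓ : 5 ≤ ℓ)
    (hgood : W.IsGoodPrimeFor ℓ)
    (A : ValuationSubring (AlgebraicClosure ℚ)) (hA : A.LiesOverPrime ℓ)
    (σ : AlgebraicClosure ℚ ≃ₐ[ℚ] AlgebraicClosure ℚ) (hσ : A.IsFrobeniusAt σ ℓ)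
    (n : ℕ) (hn : ¬ ℓ ∣ n) (P : (W.toAffine⁄(AlgebraicClosure ℚ)).Point) (hP : n • P = 0) :
    σ • σ • P - W.apOfModel ℓ • σ • P + (ℓ : ℤ) • P = 0 :=
  h48_frob_rel_aux W (W⁄(AlgebraicClosure ℚ)) rfl ℓ hℓ hgood A hA σ hσ n hn
    (Point.map (W' := W.toAffine) σ.toAlgHom)
    (fun x y h => ⟨_, Point.map_some (W' := W.toAffine) σ.toAlgHom h⟩) P hP

/-- **Frobenius relation on prime-to-`ℓ` torsion**, a rational curve whose base change is that of
the integral model. -/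
theorem h48_frob_rel_rat (E' : WeierstrassCurve ℚ) (W : WeierstrassCurve ℤ)
    (hE' : E' = W.map (Int.castRingHom ℚ)) (ℓ : ℕ) [Fact ℓ.Prime] (hℓ : 5 ≤ ℓ)
    (hgood : W.IsGoodPrimeFor ℓ)
    (A : ValuationSubring (AlgebraicClosure ℚ)) (hA : A.LiesOverPrime ℓ)
    (σ : AlgebraicClosure ℚ ≃ₐ[ℚ] AlgebraicClosure ℚ) (hσ : A.IsFrobeniusAt σ ℓ)
    (n : ℕ) (hn : ¬ ℓ ∣ n) (P : (E'.toAffine⁄(AlgebraicClosure ℚ)).Point) (hP : n • P = 0) :
    σ • σ • P - W.apOfModel ℓ • σ • P + (ℓ : ℤ) • P = 0 := by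
  have hWK : E'⁄(AlgebraicClosure ℚ) = W.map (algebraMap ℤ (AlgebraicClosure ℚ)) := by
    have e : (algebraMap ℚ (AlgebraicClosure ℚ)).comp (Int.castRingHom ℚ) =
        algebraMap ℤ (AlgebraicClosure ℚ) := RingHom.ext_int _ _
    change E'.map (algebraMap ℚ (AlgebraicClosure ℚ)) = _
    rw [hE', WeierstrassCurve.map_map, e]
  exact h48_frob_rel_aux W (E'⁄(AlgebraicClosure ℚ)) hWK ℓ hℓ hgood A hA σ hσ n hn
    (Point.map (W' := E'.toAffine) σ.toAlgHom)
    (fun x y h => ⟨_, Point.map_some (W' := E'.toAffine) σ.toAlgHom h⟩) P hP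

/-- **Frobenius relation on prime-to-`ℓ` torsion** of `E⁄ℚ̄` for a rational curve `E` with
integral model `W`. -/
theorem h48_frob_rel_E (E : WeierstrassCurve ℚ) {W : WeierstrassCurve ℤ}
    (hW : W.IsIntegralModelOf E) (ℓ : ℕ) [Fact ℓ.Prime] (hℓ : 5 ≤ ℓ)
    (hgood : W.IsGoodPrimeFor ℓ)
    (A : ValuationSubring (AlgebraicClosure ℚ)) (hA : A.LiesOverPrime ℓ)
    (σ : AlgebraicClosure ℚ ≃ₐ[ℚ] AlgebraicClosure ℚ) (hσ : A.IsFrobeniusAt σ ℓ)
    (n : ℕ) (hn : ¬ ℓ ∣ n) (P : (E.toAffine⁄(AlgebraicClosure ℚ)).Point) (hP : n • P = 0) :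
    σ • σ • P - W.apOfModel ℓ • σ • P + (ℓ : ℤ) • P = 0 := by
  obtain ⟨C, hC⟩ := hW
  have he : ∀ (τ : AlgebraicClosure ℚ ≃ₐ[ℚ] AlgebraicClosure ℚ)
      (Q : ((C • E).toAffine⁄(AlgebraicClosure ℚ)).Point),
      Fermat.Agent.S05.h15_vcEquivBase (K := AlgebraicClosure ℚ) E C (τ • Q) =
        τ • Fermat.Agent.S05.h15_vcEquivBase (K := AlgebraicClosure ℚ) E C Q :=
    fun τ Q => Fermat.Agent.S05.h15_vcEquivBase_smul E C τ Q
  obtain ⟨Q, rfl⟩ := (Fermat.Agent.S05.h15_vcEquivBase (K := AlgebraicClosure ℚ) E C).surjective P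
  have hQ : n • Q = 0 := by
    apply (Fermat.Agent.S05.h15_vcEquivBase (K := AlgebraicClosure ℚ) E C).injective
    rw [map_nsmul, hP, _root_.map_zero]
  have key := h48_frob_rel_rat (C • E) W hC ℓ hℓ hgood A hA σ hσ n hn Q hQ
  have key2 := congrArg (Fermat.Agent.S05.h15_vcEquivBase (K := AlgebraicClosure ℚ) E C) key
  rw [map_add, map_sub, map_zsmul, map_zsmul, he, he, _root_.map_zero] at key2
  exact key2

/-- the relation on the torsion submodule -/
theorem h48_frob_rel_torsion (E : WeierstrassCurve ℚ) {W : WeierstrassCurve ℤ}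
    (hW : W.IsIntegralModelOf E) (ℓ : ℕ) [Fact ℓ.Prime] (hℓ : 5 ≤ ℓ)
    (hgood : W.IsGoodPrimeFor ℓ)
    (A : ValuationSubring (AlgebraicClosure ℚ)) (hA : A.LiesOverPrime ℓ)
    (σ : AlgebraicClosure ℚ ≃ₐ[ℚ] AlgebraicClosure ℚ) (hσ : A.IsFrobeniusAt σ ℓ)
    (n : ℕ) (hn : ¬ ℓ ∣ n)
    (x : Submodule.torsionBy ℤ (E.toAffine⁄(AlgebraicClosure ℚ)).Point n) :
    σ • σ • x - W.apOfModel ℓ • σ • x + (ℓ : ℤ) • x = 0 := by
  apply Subtype.ext
  have hx : n • (x : (E.toAffine⁄(AlgebraicClosure ℚ)).Point) = 0 := by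
    have h1 := x.2
    rw [Submodule.mem_torsionBy_iff, natCast_zsmul] at h1
    exact h1
  exact h48_frob_rel_E E hW ℓ hℓ hgood A hA σ hσ n hn x hx

/-- **Unipotency**: if `a_ℓ ≡ 2` and `ℓ ≡ 1` modulo `p`, a Frobenius at `ℓ` satisfies
`(σ - 1)² = 0` on `E[p]`. -/
theorem h48_frob_unipotent (E : WeierstrassCurve ℚ) {W : WeierstrassCurve ℤ}
    (hW : W.IsIntegralModelOf E) (ℓ : ℕ) [Fact ℓ.Prime] (hℓ : 5 ≤ ℓ)
    (hgood : W.IsGoodPrimeFor ℓ)
    (A : ValuationSubring (AlgebraicClosure ℚ)) (hA : A.LiesOverPrime ℓ)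
    (σ : AlgebraicClosure ℚ ≃ₐ[ℚ] AlgebraicClosure ℚ) (hσ : A.IsFrobeniusAt σ ℓ)
    (p : ℕ) (hp : ¬ ℓ ∣ p) (ha : (p : ℤ) ∣ W.apOfModel ℓ - 2) (hl : (p : ℤ) ∣ (ℓ : ℤ) - 1)
    (x : Submodule.torsionBy ℤ (E.toAffine⁄(AlgebraicClosure ℚ)).Point p) :
    σ • σ • x - (2 : ℤ) • σ • x + x = 0 := by
  have key := h48_frob_rel_torsion E hW ℓ hℓ hgood A hA σ hσ p hp x
  obtain ⟨u, hu⟩ := ha
  obtain ⟨v, hv⟩ := hl
  have h1 : W.apOfModel ℓ = 2 + (p : ℤ) * u := by linarith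
  have h2 : (ℓ : ℤ) = 1 + (p : ℤ) * v := by linarith
  have hp0 : ∀ (y : Submodule.torsionBy ℤ (E.toAffine⁄(AlgebraicClosure ℚ)).Point p) (w : ℤ),
      ((p : ℤ) * w) • y = 0 := by
    intro y w
    rw [mul_comm, mul_smul, Submodule.smul_torsionBy, smul_zero]
  rw [h1, h2, add_smul, add_smul, hp0, hp0, add_zero, add_zero, one_smul] at key
  exact key

/-- the relation in the endomorphism ring of the `ZMod n`-module `E[n]` -/
theorem h48_frob_rel_end (E : WeierstrassCurve ℚ) {W : WeierstrassCurve ℤ}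
    (hW : W.IsIntegralModelOf E) (ℓ : ℕ) [Fact ℓ.Prime] (hℓ : 5 ≤ ℓ)
    (hgood : W.IsGoodPrimeFor ℓ)
    (A : ValuationSubring (AlgebraicClosure ℚ)) (hA : A.LiesOverPrime ℓ)
    (σ : AlgebraicClosure ℚ ≃ₐ[ℚ] AlgebraicClosure ℚ) (hσ : A.IsFrobeniusAt σ ℓ)
    (n : ℕ) (hn : ¬ ℓ ∣ n) :
    galoisRepModuleEnd ℚ E.toAffine n σ * galoisRepModuleEnd ℚ E.toAffine n σ
      - (W.apOfModel ℓ : ZMod n) • galoisRepModuleEnd ℚ E.toAffine n σ
      + ((ℓ : ℤ) : ZMod n) • (1 : Module.End (ZMod n)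
          (Submodule.torsionBy ℤ (E.toAffine⁄(AlgebraicClosure ℚ)).Point n)) = 0 := by
  apply LinearMap.ext
  intro x
  have key := h48_frob_rel_torsion E hW ℓ hℓ hgood A hA σ hσ n hn x
  simp only [LinearMap.add_apply, LinearMap.sub_apply, LinearMap.smul_apply, Module.End.mul_apply,
    galoisRepModuleEnd_apply, Module.End.one_apply, LinearMap.zero_apply,
    Int.cast_smul_eq_zsmul]
  exact key

/-- unipotency in the endomorphism ring of `E[p]` -/
theorem h48_frob_unipotent_end (E : WeierstrassCurve ℚ) {W : WeierstrassCurve ℤ}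
    (hW : W.IsIntegralModelOf E) (ℓ : ℕ) [Fact ℓ.Prime] (hℓ : 5 ≤ ℓ)
    (hgood : W.IsGoodPrimeFor ℓ)
    (A : ValuationSubring (AlgebraicClosure ℚ)) (hA : A.LiesOverPrime ℓ)
    (σ : AlgebraicClosure ℚ ≃ₐ[ℚ] AlgebraicClosure ℚ) (hσ : A.IsFrobeniusAt σ ℓ)
    (p : ℕ) (hp : ¬ ℓ ∣ p) (ha : (p : ℤ) ∣ W.apOfModel ℓ - 2) (hl : (p : ℤ) ∣ (ℓ : ℤ) - 1) :
    (galoisRepModuleEnd ℚ E.toAffine p σ - 1) * (galoisRepModuleEnd ℚ E.toAffine p σ - 1) = 0 := by
  apply LinearMap.ext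
  intro x
  have key := h48_frob_unipotent E hW ℓ hℓ hgood A hA σ hσ p hp ha hl x
  simp only [LinearMap.sub_apply, Module.End.mul_apply, galoisRepModuleEnd_apply,
    Module.End.one_apply, LinearMap.zero_apply, map_sub]
  rw [← key, two_smul]
  abel

end Fermat.Agent.S41
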