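import Mathlib
import Fermat.Prelude.Def_FLTPrelim_GaloisRep

/-!
# S41 (C'): a finite Galois level for `E[p]`

`c_field`: for an elliptic curve `E / ℚ` with finite `p`-torsion over `ℚ̄` and a finite set
`T ⊆ ℚ̄` there is a finite Galois extension `L / ℚ` inside `ℚ̄` containing `T` such that two
automorphisms of `ℚ̄` agreeing on `L` act in the same way on `E[p]`.
(`L` is the normal closure of `ℚ(T, coordinates of the points of E[p])`.)
-/

set_option autoImplicit false

open WeierstrassCurve WeierstrassCurve.Affine WeierstrassCurve.Affine.Point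

namespace Fermat.Agent.S41

/-- The coordinates of an affine point (empty for the point at infinity). -/
def h16_coords {K : Type*} [Field K] {W : Affine K} : W.Point → Set K
  | .zero => ∅
  | .some x y _ => {x, y}

theorem h16_coords_finite {K : Type*} [Field K] {W : Affine K} (P : W.Point) :
    (h16_coords P).Finite := by
  cases P with
  | zero => exact Set.finite_empty
  | some x y h => exact Set.toFinite {x, y}

/-- Two automorphisms agreeing on the coordinates of a point act equally on it. -/
theorem h16_smul_eq_of_coords {R : Type*} {S : Type*} {K : Type*} [CommRing R] [CommRing S]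
    [Field K] [DecidableEq K] {W' : Affine R} [Algebra R S] [Algebra R K] [Algebra S K]
    [IsScalarTower R S K] (g h : K ≃ₐ[S] K) (P : (W'⁄K).Point)
    (hP : ∀ z ∈ h16_coords P, g z = h z) : g • P = h • P := by
  rw [algEquiv_smul_def, algEquiv_smul_def]
  cases P with
  | zero => rfl
  | some x y hxy =>
    have hx : g x = h x := hP x (by simp [h16_coords])
    have hy : g y = h y := hP y (by simp [h16_coords])
    simp only [Point.map_some, Point.some.injEq]
    exact ⟨hx, hy⟩

theorem c_field (E : WeierstrassCurve ℚ) [E.IsElliptic] (p : ℕ)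
    (hfin : Finite (Submodule.torsionBy ℤ (E⁄(AlgebraicClosure ℚ)).Point p))
    (T : Finset (AlgebraicClosure ℚ)) :
    ∃ L : IntermediateField ℚ (AlgebraicClosure ℚ), FiniteDimensional ℚ L ∧ IsGalois ℚ L ∧
      (∀ x ∈ T, x ∈ L) ∧
      ∀ g h : AlgebraicClosure ℚ ≃ₐ[ℚ] AlgebraicClosure ℚ, (∀ x ∈ L, g x = h x) →
        ∀ P : Submodule.torsionBy ℤ (E⁄(AlgebraicClosure ℚ)).Point p, g • P = h • P := by
  classical
  have halg : Algebra.IsAlgebraic ℚ (AlgebraicClosure ℚ) := AlgebraicClosure.isAlgebraic ℚ
  have hclo : IsAlgClosure ℚ (AlgebraicClosure ℚ) := ⟨inferInstance, inferInstance⟩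
  have hnor : Normal ℚ (AlgebraicClosure ℚ) := IsAlgClosure.normal ℚ (AlgebraicClosure ℚ)
  -- the finite set of generators
  let S₀ : Set (AlgebraicClosure ℚ) :=
    (↑T : Set (AlgebraicClosure ℚ)) ∪
      ⋃ P : Submodule.torsionBy ℤ (E⁄(AlgebraicClosure ℚ)).Point p,
        h16_coords (P : (E⁄(AlgebraicClosure ℚ)).Point)
  have hS₀ : S₀.Finite :=
    T.finite_toSet.union (Set.finite_iUnion fun P => h16_coords_finite _)
  have : Finite S₀ := hS₀
  let F : IntermediateField ℚ (AlgebraicClosure ℚ) := IntermediateField.adjoin ℚ S₀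
  have hF : FiniteDimensional ℚ F :=
    IntermediateField.finiteDimensional_adjoin fun x _ => Algebra.IsIntegral.isIntegral x
  have hFL : F ≤ IntermediateField.normalClosure ℚ F (AlgebraicClosure ℚ) :=
    IntermediateField.le_normalClosure F
  refine ⟨IntermediateField.normalClosure ℚ F (AlgebraicClosure ℚ), ?_, ?_, ?_, ?_⟩
  · exact normalClosure.is_finiteDimensional ℚ F (AlgebraicClosure ℚ)
  · have : Normal ℚ (IntermediateField.normalClosure ℚ F (AlgebraicClosure ℚ)) :=
      normalClosure.normal ℚ F (AlgebraicClosure ℚ)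
    exact ⟨⟩
  · intro x hx
    exact hFL (IntermediateField.subset_adjoin ℚ S₀ (Or.inl hx))
  · intro g h hgh P
    apply Subtype.ext
    show g • (P : (E⁄(AlgebraicClosure ℚ)).Point) = h • (P : (E⁄(AlgebraicClosure ℚ)).Point)
    apply h16_smul_eq_of_coords
    intro z hz
    exact hgh z (hFL (IntermediateField.subset_adjoin ℚ S₀
      (Or.inr (Set.mem_iUnion.mpr ⟨P, hz⟩))))

end Fermat.Agent.S41
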