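import Mathlib
import Fermat.Agent.S54.Frob
import Fermat.Agent.GAL.h14_FrobCyc

/-!
# Kummer layer for S41 (C')

`Qb = AlgebraicClosure ℚ`, `p` an odd prime, `q` a prime, `θ ^ p = q`.

* `h14_exists_fix_roots_move` (K1): if `p ∣ M` there is `g ∈ Gal(Qb/ℚ)` fixing every `M`-th root
  of unity and moving `θ`.
* `h14_frob_fix_of_pow_residue` (K2): a Frobenius lift at `ℓ ∤ p q` that fixes the `p`-th roots of
  unity fixes `θ` as soon as `q` is a `p`-th power modulo `ℓ`.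
* `h14_p_dvd_orderOf` (K3): if `p ^ (e+1) ∣ ℓ - 1`, `q` is not a `p`-th power modulo `ℓ` and
  `p ^ (e+1) ∤ k`, then `p ∣ orderOf ((q : ZMod ℓ) ^ (2 k))`.
-/

set_option autoImplicit false

namespace Fermat.Agent.S41

open Fermat.Agent.S54 Fermat.Agent.GAL Polynomial

local notation "Qb" => AlgebraicClosure ℚ

/-! ### (K1) -/

/-- A prime is not a `p`-th power of a rational number (`p ≥ 2`). -/
theorem h14_prime_ne_pow (p q : ℕ) (hp : 2 ≤ p) (hq : q.Prime) (b : ℚ) : b ^ p ≠ (q : ℚ) := by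
  intro h
  have hq0 : (q : ℚ) ≠ 0 := by exact_mod_cast hq.ne_zero
  have hb0 : b ≠ 0 := by
    rintro rfl
    rw [zero_pow (by omega)] at h
    exact hq0 h.symm
  have h1 := congrArg (padicValRat q) h
  have : Fact q.Prime := ⟨hq⟩
  rw [padicValRat.pow b] at h1
  have h2 : padicValRat q (q : ℚ) = 1 := by
    simp [padicValRat.self hq.one_lt]
  rw [h2] at h1
  have h3 : (p : ℤ) ∣ 1 := ⟨padicValRat q b, h1.symm⟩
  have h4 : (p : ℤ) ≤ 1 := Int.le_of_dvd one_pos h3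
  omega

/-- The minimal polynomial of a `p`-th root of a prime `q` has degree `p`. -/
theorem h14_finrank_adjoin_root (p q : ℕ) (hp : p.Prime) (hq : q.Prime) (θ : Qb)
    (hθ : θ ^ p = (q : Qb)) : Module.finrank ℚ (IntermediateField.adjoin ℚ {θ}) = p := by
  have hirr : Irreducible (X ^ p - C (q : ℚ)) :=
    X_pow_sub_C_irreducible_of_prime hp (h14_prime_ne_pow p q hp.two_le hq)
  have hmonic : (X ^ p - C (q : ℚ)).Monic := monic_X_pow_sub_C _ hp.ne_zero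
  have hroot : aeval θ (X ^ p - C (q : ℚ)) = 0 := by
    simp [hθ]
  have hmin : minpoly ℚ θ = X ^ p - C (q : ℚ) :=
    (minpoly.eq_of_irreducible_of_monic hirr hroot hmonic).symm
  have hint : IsIntegral ℚ θ := ⟨_, hmonic, by simpa using hroot⟩
  rw [IntermediateField.adjoin.finrank hint, hmin, natDegree_X_pow_sub_C]

/-- The field generated by a primitive `p`-th root of unity has degree `≤ p - 1`. -/
theorem h14_finrank_adjoin_zeta_le (p : ℕ) (hp : p.Prime) (ζ : Qb) (hζ : IsPrimitiveRoot ζ p) :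
    Module.finrank ℚ (IntermediateField.adjoin ℚ {ζ}) ≤ p - 1 := by
  have hint : IsIntegral ℚ ζ := hζ.isIntegral hp.pos |>.tower_top (R := ℤ)
  rw [IntermediateField.adjoin.finrank hint]
  have hroot : aeval ζ (∑ i ∈ Finset.range p, (X : ℚ[X]) ^ i) = 0 := by
    rw [map_sum]
    simp only [map_pow, aeval_X]
    have h1 : (∑ i ∈ Finset.range p, ζ ^ i) * (ζ - 1) = 0 := by
      rw [geom_sum_mul, hζ.pow_eq_one, sub_self]
    rcases mul_eq_zero.mp h1 with h2 | h2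
    · exact h2
    · exact absurd (sub_eq_zero.mp h2) (hζ.ne_one hp.one_lt)
  have hdvd := minpoly.dvd ℚ ζ hroot
  have hne : (∑ i ∈ Finset.range p, (X : ℚ[X]) ^ i) ≠ 0 := by
    intro h0
    have := congrArg (fun f => Polynomial.eval 1 f) h0
    simp [Polynomial.eval_finsetSum] at this
    exact hp.ne_zero (by exact_mod_cast this)
  have hdeg := natDegree_le_of_dvd hdvd hne
  have hdeg2 : (∑ i ∈ Finset.range p, (X : ℚ[X]) ^ i).natDegree ≤ p - 1 := by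
    apply natDegree_sum_le_of_forall_le
    intro i hi
    rw [natDegree_X_pow]
    have := Finset.mem_range.mp hi
    omega
  exact hdeg.trans hdeg2

/-- There is an automorphism fixing a primitive `p`-th root of unity and moving `θ`. -/
theorem h14_exists_fix_zeta_move (p q : ℕ) (hp : p.Prime) (hq : q.Prime) (θ ζ : Qb)
    (hθ : θ ^ p = (q : Qb)) (hζ : IsPrimitiveRoot ζ p) :
    ∃ s : Qb ≃ₐ[ℚ] Qb, s ζ = ζ ∧ s θ ≠ θ := by
  set K : IntermediateField ℚ Qb := IntermediateField.adjoin ℚ {ζ} with hK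
  have hζK : ζ ∈ K := IntermediateField.mem_adjoin_simple_self ℚ ζ
  have hθK : θ ∉ K := by
    intro hmem
    have hle : IntermediateField.adjoin ℚ {θ} ≤ K := by
      rw [IntermediateField.adjoin_le_iff]
      intro x hx
      rw [Set.mem_singleton_iff.mp hx]
      exact hmem
    have hint : IsIntegral ℚ ζ := hζ.isIntegral hp.pos |>.tower_top (R := ℤ)
    have : FiniteDimensional ℚ K := IntermediateField.adjoin.finiteDimensional hint
    have h1 := IntermediateField.finrank_le_of_le_right hle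
    rw [h14_finrank_adjoin_root p q hp hq θ hθ] at h1
    have h2 : Module.finrank ℚ K ≤ p - 1 := h14_finrank_adjoin_zeta_le p hp ζ hζ
    have := hp.pos
    omega
  have : IsGalois ℚ Qb := isGaloisQbar
  have hgal : IsGalois K Qb := inferInstance
  have hnot : θ ∉ Set.range (algebraMap K Qb) := by
    rintro ⟨x, hx⟩
    apply hθK
    rw [← hx]
    exact x.2
  rw [InfiniteGalois.mem_range_algebraMap_iff_fixed] at hnot
  simp only [not_forall] at hnot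
  obtain ⟨f, hf⟩ := hnot
  refine ⟨f.restrictScalars ℚ, ?_, ?_⟩
  · have := f.commutes ⟨ζ, hζK⟩
    simpa using this
  · simpa using hf

/-- For `p` odd there is an automorphism moving a primitive `p`-th root of unity. -/
theorem h14_exists_move_zeta (p : ℕ) (hp : p.Prime) (hp2 : p ≠ 2) (ζ : Qb)
    (hζ : IsPrimitiveRoot ζ p) : ∃ t : Qb ≃ₐ[ℚ] Qb, t ζ ≠ ζ := by
  have : IsGalois ℚ Qb := isGaloisQbar
  have hnot : ζ ∉ Set.range (algebraMap ℚ Qb) := by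
    rintro ⟨r, hr⟩
    have h1 : r ^ p = 1 := by
      have h2 : (algebraMap ℚ Qb) (r ^ p) = (algebraMap ℚ Qb) 1 := by
        rw [map_pow, hr, hζ.pow_eq_one, map_one]
      exact (algebraMap ℚ Qb).injective h2
    have hodd : Odd p := hp.odd_of_ne_two hp2
    have h3 : r = 1 := by
      have h4 : r ^ p = 1 ^ p := by rw [h1, one_pow]
      exact hodd.pow_inj.mp h4
    apply hζ.ne_one hp.one_lt
    rw [← hr, h3, map_one]
  rw [InfiniteGalois.mem_range_algebraMap_iff_fixed] at hnot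
  simp only [not_forall] at hnot
  exact hnot

/-- Two automorphisms commute on `M`-th roots of unity. -/
theorem h14_comm_on_roots (M : ℕ) (hM : M ≠ 0) (s t : Qb ≃ₐ[ℚ] Qb) (ω : Qb) (hω : ω ^ M = 1) :
    s (t ω) = t (s ω) := by
  have : NeZero M := ⟨hM⟩
  obtain ⟨m, hm⟩ := rootsOfUnity.integer_power_of_ringEquiv M (s : Qb ≃+* Qb)
  obtain ⟨k, hk⟩ := rootsOfUnity.integer_power_of_ringEquiv M (t : Qb ≃+* Qb)
  have hω0 : ω ≠ 0 := by
    rintro rfl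
    rw [zero_pow hM] at hω
    exact zero_ne_one hω
  let u : Qbˣ := Units.mk0 ω hω0
  have hu : u ∈ rootsOfUnity M Qb := by
    rw [mem_rootsOfUnity]
    ext
    simpa [u] using hω
  have hs : ∀ w : rootsOfUnity M Qb, s ((w : Qbˣ) : Qb) = (((w : Qbˣ) ^ m : Qbˣ) : Qb) :=
    fun w => hm w
  have ht : ∀ w : rootsOfUnity M Qb, t ((w : Qbˣ) : Qb) = (((w : Qbˣ) ^ k : Qbˣ) : Qb) :=
    fun w => hk w
  let U : rootsOfUnity M Qb := ⟨u, hu⟩
  have e1 : t ω = (((u ^ k : Qbˣ)) : Qb) := ht U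
  have e2 : s ω = (((u ^ m : Qbˣ)) : Qb) := hs U
  have e3 : s (((u ^ k : Qbˣ)) : Qb) = ((((u ^ k) ^ m : Qbˣ)) : Qb) := hs (U ^ k)
  have e4 : t (((u ^ m : Qbˣ)) : Qb) = ((((u ^ m) ^ k : Qbˣ)) : Qb) := ht (U ^ m)
  rw [e1, e2, e3, e4, ← zpow_mul, ← zpow_mul, mul_comm]

/-- **(K1)** If `p ∣ M`, `p` odd, `θ ^ p = q` with `q` prime, some automorphism fixes all `M`-th
roots of unity and moves `θ`. -/
theorem h14_exists_fix_roots_move (p q M : ℕ) (hp : p.Prime) (hp2 : p ≠ 2) (hq : q.Prime)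
    (hM : M ≠ 0) (hpM : p ∣ M) (θ : Qb) (hθ : θ ^ p = (q : Qb)) :
    ∃ g : Qb ≃ₐ[ℚ] Qb, (∀ ω : Qb, ω ^ M = 1 → g ω = ω) ∧ g θ ≠ θ := by
  have : NeZero p := ⟨hp.ne_zero⟩
  obtain ⟨ζ, hζ⟩ := HasEnoughRootsOfUnity.exists_primitiveRoot Qb p
  obtain ⟨s, hsζ, hsθ⟩ := h14_exists_fix_zeta_move p q hp hq θ ζ hθ hζ
  obtain ⟨t, htζ⟩ := h14_exists_move_zeta p hp hp2 ζ hζ
  have hq0 : (q : Qb) ≠ 0 := by exact_mod_cast hq.ne_zero
  have hθ0 : θ ≠ 0 := by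
    rintro rfl
    rw [zero_pow hp.ne_zero] at hθ
    exact hq0 hθ.symm
  have hζ0 : ζ ≠ 0 := hζ.ne_zero hp.ne_zero
  -- exponents
  have key : ∀ f : Qb ≃ₐ[ℚ] Qb, ∃ i, i < p ∧ f θ = ζ ^ i * θ := by
    intro f
    have h1 : (f θ * θ⁻¹) ^ p = 1 := by
      rw [mul_pow, ← map_pow, hθ, inv_pow, hθ]
      simp [hq0]
    obtain ⟨i, hi, hi2⟩ := hζ.eq_pow_of_pow_eq_one h1
    refine ⟨i, hi, ?_⟩
    rw [hi2]
    field_simp
  obtain ⟨b₀, -, hb₀⟩ := key s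
  obtain ⟨b, -, hb⟩ := key t
  obtain ⟨a, -, ha⟩ := hζ.eq_pow_of_pow_eq_one (ξ := t ζ) (by rw [← map_pow, hζ.pow_eq_one, map_one])
  have hb₀1 : ζ ^ b₀ ≠ 1 := by
    intro h1
    apply hsθ
    rw [hb₀, h1, one_mul]
  have ha1 : ζ ^ a ≠ ζ := by
    rw [ha]
    exact htζ
  -- the commutator
  refine ⟨s * t * s⁻¹ * t⁻¹, ?_, ?_⟩
  · intro ω hω
    have hω' : (s⁻¹ (t⁻¹ ω)) ^ M = 1 := by
      rw [← map_pow, ← map_pow, hω, map_one, map_one]
    have h1 := h14_comm_on_roots M hM s t _ hω'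
    show s (t (s⁻¹ (t⁻¹ ω))) = ω
    rw [h1]
    simp
  · intro hfix
    have hgζ : (s * t * s⁻¹ * t⁻¹) ζ = ζ := by
      have hζM : ζ ^ M = 1 := by
        obtain ⟨c, rfl⟩ := hpM
        rw [pow_mul, hζ.pow_eq_one, one_pow]
      have hω' : (s⁻¹ (t⁻¹ ζ)) ^ M = 1 := by
        rw [← map_pow, ← map_pow, hζM, map_one, map_one]
      have h1 := h14_comm_on_roots M hM s t _ hω'
      show s (t (s⁻¹ (t⁻¹ ζ))) = ζ
      rw [h1]
      simp
    -- evaluate the commutator on `y = t (s θ)`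
    have h2 : (s * t * s⁻¹ * t⁻¹) (t (s θ)) = s (t θ) := by
      show s (t (s⁻¹ (t⁻¹ (t (s θ))))) = s (t θ)
      simp
    have h3 : t (s θ) = (ζ ^ a) ^ b₀ * (ζ ^ b * θ) := by
      rw [hb₀, map_mul, map_pow, ← ha, hb]
    have h4 : s (t θ) = ζ ^ b * (ζ ^ b₀ * θ) := by
      rw [hb, map_mul, map_pow, hsζ, hb₀]
    have h5 : (s * t * s⁻¹ * t⁻¹) (t (s θ)) = t (s θ) := by
      rw [h3, map_mul, map_pow, map_pow, map_mul, map_pow, hgζ, hfix]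
    rw [h2, h4, h3] at h5
    -- so `ζ ^ b₀ = (ζ ^ a) ^ b₀`
    have h6 : ζ ^ b₀ = ζ ^ (a * b₀) := by
      have h7 : ζ ^ b * θ ≠ 0 := mul_ne_zero (pow_ne_zero _ hζ0) hθ0
      have h8 : ζ ^ b₀ * (ζ ^ b * θ) = ζ ^ (a * b₀) * (ζ ^ b * θ) := by
        rw [pow_mul]
        rw [← h5]
        ring
      exact mul_right_cancel₀ h7 h8
    have ha_pos : 0 < a := by
      rcases Nat.eq_zero_or_pos a with h0 | h0
      · exfalso
        rw [h0, pow_zero] at ha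
        have h9 : t ζ = t 1 := by rw [← ha, map_one]
        exact hζ.ne_one hp.one_lt (t.injective h9)
      · exact h0
    have h10 : ζ ^ ((a - 1) * b₀) = 1 := by
      have h11 : ζ ^ ((a - 1) * b₀) * ζ ^ b₀ = 1 * ζ ^ b₀ := by
        rw [← pow_add, one_mul]
        have : (a - 1) * b₀ + b₀ = a * b₀ := by
          have : a = (a - 1) + 1 := by omega
          nth_rewrite 2 [this]
          ring
        rw [this]
        exact h6.symm
      exact mul_right_cancel₀ (pow_ne_zero _ hζ0) h11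
    have h12 : p ∣ (a - 1) * b₀ := (hζ.pow_eq_one_iff_dvd _).mp h10
    rcases (Nat.Prime.dvd_mul hp).mp h12 with h13 | h13
    · apply ha1
      have h14 : ζ ^ (a - 1) = 1 := (hζ.pow_eq_one_iff_dvd _).mpr h13
      have : a = (a - 1) + 1 := by omega
      rw [this, pow_succ, h14, one_mul]
    · exact hb₀1 ((hζ.pow_eq_one_iff_dvd _).mpr h13)

/-! ### (K2) -/

theorem h14_int_mem (v : ValuationSubring Qb) (z : ℤ) : (z : Qb) ∈ v :=
  mem_valuationSubring_of_isIntegral v isIntegral_algebraMap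

theorem h14_mul_mem_nonunits (v : ValuationSubring Qb) (a b : Qb) (ha : a ∈ v)
    (hb : b ∈ v.nonunits) : a * b ∈ v.nonunits := by
  rw [ValuationSubring.mem_nonunits_iff] at hb ⊢
  rw [map_mul]
  have h2 : v.valuation a ≤ 1 := (ValuationSubring.valuation_le_one_iff v _).mpr ha
  calc v.valuation a * v.valuation b ≤ 1 * v.valuation b := mul_le_mul_left h2 _
    _ = v.valuation b := one_mul _
    _ < 1 := hb

theorem h14_int_mem_nonunits (v : ValuationSubring Qb) (ℓ : ℕ) (hv : v.LiesOverPrime ℓ) (z : ℤ)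
    (hz : (ℓ : ℤ) ∣ z) : (z : Qb) ∈ v.nonunits := by
  obtain ⟨w, rfl⟩ := hz
  have h1 : (((ℓ : ℤ) * w : ℤ) : Qb) = (w : Qb) * (ℓ : Qb) := by push_cast; ring
  rw [h1]
  exact h14_mul_mem_nonunits v _ _ (h14_int_mem v w) hv

theorem h14_int_valuation_eq_one (v : ValuationSubring Qb) (ℓ : ℕ) (hℓ : ℓ.Prime)
    (hv : v.LiesOverPrime ℓ) (z : ℤ) (hz : ¬ (ℓ : ℤ) ∣ z) : v.valuation (z : Qb) = 1 := by
  have hle : v.valuation (z : Qb) ≤ 1 :=
    (ValuationSubring.valuation_le_one_iff v _).mpr (h14_int_mem v z)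
  rcases lt_or_eq_of_le hle with hlt | heq
  · exfalso
    have hcop : IsCoprime (ℓ : ℤ) z :=
      (Nat.prime_iff_prime_int.mp hℓ).coprime_iff_not_dvd.mpr hz
    obtain ⟨a, b, hab⟩ := hcop
    have h1 : (1 : Qb) = (a : Qb) * (ℓ : Qb) + (b : Qb) * (z : Qb) := by
      have := congrArg (Int.cast : ℤ → Qb) hab
      push_cast at this
      exact this.symm
    have h2 : (1 : Qb) ∈ v.nonunits := by
      rw [h1]
      exact v.nonunits.add_mem (h14_mul_mem_nonunits v _ _ (h14_int_mem v a) hv)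
        (h14_mul_mem_nonunits v _ _ (h14_int_mem v b) hlt)
    rw [ValuationSubring.mem_nonunits_iff, map_one] at h2
    exact lt_irrefl _ h2
  · exact heq

theorem h14_pow_sub_pow_mem_nonunits (v : ValuationSubring Qb) (x y : Qb) (hx : x ∈ v)
    (hy : y ∈ v) (h : x - y ∈ v.nonunits) (n : ℕ) : x ^ n - y ^ n ∈ v.nonunits := by
  rw [← geom_sum₂_mul]
  apply h14_mul_mem_nonunits v _ _ _ h
  apply v.sum_mem
  intro i _
  exact v.mul_mem _ _ (v.pow_mem hx _) (v.pow_mem hy _)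

/-- **(K2)** A Frobenius lift at `ℓ ∤ p q` fixing the `p`-th roots of unity fixes every `p`-th
root `θ` of `q`, provided `q` is a `p`-th power modulo `ℓ`. -/
theorem h14_frob_fix_of_pow_residue (v : ValuationSubring Qb) (ℓ p q : ℕ) (hℓ : ℓ.Prime)
    (hv : v.LiesOverPrime ℓ) (hp : p.Prime) (hℓp : ℓ ≠ p) (hℓq : ¬ ℓ ∣ q)
    (σ : Qb ≃ₐ[ℚ] Qb) (hσ : v.IsFrobeniusAt σ ℓ) (hfix : ∀ ω : Qb, ω ^ p = 1 → σ ω = ω)
    (y : ℤ) (hy : (ℓ : ℤ) ∣ y ^ p - q) (θ : Qb) (hθ : θ ^ p = (q : Qb)) : σ θ = θ := by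
  have hℓp' : ¬ ℓ ∣ p := fun h => hℓp ((Nat.prime_dvd_prime_iff_eq hℓ hp).mp h)
  have : NeZero p := ⟨hp.ne_zero⟩
  obtain ⟨ζ, hζ⟩ := HasEnoughRootsOfUnity.exists_primitiveRoot Qb p
  -- `θ` is a unit of `v`
  have hθv : θ ∈ v := by
    apply mem_valuationSubring_of_isIntegral
    refine ⟨X ^ p - C (q : ℤ), monic_X_pow_sub_C _ hp.ne_zero, ?_⟩
    simp [hθ]
  have hqval : v.valuation (q : Qb) = 1 := by
    have := h14_int_valuation_eq_one v ℓ hℓ hv (q : ℤ) (by exact_mod_cast hℓq)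
    simpa using this
  have hθval : v.valuation θ = 1 := by
    have hle : v.valuation θ ≤ 1 := (ValuationSubring.valuation_le_one_iff v _).mpr hθv
    rcases lt_or_eq_of_le hle with hlt | heq
    · exfalso
      have h1 : v.valuation θ ^ p < 1 := pow_lt_one₀ zero_le hlt hp.ne_zero
      rw [← map_pow, hθ, hqval] at h1
      exact lt_irrefl _ h1
    · exact heq
  have hθ0 : θ ≠ 0 := by
    rintro rfl
    rw [map_zero] at hθval
    exact zero_ne_one hθval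
  -- a `p`-th root of unity `ω` with `θ ≡ ω y`
  have hyv : (y : Qb) ∈ v := h14_int_mem v y
  have hprod : θ ^ p - (y : Qb) ^ p ∈ v.nonunits := by
    have h1 : θ ^ p - (y : Qb) ^ p = (((-(y ^ p - q) : ℤ)) : Qb) := by
      rw [hθ]; push_cast; ring
    rw [h1]
    exact h14_int_mem_nonunits v ℓ hv _ (by rw [dvd_neg]; exact hy)
  rw [hζ.pow_sub_pow_eq_prod_sub_mul θ (y : Qb) hp.pos] at hprod
  have hex : ∃ ω ∈ nthRootsFinset p (1 : Qb), θ - ω * (y : Qb) ∈ v.nonunits := by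
    by_contra hcon
    simp only [not_exists, not_and] at hcon
    rw [ValuationSubring.mem_nonunits_iff, map_prod] at hprod
    have hall : ∀ ω ∈ nthRootsFinset p (1 : Qb), v.valuation (θ - ω * (y : Qb)) = 1 := by
      intro ω hω
      have hωp : ω ^ p = 1 := (mem_nthRootsFinset hp.pos (1 : Qb)).mp hω
      have hωv : ω ∈ v := h14_mem_of_pow_eq_one v p hp.ne_zero ω hωp
      have hle : v.valuation (θ - ω * (y : Qb)) ≤ 1 :=
        (ValuationSubring.valuation_le_one_iff v _).mpr (sub_mem hθv (v.mul_mem _ _ hωv hyv))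
      rcases lt_or_eq_of_le hle with hlt | heq
      · exact absurd ((ValuationSubring.mem_nonunits_iff v).mpr hlt) (hcon ω hω)
      · exact heq
    rw [Finset.prod_eq_one hall] at hprod
    exact lt_irrefl _ hprod
  obtain ⟨ω, hω, hωθ⟩ := hex
  have hωp : ω ^ p = 1 := (mem_nthRootsFinset hp.pos (1 : Qb)).mp hω
  have hωv : ω ∈ v := h14_mem_of_pow_eq_one v p hp.ne_zero ω hωp
  have hωℓ : ω ^ ℓ = ω := by
    rw [← h14_frob_rootOfUnity v ℓ p hℓ hv hℓp' σ hσ ω hωp]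
    exact hfix ω hωp
  -- Fermat: `y ^ ℓ ≡ y`
  have hyℓ : (y : Qb) ^ ℓ - (y : Qb) ∈ v.nonunits := by
    have h1 : (ℓ : ℤ) ∣ y ^ ℓ - y := by
      have : Fact ℓ.Prime := ⟨hℓ⟩
      rw [← ZMod.intCast_zmod_eq_zero_iff_dvd]
      push_cast
      rw [ZMod.pow_card, sub_self]
    have h2 : (y : Qb) ^ ℓ - (y : Qb) = ((y ^ ℓ - y : ℤ) : Qb) := by push_cast; ring
    rw [h2]
    exact h14_int_mem_nonunits v ℓ hv _ h1
  -- `θ ^ ℓ ≡ θ`
  have hθℓ : θ ^ ℓ - θ ∈ v.nonunits := by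
    have h1 : θ ^ ℓ - (ω * (y : Qb)) ^ ℓ ∈ v.nonunits :=
      h14_pow_sub_pow_mem_nonunits v _ _ hθv (v.mul_mem _ _ hωv hyv) hωθ ℓ
    have h2 : ω * ((y : Qb) ^ ℓ - (y : Qb)) ∈ v.nonunits := h14_mul_mem_nonunits v _ _ hωv hyℓ
    have h3 : θ ^ ℓ - θ = (θ ^ ℓ - (ω * (y : Qb)) ^ ℓ) + ω * ((y : Qb) ^ ℓ - (y : Qb))
        - (θ - ω * (y : Qb)) := by
      rw [mul_pow, hωℓ]; ring
    rw [h3]
    exact v.nonunits.sub_mem (v.nonunits.add_mem h1 h2) hωθ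
  have hσθ : σ θ - θ ∈ v.nonunits := by
    have h1 := h14_frob_sub_pow_mem v ℓ σ hσ θ hθv
    have h3 : σ θ - θ = (σ θ - θ ^ ℓ) + (θ ^ ℓ - θ) := by ring
    rw [h3]
    exact v.nonunits.add_mem h1 hθℓ
  -- conclude with injectivity of reduction on `μ_p`
  have hone : σ θ * θ⁻¹ = 1 := by
    apply h14_rootOfUnity_eq_of_sub_mem_nonunits v ℓ p hℓ hv hℓp'
    · rw [mul_pow, ← map_pow, hθ, inv_pow, hθ]
      have hq0 : (q : Qb) ≠ 0 := by
        intro h0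
        rw [h0, map_zero] at hqval
        exact zero_ne_one hqval
      simp [hq0]
    · exact one_pow p
    · have h1 : σ θ * θ⁻¹ - 1 = (σ θ - θ) * θ⁻¹ := by field_simp
      rw [h1, ValuationSubring.mem_nonunits_iff, map_mul, map_inv₀, hθval, inv_one, mul_one]
      exact (ValuationSubring.mem_nonunits_iff v).mp hσθ
  have : σ θ = σ θ * θ⁻¹ * θ := by field_simp
  rw [this, hone, one_mul]

/-! ### (K3) -/

/-- **(K3)** If `p ^ (e+1) ∣ ℓ - 1`, `q` is not a `p`-th power modulo `ℓ`, `p` is odd and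
`p ^ (e+1) ∤ k`, then `p` divides the order of `q ^ (2 k)` modulo `ℓ`. -/
theorem h14_p_dvd_orderOf (p ℓ q k e : ℕ) (hp : p.Prime) (hp2 : p ≠ 2) (hℓ : ℓ.Prime)
    (hℓq : ¬ ℓ ∣ q) (h1 : p ^ (e + 1) ∣ ℓ - 1) (hk : ¬ p ^ (e + 1) ∣ k)
    (hnp : ∀ y : ZMod ℓ, y ^ p ≠ (q : ZMod ℓ)) :
    p ∣ orderOf ((q : ZMod ℓ) ^ (2 * k)) := by
  have : Fact ℓ.Prime := ⟨hℓ⟩
  have hq0 : (q : ZMod ℓ) ≠ 0 := by
    rw [Ne, ZMod.natCast_eq_zero_iff]
    exact hℓq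
  set u : (ZMod ℓ)ˣ := Units.mk0 (q : ZMod ℓ) hq0 with hu
  obtain ⟨g, hg⟩ := IsCyclic.exists_generator (α := (ZMod ℓ)ˣ)
  have hord : orderOf g = ℓ - 1 := by
    rw [orderOf_eq_card_of_forall_mem_zpowers hg, Nat.card_eq_fintype_card, ZMod.card_units]
  have hmem : u ∈ Submonoid.powers g := mem_powers_iff_mem_zpowers.mpr (hg u)
  obtain ⟨j, hj⟩ := hmem
  have hpj : ¬ p ∣ j := by
    rintro ⟨j', rfl⟩
    apply hnp (((g ^ j' : (ZMod ℓ)ˣ)) : ZMod ℓ)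
    have h2 : ((g ^ j') ^ p : (ZMod ℓ)ˣ) = u := by rw [← pow_mul, mul_comm]; exact hj
    have h3 := congrArg (fun w : (ZMod ℓ)ˣ => (w : ZMod ℓ)) h2
    simpa [hu] using h3
  have hval : ((q : ZMod ℓ) ^ (2 * k)) = ((u ^ (2 * k) : (ZMod ℓ)ˣ) : ZMod ℓ) := by
    simp [hu]
  rw [hval, orderOf_units, ← hj, ← pow_mul, orderOf_pow, hord]
  by_contra hnd
  set n := j * (2 * k) with hn
  have hcop : Nat.Coprime (p ^ (e + 1)) ((ℓ - 1) / Nat.gcd (ℓ - 1) n) :=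
    Nat.Coprime.pow_left _ ((Nat.Prime.coprime_iff_not_dvd hp).mpr hnd)
  have hmul : (ℓ - 1) / Nat.gcd (ℓ - 1) n * Nat.gcd (ℓ - 1) n = ℓ - 1 :=
    Nat.div_mul_cancel (Nat.gcd_dvd_left _ _)
  have h2 : p ^ (e + 1) ∣ Nat.gcd (ℓ - 1) n := by
    apply hcop.dvd_of_dvd_mul_left
    rw [hmul]
    exact h1
  have h3 : p ^ (e + 1) ∣ j * (2 * k) := h2.trans (Nat.gcd_dvd_right _ _)
  have hcj : Nat.Coprime (p ^ (e + 1)) j :=
    Nat.Coprime.pow_left _ ((Nat.Prime.coprime_iff_not_dvd hp).mpr hpj)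
  have h4 : p ^ (e + 1) ∣ 2 * k := hcj.dvd_of_dvd_mul_left h3
  have hc2 : Nat.Coprime (p ^ (e + 1)) 2 := by
    apply Nat.Coprime.pow_left
    rw [Nat.Prime.coprime_iff_not_dvd hp]
    intro h5
    exact hp2 ((Nat.prime_dvd_prime_iff_eq hp Nat.prime_two).mp h5)
  exact hk (hc2.dvd_of_dvd_mul_left h4)

/-! ### Wrappers for the consumer -/

theorem h14_pow_fix (g : Qb ≃ₐ[ℚ] Qb) (x : Qb) (hx : g x = x) (n : ℕ) : (g ^ n) x = x := by
  induction n with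
  | zero => simp
  | succ n ih =>
    rw [pow_succ]
    show (g ^ n) (g x) = x
    rw [hx, ih]

/-- Transfer from `g` to a Frobenius lift `σ` generating the same cyclic group on `L`. -/
theorem h14_transfer (M : ℕ) (θ : Qb) (L : Set Qb) (hL1 : ∀ ω : Qb, ω ^ M = 1 → ω ∈ L)
    (hL2 : θ ∈ L) (g σ : Qb ≃ₐ[ℚ] Qb) (a b : ℕ)
    (hg1 : ∀ ω : Qb, ω ^ M = 1 → g ω = ω) (hg2 : g θ ≠ θ)
    (h1 : ∀ x ∈ L, σ x = (g ^ a) x) (h2 : ∀ x ∈ L, (σ ^ b) x = g x) :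
    (∀ ω : Qb, ω ^ M = 1 → σ ω = ω) ∧ σ θ ≠ θ := by
  refine ⟨fun ω hω => ?_, fun hfix => ?_⟩
  · rw [h1 ω (hL1 ω hω)]
    exact h14_pow_fix g ω (hg1 ω hω) a
  · apply hg2
    rw [← h2 θ hL2]
    exact h14_pow_fix σ θ hfix b

/-- **(K4)** Arithmetic of a Frobenius lift fixing `μ_M` and moving a `p`-th root of `q`:
`ℓ ≡ 1 mod M` and `q` is not a `p`-th power modulo `ℓ`. -/
theorem h14_kummer_frob_facts (v : ValuationSubring Qb) (ℓ p q M : ℕ) (hℓ : ℓ.Prime)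
    (hv : v.LiesOverPrime ℓ) (hp : p.Prime) (hM : M ≠ 0) (hpM : p ∣ M)
    (hℓM : ¬ ℓ ∣ M) (hℓq : ¬ ℓ ∣ q) (σ : Qb ≃ₐ[ℚ] Qb) (hσ : v.IsFrobeniusAt σ ℓ)
    (hfix : ∀ ω : Qb, ω ^ M = 1 → σ ω = ω) (θ : Qb) (hθ : θ ^ p = (q : Qb)) (hmove : σ θ ≠ θ) :
    M ∣ ℓ - 1 ∧ ∀ y : ZMod ℓ, y ^ p ≠ (q : ZMod ℓ) := by
  have : NeZero M := ⟨hM⟩
  refine ⟨?_, fun y hy => hmove ?_⟩
  · obtain ⟨ζ, hζ⟩ := HasEnoughRootsOfUnity.exists_primitiveRoot Qb M
    exact h14_dvd_sub_one_of_frob_fix v ℓ M hℓ hv hℓM σ hσ ζ hζ (hfix ζ hζ.pow_eq_one)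
  · have hℓp : ℓ ≠ p := by
      rintro rfl
      exact hℓM hpM
    obtain ⟨z, rfl⟩ := ZMod.intCast_surjective y
    have hz : (ℓ : ℤ) ∣ z ^ p - q := by
      rw [← ZMod.intCast_zmod_eq_zero_iff_dvd]
      push_cast
      rw [hy, sub_self]
    refine h14_frob_fix_of_pow_residue v ℓ p q hℓ hv hp hℓp hℓq σ hσ (fun ω hω => ?_) z hz θ hθ
    apply hfix
    obtain ⟨c, rfl⟩ := hpM
    rw [pow_mul, hω, one_pow]

/-- **(K5)** In the situation of (K4), `p ∣ orderOf (q ^ (2 k))` in `ZMod ℓ` whenever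
`p ^ (e+1) ∣ M` and `p ^ (e+1) ∤ k` (`p` odd). -/
theorem h14_kummer_orderOf (v : ValuationSubring Qb) (ℓ p q M : ℕ) (hℓ : ℓ.Prime)
    (hv : v.LiesOverPrime ℓ) (hp : p.Prime) (hp2 : p ≠ 2) (hM : M ≠ 0) (hpM : p ∣ M)
    (hℓM : ¬ ℓ ∣ M) (hℓq : ¬ ℓ ∣ q) (σ : Qb ≃ₐ[ℚ] Qb) (hσ : v.IsFrobeniusAt σ ℓ)
    (hfix : ∀ ω : Qb, ω ^ M = 1 → σ ω = ω) (θ : Qb) (hθ : θ ^ p = (q : Qb)) (hmove : σ θ ≠ θ)
    (e k : ℕ) (hpe : p ^ (e + 1) ∣ M) (hk : ¬ p ^ (e + 1) ∣ k) :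
    p ∣ orderOf ((q : ZMod ℓ) ^ (2 * k)) := by
  obtain ⟨h1, h2⟩ := h14_kummer_frob_facts v ℓ p q M hℓ hv hp hM hpM hℓM hℓq σ hσ hfix θ hθ hmove
  exact h14_p_dvd_orderOf p ℓ q k e hp hp2 hℓ hℓq (hpe.trans h1) hk h2

/-- The shape of the weak Chebotarev theorem (`gal_weak_chebotarev`, GAL row 307). -/
def h14_WCheb : Prop :=
  ∀ (L : IntermediateField ℚ Qb) [FiniteDimensional ℚ L] [IsGalois ℚ L]
    (g : Qb ≃ₐ[ℚ] Qb) (S : Finset ℕ),
    ∃ (ℓ : ℕ) (A : ValuationSubring Qb) (σ : Qb ≃ₐ[ℚ] Qb) (a b : ℕ),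
      ℓ.Prime ∧ ℓ ∉ S ∧ A.LiesOverPrime ℓ ∧ A.IsFrobeniusAt σ ℓ ∧
        (∀ x ∈ L, σ x = (g ^ a) x) ∧ (∀ x ∈ L, (σ ^ b) x = g x)

/-- **(K6)** From weak Chebotarev: for `g` fixing `μ_M` and moving a `p`-th root `θ` of the prime
`q` (such `g` exist by `h14_exists_fix_roots_move`), and `L ∋ θ, μ_M` finite Galois, there is a
prime `ℓ ∉ S` with a Frobenius lift `σ` generating the same cyclic group as `g` on `L`, such that
`ℓ ≡ 1 mod M`, `q` is not a `p`-th power modulo `ℓ`, and `p ∣ orderOf (q ^ (2k))` in `ZMod ℓ` for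
every `k` with `p ^ (e+1) ∤ k` (where `p ^ (e+1) ∣ M`). -/
theorem h14_exists_kummer_prime (hW : h14_WCheb) (p q M : ℕ) (hp : p.Prime) (hp2 : p ≠ 2)
    (hq : q.Prime) (hM : M ≠ 0) (hpM : p ∣ M)
    (L : IntermediateField ℚ Qb) [FiniteDimensional ℚ L] [IsGalois ℚ L]
    (hL1 : ∀ ω : Qb, ω ^ M = 1 → ω ∈ L) (θ : Qb) (hθ : θ ^ p = (q : Qb)) (hL2 : θ ∈ L)
    (g : Qb ≃ₐ[ℚ] Qb) (hg1 : ∀ ω : Qb, ω ^ M = 1 → g ω = ω) (hg2 : g θ ≠ θ) (S : Finset ℕ) :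
    ∃ (ℓ : ℕ) (A : ValuationSubring Qb) (σ : Qb ≃ₐ[ℚ] Qb) (a b : ℕ),
      ℓ.Prime ∧ ℓ ∉ S ∧ A.LiesOverPrime ℓ ∧ A.IsFrobeniusAt σ ℓ ∧
        (∀ x ∈ L, σ x = (g ^ a) x) ∧ (∀ x ∈ L, (σ ^ b) x = g x) ∧
        M ∣ ℓ - 1 ∧ (∀ y : ZMod ℓ, y ^ p ≠ (q : ZMod ℓ)) ∧
        ∀ e k : ℕ, p ^ (e + 1) ∣ M → ¬ p ^ (e + 1) ∣ k →
          p ∣ orderOf ((q : ZMod ℓ) ^ (2 * k)) := by
  obtain ⟨ℓ, A, σ, a, b, hℓ, hℓS, hA, hσ, h1, h2⟩ := hW L g (S ∪ M.primeFactors ∪ {q})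
  have hℓS' : ℓ ∉ S := fun h => hℓS (by simp [h])
  have hℓM : ¬ ℓ ∣ M := by
    intro h
    apply hℓS
    have : ℓ ∈ M.primeFactors := Nat.mem_primeFactors.mpr ⟨hℓ, h, hM⟩
    simp [this]
  have hℓq : ¬ ℓ ∣ q := by
    intro h
    apply hℓS
    have : ℓ = q := (Nat.prime_dvd_prime_iff_eq hℓ hq).mp h
    simp [this]
  obtain ⟨hfix, hmove⟩ := h14_transfer M θ (L : Set Qb) hL1 hL2 g σ a b hg1 hg2 h1 h2
  obtain ⟨h3, h4⟩ := h14_kummer_frob_facts A ℓ p q M hℓ hA hp hM hpM hℓM hℓq σ hσ hfix θ hθ hmove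
  refine ⟨ℓ, A, σ, a, b, hℓ, hℓS', hA, hσ, h1, h2, h3, h4, fun e k hpe hk => ?_⟩
  exact h14_kummer_orderOf A ℓ p q M hℓ hA hp hp2 hM hpM hℓM hℓq σ hσ hfix θ hθ hmove e k hpe hk

end Fermat.Agent.S41
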