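/-
S41 block (C'), row C-ASM (helper61): assembly of the Galois side.

`h61_not_eisenstein_of`: if `a_ℓ(E) ≡ 2 mod p` for all good primes `ℓ ≡ 1 mod M` such that `q` is
not a `p`-th power modulo `ℓ` (the output of the Ihara block (A*) for a nonzero kernel class),
then `E[p]` is not irreducible.  The E-side inputs (Frobenius relation on `E[p]`, the field of
`E[p]`) and the abstract group-theoretic core are taken as hypotheses here; they are supplied by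
`h48_FrobRel`, `c_field`, `h45_GaloisCore`.
-/
import Mathlib
import Fermat.Prelude.Def_FLTPrelim_GaloisRep
import Fermat.Prelude.Def_FLTPrelim_Modularity
import Fermat.Prelude.Def_GaloisRep_ComplexConjugation
import Fermat.Agent.GAL.WCheb
import Fermat.Agent.GAL.h11_CycFrob
import Fermat.Agent.S41.h14_Kummer

set_option autoImplicit false

open WeierstrassCurve WeierstrassCurve.Affine WeierstrassCurve.Affine.Point

namespace Fermat.Agent.S41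

open Fermat.Agent.GAL ExtCitation

local notation "Qb" => AlgebraicClosure ℚ

/-- Automorphisms of `Qb` fixing every `M`-th root of unity. -/
def h61_fixMu (M : ℕ) : Subgroup (Qb ≃ₐ[ℚ] Qb) where
  carrier := {g | ∀ ω : Qb, ω ^ M = 1 → g ω = ω}
  mul_mem' := by
    intro a b ha hb ω hω
    rw [AlgEquiv.mul_apply, hb ω hω, ha ω hω]
  one_mem' := by
    intro ω _
    rfl
  inv_mem' := by
    intro a ha ω hω
    apply a.injective
    rw [ha ω hω]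
    exact AlgEquiv.apply_symm_apply a ω

theorem h61_mem_fixMu {M : ℕ} {g : Qb ≃ₐ[ℚ] Qb} :
    g ∈ h61_fixMu M ↔ ∀ ω : Qb, ω ^ M = 1 → g ω = ω := Iff.rfl

instance h61_fixMu_normal (M : ℕ) : (h61_fixMu M).Normal := by
  constructor
  intro n hn g ω hω
  have h1 : (g⁻¹ ω) ^ M = 1 := by
    rw [← map_pow, hω, map_one]
  have h2 : (g * n * g⁻¹) ω = g (n (g⁻¹ ω)) := rfl
  rw [h2, hn _ h1]
  exact AlgEquiv.apply_symm_apply g ω

/-- Commutators fix the roots of unity. -/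
theorem h61_comm_mem_fixMu (M : ℕ) (hM : M ≠ 0) (g₁ g₂ : Qb ≃ₐ[ℚ] Qb) :
    g₁ * g₂ * g₁⁻¹ * g₂⁻¹ ∈ h61_fixMu M := by
  intro ω hω
  have h1 : (g₁⁻¹ (g₂⁻¹ ω)) ^ M = 1 := by
    rw [← map_pow, ← map_pow, hω, map_one, map_one]
  have h2 : (g₁ * g₂ * g₁⁻¹ * g₂⁻¹) ω = g₁ (g₂ (g₁⁻¹ (g₂⁻¹ ω))) := rfl
  rw [h2, h14_comm_on_roots M hM g₁ g₂ _ h1]
  have h3 : g₁ (g₁⁻¹ (g₂⁻¹ ω)) = g₂⁻¹ ω := AlgEquiv.apply_symm_apply g₁ _
  rw [h3]
  exact AlgEquiv.apply_symm_apply g₂ ω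

/-- Automorphisms of `Qb` fixing `θ`. -/
def h61_fixElt (θ : Qb) : Subgroup (Qb ≃ₐ[ℚ] Qb) where
  carrier := {g | g θ = θ}
  mul_mem' := by
    intro a b ha hb
    change a (b θ) = θ
    rw [hb, ha]
  one_mem' := rfl
  inv_mem' := by
    intro a ha
    apply a.injective
    rw [ha]
    exact AlgEquiv.apply_symm_apply a θ

theorem h61_mem_fixElt {θ : Qb} {g : Qb ≃ₐ[ℚ] Qb} : g ∈ h61_fixElt θ ↔ g θ = θ := Iff.rfl

/-- If `u` fixes the `p`-th roots of unity (`p` odd) and `u²` fixes a `p`-th root `θ` of a nonzero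
number, then `u` fixes `θ`. -/
theorem h61_fix_of_sq_fix {p : ℕ} (hp : p.Prime) (hp2 : p ≠ 2) (θ : Qb) (hθ0 : θ ≠ 0)
    (u : Qb ≃ₐ[ℚ] Qb) (hq : u (θ ^ p) = θ ^ p) (hu : ∀ ω : Qb, ω ^ p = 1 → u ω = ω)
    (h2 : u (u θ) = θ) : u θ = θ := by
  set ω : Qb := u θ / θ with hω
  have hωp : ω ^ p = 1 := by
    rw [hω, div_pow, ← map_pow, hq]
    exact div_self (pow_ne_zero p hθ0)
  have huθ : u θ = ω * θ := by
    rw [hω]; field_simp
  have hω2 : ω ^ 2 = 1 := by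
    have h3 : u (u θ) = ω ^ 2 * θ := by
      rw [huθ, map_mul, hu ω hωp, huθ]; ring
    rw [h2] at h3
    have h4 : (ω ^ 2 - 1) * θ = 0 := by rw [sub_mul, ← h3]; ring
    rcases mul_eq_zero.mp h4 with h5 | h5
    · exact sub_eq_zero.mp h5
    · exact absurd h5 hθ0
  have hgcd : Nat.gcd 2 p = 1 := by
    have : Nat.Coprime 2 p := (Nat.coprime_primes Nat.prime_two hp).mpr (Ne.symm hp2)
    exact this
  have hω1 : ω = 1 := by
    have := (pow_gcd_eq_one (a := ω)).mpr ⟨hω2, hωp⟩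
    rwa [hgcd, pow_one] at this
  rw [huθ, hω1, one_mul]

/-- Complex conjugation inverts roots of unity. -/
theorem h61_complexConj_root (n : ℕ) (hn : n ≠ 0) (ζ : Qb) (hζ : ζ ^ n = 1) :
    complexConjugation ζ = ζ ^ (n - 1) := by
  apply complexEmbedding.toRingHom.injective
  change complexEmbedding (complexConjugation ζ) = complexEmbedding (ζ ^ (n - 1))
  rw [complexEmbedding_complexConjugation, map_pow]
  set z : ℂ := complexEmbedding ζ with hz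
  have hzn : z ^ n = 1 := by rw [hz, ← map_pow, hζ, map_one]
  have hnorm : ‖z‖ = 1 := by
    have h1 : ‖z‖ ^ n = 1 := by rw [← norm_pow, hzn, norm_one]
    exact (pow_eq_one_iff_of_nonneg (norm_nonneg z) hn).mp h1
  rw [← Complex.inv_eq_conj hnorm]
  have hz0 : z ≠ 0 := by
    intro h0
    rw [h0, norm_zero] at hnorm
    exact zero_ne_one hnorm
  apply inv_eq_of_mul_eq_one_right
  rw [← pow_succ', Nat.sub_add_cancel (Nat.one_le_iff_ne_zero.mpr hn), hzn]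

/-- The mod `p` cyclotomic character of complex conjugation is `-1`. -/
theorem h61_cycloChar_complexConj (p : ℕ) [Fact p.Prime] :
    cycloChar p complexConjugation = -1 := by
  have hp : p.Prime := Fact.out
  obtain ⟨ζ, hζ⟩ := h11_exists_primitiveRoot p
  have h1 := h11_cycloChar_eq_of_pow complexConjugation ζ hζ (p - 1)
    (h61_complexConj_root p hp.ne_zero ζ hζ.pow_eq_one)
  apply Units.ext
  rw [h1, Units.val_neg, Units.val_one, Nat.cast_sub hp.one_le, Nat.cast_one,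
    ZMod.natCast_self, zero_sub]

/-! ### The assembly -/

/-- On the `p`-torsion, integers congruent modulo `p` act in the same way. -/
theorem h61_zsmul_congr {A : Type*} [AddCommGroup A] {p : ℕ} (w : Submodule.torsionBy ℤ A p)
    (n m : ℤ) (h : (p : ℤ) ∣ n - m) : n • w = m • w := by
  obtain ⟨k, hk⟩ := h
  have h1 : n = m + k * (p : ℤ) := by rw [mul_comm, ← hk]; ring
  rw [h1, add_smul, mul_smul, Submodule.smul_torsionBy, smul_zero, add_zero]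

/-- **Galois side of S41, assembly.**  `hfrob` is the Frobenius relation on `E[p]` (row C-RED),
`hfield` the field of `E[p]` (row C-FIELD), `hcore` the abstract group-theoretic core
(`h45_galois_core` with `hp2`, `hcard`, `hirr` already applied). -/
theorem h61_not_eisenstein_of {E : WeierstrassCurve ℚ} {W : WeierstrassCurve ℤ} (hΔ : W.Δ ≠ 0)
    {p q M : ℕ} [Fact p.Prime] (hp2 : p ≠ 2) (hq : q.Prime) (hM : 0 < M)
    (S : Finset ℕ)
    (h : ∀ ℓ : ℕ, ℓ.Prime → ℓ ∉ S → W.IsGoodPrimeFor ℓ → M ∣ ℓ - 1 →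
        (∀ x : ZMod ℓ, x ^ p ≠ (q : ZMod ℓ)) → (p : ℤ) ∣ W.apOfModel ℓ - 2)
    (hfrob : ∀ ℓ : ℕ, ℓ.Prime → 5 ≤ ℓ → ℓ ≠ p → W.IsGoodPrimeFor ℓ →
      ∀ A : ValuationSubring Qb, A.LiesOverPrime ℓ → ∀ σ : Qb ≃ₐ[ℚ] Qb, A.IsFrobeniusAt σ ℓ →
      ∀ P : Submodule.torsionBy ℤ (E⁄Qb).Point p,
        σ • σ • P - W.apOfModel ℓ • σ • P + (ℓ : ℤ) • P = 0)
    (hfield : ∀ T : Finset Qb, ∃ L : IntermediateField ℚ Qb, FiniteDimensional ℚ L ∧
      IsGalois ℚ L ∧ (∀ x ∈ T, x ∈ L) ∧ ∀ g h : Qb ≃ₐ[ℚ] Qb, (∀ x ∈ L, g x = h x) →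
        ∀ P : Submodule.torsionBy ℤ (E⁄Qb).Point p, g • P = h • P)
    (hcore : ∀ (H : Subgroup (Qb ≃ₐ[ℚ] Qb)) [H.Normal],
      (∀ g₁ g₂ : Qb ≃ₐ[ℚ] Qb, g₁ * g₂ * g₁⁻¹ * g₂⁻¹ ∈ H) →
      ∀ H₂ : Subgroup (Qb ≃ₐ[ℚ] Qb), (∀ u ∈ H, u * u ∈ H₂ → u ∈ H₂) → (∃ u ∈ H, u ∉ H₂) →
      (∀ u ∈ H, u ∉ H₂ → ∃ (σ : Qb ≃ₐ[ℚ] Qb) (b : ℕ),
        (∀ v : Submodule.torsionBy ℤ (E⁄Qb).Point p, σ ^ b • v = u • v) ∧
        ∀ v : Submodule.torsionBy ℤ (E⁄Qb).Point p, σ • σ • v - (2 : ℤ) • σ • v + v = 0) →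
      ∀ χ : (Qb ≃ₐ[ℚ] Qb) →* (ZMod p)ˣ,
      (∀ g : Qb ≃ₐ[ℚ] Qb, ∃ (σ : Qb ≃ₐ[ℚ] Qb) (b : ℕ) (t : ZMod p),
        (∀ v : Submodule.torsionBy ℤ (E⁄Qb).Point p, σ ^ b • v = g • v) ∧ χ σ ^ b = χ g ∧
        ∀ v : Submodule.torsionBy ℤ (E⁄Qb).Point p,
          σ • σ • v - t • σ • v + ((χ σ : (ZMod p)ˣ) : ZMod p) • v = 0) →
      ∀ c : Qb ≃ₐ[ℚ] Qb, (∀ v : Submodule.torsionBy ℤ (E⁄Qb).Point p, c • c • v = v) →
      χ c = -1 → False) : False := by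
  classical
  have hp : p.Prime := Fact.out
  have hM'0 : M * p ≠ 0 := Nat.mul_ne_zero hM.ne' hp.ne_zero
  have hpM' : p ∣ M * p := Dvd.intro_left M rfl
  have hMM' : M ∣ M * p := Dvd.intro p rfl
  obtain ⟨θ, hθ⟩ : ∃ θ : Qb, θ ^ p = (q : Qb) := IsAlgClosed.exists_pow_nat_eq (q : Qb) hp.pos
  have hθ0 : θ ≠ 0 := by
    rintro rfl
    rw [zero_pow hp.ne_zero] at hθ
    exact (Nat.cast_ne_zero.mpr hq.ne_zero) hθ.symm
  have : NeZero (M * p) := ⟨hM'0⟩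
  have : NeZero (((M * p : ℕ)) : Qb) := ⟨Nat.cast_ne_zero.mpr hM'0⟩
  obtain ⟨ζ, hζ⟩ : ∃ ζ : Qb, IsPrimitiveRoot ζ (M * p) :=
    HasEnoughRootsOfUnity.exists_primitiveRoot Qb (M * p)
  obtain ⟨L, hLfin, hLgal, hLT, hLact⟩ := hfield {θ, ζ}
  have hL1 : ∀ ω : Qb, ω ^ (M * p) = 1 → ω ∈ L := by
    intro ω hω
    obtain ⟨i, -, rfl⟩ := hζ.eq_pow_of_pow_eq_one hω
    exact pow_mem (hLT ζ (by simp)) i
  have hL2 : θ ∈ L := hLT θ (by simp)
  have hLp : ∀ ω : Qb, ω ^ p = 1 → ω ∈ L := fun ω hω =>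
    hL1 ω (by rw [mul_comm, pow_mul, hω, one_pow])
  -- the excluded primes
  have hS' : ∀ ℓ : ℕ, ℓ.Prime → ℓ ∉ S ∪ {2, 3, p} ∪ W.Δ.natAbs.primeFactors →
      ℓ ∉ S ∧ 5 ≤ ℓ ∧ ℓ ≠ p ∧ W.IsGoodPrimeFor ℓ := by
    intro ℓ hℓ hmem
    simp only [Finset.mem_union, Finset.mem_insert, Finset.mem_singleton, not_or] at hmem
    obtain ⟨⟨h1, h2, h3, h4⟩, h5⟩ := hmem
    refine ⟨h1, ?_, h4, ?_⟩
    · have h2le := hℓ.two_le
      by_contra hlt
      have h4' : ℓ = 4 := by omega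
      rw [h4'] at hℓ
      norm_num at hℓ
    · intro hdvd
      apply h5
      rw [Nat.mem_primeFactors]
      exact ⟨hℓ, Int.natCast_dvd.mp hdvd, Int.natAbs_ne_zero.mpr hΔ⟩
  refine hcore (h61_fixMu (M * p)) (h61_comm_mem_fixMu (M * p) hM'0) (h61_fixElt θ) ?_ ?_ ?_
    (cycloChar p) ?_ complexConjugation ?_ (h61_cycloChar_complexConj p)
  · -- hsq
    intro u hu huu
    have hq' : u (θ ^ p) = θ ^ p := by rw [hθ]; exact map_natCast u q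
    exact h61_fix_of_sq_fix hp hp2 θ hθ0 u hq'
      (fun ω hω => hu ω (by rw [mul_comm, pow_mul, hω, one_pow])) huu
  · -- hne
    obtain ⟨g, hg1, hg2⟩ := h14_exists_fix_roots_move p q (M * p) hp hp2 hq hM'0 hpM' θ hθ
    exact ⟨g, hg1, hg2⟩
  · -- hU
    intro u hu1 hu2
    obtain ⟨ℓ, A, σ, a, b, hℓ, hℓS, hA, hσ, h1, h2, hMℓ, hnp, -⟩ :=
      h14_exists_kummer_prime (fun L _ _ g S => gal_weak_chebotarev L g S) p q (M * p) hp hp2 hq
        hM'0 hpM' L hL1 θ hθ hL2 u hu1 hu2 (S ∪ {2, 3, p} ∪ W.Δ.natAbs.primeFactors)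
    obtain ⟨hS1, h5, hℓp, hgood⟩ := hS' ℓ hℓ hℓS
    have hrel := hfrob ℓ hℓ h5 hℓp hgood A hA σ hσ
    have hdiv : (p : ℤ) ∣ W.apOfModel ℓ - 2 := h ℓ hℓ hS1 hgood (hMM'.trans hMℓ) hnp
    have hpl : (p : ℤ) ∣ (ℓ : ℤ) - 1 := by
      have h3 : p ∣ ℓ - 1 := hpM'.trans hMℓ
      have h4 : ((ℓ - 1 : ℕ) : ℤ) = (ℓ : ℤ) - 1 := by
        rw [Nat.cast_sub hℓ.one_le, Nat.cast_one]
      rw [← h4]
      exact Int.natCast_dvd_natCast.mpr h3
    refine ⟨σ, b, fun v => hLact (σ ^ b) u h2 v, fun v => ?_⟩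
    have hv := hrel v
    rw [h61_zsmul_congr (σ • v) (W.apOfModel ℓ) 2 hdiv, h61_zsmul_congr v (ℓ : ℤ) 1 hpl,
      one_smul] at hv
    exact hv
  · -- hF
    intro g
    obtain ⟨ℓ, A, σ, a, b, hℓ, hℓS, hA, hσ, h1, h2⟩ :=
      gal_weak_chebotarev L g (S ∪ {2, 3, p} ∪ W.Δ.natAbs.primeFactors)
    obtain ⟨-, h5, hℓp, hgood⟩ := hS' ℓ hℓ hℓS
    have hrel := hfrob ℓ hℓ h5 hℓp hgood A hA σ hσ
    refine ⟨σ, b, ((W.apOfModel ℓ : ℤ) : ZMod p), fun v => hLact (σ ^ b) g h2 v, ?_, fun v => ?_⟩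
    · rw [← map_pow]
      exact h11_cycloChar_congr (σ ^ b) g (fun ω hω => h2 ω (hLp ω hω))
    · have hv := hrel v
      rw [h11_cycloChar_frob A hℓ hℓp hA hσ, Int.cast_smul_eq_zsmul, Nat.cast_smul_eq_nsmul]
      rw [natCast_zsmul] at hv
      exact hv
  · -- hc
    intro v
    rw [← mul_smul, complexConjugation_mul_self, one_smul]

end Fermat.Agent.S41
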