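import Mathlib
import Fermat.Prelude.Def_FLTPrelim_GaloisRep
import Fermat.Agent.S05.Defs
import Fermat.Agent.S05.VC
import Fermat.Agent.S13.h3_Ladder

/-!
# S41, row C-P2: `#E[p](ℚ̄) = p²` for an odd prime `p`

* `h70_Wr_top`: the Wronskian `X_n' Z_n - X_n Z_n'` of the ladder polynomials has leading
  coefficient `n²`;
* `h70_card_torsion_ge`: on `Y² = X³ + aX² + bX` over an algebraically closed field of
  characteristic zero there are `p²` points killed by `p` (a generic fibre of `[p]` has `p²`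
  points);
* `h70_ncard_torsion`: exactly `p²` for odd `p`;
* `h70_exists_shortW`: every Weierstrass curve over an algebraically closed field with `2 ≠ 0` is a
  variable change of some `Y² = X³ + aX² + bX`;
* `h70_card_torsionBy`: `#E[p] = p²` for every elliptic curve over such a field;
* `c_p2`: the row statement.
-/

set_option autoImplicit false

namespace Fermat.Agent.S41

open Polynomial WeierstrassCurve Fermat.Agent.S05 Fermat.Agent.S13

section Wronskian

variable {R : Type*} [CommRing R]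

lemma h70_Top_derivative {q : R[X]} {m : ℕ} {c : R} (hq : h3_Top q m c) (hm : 1 ≤ m) :
    h3_Top (derivative q) (m - 1) ((m : R) * c) := by
  refine ⟨(natDegree_derivative_le q).trans (Nat.sub_le_sub_right hq.1 1), ?_⟩
  rw [coeff_derivative, Nat.sub_add_cancel hm, hq.2]
  have h1 : ((m - 1 : ℕ) : R) + 1 = (m : R) := by
    rw [← Nat.cast_add_one, Nat.sub_add_cancel hm]
  rw [h1, mul_comm]

/-- The Wronskian of the ladder pair `(X_n, Z_n)`. -/
noncomputable def h70_Wr (a b : R) (n : ℕ) : R[X] :=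
  derivative (h3_XZ a b n).1 * (h3_XZ a b n).2 - (h3_XZ a b n).1 * derivative (h3_XZ a b n).2

theorem h70_Wr_top (a b : R) (n : ℕ) (hn : 2 ≤ n) :
    h3_Top (h70_Wr a b n) (2 * n ^ 2 - 2) ((n : R) ^ 2) := by
  obtain ⟨h1, h2⟩ := h3_XZ_top a b n (by omega)
  have hn2 : 4 ≤ n ^ 2 := by nlinarith
  have d1 := h70_Top_derivative h1 (by omega)
  have d2 := h70_Top_derivative h2 (by omega)
  have A := h3_Top_congr (h3_Top_mul d1 h2) (by omega : n ^ 2 - 1 + (n ^ 2 - 1) = 2 * n ^ 2 - 2) rfl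
  have B := h3_Top_congr (h3_Top_mul h1 d2)
    (by omega : n ^ 2 + (n ^ 2 - 1 - 1) = 2 * n ^ 2 - 2) rfl
  refine h3_Top_congr (h3_Top_sub A B) rfl ?_
  have h3 : ((n ^ 2 - 1 : ℕ) : R) = (n : R) ^ 2 - 1 := by
    rw [Nat.cast_sub (by omega), Nat.cast_pow, Nat.cast_one]
  rw [h3]
  push_cast
  ring

end Wronskian

section Count

variable {K : Type*} [Field K] [DecidableEq K] [IsAlgClosed K] [CharZero K] {a b : K}

/-- A generic fibre of `[p]` has `p²` points: there are `p²` points killed by `p`. -/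
theorem h70_card_torsion_ge (h2 : (2 : K) ≠ 0) (hb : b ≠ 0) (hd : a ^ 2 - 4 * b ≠ 0)
    {p : ℕ} (hp : 2 ≤ p) :
    ∃ s : Finset (shortW a b).toAffine.Point, s.card = p ^ 2 ∧ ∀ T ∈ s, p • T = 0 := by
  classical
  have hell := shortW_isElliptic a b h2 hb hd
  obtain ⟨hX, hZ⟩ := h3_XZ_top a b p (by omega)
  have hp2 : 4 ≤ p ^ 2 := by nlinarith
  have hpK : (p : K) ≠ 0 := by exact_mod_cast (by omega : p ≠ 0)
  -- the Wronskian is nonzero
  have hWr := h70_Wr_top a b p hp
  have hWr0 : h70_Wr a b p ≠ 0 := by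
    intro h0
    have h1 := hWr.2
    rw [h0, coeff_zero] at h1
    exact pow_ne_zero 2 hpK h1.symm
  -- every `x` is the `x`-coordinate of a point
  have hpt : ∀ x : K, ∃ y : K, (shortW a b).toAffine.Nonsingular x y := by
    intro x
    obtain ⟨y, hy⟩ := IsAlgClosed.exists_pow_nat_eq (x ^ 3 + a * x ^ 2 + b * x) (n := 2)
      (by norm_num)
    exact ⟨y, (Affine.equation_iff_nonsingular).mp ((shortW_equation_iff a b x y).mpr hy)⟩
  -- `X_p` and `Z_p` have no common zero
  have hcop : ∀ x : K, (h3_XZ a b p).2.eval x = 0 → (h3_XZ a b p).1.eval x ≠ 0 := by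
    intro x hz hx
    obtain ⟨y, hN⟩ := hpt x
    rcases h3_rep h2 hb hd hN p with ⟨-, hu, -⟩ | ⟨x', y', h', -, hw, -⟩
    · exact hu hx
    · exact hw hz
  -- the bad values
  obtain ⟨t₀, ht₀⟩ := Infinite.exists_notMem_finset
    ((h70_Wr a b p).roots.toFinset.image
      (fun x => (h3_XZ a b p).1.eval x / (h3_XZ a b p).2.eval x))
  -- the fibre polynomial
  obtain ⟨f, hf⟩ : ∃ f : K[X], f = (h3_XZ a b p).1 - C t₀ * (h3_XZ a b p).2 := ⟨_, rfl⟩
  have hfTop : h3_Top f (p ^ 2) 1 := by
    have h1 : h3_Top (C t₀ * (h3_XZ a b p).2) (p ^ 2) (t₀ * 0) :=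
      h3_Top_C_mul t₀ (h3_Top_of_lt hZ (by omega : p ^ 2 - 1 < p ^ 2))
    have h3 := h3_Top_sub hX h1
    rw [mul_zero, sub_zero] at h3
    rw [hf]
    exact h3
  have hf0 : f ≠ 0 := by
    intro h0
    have h1 := hfTop.2
    rw [h0, coeff_zero] at h1
    exact zero_ne_one h1
  have hfdeg : f.natDegree = p ^ 2 :=
    le_antisymm hfTop.1 (le_natDegree_of_ne_zero (by rw [hfTop.2]; exact one_ne_zero))
  have hroot : ∀ x : K, f.IsRoot x →
      (h3_XZ a b p).1.eval x = t₀ * (h3_XZ a b p).2.eval x ∧ (h3_XZ a b p).2.eval x ≠ 0 := by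
    intro x hx
    have e1 : (h3_XZ a b p).1.eval x = t₀ * (h3_XZ a b p).2.eval x := by
      have h1 : f.eval x = 0 := hx
      rw [hf, eval_sub, eval_mul, eval_C, sub_eq_zero] at h1
      exact h1
    refine ⟨e1, fun hz => hcop x hz ?_⟩
    rw [e1, hz, mul_zero]
  -- the roots of `f` are simple
  have hnodup : f.roots.Nodup := by
    rw [Multiset.nodup_iff_count_le_one]
    intro x
    rw [count_roots]
    by_contra hcon
    have hcon' : 1 < rootMultiplicity x f := by omega
    obtain ⟨hr, hr'⟩ := (one_lt_rootMultiplicity_iff_isRoot hf0).mp hcon'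
    obtain ⟨e1, hz⟩ := hroot x hr
    have e2 : (derivative (h3_XZ a b p).1).eval x = t₀ * (derivative (h3_XZ a b p).2).eval x := by
      have h1 : (derivative f).eval x = 0 := hr'
      rw [hf, derivative_sub, derivative_C_mul, eval_sub, eval_mul, eval_C, sub_eq_zero] at h1
      exact h1
    have hwr : (h70_Wr a b p).eval x = 0 := by
      unfold h70_Wr
      rw [eval_sub, eval_mul, eval_mul, e1, e2]
      ring
    apply ht₀
    rw [Finset.mem_image]
    refine ⟨x, ?_, ?_⟩
    · rw [Multiset.mem_toFinset, mem_roots hWr0]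
      exact hwr
    · rw [e1, mul_div_assoc, div_self hz, mul_one]
  have hcard : f.roots.toFinset.card = p ^ 2 := by
    rw [Multiset.toFinset_card_of_nodup hnodup, IsAlgClosed.card_roots_eq_natDegree, hfdeg]
  -- the target point
  obtain ⟨s₀, hN₀⟩ := hpt t₀
  -- a point above each root, multiplied by `p` into the target point
  have hex : ∀ x ∈ f.roots.toFinset, ∃ T : (shortW a b).toAffine.Point,
      (∃ (y : K) (h : (shortW a b).toAffine.Nonsingular x y), T = Affine.Point.some x y h) ∧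
        p • T = Affine.Point.some t₀ s₀ hN₀ := by
    intro x hx
    rw [Multiset.mem_toFinset, mem_roots hf0] at hx
    obtain ⟨e1, hz⟩ := hroot x hx
    obtain ⟨y, hN⟩ := hpt x
    rcases h3_rep h2 hb hd hN p with ⟨-, -, hw⟩ | ⟨x', y', h', hP, hw, hu⟩
    · exact absurd hw hz
    · have hx' : x' = t₀ := by
        have h1 : x' * (h3_XZ a b p).2.eval x = t₀ * (h3_XZ a b p).2.eval x := by
          rw [← hu, e1]
        exact mul_right_cancel₀ hz h1
      subst hx'
      have hy' : y' ^ 2 = s₀ ^ 2 := by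
        rw [(shortW_equation_iff a b _ y').mp h'.1, (shortW_equation_iff a b _ s₀).mp hN₀.1]
      rcases sq_eq_sq_iff_eq_or_eq_neg.mp hy' with hy'' | hy''
      · subst hy''
        exact ⟨Affine.Point.some x y hN, ⟨y, hN, rfl⟩, hP⟩
      · subst hy''
        refine ⟨-Affine.Point.some x y hN, ⟨_, _, Affine.Point.neg_some hN⟩, ?_⟩
        rw [smul_neg, hP, Affine.Point.neg_some]
        simp only [Affine.Point.some.injEq, true_and]
        rw [shortW_negY, neg_neg]
  choose! T hT1 hT2 using hex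
  have hTinj : Set.InjOn T (f.roots.toFinset : Set K) := by
    intro x hx x' hx' h
    obtain ⟨y, hN, e⟩ := hT1 x hx
    obtain ⟨y', hN', e'⟩ := hT1 x' hx'
    rw [e, e'] at h
    simp only [Affine.Point.some.injEq] at h
    exact h.1
  have hne : f.roots.toFinset.Nonempty := by
    rw [← Finset.card_pos, hcard]
    omega
  obtain ⟨x₀, hx₀⟩ := hne
  refine ⟨f.roots.toFinset.image (fun x => T x - T x₀), ?_, ?_⟩
  · rw [Finset.card_image_of_injOn, hcard]
    intro x hx x' hx' h
    exact hTinj hx hx' (sub_left_injective h)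
  · intro P hP
    rw [Finset.mem_image] at hP
    obtain ⟨x, hx, rfl⟩ := hP
    rw [nsmul_sub, hT2 x hx, hT2 x₀ hx₀, sub_self]

/-- There are exactly `p²` points killed by an odd `p ≥ 3` on `Y² = X³ + aX² + bX`. -/
theorem h70_ncard_torsion (h2 : (2 : K) ≠ 0) (hb : b ≠ 0) (hd : a ^ 2 - 4 * b ≠ 0)
    {p : ℕ} (hodd : p % 2 = 1) (hp : 3 ≤ p) :
    {T : (shortW a b).toAffine.Point | p • T = 0}.ncard = p ^ 2 := by
  have hpK : (p : K) ≠ 0 := by exact_mod_cast (by omega : p ≠ 0)
  obtain ⟨hfin, hle⟩ := h3_torsion_finite_card_odd (a := a) (b := b) h2 hb hd hodd hpK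
  obtain ⟨s, hs, hsT⟩ := h70_card_torsion_ge (a := a) (b := b) h2 hb hd (by omega : 2 ≤ p)
  refine le_antisymm hle ?_
  rw [← hs, ← Set.ncard_coe_finset s]
  exact Set.ncard_le_ncard (fun T hT => hsT T hT) hfin

end Count

section NormalForm

variable {K : Type*} [Field K]

/-- Over an algebraically closed field with `2 ≠ 0` every Weierstrass curve is a variable change
(with `u = 1`) of a curve `Y² = X³ + aX² + bX`. -/
theorem h70_exists_shortW [IsAlgClosed K] (h2 : (2 : K) ≠ 0) (W : WeierstrassCurve K) :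
    ∃ (C : VariableChange K) (a b : K), C • W = shortW a b ∧ (C • W).Δ = W.Δ := by
  have hdeg : (C (1 : K) * X ^ 3 + C (W.a₂ + W.a₁ ^ 2 / 4) * X ^ 2
      + C (W.a₄ + W.a₁ * W.a₃ / 2) * X + C (W.a₆ + W.a₃ ^ 2 / 4)).degree ≠ 0 := by
    rw [degree_cubic one_ne_zero]
    norm_num
  obtain ⟨r, hr⟩ := IsAlgClosed.exists_root _ hdeg
  have hr' : r ^ 3 + (W.a₂ + W.a₁ ^ 2 / 4) * r ^ 2 + (W.a₄ + W.a₁ * W.a₃ / 2) * r
      + (W.a₆ + W.a₃ ^ 2 / 4) = 0 := by
    have h1 := hr
    simp only [IsRoot.def, eval_add, eval_mul, eval_C, eval_pow, eval_X, one_mul] at h1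
    exact h1
  have h4 : (4 : K) ≠ 0 := by
    have : (4 : K) = 2 * 2 := by norm_num
    rw [this]
    exact mul_ne_zero h2 h2
  refine ⟨⟨1, r, -W.a₁ / 2, -(W.a₃ + r * W.a₁) / 2⟩,
    ((⟨1, r, -W.a₁ / 2, -(W.a₃ + r * W.a₁) / 2⟩ : VariableChange K) • W).a₂,
    ((⟨1, r, -W.a₁ / 2, -(W.a₃ + r * W.a₁) / 2⟩ : VariableChange K) • W).a₄, ?_, ?_⟩
  · ext
    · rw [variableChange_a₁, shortW_a₁]
      simp only [Units.val_one, inv_one, one_mul]
      field_simp
      ring
    · rfl
    · rw [variableChange_a₃, shortW_a₃]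
      simp only [Units.val_one, inv_one, one_pow, one_mul]
      field_simp
      ring
    · rfl
    · rw [variableChange_a₆, shortW_a₆]
      simp only [Units.val_one, inv_one, one_pow, one_mul]
      field_simp
      field_simp at hr'
      apply mul_left_cancel₀ h2
      linear_combination hr'
  · rw [variableChange_Δ]
    simp

end NormalForm

section Final

variable {K : Type*} [Field K] [DecidableEq K] [IsAlgClosed K] [CharZero K]

/-- `#E[p] = p²` for an elliptic curve over an algebraically closed field of characteristic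
zero and an odd `p ≥ 3`. -/
theorem h70_card_torsionBy (W : WeierstrassCurve K) [W.IsElliptic] {p : ℕ} (hodd : p % 2 = 1)
    (hp : 3 ≤ p) :
    Nat.card (Submodule.torsionBy ℤ W.toAffine.Point (p : ℤ)) = p ^ 2 := by
  have h2 : (2 : K) ≠ 0 := two_ne_zero
  obtain ⟨C, a, b, hC, hΔ⟩ := h70_exists_shortW h2 W
  have hΔ0 : (shortW a b).Δ ≠ 0 := by
    rw [← hC, hΔ]
    exact W.isUnit_Δ.ne_zero
  rw [shortW_Δ] at hΔ0
  have hb : b ≠ 0 := by
    rintro rfl
    apply hΔ0
    ring
  have hd : a ^ 2 - 4 * b ≠ 0 := by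
    intro h0
    apply hΔ0
    rw [h0, mul_zero]
  have e : (shortW a b).toAffine.Point ≃+ W.toAffine.Point := by
    rw [← hC]
    exact vc_addEquiv W C
  have hcongr : Nat.card (Submodule.torsionBy ℤ W.toAffine.Point (p : ℤ))
      = Nat.card {T : (shortW a b).toAffine.Point // p • T = 0} := by
    refine Nat.card_congr (Equiv.subtypeEquiv e.symm.toEquiv (fun x => ?_))
    rw [Submodule.mem_torsionBy_iff, natCast_zsmul]
    show p • x = 0 ↔ p • e.symm x = 0
    rw [← map_nsmul, AddEquiv.map_eq_zero_iff]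
  rw [hcongr]
  have h1 := h70_ncard_torsion (a := a) (b := b) h2 hb hd hodd hp
  rw [← h1]
  rfl

end Final

open WeierstrassCurve.Affine WeierstrassCurve.Affine.Point in
/-- **[C-P2]** `#E[p](ℚ̄) = p²` for an odd prime `p`. -/
theorem c_p2 (E : WeierstrassCurve ℚ) [E.IsElliptic] {p : ℕ} (hp : p.Prime) (hp2 : p ≠ 2) :
    Nat.card (Submodule.torsionBy ℤ (E⁄(AlgebraicClosure ℚ)).Point p) = p ^ 2 := by
  have hodd : p % 2 = 1 := by
    rcases hp.eq_two_or_odd with h | h
    · exact absurd h hp2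
    · exact h
  have hp3 : 3 ≤ p := by
    have := hp.two_le
    omega
  exact h70_card_torsionBy (E.map (algebraMap ℚ (AlgebraicClosure ℚ))) hodd hp3

end Fermat.Agent.S41
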