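/-
S41 block (C'), row C-ASM part 2 (helper61): the Galois side with the landed inputs plugged in.

`h61_not_eisenstein_of_frob`: the only remaining hypothesis is the Frobenius relation on `E[p]`
(row C-RED2, `h48_frob_rel`).
-/
import Mathlib
import Fermat.Agent.S41.h61_NotEis
import Fermat.Agent.S41.h45_GaloisCore
import Fermat.Agent.S41.h70_P2
import Fermat.Agent.S41.h16_CField

set_option autoImplicit false

open WeierstrassCurve WeierstrassCurve.Affine WeierstrassCurve.Affine.Point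

namespace Fermat.Agent.S41

local notation "Qb" => AlgebraicClosure ℚ

/-- An integral model of an elliptic curve has nonzero discriminant. -/
theorem h61_model_Δ_ne_zero (E : WeierstrassCurve ℚ) [E.IsElliptic] {W : WeierstrassCurve ℤ}
    (hW : W.IsIntegralModelOf E) : W.Δ ≠ 0 := by
  obtain ⟨C, hC⟩ := hW
  intro h0
  have h1 : (C • E).Δ = 0 := by
    rw [hC, WeierstrassCurve.map_Δ, h0, _root_.map_zero]
  rw [WeierstrassCurve.variableChange_Δ] at h1
  rcases mul_eq_zero.mp h1 with h2 | h2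
  · exact (pow_ne_zero 12 (Units.ne_zero _)) h2
  · exact E.isUnit_Δ.ne_zero h2

/-- **Galois side of S41** modulo the Frobenius relation on `E[p]`. -/
theorem h61_not_eisenstein_of_frob (E : WeierstrassCurve ℚ) [E.IsElliptic]
    {W : WeierstrassCurve ℤ} (hW : W.IsIntegralModelOf E)
    {p q M : ℕ} (hp : p.Prime) (hp2 : p ≠ 2) (hq : q.Prime) (hM : 0 < M)
    (hirr : GaloisRepIsIrreducible (K := AlgebraicClosure ℚ) ℚ E p)
    (S : Finset ℕ)
    (h : ∀ ℓ : ℕ, ℓ.Prime → ℓ ∉ S → W.IsGoodPrimeFor ℓ → M ∣ ℓ - 1 →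
        (∀ x : ZMod ℓ, x ^ p ≠ (q : ZMod ℓ)) → (p : ℤ) ∣ W.apOfModel ℓ - 2)
    (hfrob : ∀ ℓ : ℕ, ℓ.Prime → 5 ≤ ℓ → ℓ ≠ p → W.IsGoodPrimeFor ℓ →
      ∀ A : ValuationSubring Qb, A.LiesOverPrime ℓ → ∀ σ : Qb ≃ₐ[ℚ] Qb, A.IsFrobeniusAt σ ℓ →
      ∀ P : Submodule.torsionBy ℤ (E⁄Qb).Point p,
        σ • σ • P - W.apOfModel ℓ • σ • P + (ℓ : ℤ) • P = 0) : False := by
  have : Fact p.Prime := ⟨hp⟩
  have hcard := c_p2 E hp hp2
  have hfin : Finite (Submodule.torsionBy ℤ (E⁄Qb).Point p) :=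
    Nat.finite_of_card_ne_zero (by rw [hcard]; exact pow_ne_zero _ hp.ne_zero)
  exact h61_not_eisenstein_of (h61_model_Δ_ne_zero E hW) hp2 hq hM S h hfrob (c_field E p hfin)
    (fun H _ hcomm H₂ hsq hne hU χ hF c hc hχc =>
      h45_galois_core hp2 hcard (fun N hN => hirr.2 N hN) H hcomm H₂ hsq hne hU χ hF c hc hχc)

end Fermat.Agent.S41
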