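import Mathlib
import Fermat.Agent.S41.h61_NotEisMain
import Fermat.Agent.S41.h48_FrobRel

/-
helper48, project S41 block (C'), row C-RED2 wired into C-ASM: the Galois side of S41 with the
Frobenius relation (`h48_frob_rel_torsion`) plugged into helper61's `h61_not_eisenstein_of_frob`.

`h48_not_eisenstein`: for an elliptic curve `E` over `ℚ` with integral model `W` and irreducible
`E[p]`, `p` odd, it is impossible that `a_ℓ(E) ≡ 2 (mod p)` for all good primes `ℓ` outside a
finite set with `ℓ ≡ 1 (mod M)` and `q` not a `p`-th power modulo `ℓ`.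
-/

set_option autoImplicit false

open WeierstrassCurve WeierstrassCurve.Affine WeierstrassCurve.Affine.Point

namespace Fermat.Agent.S41

/-- **Galois side of S41 (block (C'))**, unconditional. -/
theorem h48_not_eisenstein (E : WeierstrassCurve ℚ) [E.IsElliptic]
    {W : WeierstrassCurve ℤ} (hW : W.IsIntegralModelOf E)
    {p q M : ℕ} (hp : p.Prime) (hp2 : p ≠ 2) (hq : q.Prime) (hM : 0 < M)
    (hirr : GaloisRepIsIrreducible (K := AlgebraicClosure ℚ) ℚ E p)
    (S : Finset ℕ)
    (h : ∀ ℓ : ℕ, ℓ.Prime → ℓ ∉ S → W.IsGoodPrimeFor ℓ → M ∣ ℓ - 1 →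
        (∀ x : ZMod ℓ, x ^ p ≠ (q : ZMod ℓ)) → (p : ℤ) ∣ W.apOfModel ℓ - 2) : False :=
  h61_not_eisenstein_of_frob E hW hp hp2 hq hM hirr S h
    (fun ℓ hℓ h5 hne hgood A hA σ hσ P => by
      have : Fact ℓ.Prime := ⟨hℓ⟩
      exact h48_frob_rel_torsion E hW ℓ h5 hgood A hA σ hσ p
        ((Nat.prime_dvd_prime_iff_eq hℓ hp).not.mpr hne) P)

end Fermat.Agent.S41
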