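import Mathlib
import Fermat.Agent.S21
import Fermat.Agent.S22
import Fermat.Agent.S16.h30_PerHecke
import Fermat.Agent.S49.helper6_Abstract
import Fermat.Agent.S49.helper7_Eigen
import Fermat.Prelude.Def_FreyPackage_LevelRaising

/-!
# S41, block FIN (helper30): from an integral parabolic eigenclass mod `p` to an eigenform

`h30_fin`: let `Ψ : Γ₀(M) → ℤ` be a parabolic homomorphism which is not divisible by `p`, which
is fixed by `U_q ∘ U_q`, and which is a mod `p` eigenvector of the `T_ℓ` (`ℓ ∤ M`, `good ℓ`) with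
eigenvalues `a ℓ`.  Then there is a normalised eigenform `g` of level `M`, new at `q`
(`a_q(g)² = 1`), and a maximal ideal `𝔪' ∋ p` of `ℤ̄` with `a_ℓ(g) ≡ a ℓ mod 𝔪'` for all good `ℓ`.

Proof: Eichler-Shimura (`S21`) writes `Ψ ⊗ ℂ = periodHomPair (f₁, f₂)`, Hecke-equivariantly.
The set of Hecke operators `t` such that `periodHomPair (t f₁, t f₂)` is `p` times an integral
class is a proper ideal of the Hecke algebra; a maximal ideal above it carries an eigenvector in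
`V₁ = ker (U_q² - 1)` (Deligne-Serre).
-/

set_option autoImplicit false

namespace Fermat.Agent.S41

open CongruenceSubgroup ModularCurve.Period
open Fermat.Agent.S16

variable {M : ℕ}

theorem h30_cast_comp_nsmul (n : ℕ) (φ : Additive (Gamma0 M) →+ ℤ) :
    (Int.castAddHom ℂ).comp (n • φ) = n • (Int.castAddHom ℂ).comp φ := by
  refine AddMonoidHom.ext fun γ => ?_
  simp

theorem h30_cast_comp_zsmul (n : ℤ) (φ : Additive (Gamma0 M) →+ ℤ) :
    (Int.castAddHom ℂ).comp (n • φ) = n • (Int.castAddHom ℂ).comp φ := by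
  refine AddMonoidHom.ext fun γ => ?_
  simp

theorem h30_cast_comp_add (φ φ' : Additive (Gamma0 M) →+ ℤ) :
    (Int.castAddHom ℂ).comp (φ + φ') =
      (Int.castAddHom ℂ).comp φ + (Int.castAddHom ℂ).comp φ' := by
  refine AddMonoidHom.ext fun γ => ?_
  simp

theorem h30_cast_comp_sub (φ φ' : Additive (Gamma0 M) →+ ℤ) :
    (Int.castAddHom ℂ).comp (φ - φ') =
      (Int.castAddHom ℂ).comp φ - (Int.castAddHom ℂ).comp φ' := by
  refine AddMonoidHom.ext fun γ => ?_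
  simp

theorem h30_cast_comp_injective (φ φ' : Additive (Gamma0 M) →+ ℤ)
    (h : (Int.castAddHom ℂ).comp φ = (Int.castAddHom ℂ).comp φ') : φ = φ' := by
  refine AddMonoidHom.ext fun γ => ?_
  have h1 := DFunLike.congr_fun h γ
  simpa using h1

variable [NeZero M]

/-- `periodHomPair (f, g)` is `p` times an integral class. -/
def h30_Div (p : ℕ) (f g : CuspForm (Gamma0 M) 2) : Prop :=
  ∃ φ : Additive (Gamma0 M) →+ ℤ,
    ModularCurve.periodHomPair M (f, g) = (Int.castAddHom ℂ).comp (p • φ)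

theorem h30_Div_zero (p : ℕ) : h30_Div p (0 : CuspForm (Gamma0 M) 2) 0 := by
  refine ⟨0, ?_⟩
  rw [show ((0 : CuspForm (Gamma0 M) 2), (0 : CuspForm (Gamma0 M) 2)) = 0 from rfl, map_zero,
    smul_zero, AddMonoidHom.comp_zero]

theorem h30_Div_add (p : ℕ) {f g f' g' : CuspForm (Gamma0 M) 2} (h : h30_Div p f g)
    (h' : h30_Div p f' g') : h30_Div p (f + f') (g + g') := by
  obtain ⟨φ, hφ⟩ := h
  obtain ⟨φ', hφ'⟩ := h'
  refine ⟨φ + φ', ?_⟩
  rw [show (f + f', g + g') = (f, g) + (f', g') from rfl, map_add, hφ, hφ', smul_add,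
    h30_cast_comp_add]

theorem h30_Div_zsmul (p : ℕ) (r : ℤ) {f g : CuspForm (Gamma0 M) 2} (h : h30_Div p f g) :
    h30_Div p (r • f) (r • g) := by
  obtain ⟨φ, hφ⟩ := h
  refine ⟨r • φ, ?_⟩
  rw [show (r • f, r • g) = r • (f, g) from rfl, map_zsmul, hφ, smul_comm,
    h30_cast_comp_zsmul]

/-- Every element of the Hecke algebra preserves `h30_Div`. -/
theorem h30_Div_of_mem (p : ℕ) {t : Module.End ℂ (CuspForm (Gamma0 M) 2)}
    (ht : t ∈ CuspForm.heckeAlgebra M 2 ∅) :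
    ∀ f g : CuspForm (Gamma0 M) 2, h30_Div p f g → h30_Div p (t f) (t g) := by
  unfold CuspForm.heckeAlgebra at ht
  induction ht using Algebra.adjoin_induction with
  | mem x hx =>
    intro f g h
    obtain ⟨φ, hφ⟩ := h
    rcases hx with ⟨ℓ, hℓ, hℓN, -, rfl⟩ | ⟨q, hqN, hq, -, rfl⟩
    · have : Fact ℓ.Prime := ⟨hℓ⟩
      refine ⟨h30_heckeT M ℓ hℓN φ, ?_⟩
      rw [h30_periodHomPair_heckeT ℓ hℓN f g, hφ, h30_heckeT_comp, map_nsmul]
    · have : NeZero q := ⟨hq.ne_zero⟩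
      refine ⟨h30_heckeU M q hqN φ, ?_⟩
      rw [h30_periodHomPair_heckeU q hqN f g, hφ, h30_heckeU_comp, map_nsmul]
  | algebraMap r =>
    intro f g h
    have e : ∀ v : CuspForm (Gamma0 M) 2,
        (algebraMap ℤ (Module.End ℂ (CuspForm (Gamma0 M) 2)) r) v = r • v := by
      intro v
      rw [Algebra.algebraMap_eq_smul_one, LinearMap.smul_apply, Module.End.one_apply]
    rw [e, e]
    exact h30_Div_zsmul p r h
  | add x y _ _ ihx ihy =>
    intro f g h
    rw [LinearMap.add_apply, LinearMap.add_apply]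
    exact h30_Div_add p (ihx f g h) (ihy f g h)
  | mul x y _ _ ihx ihy =>
    intro f g h
    rw [Module.End.mul_apply, Module.End.mul_apply]
    exact ihx _ _ (ihy f g h)

/-- **FIN.**  An integral parabolic class at level `M`, primitive at `p`, fixed by `U_q²`, and a
mod `p` eigenvector of the good `T_ℓ`, produces a normalised eigenform which is new at `q` and
congruent to the eigenvalue system. -/
theorem h30_fin {q p : ℕ} [Fact q.Prime] (hqM : q ∣ M)
    (good : ℕ → Prop) (a : ℕ → ℤ) (Ψ : Additive (Gamma0 M) →+ ℤ)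
    (hpar : IsParabolicHom (Gamma0 M) Ψ)
    (hprim : ¬ ∃ Ψ' : Additive (Gamma0 M) →+ ℤ, Ψ = p • Ψ')
    (hUU : h30_heckeU M q hqM (h30_heckeU M q hqM Ψ) = Ψ)
    (hT : ∀ (l : ℕ) [Fact l.Prime] (hl : ¬ l ∣ M), good l →
      ∃ u : Additive (Gamma0 M) →+ ℤ, h30_heckeT M l hl Ψ - a l • Ψ = p • u) :
    ∃ (g : CuspForm (Gamma0 M) 2) (𝔪' : Ideal (integralClosure ℤ ℂ)),
      g.IsNormalizedEigenform ∧ 𝔪'.IsMaximal ∧ (p : integralClosure ℤ ℂ) ∈ 𝔪' ∧
      (∀ l : ℕ, l.Prime → ¬ l ∣ M → good l → ∃ c : integralClosure ℤ ℂ,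
        (c : ℂ) = ModularFormClass.qCoeff g l ∧
          c - ((a l : ℤ) : integralClosure ℤ ℂ) ∈ 𝔪') ∧
      g.IsNewAt q := by
  classical
  have hq : q.Prime := Fact.out
  -- the complexified class and Eichler-Shimura
  have hΨpar : (Int.castAddHom ℂ).comp Ψ ∈ parabolicHoms ℂ (Gamma0 M) ℂ := by
    rw [mem_parabolicHoms_iff]
    intro γ hγ
    show ((Ψ (Additive.ofMul γ) : ℤ) : ℂ) = 0
    rw [hpar γ hγ, Int.cast_zero]
  obtain ⟨hinj, hrange⟩ := Fermat.Agent.S21.result M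
  rw [← hrange] at hΨpar
  obtain ⟨⟨f1, f2⟩, hf⟩ := hΨpar
  -- the Hecke algebra
  let ρ : CuspForm.heckeAlgebra M 2 ∅ →+* Module.End ℂ (CuspForm (Gamma0 M) 2) :=
    (CuspForm.heckeAlgebra M 2 ∅).val.toRingHom
  let Uq : CuspForm.heckeAlgebra M 2 ∅ := CuspForm.heckeAlgebra.U hq hqM (Set.notMem_empty q)
  let V1 : Submodule ℂ (CuspForm (Gamma0 M) 2) := LinearMap.ker (ρ (Uq * Uq - 1))
  have hV1 : ∀ v, v ∈ V1 ↔ CuspForm.heckeULin 2 hqM (CuspForm.heckeULin 2 hqM v) = v := by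
    intro v
    show ρ (Uq * Uq - 1) v = 0 ↔ _
    rw [map_sub, map_mul, map_one, LinearMap.sub_apply, Module.End.mul_apply,
      Module.End.one_apply, sub_eq_zero]
    rfl
  -- `f1, f2 ∈ V1`
  have hUUC : h30_heckeU M q hqM (h30_heckeU M q hqM ((Int.castAddHom ℂ).comp Ψ)) =
      (Int.castAddHom ℂ).comp Ψ := by
    rw [h30_heckeU_comp, h30_heckeU_comp, hUU]
  have hff : (CuspForm.heckeULin 2 hqM (CuspForm.heckeULin 2 hqM f1),
      CuspForm.heckeULin 2 hqM (CuspForm.heckeULin 2 hqM f2)) = (f1, f2) := by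
    apply hinj
    rw [h30_periodHomPair_heckeU q hqM, h30_periodHomPair_heckeU q hqM, hf, hUUC]
  have hf1 : f1 ∈ V1 := (hV1 f1).mpr (congrArg Prod.fst hff)
  have hf2 : f2 ∈ V1 := (hV1 f2).mpr (congrArg Prod.snd hff)
  -- the ideal of operators making the class divisible by `p`
  let I : Ideal (CuspForm.heckeAlgebra M 2 ∅) :=
    { carrier := {t | h30_Div p (ρ t f1) (ρ t f2)}
      add_mem' := by
        intro s t hs ht
        show h30_Div p (ρ (s + t) f1) (ρ (s + t) f2)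
        rw [map_add, LinearMap.add_apply, LinearMap.add_apply]
        exact h30_Div_add p hs ht
      zero_mem' := by
        show h30_Div p (ρ 0 f1) (ρ 0 f2)
        rw [map_zero, LinearMap.zero_apply, LinearMap.zero_apply]
        exact h30_Div_zero p
      smul_mem' := by
        intro s t ht
        show h30_Div p (ρ (s • t) f1) (ρ (s • t) f2)
        rw [smul_eq_mul, map_mul, Module.End.mul_apply, Module.End.mul_apply]
        exact h30_Div_of_mem p s.2 _ _ ht }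
  have hI : ∀ t : CuspForm.heckeAlgebra M 2 ∅, t ∈ I ↔ h30_Div p (ρ t f1) (ρ t f2) :=
    fun _ => Iff.rfl
  have hI1 : (1 : CuspForm.heckeAlgebra M 2 ∅) ∉ I := by
    rw [hI, map_one, Module.End.one_apply, Module.End.one_apply]
    rintro ⟨φ, hφ⟩
    apply hprim
    refine ⟨φ, h30_cast_comp_injective _ _ ?_⟩
    rw [← hφ, hf]
  have hIp : ((p : ℕ) : CuspForm.heckeAlgebra M 2 ∅) ∈ I := by
    rw [hI, map_natCast, Module.End.natCast_apply, Module.End.natCast_apply]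
    refine ⟨Ψ, ?_⟩
    rw [show (p • f1, p • f2) = p • (f1, f2) from rfl, map_nsmul, hf, h30_cast_comp_nsmul]
  have hIT : ∀ (l : ℕ) (hl : l.Prime) (hlM : ¬ l ∣ M), good l →
      (CuspForm.heckeAlgebra.T hl hlM (Set.notMem_empty l) -
        ((a l : ℤ) : CuspForm.heckeAlgebra M 2 ∅)) ∈ I := by
    intro l hl hlM hgood
    have : Fact l.Prime := ⟨hl⟩
    obtain ⟨u, hu⟩ := hT l hlM hgood
    rw [hI, map_sub, map_intCast, LinearMap.sub_apply, LinearMap.sub_apply,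
      Module.End.intCast_apply, Module.End.intCast_apply]
    refine ⟨u, ?_⟩
    have e1 : ρ (CuspForm.heckeAlgebra.T hl hlM (Set.notMem_empty l)) =
        CuspForm.heckeTLin 2 hl hlM := rfl
    rw [e1, show (CuspForm.heckeTLin 2 hl hlM f1 - a l • f1,
        CuspForm.heckeTLin 2 hl hlM f2 - a l • f2) =
        (CuspForm.heckeTLin 2 hl hlM f1, CuspForm.heckeTLin 2 hl hlM f2) - a l • (f1, f2)
        from rfl, map_sub, map_zsmul, h30_periodHomPair_heckeT l hlM, hf, h30_heckeT_comp,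
      ← hu, h30_cast_comp_sub, h30_cast_comp_zsmul]
  -- a maximal ideal and an eigenvector
  obtain ⟨𝔪, hmax, hle⟩ := Ideal.exists_le_maximal I ((Ideal.ne_top_iff_one I).mpr hI1)
  have hprime : 𝔪.IsPrime := hmax.isPrime
  have hfin : Module.Finite ℂ (CuspForm (Gamma0 M) 2) := Fermat.Agent.S21.h20_finite_cuspForm M
  have hinv : ∀ t : CuspForm.heckeAlgebra M 2 ∅, ∀ w ∈ V1, ρ t w ∈ V1 := by
    intro t w hw
    have hw' : ρ (Uq * Uq - 1) w = 0 := hw
    show ρ (Uq * Uq - 1) (ρ t w) = 0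
    rw [Fermat.Agent.S49.h6_rho_comm, hw', map_zero]
  have hann : ∀ t : CuspForm.heckeAlgebra M 2 ∅, (∀ w ∈ V1, ρ t w = 0) → t ∈ 𝔪 := by
    intro t ht
    apply hle
    rw [hI, ht f1 hf1, ht f2 hf2]
    exact h30_Div_zero p
  obtain ⟨ψ, v, hvV, hv0, hev, hker⟩ :=
    Fermat.Agent.S49.h6_exists_eigenvector_ker_le_aux ρ 𝔪 (Module.finrank ℂ V1) V1 rfl hinv hann
  have hfinT : Module.Finite ℤ (CuspForm.heckeAlgebra M 2 ∅) := Fermat.Agent.S22.result M 2 ∅
  have hintT : Algebra.IsIntegral ℤ (CuspForm.heckeAlgebra M 2 ∅) :=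
    Algebra.IsIntegral.of_finite ℤ _
  obtain ⟨ψ', 𝔪', hψ', hmax', hcomap⟩ := Fermat.Agent.S49.exists_maximal_comap_eq ψ 𝔪 hker
  -- the eigenvalues and the eigenform
  let lam : ℕ → ℂ := fun ℓ =>
    if hℓ : ℓ.Prime then
      (if hℓM : ℓ ∣ M then ψ (CuspForm.heckeAlgebra.U hℓ hℓM (Set.notMem_empty ℓ))
        else ψ (CuspForm.heckeAlgebra.T hℓ hℓM (Set.notMem_empty ℓ)))
    else 0
  have hlamT : ∀ (ℓ : ℕ) (hℓ : ℓ.Prime) (hℓM : ¬ ℓ ∣ M),
      lam ℓ = ψ (CuspForm.heckeAlgebra.T hℓ hℓM (Set.notMem_empty ℓ)) := by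
    intro ℓ hℓ hℓM
    simp only [lam, dif_pos hℓ, dif_neg hℓM]
  have hlamU : ∀ (ℓ : ℕ) (hℓ : ℓ.Prime) (hℓM : ℓ ∣ M),
      lam ℓ = ψ (CuspForm.heckeAlgebra.U hℓ hℓM (Set.notMem_empty ℓ)) := by
    intro ℓ hℓ hℓM
    simp only [lam, dif_pos hℓ, dif_pos hℓM]
  obtain ⟨g, hg, hgc⟩ := Fermat.Agent.S49.h7_exists_normalized_eigenform v hv0 lam
    (fun ℓ hℓ hℓM => by
      rw [hlamT ℓ hℓ hℓM]
      exact hev (CuspForm.heckeAlgebra.T hℓ hℓM (Set.notMem_empty ℓ)))
    (fun ℓ hℓ hℓM => by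
      rw [hlamU ℓ hℓ hℓM]
      exact hev (CuspForm.heckeAlgebra.U hℓ hℓM (Set.notMem_empty ℓ)))
  refine ⟨g, 𝔪', hg, hmax', ?_, ?_, ?_⟩
  · have h1 : ((p : ℕ) : CuspForm.heckeAlgebra M 2 ∅) ∈ 𝔪 := hle hIp
    rw [← hcomap, Ideal.mem_comap, map_natCast] at h1
    exact h1
  · intro l hl hlM hgood
    refine ⟨ψ' (CuspForm.heckeAlgebra.T hl hlM (Set.notMem_empty l)), ?_, ?_⟩
    · rw [hψ', hgc l hl, hlamT l hl hlM]
    · have h1 := hle (hIT l hl hlM hgood)
      rw [← hcomap, Ideal.mem_comap, map_sub, map_intCast] at h1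
      exact h1
  · show ModularFormClass.qCoeff g q ^ 2 = 1
    rw [hgc q hq, hlamU q hq hqM]
    have h1 : ρ (Uq * Uq - 1) v = 0 := hvV
    rw [hev, map_sub, map_mul, map_one] at h1
    have h2 := (smul_eq_zero.mp h1).resolve_right hv0
    linear_combination h2

end Fermat.Agent.S41
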