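import Mathlib
import Fermat.Prelude.Def_ModularCurve_PeriodMap

/-!
# S41, block (B) (duality on parabolic cohomology): definitions

`G = SL(2, ℤ)`, `Γ ≤ G`, `X = G ⧸ Γ` (left cosets), `U = T * S`.

* A *primitive* of `φ : Γ → A` is `F : G → A` with `F (g * γ) = F g + φ γ`.
* A *potential* of `φ` is `v = F - P : X → A`, `F` a `U`-invariant and `P` a `T`-invariant
  primitive.
* The pairing is `B(φ, ψ) = ∑ x, (v x * v' (T • x) - v (T • x) * v' x)`.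
-/

set_option autoImplicit false

open scoped MatrixGroups
open ModularGroup ModularCurve.Period

namespace Fermat.Agent.S41

section Model

variable {X : Type*} [Fintype X] {R : Type*} [CommRing R]

/-- Condition (C) of the two-permutation model: `n := v ∘ τ - v` satisfies `n ∘ σ = -n`. -/
def h8_C (σ τ : X → X) (v : X → R) : Prop :=
  ∀ x, (v (τ (σ x)) - v (σ x)) + (v (τ x) - v x) = 0

/-- The alternating form of the two-permutation model. -/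
def h8_B2 (τ : X → X) (v v' : X → R) : R :=
  ∑ x, (v x * v' (τ x) - v (τ x) * v' x)

theorem h8_B2_antisymm (τ : X → X) (v v' : X → R) : h8_B2 τ v' v = - h8_B2 τ v v' := by
  unfold h8_B2
  rw [← Finset.sum_neg_distrib]
  exact Finset.sum_congr rfl fun x _ => by ring

theorem h8_B2_add_left (τ : X → X) (v₁ v₂ v' : X → R) :
    h8_B2 τ (v₁ + v₂) v' = h8_B2 τ v₁ v' + h8_B2 τ v₂ v' := by
  unfold h8_B2
  rw [← Finset.sum_add_distrib]
  exact Finset.sum_congr rfl fun x _ => by simp only [Pi.add_apply]; ring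

theorem h8_B2_add_right (τ : X → X) (v v₁ v₂ : X → R) :
    h8_B2 τ v (v₁ + v₂) = h8_B2 τ v v₁ + h8_B2 τ v v₂ := by
  unfold h8_B2
  rw [← Finset.sum_add_distrib]
  exact Finset.sum_congr rfl fun x _ => by simp only [Pi.add_apply]; ring

end Model

section Prim

variable (Γ : Subgroup SL(2, ℤ)) {A : Type*} [AddCommGroup A]

/-- `F` is a primitive of `φ`: `F (g * γ) = F g + φ γ`. -/
def h8_IsPrim (φ : Additive Γ →+ A) (F : SL(2, ℤ) → A) : Prop :=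
  ∀ (g : SL(2, ℤ)) (γ : Γ), F (g * γ) = F g + φ (Additive.ofMul γ)

/-- `v` is a potential of `φ`: `v = F - P` with `F` a `T * S`-invariant primitive and `P` a
`T`-invariant primitive. -/
def h8_IsPot (φ : Additive Γ →+ A) (v : SL(2, ℤ) ⧸ Γ → A) : Prop :=
  ∃ F P : SL(2, ℤ) → A, h8_IsPrim Γ φ F ∧ h8_IsPrim Γ φ P ∧ (∀ g, F (T * S * g) = F g) ∧
    (∀ g, P (T * g) = P g) ∧ ∀ g : SL(2, ℤ), v (g : SL(2, ℤ) ⧸ Γ) = F g - P g

open Classical in
/-- A chosen potential of `φ` (zero if there is none). -/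
noncomputable def h8_pot (φ : Additive Γ →+ ℤ) : SL(2, ℤ) ⧸ Γ → ℤ :=
  if h : ∃ v, h8_IsPot Γ φ v then h.choose else 0

theorem h8_pot_spec (φ : Additive Γ →+ ℤ) (h : ∃ v, h8_IsPot Γ φ v) :
    h8_IsPot Γ φ (h8_pot Γ φ) := by
  unfold h8_pot
  rw [dif_pos h]
  exact h.choose_spec

/-- **The pairing** on `Hom(Γ, ℤ)` (meaningful on parabolic homomorphisms, `Γ` of finite
index containing `-1`). -/
noncomputable def h8_B (φ ψ : Additive Γ →+ ℤ) : ℤ :=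
  ∑ᶠ x : SL(2, ℤ) ⧸ Γ,
    (h8_pot Γ φ x * h8_pot Γ ψ (T • x) - h8_pot Γ φ (T • x) * h8_pot Γ ψ x)

theorem h8_B_eq_B2 [Fintype (SL(2, ℤ) ⧸ Γ)] (φ ψ : Additive Γ →+ ℤ) :
    h8_B Γ φ ψ = h8_B2 (fun x : SL(2, ℤ) ⧸ Γ => T • x) (h8_pot Γ φ) (h8_pot Γ ψ) := by
  unfold h8_B h8_B2
  exact finsum_eq_sum_of_fintype _

/-- `e` is a Heisenberg cochain for `(φ, ψ)`: `e (a * b) = e a + e b + φ a * ψ b`. -/
def h8_IsHeis (φ ψ : Additive Γ →+ ℤ) (e : Γ → ℚ) : Prop :=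
  ∀ a b : Γ, e (a * b) = e a + e b +
    (φ (Additive.ofMul a) : ℚ) * (ψ (Additive.ofMul b) : ℚ)

/-- `T ^ m` lies in every conjugate of `Γ`. -/
def h8_TmCore (m : ℕ) : Prop := ∀ g : SL(2, ℤ), g⁻¹ * T ^ m * g ∈ Γ

variable {Γ} in
/-- The element `g⁻¹ * T ^ m * g` of `Γ`. -/
def h8_conjT {m : ℕ} (hm : h8_TmCore Γ m) (g : SL(2, ℤ)) : Γ := ⟨g⁻¹ * T ^ m * g, hm g⟩

/-- Primitive positive parabolic elements of `Γ`: trace `2`, positively oriented, not a proper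
power (of a trace `2` element) in `Γ`. -/
def h8_IsPar (π : Γ) : Prop :=
  ((π : SL(2, ℤ)) : Matrix (Fin 2) (Fin 2) ℤ).trace = 2 ∧
    0 < (π : SL(2, ℤ)) 0 1 - (π : SL(2, ℤ)) 1 0 ∧
    ∀ (π' : Γ) (k : ℕ), ((π' : SL(2, ℤ)) : Matrix (Fin 2) (Fin 2) ℤ).trace = 2 →
      π' ^ k = π → k = 1

/-- A cusp system: one primitive positive parabolic element per `Γ`-conjugacy class. -/
def h8_IsCuspSystem (R : Finset Γ) : Prop :=
  (∀ ρ ∈ R, h8_IsPar Γ ρ) ∧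
    ∀ π : Γ, h8_IsPar Γ π → ∃! ρ : Γ, ρ ∈ R ∧ ∃ γ : Γ, γ * π * γ⁻¹ = ρ

end Prim

end Fermat.Agent.S41
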