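import Mathlib
import Fermat.Prelude.Def_ModularCurve_PeriodMap
import Fermat.Agent.S41.h8_BDefs

/-!
# S41, block (B): a `T * S`-invariant Heisenberg primitive (row B-HPRIM)

Given `Γ ≤ SL(2, ℤ)`, homomorphisms `φ ψ : Γ → ℤ`, a Heisenberg cochain `e` for `(φ, ψ)` and a
`T * S`-invariant primitive `F` of `φ`, there is a `T * S`-invariant function `H` on `SL(2, ℤ)`
with `H (g * γ) = H g + e γ + F g * ψ γ`.

The proof is the potential argument for a point-dependent cocycle of the action of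
`Γ × ⟨T * S⟩` on `SL(2, ℤ)`: the cocycle vanishes on stabilisers because these consist of
elements of finite order.
-/

set_option autoImplicit false

open scoped MatrixGroups
open ModularGroup ModularCurve.Period

namespace Fermat.Agent.S41

/-- Potentials for a point-dependent cocycle of a group action which vanishes on stabilisers. -/
theorem h19_exists_potential_cocycle {K Y A : Type*} [Group K] [AddCommGroup A]
    (act : K → Y → Y) (hone : ∀ y, act 1 y = y)
    (hmul : ∀ a b y, act (a * b) y = act a (act b y))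
    (c : K → Y → A) (hc : ∀ a b y, c (a * b) y = c a (act b y) + c b y)
    (hstab : ∀ a y, act a y = y → c a y = 0) :
    ∃ f : Y → A, ∀ a y, f (act a y) = c a y + f y := by
  classical
  let r : Setoid Y :=
    { r := fun y y' => ∃ a, act a y = y'
      iseqv := ⟨fun y => ⟨1, hone y⟩,
        fun {y y'} ⟨a, ha⟩ => ⟨a⁻¹, by rw [← ha, ← hmul, inv_mul_cancel, hone]⟩,
        fun {y y' y''} ⟨a, ha⟩ ⟨b, hb⟩ => ⟨b * a, by rw [hmul, ha, hb]⟩⟩ }
  have hrep : ∀ y : Y, ∃ a, act a (Quotient.out (Quotient.mk r y)) = y := fun y =>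
    Quotient.exact (Quotient.out_eq (Quotient.mk r y))
  choose h hh using hrep
  refine ⟨fun y => c (h y) (Quotient.out (Quotient.mk r y)), fun a y => ?_⟩
  have hq : Quotient.mk r (act a y) = Quotient.mk r y :=
    Quotient.sound ⟨a⁻¹, by rw [← hmul, inv_mul_cancel, hone]⟩
  have h1 := hh (act a y)
  rw [hq] at h1
  have h2 := hh y
  show c (h (act a y)) (Quotient.out (Quotient.mk r (act a y)))
    = c a y + c (h y) (Quotient.out (Quotient.mk r y))
  rw [hq]
  set y₀ := Quotient.out (Quotient.mk r y) with hy₀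
  set b := h (act a y) with hb
  have e : act (a * h y) y₀ = act a y := by rw [hmul, h2]
  have h3 : act ((a * h y)⁻¹ * b) y₀ = y₀ := by
    rw [hmul, h1, ← e, ← hmul, inv_mul_cancel, hone]
  have h4 := hstab _ _ h3
  rw [hc] at h4
  -- `c b'⁻¹ (act b' y₀) = - c b' y₀`
  have h5 : c (a * h y)⁻¹ (act (a * h y) y₀) + c (a * h y) y₀ = 0 := by
    rw [← hc, inv_mul_cancel]
    exact hstab 1 y₀ (hone y₀)
  rw [h1, ← e] at h4
  have h6 : c b y₀ = c (a * h y) y₀ := by
    have : c b y₀ - c (a * h y) y₀ = 0 := by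
      rw [← h4]
      have h7 : c (a * h y)⁻¹ (act (a * h y) y₀) = - c (a * h y) y₀ :=
        eq_neg_of_add_eq_zero_left h5
      rw [h7]; abel
    exact sub_eq_zero.mp this
  rw [h6, hc, h2]

/-- A Heisenberg cochain vanishes at `1`. -/
theorem h19_heis_one {Γ : Subgroup SL(2, ℤ)} (φ ψ : Additive Γ →+ ℤ) (e : Γ → ℤ)
    (he : ∀ g h : Γ, e (g * h) = e g + e h + φ (Additive.ofMul g) * ψ (Additive.ofMul h)) :
    e 1 = 0 := by
  have h := he 1 1
  rw [mul_one, ofMul_one, map_zero, zero_mul, add_zero] at h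
  linarith

/-- A Heisenberg cochain at an inverse. -/
theorem h19_heis_inv {Γ : Subgroup SL(2, ℤ)} (φ ψ : Additive Γ →+ ℤ) (e : Γ → ℤ)
    (he : ∀ g h : Γ, e (g * h) = e g + e h + φ (Additive.ofMul g) * ψ (Additive.ofMul h))
    (γ : Γ) : e γ⁻¹ = - e γ + φ (Additive.ofMul γ) * ψ (Additive.ofMul γ) := by
  have h := he γ γ⁻¹
  rw [mul_inv_cancel, h19_heis_one φ ψ e he, ofMul_inv, map_neg] at h
  linarith

/-- A homomorphism to `ℤ` vanishes on elements of finite order. -/
theorem h19_hom_torsion {Γ : Subgroup SL(2, ℤ)} (φ : Additive Γ →+ ℤ) (γ : Γ) (n : ℕ)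
    (hn : 0 < n) (h : γ ^ n = 1) : φ (Additive.ofMul γ) = 0 := by
  have h1 : φ (Additive.ofMul (γ ^ n)) = n • φ (Additive.ofMul γ) := by
    rw [ofMul_pow, map_nsmul]
  rw [h, ofMul_one, map_zero] at h1
  have h2 : (n : ℤ) * φ (Additive.ofMul γ) = 0 := by
    rw [← nsmul_eq_mul]; exact h1.symm
  rcases mul_eq_zero.mp h2 with h3 | h3
  · exact absurd (Int.natCast_eq_zero.mp h3) hn.ne'
  · exact h3

/-- A Heisenberg cochain vanishes on elements of finite order. -/
theorem h19_heis_torsion {Γ : Subgroup SL(2, ℤ)} (φ ψ : Additive Γ →+ ℤ) (e : Γ → ℤ)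
    (he : ∀ g h : Γ, e (g * h) = e g + e h + φ (Additive.ofMul g) * ψ (Additive.ofMul h))
    (γ : Γ) (n : ℕ) (hn : 0 < n) (h : γ ^ n = 1) : e γ = 0 := by
  have hφ : φ (Additive.ofMul γ) = 0 := h19_hom_torsion φ γ n hn h
  have hpow : ∀ k : ℕ, e (γ ^ k) = k * e γ := by
    intro k
    induction k with
    | zero => simp [h19_heis_one φ ψ e he]
    | succ k ih =>
      rw [pow_succ', he, ih, hφ, zero_mul]
      push_cast; ring
  have h1 := hpow n
  rw [h, h19_heis_one φ ψ e he] at h1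
  rcases mul_eq_zero.mp h1.symm with h3 | h3
  · exact absurd (Int.natCast_eq_zero.mp h3) hn.ne'
  · exact h3

/-- **B-HPRIM**: a `T * S`-invariant Heisenberg primitive. -/
theorem h19_exists_heis_prim (Γ : Subgroup SL(2, ℤ)) (hneg : (-1 : SL(2, ℤ)) ∈ Γ)
    (φ ψ : Additive Γ →+ ℤ) (e : Γ → ℤ)
    (he : ∀ g h : Γ, e (g * h) = e g + e h + φ (Additive.ofMul g) * ψ (Additive.ofMul h))
    (F : SL(2, ℤ) → ℤ) (hF : h8_IsPrim Γ φ F) (hFU : ∀ g, F (T * S * g) = F g) :
    ∃ H : SL(2, ℤ) → ℤ,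
      (∀ (g : SL(2, ℤ)) (γ : Γ), H (g * γ) = H g + e γ + F g * ψ (Additive.ofMul γ)) ∧
      ∀ g, H (T * S * g) = H g := by
  have _ := hneg
  have h6 : (T * S : SL(2, ℤ)) ^ 6 = 1 := by decide
  have he1 := h19_heis_one φ ψ e he
  -- `F` is invariant under every power of `T * S`
  have hFz : ∀ (u : Subgroup.zpowers (T * S : SL(2, ℤ))) (g : SL(2, ℤ)),
      F ((u : SL(2, ℤ)) * g) = F g := by
    rintro ⟨u, hu⟩ g
    obtain ⟨j, rfl⟩ := Subgroup.mem_zpowers_iff.mp hu
    show F ((T * S) ^ j * g) = F g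
    have hnat : ∀ (k : ℕ) (g : SL(2, ℤ)), F ((T * S) ^ k * g) = F g := by
      intro k
      induction k with
      | zero => intro g; simp
      | succ k ih => intro g; rw [pow_succ, mul_assoc, ih, hFU]
    have hj : (T * S : SL(2, ℤ)) ^ j = (T * S) ^ (j % ((6 : ℕ) : ℤ)).toNat := by
      rw [zpow_eq_zpow_emod' j h6, ← zpow_natCast,
        Int.toNat_of_nonneg (Int.emod_nonneg _ (by norm_num))]
    rw [hj, hnat]
  have hFinv : ∀ (g : SL(2, ℤ)) (γ : Γ),
      F (g * ((γ : SL(2, ℤ)))⁻¹) = F g - φ (Additive.ofMul γ) := by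
    intro g γ
    have h := hF (g * ((γ : SL(2, ℤ)))⁻¹) γ
    rw [inv_mul_cancel_right] at h
    linarith
  obtain ⟨f, hf⟩ := h19_exists_potential_cocycle
    (K := Γ × Subgroup.zpowers (T * S : SL(2, ℤ))) (Y := SL(2, ℤ)) (A := ℤ)
    (fun a y => (a.2 : SL(2, ℤ)) * y * ((a.1 : SL(2, ℤ)))⁻¹)
    (by intro y; simp)
    (by
      intro a b y
      simp only [Prod.fst_mul, Prod.snd_mul, Subgroup.coe_mul, mul_inv_rev]
      group)
    (fun a y => - e a.1 - (F y - φ (Additive.ofMul a.1)) * ψ (Additive.ofMul a.1))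
    (by
      intro a b y
      simp only [Prod.fst_mul, ofMul_mul, map_add]
      rw [he, hFinv, hFz]
      ring)
    (by
      intro a y hy
      -- `a.1 = y⁻¹ * a.2 * y` has finite order
      have e1 : (a.2 : SL(2, ℤ)) * y = y * (a.1 : SL(2, ℤ)) := mul_inv_eq_iff_eq_mul.mp hy
      have e2 : (a.1 : SL(2, ℤ)) = y⁻¹ * (a.2 : SL(2, ℤ)) * y := by
        rw [mul_assoc, e1, inv_mul_cancel_left]
      have hu6 : (a.2 : SL(2, ℤ)) ^ 6 = 1 := by
        obtain ⟨j, hj⟩ := Subgroup.mem_zpowers_iff.mp a.2.2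
        rw [← hj, ← zpow_natCast, ← zpow_mul, mul_comm, zpow_mul, zpow_natCast, h6, one_zpow]
      have h16 : a.1 ^ 6 = 1 := by
        apply Subtype.ext
        rw [Subgroup.coe_pow, e2, Subgroup.coe_one]
        have : (y⁻¹ * (a.2 : SL(2, ℤ)) * y) ^ 6 = y⁻¹ * (a.2 : SL(2, ℤ)) ^ 6 * y := by
          have := conj_pow (a := y⁻¹) (b := (a.2 : SL(2, ℤ))) (i := 6)
          rw [inv_inv] at this
          exact this
        rw [this, hu6, mul_one, inv_mul_cancel]
      have hφ0 := h19_hom_torsion φ a.1 6 (by norm_num) h16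
      have hψ0 := h19_hom_torsion ψ a.1 6 (by norm_num) h16
      have he0 := h19_heis_torsion φ ψ e he a.1 6 (by norm_num) h16
      show - e a.1 - (F y - φ (Additive.ofMul a.1)) * ψ (Additive.ofMul a.1) = 0
      rw [he0, hψ0]; ring)
  refine ⟨f, fun g γ => ?_, fun g => ?_⟩
  · have h := hf (γ⁻¹, 1) g
    simp only [Subgroup.coe_one, one_mul, InvMemClass.coe_inv, inv_inv, ofMul_inv, map_neg] at h
    rw [h, h19_heis_inv φ ψ e he]
    ring
  · have h := hf (1, ⟨T * S, Subgroup.mem_zpowers _⟩) g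
    simp only [Subgroup.coe_one, inv_one, mul_one, ofMul_one, map_zero] at h
    rw [h, he1]; ring

end Fermat.Agent.S41
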