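import Fermat.Agent.S41.h92_BPrim
import Fermat.Agent.S41.h19_HeisPrim

/-!
# S41 block (B): B-INTR (the interior formula), board #1942 `sk_intr`

For parabolic `φ, ψ : Γ → ℤ`, a Heisenberg cochain `e` (`e (g h) = e g + e h + φ g * ψ h`) and
`m` with `g⁻¹ T^m g ∈ Γ` for all `g`:

  `2 * ∑_{x ∈ G ⧸ Γ} e (g_x⁻¹ T^m g_x) = - m * B_Γ(φ, ψ)`.

* `h92_intr_abs` : the finite-sum identity of the two-permutation model;
* `h92_intr` : the statement `sk_intr` verbatim;  `h92_intr84 : h84`-style packaged form is a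
  one-liner for the consumer.
-/

set_option autoImplicit false

namespace Fermat.Agent.S41

open scoped MatrixGroups
open ModularGroup ModularCurve.Period

section Abs

variable {X : Type*} [Fintype X]

/-- **Abstract interior formula.**  `σ, τ` permutations, `k (σ x) + k x = s x * s' x` with
`s = v ∘ τ - v`, `s' = v' ∘ τ - v'`.  Then
`2 ∑_x ∑_{i<m} (k + s v') (τ^i x) = - m * B2 τ v v'`. -/
theorem h92_intr_abs (σ τ : Equiv.Perm X) (v v' k : X → ℤ)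
    (hk : ∀ x, k (σ x) + k x = (v (τ x) - v x) * (v' (τ x) - v' x)) (m : ℕ) :
    2 * ∑ x, ∑ i ∈ Finset.range m,
        (k ((τ ^ i) x) + (v (τ ((τ ^ i) x)) - v ((τ ^ i) x)) * v' ((τ ^ i) x))
      = -(m : ℤ) * h8_B2 (⇑τ) v v' := by
  -- reindex the inner sums
  have h1 : ∑ x, ∑ i ∈ Finset.range m,
        (k ((τ ^ i) x) + (v (τ ((τ ^ i) x)) - v ((τ ^ i) x)) * v' ((τ ^ i) x))
      = (m : ℤ) * ∑ x, (k x + (v (τ x) - v x) * v' x) := by
    rw [Finset.sum_comm]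
    have h2 : ∀ i ∈ Finset.range m, ∑ x,
        (k ((τ ^ i) x) + (v (τ ((τ ^ i) x)) - v ((τ ^ i) x)) * v' ((τ ^ i) x))
        = ∑ x, (k x + (v (τ x) - v x) * v' x) := fun i _ =>
      Equiv.sum_comp (τ ^ i) (fun x => k x + (v (τ x) - v x) * v' x)
    rw [Finset.sum_congr rfl h2, Finset.sum_const, Finset.card_range, nsmul_eq_mul]
  rw [h1]
  -- `2 ∑ k = ∑ s s'`
  have h3 : 2 * ∑ x, k x = ∑ x, (v (τ x) - v x) * (v' (τ x) - v' x) := by
    have h4 : ∑ x, k (σ x) = ∑ x, k x := Equiv.sum_comp σ k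
    calc 2 * ∑ x, k x = ∑ x, k (σ x) + ∑ x, k x := by rw [h4]; ring
      _ = ∑ x, (k (σ x) + k x) := by rw [Finset.sum_add_distrib]
      _ = ∑ x, (v (τ x) - v x) * (v' (τ x) - v' x) := Finset.sum_congr rfl fun x _ => hk x
  have h5 : ∑ x, v (τ x) * v' (τ x) = ∑ x, v x * v' x :=
    Equiv.sum_comp τ (fun x => v x * v' x)
  unfold h8_B2
  have h6 : ∑ x, (k x + (v (τ x) - v x) * v' x)
      = ∑ x, k x + ∑ x, (v (τ x) - v x) * v' x := Finset.sum_add_distrib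
  have h7 : ∑ x, (v (τ x) - v x) * (v' (τ x) - v' x)
      = ∑ x, v (τ x) * v' (τ x) - ∑ x, v (τ x) * v' x - ∑ x, v x * v' (τ x)
        + ∑ x, v x * v' x := by
    rw [← Finset.sum_sub_distrib, ← Finset.sum_sub_distrib, ← Finset.sum_add_distrib]
    exact Finset.sum_congr rfl fun x _ => by ring
  have h8 : ∑ x, (v (τ x) - v x) * v' x = ∑ x, v (τ x) * v' x - ∑ x, v x * v' x := by
    rw [← Finset.sum_sub_distrib]
    exact Finset.sum_congr rfl fun x _ => by ring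
  have h9 : ∑ x, (v x * v' (τ x) - v (τ x) * v' x)
      = ∑ x, v x * v' (τ x) - ∑ x, v (τ x) * v' x := Finset.sum_sub_distrib _ _
  rw [h6, h9]
  rw [h7, h5] at h3
  rw [h8]
  linear_combination (m : ℤ) * h3

end Abs

section Concrete

variable (Γ : Subgroup SL(2, ℤ))

theorem h92_perm_pow_mk (a : SL(2, ℤ)) (i : ℕ) (g : SL(2, ℤ)) :
    (h92_perm Γ a ^ i) (g : SL(2, ℤ) ⧸ Γ) = ((a ^ i * g : SL(2, ℤ)) : SL(2, ℤ) ⧸ Γ) := by
  induction i with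
  | zero => rw [pow_zero, pow_zero, one_mul]; rfl
  | succ i ih =>
    rw [pow_succ', Equiv.Perm.mul_apply, ih, h92_perm_mk, pow_succ', mul_assoc]

/-- **B-INTR** (`sk_intr` of board #1942, verbatim). -/
theorem h92_intr [Fintype (SL(2, ℤ) ⧸ Γ)] (hneg : (-1 : SL(2, ℤ)) ∈ Γ)
    (φ ψ : Additive Γ →+ ℤ) (hφ : IsParabolicHom Γ φ) (hψ : IsParabolicHom Γ ψ) (e : Γ → ℤ)
    (he : ∀ g h : Γ, e (g * h) = e g + e h + φ (Additive.ofMul g) * ψ (Additive.ofMul h))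
    (m : ℕ) (hm : ∀ g : SL(2, ℤ), g⁻¹ * T ^ m * g ∈ Γ) (r : SL(2, ℤ) ⧸ Γ → SL(2, ℤ))
    (hr : ∀ x, (QuotientGroup.mk (r x) : SL(2, ℤ) ⧸ Γ) = x) :
    2 * ∑ x : SL(2, ℤ) ⧸ Γ, e ⟨(r x)⁻¹ * T ^ m * r x, hm (r x)⟩ = -(m : ℤ) * h8_B Γ φ ψ := by
  obtain ⟨v, hv⟩ := h92_exists_isPot Γ hneg φ hφ
  obtain ⟨v', hv'⟩ := h92_exists_isPot Γ hneg ψ hψ
  rw [h92_B_eq hneg hv hv']
  obtain ⟨F, P, hF, hP, hFU, hPT, hvFP⟩ := hv
  obtain ⟨F', P', hF', hP', hFU', hPT', hvFP'⟩ := hv'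
  obtain ⟨H, hH, hHU⟩ := h19_exists_heis_prim Γ hneg φ ψ e he F hF hFU
  -- evenness
  have heneg : e (⟨-1, hneg⟩ : Γ) = 0 :=
    h19_heis_torsion φ ψ e he ⟨-1, hneg⟩ 2 (by norm_num) (by
      apply Subtype.ext
      show (-1 : SL(2, ℤ)) ^ 2 = 1
      simp)
  have hHneg : ∀ g, H (-g) = H g := by
    intro g
    have h1 := hH g (⟨-1, hneg⟩ : Γ)
    have e1 : g * ((⟨-1, hneg⟩ : Γ) : SL(2, ℤ)) = -g := by
      show g * (-1 : SL(2, ℤ)) = -g
      rw [mul_neg, mul_one]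
    rw [e1, heneg, h92_map_neg_one hneg ψ] at h1
    rw [h1]
    ring
  have hFneg : ∀ g, F (-g) = F g := h92_prim_neg hneg hF
  have hHT : ∀ g, H (T * g) = H (S * g) := by
    intro g
    rw [h92_T_mul, hHU, hHneg]
  have hFT : ∀ g, F (T * g) = F (S * g) := by
    intro g
    rw [h92_T_mul, hFU, hFneg]
  have hFT' : ∀ g, F' (T * g) = F' (S * g) := by
    intro g
    rw [h92_T_mul, hFU', h92_prim_neg hneg hF']
  -- `s` and `s'` on `X`
  have hs : ∀ g : SL(2, ℤ), v ((T * g : SL(2, ℤ)) : SL(2, ℤ) ⧸ Γ) - v (g : SL(2, ℤ) ⧸ Γ)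
      = F (S * g) - F g := by
    intro g
    rw [hvFP, hvFP, hPT, hFT]
    ring
  have hs' : ∀ g : SL(2, ℤ), v' ((T * g : SL(2, ℤ)) : SL(2, ℤ) ⧸ Γ) - v' (g : SL(2, ℤ) ⧸ Γ)
      = F' (S * g) - F' g := by
    intro g
    rw [hvFP', hvFP', hPT', hFT']
    ring
  -- the function `k`
  obtain ⟨kb, hkb⟩ := h92_exists_desc (Γ := Γ)
    (fun g => H (S * g) - H g - (F (S * g) - F g) * F' g) (fun g γ => by
      show H (S * (g * (γ : SL(2, ℤ)))) - H (g * (γ : SL(2, ℤ)))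
          - (F (S * (g * (γ : SL(2, ℤ)))) - F (g * (γ : SL(2, ℤ)))) * F' (g * (γ : SL(2, ℤ)))
        = H (S * g) - H g - (F (S * g) - F g) * F' g
      rw [← mul_assoc, hH, hH, hF, hF, hF']
      ring)
  have hk : ∀ x : SL(2, ℤ) ⧸ Γ, kb (h92_perm Γ S x) + kb x
      = (v (h92_perm Γ T x) - v x) * (v' (h92_perm Γ T x) - v' x) := by
    intro x
    induction x using QuotientGroup.induction_on with
    | H g =>
      rw [h92_perm_mk, h92_perm_mk, hkb, hkb, hs, hs']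
      show H (S * (S * g)) - H (S * g) - (F (S * (S * g)) - F (S * g)) * F' (S * g)
        + (H (S * g) - H g - (F (S * g) - F g) * F' g) = _
      rw [h92_S_mul_S, hHneg, hFneg]
      ring
  -- `P'` is invariant under powers of `T`
  have hP'pow : ∀ (i : ℕ) (g : SL(2, ℤ)), P' (T ^ i * g) = P' g := by
    intro i
    induction i with
    | zero => intro g; rw [pow_zero, one_mul]
    | succ i ih => intro g; rw [pow_succ', mul_assoc, hPT', ih]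
  -- the value of `e` at `g⁻¹ T^m g`
  have hpt : ∀ g : SL(2, ℤ), e ⟨g⁻¹ * T ^ m * g, hm g⟩
      = ∑ i ∈ Finset.range m,
          (kb ((h92_perm Γ T ^ i) (g : SL(2, ℤ) ⧸ Γ))
            + (v (h92_perm Γ T ((h92_perm Γ T ^ i) (g : SL(2, ℤ) ⧸ Γ)))
                - v ((h92_perm Γ T ^ i) (g : SL(2, ℤ) ⧸ Γ)))
              * v' ((h92_perm Γ T ^ i) (g : SL(2, ℤ) ⧸ Γ))) := by
    intro g
    have e1 : g * (((⟨g⁻¹ * T ^ m * g, hm g⟩ : Γ)) : SL(2, ℤ)) = T ^ m * g := by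
      show g * (g⁻¹ * T ^ m * g) = T ^ m * g
      group
    have h1 := hH g ⟨g⁻¹ * T ^ m * g, hm g⟩
    have h2 := hP' g ⟨g⁻¹ * T ^ m * g, hm g⟩
    rw [e1] at h1 h2
    rw [hP'pow] at h2
    have hψ0 : ψ (Additive.ofMul (⟨g⁻¹ * T ^ m * g, hm g⟩ : Γ)) = 0 := by linarith
    rw [hψ0, mul_zero, add_zero] at h1
    -- telescoping
    have h3 : ∑ i ∈ Finset.range m, (H (T ^ (i + 1) * g) - H (T ^ i * g))
        = H (T ^ m * g) - H (T ^ 0 * g) :=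
      Finset.sum_range_sub (fun i => H (T ^ i * g)) m
    rw [pow_zero, one_mul] at h3
    have h4 : ∑ i ∈ Finset.range m,
        (v ((T ^ (i + 1) * g : SL(2, ℤ)) : SL(2, ℤ) ⧸ Γ)
          - v ((T ^ i * g : SL(2, ℤ)) : SL(2, ℤ) ⧸ Γ))
        = v ((T ^ m * g : SL(2, ℤ)) : SL(2, ℤ) ⧸ Γ)
          - v ((T ^ 0 * g : SL(2, ℤ)) : SL(2, ℤ) ⧸ Γ) :=
      Finset.sum_range_sub (fun i => v ((T ^ i * g : SL(2, ℤ)) : SL(2, ℤ) ⧸ Γ)) m
    have h5 : ((T ^ m * g : SL(2, ℤ)) : SL(2, ℤ) ⧸ Γ) = (g : SL(2, ℤ) ⧸ Γ) := by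
      rw [← e1]
      exact h92_mk_mul_mem g _
    rw [pow_zero, one_mul, h5, sub_self] at h4
    -- termwise
    have h6 : ∀ i ∈ Finset.range m,
        kb ((h92_perm Γ T ^ i) (g : SL(2, ℤ) ⧸ Γ))
          + (v (h92_perm Γ T ((h92_perm Γ T ^ i) (g : SL(2, ℤ) ⧸ Γ)))
              - v ((h92_perm Γ T ^ i) (g : SL(2, ℤ) ⧸ Γ)))
            * v' ((h92_perm Γ T ^ i) (g : SL(2, ℤ) ⧸ Γ))
        = (H (T ^ (i + 1) * g) - H (T ^ i * g))
          - P' g * (v ((T ^ (i + 1) * g : SL(2, ℤ)) : SL(2, ℤ) ⧸ Γ)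
              - v ((T ^ i * g : SL(2, ℤ)) : SL(2, ℤ) ⧸ Γ)) := by
      intro i _
      have e2 : T ^ (i + 1) * g = T * (T ^ i * g) := by rw [pow_succ', mul_assoc]
      rw [h92_perm_pow_mk, h92_perm_mk, hkb, e2, hs, hHT, hvFP', hP'pow]
      ring
    rw [Finset.sum_congr rfl h6, Finset.sum_sub_distrib, ← Finset.mul_sum, h3, h4, mul_zero,
      sub_zero]
    linarith
  -- sum over `x`
  have hsum : ∑ x : SL(2, ℤ) ⧸ Γ, e ⟨(r x)⁻¹ * T ^ m * r x, hm (r x)⟩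
      = ∑ x : SL(2, ℤ) ⧸ Γ, ∑ i ∈ Finset.range m,
          (kb ((h92_perm Γ T ^ i) x)
            + (v (h92_perm Γ T ((h92_perm Γ T ^ i) x)) - v ((h92_perm Γ T ^ i) x))
              * v' ((h92_perm Γ T ^ i) x)) := by
    refine Finset.sum_congr rfl fun x _ => ?_
    have h1 := hpt (r x)
    rw [hr x] at h1
    exact h1
  rw [hsum]
  exact h92_intr_abs (h92_perm Γ S) (h92_perm Γ T) v v' kb hk m

end Concrete

end Fermat.Agent.S41
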