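import Fermat.Agent.S41.h30_LRDefs

/-!
# S41, block (D), identity (I1): `tr ∘ res = q + 1`

For a homomorphism `φ : Γ₀(N) → A`, the transfer of its restriction to `Γ₀(N q)` is
`(q + 1) • φ` (`q + 1 = [Γ₀(N) : Γ₀(N q)]`).
-/

set_option autoImplicit false

namespace Fermat.Agent.S41

open CongruenceSubgroup Matrix.SpecialLinearGroup ModularCurve.Period
open scoped MatrixGroups
open Fermat.Agent.S16
open P2MW.S_ModularForm_heckeT_slash_eq_self_of_mem_Gamma0.ModularForm.HeckeSlashInvariance

variable {N q : ℕ} [Fact q.Prime] (hqN : ¬ q ∣ N) {A : Type*} [AddCommGroup A]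

theorem h23_card_onePoint : Fintype.card (OnePoint (ZMod q)) = q + 1 := by
  have : Fintype.card (OnePoint (ZMod q)) = Fintype.card (Option (ZMod q)) :=
    Fintype.card_congr (Equiv.refl _)
  rw [this, Fintype.card_option, ZMod.card]

/-- (I1) `tr (res φ) = (q + 1) • φ`. -/
theorem h23_tr_res (φ : Additive (Gamma0 N) →+ A) :
    h30_tr N q hqN (h30_res N q φ) = (q + 1) • φ := by
  refine AddMonoidHom.ext fun γa => ?_
  obtain ⟨γ, rfl⟩ : ∃ γ : Gamma0 N, Additive.ofMul γ = γa := ⟨Additive.toMul γa, rfl⟩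
  obtain ⟨γ', y, hdec, htr⟩ := h30_tr_exists N q hqN γ
  rw [htr A (h30_res N q φ)]
  have key : ∀ x : OnePoint (ZMod q), h30_incl N q (γ' x) =
      h30_rep N q hqN x * γ * (h30_rep N q hqN (y x))⁻¹ := by
    intro x
    have h1 := hdec x
    rw [h30_repGL, h30_repGL, ← map_mul, ← map_mul] at h1
    have h2 := mapGL_injective h1
    rw [eq_mul_inv_iff_mul_eq]
    apply Subtype.ext
    rw [Subgroup.coe_mul, Subgroup.coe_mul, h30_incl_coe]
    exact h2.symm
  have e : ∀ x : OnePoint (ZMod q), h30_res N q φ (Additive.ofMul (γ' x)) =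
      φ (Additive.ofMul (h30_rep N q hqN x)) + φ (Additive.ofMul γ) -
        φ (Additive.ofMul (h30_rep N q hqN (y x))) := by
    intro x
    rw [h30_res_apply, key x, ofMul_mul, ofMul_mul, ofMul_inv, map_add, map_add, map_neg,
      sub_eq_add_neg]
  rw [Finset.sum_congr rfl (fun x _ => e x), Finset.sum_sub_distrib, Finset.sum_add_distrib,
    Equiv.sum_comp y (fun x => φ (Additive.ofMul (h30_rep N q hqN x))), Finset.sum_const,
    Finset.card_univ, h23_card_onePoint, AddMonoidHom.smul_apply]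
  abel

end Fermat.Agent.S41
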