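import Mathlib

/-!
# S41 (B-CUSP): primitive positive parabolic elements and cusp systems (definitions)

`Γ ≤ SL(2, ℤ)`.  A *primitive positive parabolic* element of `Γ` is an element of trace `2`
with `g 0 1 - g 1 0 > 0` (i.e. a `GL₂⁺`-conjugate of a positive power of `T = [1, 1; 0, 1]`)
which is not a proper power in `Γ`.  A *cusp system* is a finite set of such elements containing
exactly one element of each `Γ`-conjugacy class of them.
-/

set_option autoImplicit false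

namespace Fermat.Agent.S41

open scoped MatrixGroups

/-- `g ∈ Γ` is a primitive positive parabolic element. -/
def h42_IsPosPar (Γ : Subgroup SL(2, ℤ)) (g : Γ) : Prop :=
  ((g : SL(2, ℤ)) : Matrix (Fin 2) (Fin 2) ℤ).trace = 2 ∧
    0 < (g : SL(2, ℤ)) 0 1 - (g : SL(2, ℤ)) 1 0 ∧
    ∀ (h : Γ) (k : ℕ), h ^ k = g → k = 1

/-- A cusp system of `Γ`: a finite set of primitive positive parabolic elements, exactly one in
each `Γ`-conjugacy class of such elements. -/
def h42_IsCuspSystem (Γ : Subgroup SL(2, ℤ)) (R : Finset Γ) : Prop :=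
  (∀ ρ ∈ R, h42_IsPosPar Γ ρ) ∧
    (∀ g : Γ, h42_IsPosPar Γ g → ∃ ρ ∈ R, ∃ γ : Γ, γ * ρ * γ⁻¹ = g) ∧
    (∀ ρ ∈ R, ∀ ρ' ∈ R, ∀ γ : Γ, γ * ρ * γ⁻¹ = ρ' → ρ = ρ')

end Fermat.Agent.S41
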