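import Mathlib
import Fermat.Prelude.Def_ModularCurve_PeriodMap
import Fermat.Agent.S16.h18_Parab
import Fermat.Agent.S41.h42_CuspDefs

/-!
# S41 (B-CUSP): existence of cusp systems and the orbit count

`Γ ≤ SL(2, ℤ)` of finite index with `-1 ∈ Γ`, `X = SL(2, ℤ) ⧸ Γ`, `T = [1, 1; 0, 1]`.

* `h42_exists_cuspSystem`: a cusp system exists.
* `h42_count`: for a function `e` on `Γ` which is a class function on, and additive on powers
  of, elements of trace `2`, and `m > 0` with `g⁻¹ T^m g ∈ Γ` for all `g`: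
  `∑_{x ∈ X} e (g_x⁻¹ T^m g_x) = m • ∑_{ρ ∈ R} e ρ` for every cusp system `R`.
* `h42_count_heis`: the same for a Heisenberg lift `e` of two parabolic homomorphisms.
-/

set_option autoImplicit false

namespace Fermat.Agent.S41

open scoped MatrixGroups
open ModularGroup Matrix.SpecialLinearGroup Fermat.Agent.S16

/-! ### Conjugates of powers of `T` -/

/-- `g⁻¹ T^d g`. -/
def h42_cj (g : SL(2, ℤ)) (d : ℤ) : SL(2, ℤ) := g⁻¹ * T ^ d * g

theorem h42_cj_zero (g : SL(2, ℤ)) : h42_cj g 0 = 1 := by simp [h42_cj]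

theorem h42_cj_add (g : SL(2, ℤ)) (a b : ℤ) : h42_cj g (a + b) = h42_cj g a * h42_cj g b := by
  simp only [h42_cj, zpow_add]
  group

theorem h42_cj_neg (g : SL(2, ℤ)) (a : ℤ) : h42_cj g (-a) = (h42_cj g a)⁻¹ := by
  simp only [h42_cj, zpow_neg]
  group

theorem h42_cj_zpow (g : SL(2, ℤ)) (a b : ℤ) : h42_cj g (a * b) = (h42_cj g a) ^ b := by
  have h : (g⁻¹ * T ^ a * g⁻¹⁻¹) ^ b = g⁻¹ * (T ^ a) ^ b * g⁻¹⁻¹ := conj_zpow
  rw [inv_inv] at h
  simp only [h42_cj, zpow_mul]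
  exact h.symm

theorem h42_cj_pow (g : SL(2, ℤ)) (a : ℤ) (k : ℕ) : h42_cj g (a * k) = (h42_cj g a) ^ k := by
  rw [h42_cj_zpow, zpow_natCast]

theorem h42_cj_mul_right (g γ : SL(2, ℤ)) (d : ℤ) :
    h42_cj (g * γ) d = γ⁻¹ * h42_cj g d * γ := by
  simp only [h42_cj]
  group

theorem h42_cj_T_mul (i : ℤ) (g : SL(2, ℤ)) (d : ℤ) : h42_cj (T ^ i * g) d = h42_cj g d := by
  simp only [h42_cj, mul_inv_rev]
  have h : (T ^ i)⁻¹ * T ^ d * T ^ i = T ^ d := by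
    rw [← zpow_neg, ← zpow_add, ← zpow_add]
    congr 1
    ring
  calc g⁻¹ * (T ^ i)⁻¹ * T ^ d * (T ^ i * g) = g⁻¹ * ((T ^ i)⁻¹ * T ^ d * T ^ i) * g := by group
    _ = g⁻¹ * T ^ d * g := by rw [h]

theorem h42_cj_neg_left (g : SL(2, ℤ)) (d : ℤ) : h42_cj (-g) d = h42_cj g d := by
  simp only [h42_cj]
  have h : (-g)⁻¹ = -g⁻¹ := by
    rw [inv_eq_iff_eq_inv, eq_comm, inv_eq_iff_mul_eq_one]
    simp
  rw [h]
  simp

/-- The matrix of `g⁻¹ T^d g`. -/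
theorem h42_cj_coe (g : SL(2, ℤ)) (d : ℤ) :
    ((h42_cj g d : SL(2, ℤ)) : Matrix (Fin 2) (Fin 2) ℤ) =
      !![1 + d * g 1 0 * g 1 1, d * g 1 1 ^ 2; -(d * g 1 0 ^ 2), 1 - d * g 1 0 * g 1 1] := by
  have hdet := Matrix.SpecialLinearGroup.det_coe g
  rw [Matrix.det_fin_two] at hdet
  have hdet' : g 0 0 * g 1 1 - g 0 1 * g 1 0 = 1 := hdet
  rw [h42_cj, coe_mul, coe_mul, coe_inv, coe_T_zpow, Matrix.adjugate_fin_two]
  ext i j
  fin_cases i <;> fin_cases j <;>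
    simp [Matrix.mul_apply, Fin.sum_univ_two] <;>
    first
      | linear_combination hdet'
      | linear_combination (-1 : ℤ) * hdet'
      | linear_combination (0 : ℤ) * hdet'

theorem h42_cj_trace (g : SL(2, ℤ)) (d : ℤ) :
    ((h42_cj g d : SL(2, ℤ)) : Matrix (Fin 2) (Fin 2) ℤ).trace = 2 := by
  rw [h42_cj_coe, Matrix.trace_fin_two]
  simp

theorem h42_cj_sign (g : SL(2, ℤ)) (d : ℤ) :
    (h42_cj g d) 0 1 - (h42_cj g d) 1 0 = d * (g 1 0 ^ 2 + g 1 1 ^ 2) := by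
  have h := h42_cj_coe g d
  have h01 : (h42_cj g d) 0 1 = d * g 1 1 ^ 2 := by
    have := congrFun (congrFun h 0) 1
    simpa using this
  have h10 : (h42_cj g d) 1 0 = -(d * g 1 0 ^ 2) := by
    have := congrFun (congrFun h 1) 0
    simpa using this
  rw [h01, h10]
  ring

theorem h42_row_pos (g : SL(2, ℤ)) : 0 < g 1 0 ^ 2 + g 1 1 ^ 2 := by
  have hdet := Matrix.SpecialLinearGroup.det_coe g
  rw [Matrix.det_fin_two] at hdet
  have hdet' : g 0 0 * g 1 1 - g 0 1 * g 1 0 = 1 := hdet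
  by_contra hcon
  have h0 : g 1 0 ^ 2 + g 1 1 ^ 2 = 0 := le_antisymm (not_lt.mp hcon) (by positivity)
  have h1 : g 1 0 = 0 := by nlinarith [sq_nonneg (g 1 0), sq_nonneg (g 1 1)]
  have h2 : g 1 1 = 0 := by nlinarith [sq_nonneg (g 1 0), sq_nonneg (g 1 1)]
  rw [h1, h2] at hdet'
  simp at hdet'

theorem h42_cj_pos_iff (g : SL(2, ℤ)) (d : ℤ) :
    0 < (h42_cj g d) 0 1 - (h42_cj g d) 1 0 ↔ 0 < d := by
  rw [h42_cj_sign]
  have := h42_row_pos g
  constructor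
  · intro h
    by_contra hd
    have : d * (g 1 0 ^ 2 + g 1 1 ^ 2) ≤ 0 :=
      mul_nonpos_of_nonpos_of_nonneg (not_lt.mp hd) this.le
    omega
  · intro h
    positivity

/-- Normal form of a positive element of trace `2`. -/
theorem h42_normal_form (t : SL(2, ℤ))
    (htr : (t : Matrix (Fin 2) (Fin 2) ℤ).trace = 2) (hpos : 0 < t 0 1 - t 1 0) :
    ∃ (g : SL(2, ℤ)) (w : ℕ), 0 < w ∧ t = h42_cj g w := by
  rw [Matrix.trace_fin_two] at htr
  obtain ⟨g, k, hk⟩ := h18_exists_conj_T_zpow t htr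
  have h1 : t = h42_cj g⁻¹ k := by
    rw [hk, h42_cj, inv_inv]
  have hk0 : 0 < k := by
    rw [h1] at hpos
    exact (h42_cj_pos_iff _ _).mp hpos
  refine ⟨g⁻¹, k.toNat, by omega, ?_⟩
  rw [h1]
  congr 1
  omega

/-! ### Centralisers -/

theorem h42_T_zpow_inj {a b : ℤ} (h : (T ^ a : SL(2, ℤ)) = T ^ b) : a = b := by
  have h1 := congrArg (fun u : SL(2, ℤ) => (u : Matrix (Fin 2) (Fin 2) ℤ) 0 1) h
  simpa [coe_T_zpow] using h1

theorem h42_neg_T_zpow_ne (a b : ℤ) : (-T ^ a : SL(2, ℤ)) ≠ T ^ b := by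
  intro h
  have h1 := congrArg (fun u : SL(2, ℤ) => (u : Matrix (Fin 2) (Fin 2) ℤ) 0 0) h
  simp [coe_T_zpow] at h1

theorem h42_lower_zero_of_comm (u : SL(2, ℤ)) {a b : ℤ} (ha : a ≠ 0)
    (h : u * T ^ a = T ^ b * u) : u 1 0 = 0 := by
  have h1 := congrArg (fun u : SL(2, ℤ) => (u : Matrix (Fin 2) (Fin 2) ℤ) 1 1) h
  simp only [coe_mul, coe_T_zpow] at h1
  simp [Matrix.mul_apply, Fin.sum_univ_two] at h1
  rcases h1 with h1 | h1
  · exact h1
  · exact absurd h1 ha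

theorem h42_eq_pm_T_zpow (u : SL(2, ℤ)) (h : u 1 0 = 0) : ∃ j : ℤ, u = T ^ j ∨ u = -T ^ j := by
  have hdet := Matrix.SpecialLinearGroup.det_coe u
  rw [Matrix.det_fin_two] at hdet
  have h10 : (u : Matrix (Fin 2) (Fin 2) ℤ) 1 0 = 0 := h
  rw [h10, mul_zero, sub_zero] at hdet
  rcases Int.eq_one_or_neg_one_of_mul_eq_one' hdet with ⟨h0, h1⟩ | ⟨h0, h1⟩
  · refine ⟨u 0 1, Or.inl ?_⟩
    refine h18_eq_T_zpow u h ?_
    show (u : Matrix (Fin 2) (Fin 2) ℤ) 0 0 + (u : Matrix (Fin 2) (Fin 2) ℤ) 1 1 = 2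
    rw [h0, h1]
    rfl
  · refine ⟨(-u) 0 1, Or.inr ?_⟩
    have h2 : -u = T ^ ((-u) 0 1) := by
      refine h18_eq_T_zpow (-u) ?_ ?_
      · show ((-u : SL(2, ℤ)) : Matrix (Fin 2) (Fin 2) ℤ) 1 0 = 0
        rw [coe_neg]
        simp [h10]
      · show ((-u : SL(2, ℤ)) : Matrix (Fin 2) (Fin 2) ℤ) 0 0 +
          ((-u : SL(2, ℤ)) : Matrix (Fin 2) (Fin 2) ℤ) 1 1 = 2
        rw [coe_neg]
        simp [h0, h1]
    rw [← h2, neg_neg]

theorem h42_cj_eq_cj {g g' : SL(2, ℤ)} {a b : ℤ} (ha : a ≠ 0)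
    (h : h42_cj g a = h42_cj g' b) : ∃ j : ℤ, g' = T ^ j * g ∨ g' = -(T ^ j * g) := by
  have h1 : (g' * g⁻¹) * T ^ a = T ^ b * (g' * g⁻¹) := by
    have h2 : T ^ a = g * h42_cj g a * g⁻¹ := by simp only [h42_cj]; group
    have h3 : T ^ b = g' * h42_cj g' b * g'⁻¹ := by simp only [h42_cj]; group
    rw [h2, h3, h]
    group
  obtain ⟨j, hj | hj⟩ := h42_eq_pm_T_zpow _ (h42_lower_zero_of_comm _ ha h1)
  · refine ⟨j, Or.inl ?_⟩
    rw [← hj]
    group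
  · refine ⟨j, Or.inr ?_⟩
    rw [← neg_mul, ← hj]
    group

/-! ### Widths -/

variable {Γ : Subgroup SL(2, ℤ)}

/-- If the primitive positive parabolic `ρ` is `g⁻¹ T^w g`, then `w > 0`. -/
theorem h42_width_pos {ρ : Γ} (hρ : h42_IsPosPar Γ ρ) {g : SL(2, ℤ)} {w : ℤ}
    (hw : (ρ : SL(2, ℤ)) = h42_cj g w) : 0 < w := by
  have h := hρ.2.1
  rw [hw] at h
  exact (h42_cj_pos_iff g w).mp h

/-- If the primitive positive parabolic `ρ` is `g⁻¹ T^w g`, then `w` divides every `d` with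
`g⁻¹ T^d g ∈ Γ`. -/
theorem h42_width_dvd {ρ : Γ} (hρ : h42_IsPosPar Γ ρ) {g : SL(2, ℤ)} {w : ℤ}
    (hw : (ρ : SL(2, ℤ)) = h42_cj g w) {d : ℤ} (hd : h42_cj g d ∈ Γ) : w ∣ d := by
  have hw0 : 0 < w := h42_width_pos hρ hw
  have hwΓ : h42_cj g w ∈ Γ := hw ▸ ρ.2
  -- the gcd
  have hc0 : 0 < Int.gcd w d := Int.gcd_pos_of_ne_zero_left _ hw0.ne'
  have hbez : (Int.gcd w d : ℤ) = w * Int.gcdA w d + d * Int.gcdB w d := Int.gcd_eq_gcd_ab w d
  have hτ : h42_cj g (Int.gcd w d) ∈ Γ := by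
    rw [hbez, h42_cj_add, h42_cj_zpow, h42_cj_zpow]
    exact mul_mem (zpow_mem hwΓ _) (zpow_mem hd _)
  obtain ⟨k, hk⟩ : (Int.gcd w d : ℤ) ∣ w := Int.gcd_dvd_left w d
  have hk0 : 0 < k := by
    by_contra hcon
    have h1 : (Int.gcd w d : ℤ) * k ≤ 0 :=
      mul_nonpos_of_nonneg_of_nonpos (by positivity) (not_lt.mp hcon)
    omega
  have hpow : (⟨h42_cj g (Int.gcd w d), hτ⟩ : Γ) ^ k.toNat = ρ := by
    apply Subtype.ext
    rw [Subgroup.coe_pow, hw]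
    show (h42_cj g (Int.gcd w d)) ^ k.toNat = h42_cj g w
    rw [← h42_cj_pow]
    congr 1
    rw [Int.toNat_of_nonneg hk0.le]
    exact hk.symm
  have h1 := hρ.2.2 _ _ hpow
  have hk1 : k = 1 := by omega
  rw [hk1, mul_one] at hk
  rw [hk]
  exact Int.gcd_dvd_right w d

/-- Two primitive positive parabolics with normal forms in the same coset are conjugate. -/
theorem h42_conj_of_coset {ρ ρ' : Γ} (hρ : h42_IsPosPar Γ ρ) (hρ' : h42_IsPosPar Γ ρ')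
    {g g' : SL(2, ℤ)} {w w' : ℤ} (h : (ρ : SL(2, ℤ)) = h42_cj g w)
    (h' : (ρ' : SL(2, ℤ)) = h42_cj g' w') (hgg : g⁻¹ * g' ∈ Γ) :
    ∃ γ : Γ, γ * ρ * γ⁻¹ = ρ' := by
  have hg' : g' = g * (g⁻¹ * g') := by group
  have hg : g = g' * (g⁻¹ * g')⁻¹ := by group
  have hw0 : 0 < w := h42_width_pos hρ h
  have hw'0 : 0 < w' := h42_width_pos hρ' h'
  -- `g⁻¹ T^{w'} g ∈ Γ`
  have h1 : h42_cj g w' ∈ Γ := by
    rw [hg, h42_cj_mul_right, ← h']
    exact mul_mem (mul_mem (inv_mem (inv_mem hgg)) ρ'.2) (inv_mem hgg)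
  have h2 : h42_cj g' w ∈ Γ := by
    rw [hg', h42_cj_mul_right, ← h]
    exact mul_mem (mul_mem (inv_mem hgg) ρ.2) hgg
  have hd1 : w ∣ w' := h42_width_dvd hρ h h1
  have hd2 : w' ∣ w := h42_width_dvd hρ' h' h2
  have hww : w = w' := Int.dvd_antisymm hw0.le hw'0.le hd1 hd2
  refine ⟨⟨g⁻¹ * g', hgg⟩⁻¹, ?_⟩
  apply Subtype.ext
  show (g⁻¹ * g')⁻¹ * (ρ : SL(2, ℤ)) * (g⁻¹ * g')⁻¹⁻¹ = ρ'
  rw [h', h, ← hww]
  conv_rhs => rw [hg', h42_cj_mul_right]
  rw [inv_inv]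

/-- The conjugate `g⁻¹ T^w g` with minimal `w > 0` lying in `Γ` is primitive positive
parabolic. -/
theorem h42_isPosPar_of_min (hneg : (-1 : SL(2, ℤ)) ∈ Γ) (g : SL(2, ℤ)) (w : ℕ) (hw0 : 0 < w)
    (hw : h42_cj g w ∈ Γ) (hmin : ∀ j : ℕ, 0 < j → h42_cj g j ∈ Γ → w ≤ j) :
    h42_IsPosPar Γ ⟨h42_cj g w, hw⟩ := by
  refine ⟨h42_cj_trace g w, (h42_cj_pos_iff g w).mpr (by exact_mod_cast hw0), ?_⟩
  intro h k hk
  have hk' : (h : SL(2, ℤ)) ^ k = h42_cj g w := by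
    have := congrArg (fun x : Γ => (x : SL(2, ℤ))) hk
    simpa using this
  have hk0 : k ≠ 0 := by
    rintro rfl
    rw [pow_zero] at hk'
    have h1 := (h42_cj_pos_iff g w).mpr (by exact_mod_cast hw0)
    rw [← hk'] at h1
    simp at h1
  -- `u = g h g⁻¹` commutes with `T^w`
  have hu : (g * h * g⁻¹) ^ k = T ^ (w : ℤ) := by
    rw [conj_pow, hk', h42_cj]
    group
  have hcomm : (g * h * g⁻¹) * T ^ (w : ℤ) = T ^ (w : ℤ) * (g * h * g⁻¹) := by
    rw [← hu, ← pow_succ', ← pow_succ]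
  have hw0' : (w : ℤ) ≠ 0 := by exact_mod_cast hw0.ne'
  obtain ⟨j, hj⟩ := h42_eq_pm_T_zpow _ (h42_lower_zero_of_comm _ hw0' hcomm)
  -- in both cases `g⁻¹ T^j g ∈ Γ` and `j * k = w`
  have key : h42_cj g j ∈ Γ ∧ j * k = w := by
    rcases hj with hj | hj
    · constructor
      · have h1 : h42_cj g j = h := by
          rw [h42_cj, ← hj]
          group
        rw [h1]
        exact h.2
      · rw [hj, ← zpow_natCast, ← zpow_mul] at hu
        exact h42_T_zpow_inj hu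
    · constructor
      · have h1 : h42_cj g j = -(h : SL(2, ℤ)) := by
          have h2 : (h : SL(2, ℤ)) = g⁻¹ * (g * h * g⁻¹) * g := by group
          rw [h2, hj, h42_cj]
          simp
        rw [h1]
        have h3 : -(h : SL(2, ℤ)) = (-1 : SL(2, ℤ)) * h := by simp
        rw [h3]
        exact mul_mem hneg h.2
      · rw [hj, neg_pow, ← zpow_natCast (T ^ j), ← zpow_mul] at hu
        rcases Nat.even_or_odd k with hev | hodd
        · rw [hev.neg_one_pow, one_mul] at hu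
          exact h42_T_zpow_inj hu
        · rw [hodd.neg_one_pow] at hu
          have h4 : (-1 : SL(2, ℤ)) * T ^ (j * (k : ℤ)) = -T ^ (j * (k : ℤ)) := by simp
          rw [h4] at hu
          exact absurd hu (h42_neg_T_zpow_ne _ _)
  obtain ⟨hjΓ, hjk⟩ := key
  have hkpos : (0 : ℤ) < k := by exact_mod_cast Nat.pos_of_ne_zero hk0
  have hjpos : 0 < j := by
    by_contra hcon
    have : j * (k : ℤ) ≤ 0 := mul_nonpos_of_nonpos_of_nonneg (not_lt.mp hcon) hkpos.le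
    omega
  have hle := hmin j.toNat (by omega) (by rw [Int.toNat_of_nonneg hjpos.le]; exact hjΓ)
  have hle' : (w : ℤ) ≤ j := by
    have : ((j.toNat : ℕ) : ℤ) = j := Int.toNat_of_nonneg hjpos.le
    omega
  by_contra hk1
  have hk2 : (2 : ℤ) ≤ k := by omega
  nlinarith

/-! ### Existence of cusp systems -/

/-- **EXISTS-R.** A subgroup of finite index of `SL(2, ℤ)` has a cusp system. -/
theorem h42_exists_cuspSystem' (Γ : Subgroup SL(2, ℤ)) [Γ.FiniteIndex] :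
    ∃ R : Finset Γ, h42_IsCuspSystem Γ R := by
  classical
  -- the conjugacy relation on primitive positive parabolics
  let P : Type := {g : Γ // h42_IsPosPar Γ g}
  let s : Setoid P :=
    { r := fun ρ ρ' => ∃ γ : Γ, γ * ρ.1 * γ⁻¹ = ρ'.1
      iseqv :=
        { refl := fun ρ => ⟨1, by simp⟩
          symm := by
            rintro ρ ρ' ⟨γ, hγ⟩
            exact ⟨γ⁻¹, by rw [← hγ]; group⟩
          trans := by
            rintro ρ ρ' ρ'' ⟨γ, hγ⟩ ⟨γ', hγ'⟩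
            exact ⟨γ' * γ, by rw [← hγ', ← hγ]; group⟩ } }
  -- normal forms
  have hnf : ∀ ρ : P, ∃ (g : SL(2, ℤ)) (w : ℕ), 0 < w ∧ ((ρ.1 : Γ) : SL(2, ℤ)) = h42_cj g w :=
    fun ρ => h42_normal_form _ ρ.2.1 ρ.2.2.1
  choose gg ww hww hgw using hnf
  -- the classes inject into the cosets
  let f : Quotient s → SL(2, ℤ) ⧸ Γ := fun q => QuotientGroup.mk (gg q.out)
  have hf : Function.Injective f := by
    intro q q' hqq
    have h1 : (gg q.out)⁻¹ * gg q'.out ∈ Γ := QuotientGroup.eq.mp hqq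
    have h2 : s.r q.out q'.out :=
      h42_conj_of_coset q.out.2 q'.out.2 (hgw q.out) (hgw q'.out) h1
    have h3 : (⟦q.out⟧ : Quotient s) = ⟦q'.out⟧ := Quotient.sound h2
    rwa [Quotient.out_eq, Quotient.out_eq] at h3
  have hfin : Finite (SL(2, ℤ) ⧸ Γ) := Subgroup.finite_quotient_of_finiteIndex
  have hfinQ : Finite (Quotient s) := Finite.of_injective f hf
  have := Fintype.ofFinite (Quotient s)
  refine ⟨Finset.univ.image fun q : Quotient s => (q.out).1, ?_, ?_, ?_⟩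
  · intro ρ hρ
    obtain ⟨q, -, rfl⟩ := Finset.mem_image.mp hρ
    exact q.out.2
  · intro g hg
    let q : Quotient s := ⟦⟨g, hg⟩⟧
    have h1 : s.r q.out ⟨g, hg⟩ := Quotient.exact (Quotient.out_eq q)
    obtain ⟨γ, hγ⟩ := h1
    exact ⟨q.out.1, Finset.mem_image.mpr ⟨q, Finset.mem_univ _, rfl⟩, γ, hγ⟩
  · intro ρ hρ ρ' hρ' γ hγ
    obtain ⟨q, -, rfl⟩ := Finset.mem_image.mp hρ
    obtain ⟨q', -, rfl⟩ := Finset.mem_image.mp hρ'
    have h1 : s.r q.out q'.out := ⟨γ, hγ⟩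
    have h3 : (⟦q.out⟧ : Quotient s) = ⟦q'.out⟧ := Quotient.sound h1
    rw [Quotient.out_eq, Quotient.out_eq] at h3
    rw [h3]

/-- A common period: `g⁻¹ T^m g ∈ Γ` for all `g`. -/
theorem h42_exists_m (Γ : Subgroup SL(2, ℤ)) [Γ.FiniteIndex] :
    ∃ m : ℕ, 0 < m ∧ ∀ g : SL(2, ℤ), g⁻¹ * T ^ m * g ∈ Γ := by
  refine ⟨Γ.normalCore.index, Nat.pos_of_ne_zero Subgroup.FiniteIndex.index_ne_zero, ?_⟩
  intro g
  have h1 : T ^ Γ.normalCore.index ∈ Γ.normalCore := Subgroup.pow_index_mem _ T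
  have h2 := (Subgroup.normalCore_normal Γ).conj_mem _ h1 g⁻¹
  rw [inv_inv] at h2
  exact Subgroup.normalCore_le Γ h2

/-- **EXISTS-R** (with the hypothesis `-1 ∈ Γ` of the other (B) rows; it is not used). -/
theorem h42_exists_cuspSystem (Γ : Subgroup SL(2, ℤ)) [Γ.FiniteIndex]
    (_hneg : (-1 : SL(2, ℤ)) ∈ Γ) : ∃ R : Finset Γ, h42_IsCuspSystem Γ R :=
  h42_exists_cuspSystem' Γ

/-! ### The orbit count -/

/-- **COUNT.** -/
theorem h42_count (Γ : Subgroup SL(2, ℤ)) [Fintype (SL(2, ℤ) ⧸ Γ)]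
    (hneg : (-1 : SL(2, ℤ)) ∈ Γ) {A : Type*} [AddCommGroup A] (e : Γ → A)
    (hconj : ∀ t γ : Γ, ((t : SL(2, ℤ)) : Matrix (Fin 2) (Fin 2) ℤ).trace = 2 →
      e (γ⁻¹ * t * γ) = e t)
    (hpow : ∀ (t : Γ) (k : ℕ), ((t : SL(2, ℤ)) : Matrix (Fin 2) (Fin 2) ℤ).trace = 2 →
      e (t ^ k) = k • e t)
    (R : Finset Γ) (hR : h42_IsCuspSystem Γ R) (m : ℕ) (hm0 : 0 < m)
    (hm : ∀ g : SL(2, ℤ), g⁻¹ * T ^ m * g ∈ Γ)
    (r : SL(2, ℤ) ⧸ Γ → SL(2, ℤ))
    (hr : ∀ x, (QuotientGroup.mk (r x) : SL(2, ℤ) ⧸ Γ) = x) :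
    ∑ x : SL(2, ℤ) ⧸ Γ, e ⟨(r x)⁻¹ * T ^ m * r x, hm (r x)⟩ = m • ∑ ρ ∈ R, e ρ := by
  classical
  have hcjm : ∀ g : SL(2, ℤ), h42_cj g m ∈ Γ := by
    intro g
    have := hm g
    rwa [← zpow_natCast] at this
  -- normal forms of the elements of `R`
  have hnf : ∀ ρ : {ρ // ρ ∈ R}, ∃ (g : SL(2, ℤ)) (w : ℕ), 0 < w ∧
      ((ρ : Γ) : SL(2, ℤ)) = h42_cj g w :=
    fun ρ => h42_normal_form _ (hR.1 ρ ρ.2).1 (hR.1 ρ ρ.2).2.1
  choose gg ww hww hgw using hnf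
  have hPP : ∀ ρ : {ρ // ρ ∈ R}, h42_IsPosPar Γ (ρ : Γ) := fun ρ => hR.1 ρ ρ.2
  have hdvd : ∀ ρ : {ρ // ρ ∈ R}, ww ρ ∣ m := by
    intro ρ
    have := h42_width_dvd (hPP ρ) (hgw ρ) (hcjm (gg ρ))
    exact_mod_cast this
  -- `T^w g_ρ = g_ρ ρ`
  have hcjw : ∀ (ρ : {ρ // ρ ∈ R}) (d : ℤ), h42_cj (gg ρ) (ww ρ * d) ∈ Γ := by
    intro ρ d
    rw [h42_cj_zpow, ← hgw ρ]
    exact zpow_mem (ρ : Γ).2 d
  symm
  calc m • ∑ ρ ∈ R, e ρ = ∑ ρ ∈ R.attach, m • e (ρ : Γ) := by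
        rw [Finset.smul_sum, ← Finset.sum_attach]
    _ = ∑ ρ ∈ R.attach, ∑ _k ∈ Finset.range (ww ρ), (m / ww ρ) • e (ρ : Γ) := by
        refine Finset.sum_congr rfl fun ρ _ => ?_
        rw [Finset.sum_const, Finset.card_range, smul_smul, Nat.mul_div_cancel' (hdvd ρ)]
    _ = ∑ p ∈ R.attach.sigma (fun ρ => Finset.range (ww ρ)), (m / ww p.1) • e (p.1 : Γ) :=
        (Finset.sum_sigma R.attach (fun ρ => Finset.range (ww ρ))
          (fun p => (m / ww p.1) • e (p.1 : Γ))).symm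
    _ = ∑ x : SL(2, ℤ) ⧸ Γ, e ⟨(r x)⁻¹ * T ^ m * r x, hm (r x)⟩ := by
        refine Finset.sum_bij
          (fun p _ => (QuotientGroup.mk (T ^ (p.2 : ℤ) * gg p.1) : SL(2, ℤ) ⧸ Γ))
          (fun _ _ => Finset.mem_univ _) ?_ ?_ ?_
        · -- injectivity
          rintro ⟨ρ₁, k₁⟩ h₁ ⟨ρ₂, k₂⟩ h₂ heq
          have hk₁ : k₁ < ww ρ₁ := Finset.mem_range.mp (Finset.mem_sigma.mp h₁).2
          have hk₂ : k₂ < ww ρ₂ := Finset.mem_range.mp (Finset.mem_sigma.mp h₂).2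
          have h1 : (T ^ (k₁ : ℤ) * gg ρ₁)⁻¹ * (T ^ (k₂ : ℤ) * gg ρ₂) ∈ Γ :=
            QuotientGroup.eq.mp heq
          have hρ : ρ₁ = ρ₂ := by
            obtain ⟨γ, hγ⟩ := h42_conj_of_coset (hPP ρ₁) (hPP ρ₂)
              (g := T ^ (k₁ : ℤ) * gg ρ₁) (g' := T ^ (k₂ : ℤ) * gg ρ₂)
              (by rw [h42_cj_T_mul]; exact hgw ρ₁) (by rw [h42_cj_T_mul]; exact hgw ρ₂) h1
            exact Subtype.ext (hR.2.2 ρ₁ ρ₁.2 ρ₂ ρ₂.2 γ hγ)
          subst hρ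
          have h2 : h42_cj (gg ρ₁) ((k₂ : ℤ) - k₁) ∈ Γ := by
            have h3 : h42_cj (gg ρ₁) ((k₂ : ℤ) - k₁) =
                (T ^ (k₁ : ℤ) * gg ρ₁)⁻¹ * (T ^ (k₂ : ℤ) * gg ρ₁) := by
              simp only [h42_cj, zpow_sub]
              have hc : (T : SL(2, ℤ)) ^ (k₂ : ℤ) * (T ^ (k₁ : ℤ))⁻¹ =
                  (T ^ (k₁ : ℤ))⁻¹ * T ^ (k₂ : ℤ) := by
                rw [← zpow_neg, ← zpow_add, ← zpow_add, add_comm]
              rw [hc]
              group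
            rw [h3]
            exact h1
          have h4 : (ww ρ₁ : ℤ) ∣ (k₂ : ℤ) - k₁ := h42_width_dvd (hPP ρ₁) (hgw ρ₁) h2
          have h5 : k₁ = k₂ := by
            obtain ⟨c, hc⟩ := h4
            have hc0 : c = 0 := by
              by_contra hne
              rcases lt_or_gt_of_ne hne with hlt | hgt
              · have : (ww ρ₁ : ℤ) * c ≤ -(ww ρ₁ : ℤ) := by nlinarith
                omega
              · have : (ww ρ₁ : ℤ) ≤ (ww ρ₁ : ℤ) * c := by nlinarith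
                omega
            rw [hc0, mul_zero] at hc
            omega
          subst h5
          rfl
        · -- surjectivity
          intro x _
          -- the minimal width of `r x`
          have hex : ∃ j : ℕ, 0 < j ∧ h42_cj (r x) j ∈ Γ := ⟨m, hm0, hcjm (r x)⟩
          let wx := Nat.find hex
          have hwx : 0 < wx ∧ h42_cj (r x) wx ∈ Γ := Nat.find_spec hex
          have hmin : ∀ j : ℕ, 0 < j → h42_cj (r x) j ∈ Γ → wx ≤ j :=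
            fun j h0 hj => Nat.find_min' hex ⟨h0, hj⟩
          have hσ := h42_isPosPar_of_min hneg (r x) wx hwx.1 hwx.2 hmin
          obtain ⟨ρ, hρR, γ, hγ⟩ := hR.2.1 _ hσ
          let ρ' : {ρ // ρ ∈ R} := ⟨ρ, hρR⟩
          have h1 : h42_cj (gg ρ' * (γ : SL(2, ℤ))⁻¹) (ww ρ') = h42_cj (r x) wx := by
            rw [h42_cj_mul_right, ← hgw ρ', inv_inv]
            have := congrArg (fun y : Γ => (y : SL(2, ℤ))) hγ
            simpa using this
          have hw0 : ((ww ρ' : ℕ) : ℤ) ≠ 0 := by exact_mod_cast (hww ρ').ne'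
          obtain ⟨j, hj⟩ := h42_cj_eq_cj hw0 h1
          -- `r x ∈ T^j g_ρ Γ`
          have h2 : (T ^ j * gg ρ')⁻¹ * r x ∈ Γ := by
            rcases hj with hj | hj
            · have h3 : (T ^ j * gg ρ')⁻¹ * r x = (γ : SL(2, ℤ))⁻¹ := by
                rw [hj]
                group
              rw [h3]
              exact inv_mem γ.2
            · have h3 : (T ^ j * gg ρ')⁻¹ * r x = (-1 : SL(2, ℤ)) * (γ : SL(2, ℤ))⁻¹ := by
                rw [hj]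
                have h4 : -(T ^ j * (gg ρ' * (γ : SL(2, ℤ))⁻¹)) =
                    (T ^ j * gg ρ') * ((-1 : SL(2, ℤ)) * (γ : SL(2, ℤ))⁻¹) := by
                  simp [mul_assoc]
                rw [h4]
                group
              rw [h3]
              exact mul_mem hneg (inv_mem γ.2)
          -- reduce `j` modulo the width
          have hwpos : (0 : ℤ) < ww ρ' := by exact_mod_cast hww ρ'
          refine ⟨⟨ρ', (j % (ww ρ' : ℤ)).toNat⟩, ?_, ?_⟩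
          · refine Finset.mem_sigma.mpr ⟨Finset.mem_attach _ _, Finset.mem_range.mpr ?_⟩
            have h5 := Int.emod_lt_of_pos j hwpos
            have h6 := Int.emod_nonneg j hwpos.ne'
            show (j % (ww ρ' : ℤ)).toNat < ww ρ'
            omega
          · show (QuotientGroup.mk (T ^ (((j % (ww ρ' : ℤ)).toNat : ℕ) : ℤ) * gg ρ') :
              SL(2, ℤ) ⧸ Γ) = x
            rw [← hr x]
            refine QuotientGroup.eq.mpr ?_
            have h6 : (((j % (ww ρ' : ℤ)).toNat : ℕ) : ℤ) = j % (ww ρ' : ℤ) :=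
              Int.toNat_of_nonneg (Int.emod_nonneg j hwpos.ne')
            rw [h6]
            have h7 : (T ^ (j % (ww ρ' : ℤ)) * gg ρ')⁻¹ * r x =
                h42_cj (gg ρ') ((ww ρ' : ℤ) * (j / (ww ρ' : ℤ))) * ((T ^ j * gg ρ')⁻¹ * r x) := by
              have h8 : j = j % (ww ρ' : ℤ) + (ww ρ' : ℤ) * (j / (ww ρ' : ℤ)) :=
                (Int.emod_add_mul_ediv j _).symm
              have h9 : (T : SL(2, ℤ)) ^ j =
                  T ^ (j % (ww ρ' : ℤ)) * T ^ ((ww ρ' : ℤ) * (j / (ww ρ' : ℤ))) := by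
                rw [← zpow_add, ← h8]
              rw [h9]
              simp only [h42_cj]
              group
            rw [h7]
            exact mul_mem (hcjw ρ' _) h2
        · -- the values
          rintro ⟨ρ, k⟩ hp
          set x : SL(2, ℤ) ⧸ Γ := QuotientGroup.mk (T ^ (k : ℤ) * gg ρ) with hx
          have h1 : (T ^ (k : ℤ) * gg ρ)⁻¹ * r x ∈ Γ := QuotientGroup.eq.mp (hr x).symm
          let γ : Γ := ⟨_, h1⟩
          have h2 : r x = (T ^ (k : ℤ) * gg ρ) * γ := by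
            show r x = (T ^ (k : ℤ) * gg ρ) * ((T ^ (k : ℤ) * gg ρ)⁻¹ * r x)
            group
          obtain ⟨c, hc⟩ := hdvd ρ
          have hc' : m / ww ρ = c := by
            rw [hc, Nat.mul_div_cancel_left _ (hww ρ)]
          have h3 : (⟨(r x)⁻¹ * T ^ m * r x, hm (r x)⟩ : Γ) = γ⁻¹ * (ρ : Γ) ^ c * γ := by
            apply Subtype.ext
            show (r x)⁻¹ * T ^ m * r x = (γ : SL(2, ℤ))⁻¹ * ((ρ : Γ) : SL(2, ℤ)) ^ c * γ
            rw [hgw ρ, ← h42_cj_pow, ← h42_cj_T_mul (k : ℤ) (gg ρ), ← h42_cj_mul_right, ← h2,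
              h42_cj, hc]
            rw [zpow_mul, zpow_natCast, zpow_natCast]
            rw [← pow_mul]
          have htr : ((((ρ : Γ) ^ c : Γ) : SL(2, ℤ)) : Matrix (Fin 2) (Fin 2) ℤ).trace = 2 := by
            rw [Subgroup.coe_pow, hgw ρ, ← h42_cj_pow]
            exact h42_cj_trace _ _
          show (m / ww ρ) • e (ρ : Γ) = e ⟨(r x)⁻¹ * T ^ m * r x, hm (r x)⟩
          rw [h3, hconj _ _ htr, hpow _ _ (hPP ρ).1, hc']

/-! ### Heisenberg lifts -/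

section heis

open ModularCurve.Period

variable {Γ : Subgroup SL(2, ℤ)} {φ ψ : Additive Γ →+ ℤ} {e : Γ → ℤ}

theorem h42_heis_one
    (he : ∀ g h : Γ, e (g * h) = e g + e h + φ (Additive.ofMul g) * ψ (Additive.ofMul h)) :
    e 1 = 0 := by
  have h := he 1 1
  rw [mul_one, ofMul_one, map_zero, zero_mul, add_zero] at h
  omega

theorem h42_heis_inv
    (he : ∀ g h : Γ, e (g * h) = e g + e h + φ (Additive.ofMul g) * ψ (Additive.ofMul h))
    (γ : Γ) : e γ⁻¹ = -e γ + φ (Additive.ofMul γ) * ψ (Additive.ofMul γ) := by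
  have h := he γ⁻¹ γ
  rw [inv_mul_cancel, h42_heis_one he, ofMul_inv, map_neg] at h
  linarith

/-- A Heisenberg lift is a class function on the elements killed by `φ` and `ψ`. -/
theorem h42_heis_conj
    (he : ∀ g h : Γ, e (g * h) = e g + e h + φ (Additive.ofMul g) * ψ (Additive.ofMul h))
    (t γ : Γ) (hφ : φ (Additive.ofMul t) = 0) (hψ : ψ (Additive.ofMul t) = 0) :
    e (γ⁻¹ * t * γ) = e t := by
  rw [he, he, h42_heis_inv he, ofMul_mul, map_add, hφ, hψ, ofMul_inv, map_neg]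
  ring

/-- A Heisenberg lift is additive on the powers of an element killed by `ψ`. -/
theorem h42_heis_pow
    (he : ∀ g h : Γ, e (g * h) = e g + e h + φ (Additive.ofMul g) * ψ (Additive.ofMul h))
    (t : Γ) (hψ : ψ (Additive.ofMul t) = 0) (k : ℕ) : e (t ^ k) = k • e t := by
  induction k with
  | zero => rw [pow_zero, h42_heis_one he, zero_smul]
  | succ n ih => rw [pow_succ, he, ih, hψ, mul_zero, add_zero, succ_nsmul]

theorem h42_parabolic_of_trace {A : Type*} [AddCommGroup A] {φ : Additive Γ →+ A}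
    (hφ : IsParabolicHom Γ φ) (t : Γ)
    (ht : ((t : SL(2, ℤ)) : Matrix (Fin 2) (Fin 2) ℤ).trace = 2) : φ (Additive.ofMul t) = 0 :=
  hφ t (by rw [ht]; norm_num)

/-- **COUNT for Heisenberg lifts** of two parabolic homomorphisms. -/
theorem h42_count_heis (Γ : Subgroup SL(2, ℤ)) [Fintype (SL(2, ℤ) ⧸ Γ)]
    (hneg : (-1 : SL(2, ℤ)) ∈ Γ) (φ ψ : Additive Γ →+ ℤ)
    (hφ : IsParabolicHom Γ φ) (hψ : IsParabolicHom Γ ψ) (e : Γ → ℤ)
    (he : ∀ g h : Γ, e (g * h) = e g + e h + φ (Additive.ofMul g) * ψ (Additive.ofMul h))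
    (R : Finset Γ) (hR : h42_IsCuspSystem Γ R) (m : ℕ) (hm0 : 0 < m)
    (hm : ∀ g : SL(2, ℤ), g⁻¹ * T ^ m * g ∈ Γ)
    (r : SL(2, ℤ) ⧸ Γ → SL(2, ℤ))
    (hr : ∀ x, (QuotientGroup.mk (r x) : SL(2, ℤ) ⧸ Γ) = x) :
    ∑ x : SL(2, ℤ) ⧸ Γ, e ⟨(r x)⁻¹ * T ^ m * r x, hm (r x)⟩ = (m : ℤ) * ∑ ρ ∈ R, e ρ := by
  rw [← nsmul_eq_mul]
  exact h42_count Γ hneg e
    (fun t γ ht => h42_heis_conj he t γ (h42_parabolic_of_trace hφ t ht)
      (h42_parabolic_of_trace hψ t ht))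
    (fun t k ht => h42_heis_pow he t (h42_parabolic_of_trace hψ t ht) k)
    R hR m hm0 hm r hr

end heis

end Fermat.Agent.S41
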