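import Mathlib
import Fermat.Agent.S16.h18_PingPong

/-!
# S41 / block (B): Heisenberg lifts on subgroups of `SL(2, ℤ)` (helper44)

For a subgroup `Γ ≤ SL(2, ℤ)` containing `-1` and two homomorphisms `φ ψ : Γ → ℤ` the cup product
`(g, h) ↦ φ g * ψ h` is a coboundary: there is `e : Γ → ℤ` with
`e (g * h) = e g + e h + φ g * ψ h`
(equivalently, `(φ, ψ)` lifts to a homomorphism from `Γ` to the integral Heisenberg group).

Proof: induce `(φ, ψ)` to a homomorphism `SL(2, ℤ) → ℤ² ≀ Perm (SL(2, ℤ) ⧸ Γ)`; the images of `S`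
and `T * S` have orders dividing `2` and `3` and lift to elements of the same orders in
`Heis ≀ Perm (SL(2, ℤ) ⧸ Γ)`; the universal property of `SL(2, ℤ)` (`h18_SL2Z_lift`) gives a
homomorphism to the latter group, whose restriction to `Γ` (the stabiliser of the base coset)
is the lift.
-/

set_option autoImplicit false

namespace Fermat.Agent.S41

open scoped MatrixGroups
open ModularGroup

/-! ### The integral Heisenberg group -/

/-- The integral Heisenberg group: triples with `(a, b, z) (a', b', z') = (a + a', b + b',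
z + z' + a * b')`. -/
@[ext] structure h44_Hs where
  /-- first coordinate -/
  a : ℤ
  /-- second coordinate -/
  b : ℤ
  /-- central coordinate -/
  z : ℤ

namespace h44_Hs

instance : Mul h44_Hs := ⟨fun x y => ⟨x.a + y.a, x.b + y.b, x.z + y.z + x.a * y.b⟩⟩
instance : One h44_Hs := ⟨⟨0, 0, 0⟩⟩
instance : Inv h44_Hs := ⟨fun x => ⟨-x.a, -x.b, -x.z + x.a * x.b⟩⟩

@[simp] theorem mul_a (x y : h44_Hs) : (x * y).a = x.a + y.a := rfl
@[simp] theorem mul_b (x y : h44_Hs) : (x * y).b = x.b + y.b := rfl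
@[simp] theorem mul_z (x y : h44_Hs) : (x * y).z = x.z + y.z + x.a * y.b := rfl
@[simp] theorem one_a : (1 : h44_Hs).a = 0 := rfl
@[simp] theorem one_b : (1 : h44_Hs).b = 0 := rfl
@[simp] theorem one_z : (1 : h44_Hs).z = 0 := rfl
@[simp] theorem inv_a (x : h44_Hs) : (x⁻¹).a = -x.a := rfl
@[simp] theorem inv_b (x : h44_Hs) : (x⁻¹).b = -x.b := rfl
@[simp] theorem inv_z (x : h44_Hs) : (x⁻¹).z = -x.z + x.a * x.b := rfl

instance : Group h44_Hs where
  mul_assoc x y w := by
    ext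
    · simp only [mul_a]; ring
    · simp only [mul_b]; ring
    · simp only [mul_z, mul_a, mul_b]; ring
  one_mul x := by
    ext <;> simp
  mul_one x := by
    ext <;> simp
  inv_mul_cancel x := by
    ext <;> simp

/-- The projection of the Heisenberg group onto `ℤ × ℤ`. -/
def proj : h44_Hs →* Multiplicative (ℤ × ℤ) where
  toFun x := Multiplicative.ofAdd (x.a, x.b)
  map_one' := rfl
  map_mul' _ _ := rfl

end h44_Hs

/-! ### Wreath products with the full permutation group -/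

/-- The (unrestricted) wreath product `H ≀ Perm X`, with
`(σ, A) (τ, B) = (σ τ, x ↦ A (τ x) * B x)`. -/
@[ext] structure h44_Wr (X H : Type*) where
  /-- the permutation -/
  perm : Equiv.Perm X
  /-- the function -/
  fn : X → H

namespace h44_Wr

variable {X H : Type*} [Group H]

instance : Mul (h44_Wr X H) := ⟨fun a b => ⟨a.perm * b.perm, fun x => a.fn (b.perm x) * b.fn x⟩⟩
instance : One (h44_Wr X H) := ⟨⟨1, fun _ => 1⟩⟩
instance : Inv (h44_Wr X H) := ⟨fun a => ⟨a.perm⁻¹, fun x => (a.fn (a.perm⁻¹ x))⁻¹⟩⟩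

@[simp] theorem mul_perm (a b : h44_Wr X H) : (a * b).perm = a.perm * b.perm := rfl
@[simp] theorem mul_fn (a b : h44_Wr X H) (x : X) :
    (a * b).fn x = a.fn (b.perm x) * b.fn x := rfl
@[simp] theorem one_perm : (1 : h44_Wr X H).perm = 1 := rfl
@[simp] theorem one_fn (x : X) : (1 : h44_Wr X H).fn x = 1 := rfl
@[simp] theorem inv_perm (a : h44_Wr X H) : (a⁻¹).perm = a.perm⁻¹ := rfl
@[simp] theorem inv_fn (a : h44_Wr X H) (x : X) : (a⁻¹).fn x = (a.fn (a.perm⁻¹ x))⁻¹ := rfl

instance : Group (h44_Wr X H) where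
  mul_assoc a b c := by
    ext x
    · simp [mul_assoc]
    · simp [mul_assoc]
  one_mul a := by
    ext x <;> simp
  mul_one a := by
    ext x <;> simp
  inv_mul_cancel a := by
    ext x <;> simp

/-- Functoriality of the wreath product in the group. -/
def map {V : Type*} [Group V] (π : H →* V) : h44_Wr X H →* h44_Wr X V where
  toFun a := ⟨a.perm, fun x => π (a.fn x)⟩
  map_one' := by
    ext x <;> simp
  map_mul' a b := by
    ext x <;> simp

@[simp] theorem map_perm {V : Type*} [Group V] (π : H →* V) (a : h44_Wr X H) :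
    (map π a).perm = a.perm := rfl
@[simp] theorem map_fn {V : Type*} [Group V] (π : H →* V) (a : h44_Wr X H) (x : X) :
    (map π a).fn x = π (a.fn x) := rfl

end h44_Wr

/-! ### Induction of a homomorphism from a subgroup -/

section Ind

variable {G : Type*} [Group G] (Γ : Subgroup G) {V : Type*} [Group V] (ρ : Γ →* V)

theorem h44_ind_mem (g : G) (x : G ⧸ Γ) :
    (Quotient.out (g • x))⁻¹ * g * Quotient.out x ∈ Γ := by
  rw [mul_assoc, ← QuotientGroup.eq, QuotientGroup.out_eq']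
  conv_lhs => rw [← QuotientGroup.out_eq' x]
  rfl

/-- The homomorphism `G → V ≀ Perm (G ⧸ Γ)` induced by `ρ : Γ → V` (with respect to the
section `Quotient.out`). -/
noncomputable def h44_ind : G →* h44_Wr (G ⧸ Γ) V where
  toFun g := ⟨MulAction.toPerm g, fun x => ρ ⟨_, h44_ind_mem Γ g x⟩⟩
  map_one' := by
    ext x
    · simp
    · have h : (⟨_, h44_ind_mem Γ 1 x⟩ : Γ) = 1 := Subtype.ext (by simp)
      show ρ ⟨_, h44_ind_mem Γ 1 x⟩ = 1
      rw [h, map_one]
  map_mul' g h := by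
    ext x
    · simp [mul_smul]
    · show ρ ⟨_, h44_ind_mem Γ (g * h) x⟩ =
        ρ ⟨_, h44_ind_mem Γ g (h • x)⟩ * ρ ⟨_, h44_ind_mem Γ h x⟩
      rw [← map_mul]
      congr 1
      apply Subtype.ext
      simp [mul_smul, mul_assoc]

theorem h44_ind_perm (g : G) (x : G ⧸ Γ) : (h44_ind Γ ρ g).perm x = g • x := rfl

theorem h44_ind_fn (g : G) (x : G ⧸ Γ) :
    (h44_ind Γ ρ g).fn x = ρ ⟨_, h44_ind_mem Γ g x⟩ := rfl

/-- On the base coset, the induced homomorphism restricted to `Γ` is `ρ` (for commutative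
`V`). -/
theorem h44_ind_fn_base {V : Type*} [CommGroup V] (ρ : Γ →* V) (γ : Γ) :
    (h44_ind Γ ρ (γ : G)).fn ((1 : G) : G ⧸ Γ) = ρ γ := by
  have hx : (γ : G) • ((1 : G) : G ⧸ Γ) = ((1 : G) : G ⧸ Γ) := by
    rw [MulAction.Quotient.smul_mk, QuotientGroup.eq]
    simp
  have hr : Quotient.out ((1 : G) : G ⧸ Γ) ∈ Γ := by
    have := QuotientGroup.out_eq' ((1 : G) : G ⧸ Γ)
    rw [QuotientGroup.eq] at this
    simpa using Γ.inv_mem this
  have h : (⟨_, h44_ind_mem Γ (γ : G) ((1 : G) : G ⧸ Γ)⟩ : Γ) =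
      (⟨_, hr⟩ : Γ)⁻¹ * γ * ⟨_, hr⟩ := Subtype.ext (by simp [hx])
  rw [h44_ind_fn, h, map_mul, map_mul, map_inv, mul_comm, mul_inv_cancel_left]

end Ind

/-! ### Two combinatorial lemmas -/

/-- For an involution `σ` and a `σ`-invariant function `d` vanishing at the fixed points there is
`z` with `z (σ x) + z x = d x`. -/
theorem h44_sum_two {X : Type*} (σ : Equiv.Perm X) (hσ : ∀ x, σ (σ x) = x) (d : X → ℤ)
    (hd : ∀ x, d (σ x) = d x) (hfix : ∀ x, σ x = x → d x = 0) :
    ∃ z : X → ℤ, ∀ x, z (σ x) + z x = d x := by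
  classical
  obtain ⟨inst, -⟩ := exists_wellFoundedLT (α := X)
  refine ⟨fun x => if x < σ x then d x else 0, fun x => ?_⟩
  simp only [hσ]
  rcases lt_trichotomy x (σ x) with h | h | h
  · rw [if_neg (not_lt.mpr h.le), if_pos h, zero_add]
  · rw [← h, if_neg (lt_irrefl x), zero_add, hfix x h.symm]
  · rw [if_pos h, if_neg (not_lt.mpr h.le), add_zero, hd]

/-- For a permutation `τ` of order dividing three and a `τ`-invariant function `d` vanishing at
the fixed points there is `z` with `z (τ (τ x)) + z (τ x) + z x = d x`. -/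
theorem h44_sum_three {X : Type*} (τ : Equiv.Perm X) (hτ : ∀ x, τ (τ (τ x)) = x) (d : X → ℤ)
    (hd : ∀ x, d (τ x) = d x) (hfix : ∀ x, τ x = x → d x = 0) :
    ∃ z : X → ℤ, ∀ x, z (τ (τ x)) + z (τ x) + z x = d x := by
  classical
  obtain ⟨inst, -⟩ := exists_wellFoundedLT (α := X)
  refine ⟨fun x => if x < τ x ∧ x < τ (τ x) then d x else 0, fun x => ?_⟩
  simp only [hτ, hd]
  by_cases hx : τ x = x
  · simp [hx, hfix x hx]
  · have h1 : τ (τ x) ≠ x := by
      intro h
      apply hx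
      have := hτ x
      rw [h] at this
      exact this
    have h2 : τ (τ x) ≠ τ x := by
      intro h
      exact hx (τ.injective h)
    rcases lt_trichotomy x (τ x) with h | h | h
    · rcases lt_trichotomy x (τ (τ x)) with h' | h' | h'
      · rw [if_neg (fun hh => absurd hh.1 (not_lt.mpr h'.le)),
          if_neg (fun hh => absurd hh.2 (not_lt.mpr h.le)), if_pos ⟨h, h'⟩]
        ring
      · exact absurd h'.symm h1
      · rw [if_pos ⟨h', h'.trans h⟩, if_neg (fun hh => absurd hh.2 (not_lt.mpr h.le)),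
          if_neg (fun hh => absurd hh.2 (not_lt.mpr h'.le))]
        ring
    · exact absurd h.symm hx
    · rcases lt_trichotomy (τ x) (τ (τ x)) with h' | h' | h'
      · rw [if_neg (fun hh => absurd hh.2 (not_lt.mpr h'.le)), if_pos ⟨h', h⟩,
          if_neg (fun hh => absurd hh.1 (not_lt.mpr h.le))]
        ring
      · exact absurd h'.symm h2
      · rw [if_pos ⟨h'.trans h, h'⟩, if_neg (fun hh => absurd hh.1 (not_lt.mpr h'.le)),
          if_neg (fun hh => absurd hh.1 (not_lt.mpr h.le))]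
        ring

/-! ### Lifting elements of order two and three to the Heisenberg wreath product -/

/-- An element of `ℤ² ≀ Perm X` with square one lifts to an element of `Heis ≀ Perm X` with
square one. -/
theorem h44_lift_two {X : Type*} (s : h44_Wr X (Multiplicative (ℤ × ℤ))) (hs : s * s = 1) :
    ∃ a : h44_Wr X h44_Hs, a ^ 2 = 1 ∧ h44_Wr.map h44_Hs.proj a = s := by
  have hσ : ∀ x, s.perm (s.perm x) = x := fun x => by
    have := congrArg (fun w => w.perm x) hs
    simpa using this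
  have hfn : ∀ x, s.fn (s.perm x) * s.fn x = 1 := fun x => by
    have := congrArg (fun w => w.fn x) hs
    simpa using this
  have haS : ∀ x, (Multiplicative.toAdd (s.fn (s.perm x))).1 +
      (Multiplicative.toAdd (s.fn x)).1 = 0 := fun x => by
    have := congrArg (fun v => (Multiplicative.toAdd v).1) (hfn x)
    simpa using this
  have hbS : ∀ x, (Multiplicative.toAdd (s.fn (s.perm x))).2 +
      (Multiplicative.toAdd (s.fn x)).2 = 0 := fun x => by
    have := congrArg (fun v => (Multiplicative.toAdd v).2) (hfn x)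
    simpa using this
  obtain ⟨zS, hzS⟩ := h44_sum_two s.perm hσ
    (fun x => (Multiplicative.toAdd (s.fn x)).1 * (Multiplicative.toAdd (s.fn x)).2)
    (fun x => by
      have h1 := haS x
      have h2 := hbS x
      have e1 : (Multiplicative.toAdd (s.fn (s.perm x))).1 =
          -(Multiplicative.toAdd (s.fn x)).1 := by omega
      have e2 : (Multiplicative.toAdd (s.fn (s.perm x))).2 =
          -(Multiplicative.toAdd (s.fn x)).2 := by omega
      show _ * _ = _ * _
      rw [e1, e2]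
      ring)
    (fun x hx => by
      have h1 := haS x
      rw [hx] at h1
      have e1 : (Multiplicative.toAdd (s.fn x)).1 = 0 := by omega
      show _ * _ = 0
      rw [e1, zero_mul])
  refine ⟨⟨s.perm, fun x =>
    ⟨(Multiplicative.toAdd (s.fn x)).1, (Multiplicative.toAdd (s.fn x)).2, zS x⟩⟩, ?_, ?_⟩
  · rw [pow_two]
    ext x
    · exact hσ x
    · exact haS x
    · exact hbS x
    · show zS (s.perm x) + zS x + (Multiplicative.toAdd (s.fn (s.perm x))).1 *
          (Multiplicative.toAdd (s.fn x)).2 = 0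
      have h1 := haS x
      have e1 : (Multiplicative.toAdd (s.fn (s.perm x))).1 =
          -(Multiplicative.toAdd (s.fn x)).1 := by omega
      rw [hzS x, e1]
      ring
  · ext x <;> rfl

/-- An element of `ℤ² ≀ Perm X` with cube one lifts to an element of `Heis ≀ Perm X` with
cube one. -/
theorem h44_lift_three {X : Type*} (u : h44_Wr X (Multiplicative (ℤ × ℤ)))
    (hu : u * u * u = 1) :
    ∃ b : h44_Wr X h44_Hs, b ^ 3 = 1 ∧ h44_Wr.map h44_Hs.proj b = u := by
  have hτ : ∀ x, u.perm (u.perm (u.perm x)) = x := fun x => by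
    have := congrArg (fun w => w.perm x) hu
    simpa using this
  have hfn : ∀ x, u.fn (u.perm (u.perm x)) * u.fn (u.perm x) * u.fn x = 1 := fun x => by
    have := congrArg (fun w => w.fn x) hu
    simpa using this
  have haU : ∀ x, (Multiplicative.toAdd (u.fn (u.perm (u.perm x)))).1 +
      (Multiplicative.toAdd (u.fn (u.perm x))).1 + (Multiplicative.toAdd (u.fn x)).1 = 0 :=
    fun x => by
      have := congrArg (fun v => (Multiplicative.toAdd v).1) (hfn x)
      simpa using this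
  have hbU : ∀ x, (Multiplicative.toAdd (u.fn (u.perm (u.perm x)))).2 +
      (Multiplicative.toAdd (u.fn (u.perm x))).2 + (Multiplicative.toAdd (u.fn x)).2 = 0 :=
    fun x => by
      have := congrArg (fun v => (Multiplicative.toAdd v).2) (hfn x)
      simpa using this
  obtain ⟨zU, hzU⟩ := h44_sum_three u.perm hτ
    (fun x => -((Multiplicative.toAdd (u.fn (u.perm (u.perm x)))).1 *
        (Multiplicative.toAdd (u.fn (u.perm x))).2) +
      (Multiplicative.toAdd (u.fn x)).1 * (Multiplicative.toAdd (u.fn x)).2)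
    (fun x => by
      have h1 := haU x
      have h2 := hbU x
      have e1 : (Multiplicative.toAdd (u.fn (u.perm (u.perm x)))).1 =
          -(Multiplicative.toAdd (u.fn (u.perm x))).1 - (Multiplicative.toAdd (u.fn x)).1 := by
        omega
      have e2 : (Multiplicative.toAdd (u.fn (u.perm (u.perm x)))).2 =
          -(Multiplicative.toAdd (u.fn (u.perm x))).2 - (Multiplicative.toAdd (u.fn x)).2 := by
        omega
      show -(_ * _) + _ * _ = -(_ * _) + _ * _
      rw [hτ x, e1, e2]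
      ring)
    (fun x hx => by
      have h1 := haU x
      rw [hx, hx] at h1
      have e1 : (Multiplicative.toAdd (u.fn x)).1 = 0 := by omega
      show -(_ * _) + _ * _ = 0
      rw [hx, hx, e1]
      ring)
  refine ⟨⟨u.perm, fun x =>
    ⟨(Multiplicative.toAdd (u.fn x)).1, (Multiplicative.toAdd (u.fn x)).2, zU x⟩⟩, ?_, ?_⟩
  · rw [pow_succ, pow_two]
    ext x
    · exact hτ x
    · exact haU x
    · exact hbU x
    · show zU (u.perm (u.perm x)) + zU (u.perm x) +
          (Multiplicative.toAdd (u.fn (u.perm (u.perm x)))).1 *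
            (Multiplicative.toAdd (u.fn (u.perm x))).2 + zU x +
          ((Multiplicative.toAdd (u.fn (u.perm (u.perm x)))).1 +
            (Multiplicative.toAdd (u.fn (u.perm x))).1) *
            (Multiplicative.toAdd (u.fn x)).2 = 0
      have h1 := haU x
      have h3 := hzU x
      have e1 : (Multiplicative.toAdd (u.fn (u.perm (u.perm x)))).1 +
          (Multiplicative.toAdd (u.fn (u.perm x))).1 = -(Multiplicative.toAdd (u.fn x)).1 := by
        omega
      rw [e1]
      linear_combination h3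
  · ext x <;> rfl

/-! ### Existence of Heisenberg lifts -/

section Main

variable (Γ : Subgroup SL(2, ℤ))

/-- The homomorphism `(φ, ψ) : Γ → ℤ × ℤ`. -/
def h44_pair (φ ψ : Additive Γ →+ ℤ) : Γ →* Multiplicative (ℤ × ℤ) where
  toFun γ := Multiplicative.ofAdd (φ (Additive.ofMul γ), ψ (Additive.ofMul γ))
  map_one' := by
    simp
  map_mul' g h := by
    simp
    rfl

theorem h44_pair_apply (φ ψ : Additive Γ →+ ℤ) (γ : Γ) :
    h44_pair Γ φ ψ γ = Multiplicative.ofAdd (φ (Additive.ofMul γ), ψ (Additive.ofMul γ)) := rfl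

theorem h44_neg_one_mul (g : SL(2, ℤ)) : (-1 : SL(2, ℤ)) * g = g * (-1) := by
  ext i j
  simp

theorem h44_neg_one_smul (hneg : (-1 : SL(2, ℤ)) ∈ Γ) (x : SL(2, ℤ) ⧸ Γ) :
    (-1 : SL(2, ℤ)) • x = x := by
  induction x using QuotientGroup.induction_on with
  | H g =>
    rw [MulAction.Quotient.smul_mk, QuotientGroup.eq, smul_eq_mul, h44_neg_one_mul, mul_inv_rev,
      inv_mul_cancel_right]
    exact Γ.inv_mem hneg

theorem h44_hom_neg_one (hneg : (-1 : SL(2, ℤ)) ∈ Γ) (φ : Additive Γ →+ ℤ) :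
    φ (Additive.ofMul (⟨-1, hneg⟩ : Γ)) = 0 := by
  have h1 : (⟨-1, hneg⟩ : Γ) * ⟨-1, hneg⟩ = 1 := Subtype.ext (by simp)
  have h2 := congrArg (fun g => φ (Additive.ofMul g)) h1
  simp only [ofMul_mul, map_add, ofMul_one, map_zero] at h2
  omega

theorem h44_ind_neg_one (hneg : (-1 : SL(2, ℤ)) ∈ Γ) (φ ψ : Additive Γ →+ ℤ) :
    h44_ind Γ (h44_pair Γ φ ψ) (-1) = 1 := by
  have key : ∀ x, (h44_ind Γ (h44_pair Γ φ ψ) (-1)).fn x = 1 := fun x => by
    have h : (⟨_, h44_ind_mem Γ (-1) x⟩ : Γ) = ⟨-1, hneg⟩ := Subtype.ext (by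
      show (Quotient.out ((-1 : SL(2, ℤ)) • x))⁻¹ * (-1) * Quotient.out x = -1
      rw [h44_neg_one_smul Γ hneg, mul_assoc, h44_neg_one_mul, inv_mul_cancel_left])
    rw [h44_ind_fn, h, h44_pair_apply, h44_hom_neg_one Γ hneg φ, h44_hom_neg_one Γ hneg ψ]
    rfl
  apply h44_Wr.ext
  · ext x
    rw [h44_ind_perm, h44_neg_one_smul Γ hneg]
    rfl
  · funext x
    exact key x

theorem h44_closure_S_TS : Subgroup.closure ({S, T * S} : Set SL(2, ℤ)) = ⊤ := by
  rw [eq_top_iff, ← SpecialLinearGroup.SL2Z_generators, Subgroup.closure_le]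
  intro g hg
  rcases hg with rfl | rfl
  · exact Subgroup.subset_closure (by simp)
  · have h1 : S ∈ Subgroup.closure ({S, T * S} : Set SL(2, ℤ)) :=
      Subgroup.subset_closure (by simp)
    have h2 : T * S ∈ Subgroup.closure ({S, T * S} : Set SL(2, ℤ)) :=
      Subgroup.subset_closure (by simp)
    have h3 : T * S * S⁻¹ = T := by rw [mul_inv_cancel_right]
    have h4 : T * S * S⁻¹ ∈ Subgroup.closure ({S, T * S} : Set SL(2, ℤ)) :=
      mul_mem h2 (inv_mem h1)
    exact (congrArg (fun g => g ∈ Subgroup.closure ({S, T * S} : Set SL(2, ℤ))) h3).mp h4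

/-- **Heisenberg lifts exist**: for a subgroup `Γ ≤ SL(2, ℤ)` containing `-1` and homomorphisms
`φ ψ : Γ → ℤ`, the cup product `φ ∪ ψ` is a coboundary. -/
theorem h44_exists_heis (hneg : (-1 : SL(2, ℤ)) ∈ Γ) (φ ψ : Additive Γ →+ ℤ) :
    ∃ e : Γ → ℤ, ∀ g h : Γ,
      e (g * h) = e g + e h + φ (Additive.ofMul g) * ψ (Additive.ofMul h) := by
  classical
  have hI1 : h44_ind Γ (h44_pair Γ φ ψ) (-1) = 1 := h44_ind_neg_one Γ hneg φ ψ
  have hS : h44_ind Γ (h44_pair Γ φ ψ) S * h44_ind Γ (h44_pair Γ φ ψ) S = 1 := by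
    rw [← map_mul, Fermat.Agent.S16.h18_S_mul_S, hI1]
  have hU : h44_ind Γ (h44_pair Γ φ ψ) (T * S) * h44_ind Γ (h44_pair Γ φ ψ) (T * S) *
      h44_ind Γ (h44_pair Γ φ ψ) (T * S) = 1 := by
    rw [← map_mul, ← map_mul, ← hI1, ← Fermat.Agent.S16.h18_TS_pow_three, pow_succ, pow_two]
  obtain ⟨a, ha, haπ⟩ := h44_lift_two _ hS
  obtain ⟨b, hb, hbπ⟩ := h44_lift_three _ hU
  obtain ⟨Φ, hΦS, hΦU⟩ := Fermat.Agent.S16.h18_SL2Z_lift a b ha hb
  have hcomp : (h44_Wr.map h44_Hs.proj).comp Φ = h44_ind Γ (h44_pair Γ φ ψ) := by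
    apply MonoidHom.eq_of_eqOn_dense h44_closure_S_TS
    intro g hg
    rcases hg with rfl | rfl
    · rw [MonoidHom.comp_apply, hΦS, haπ]
    · rw [MonoidHom.comp_apply, hΦU, hbπ]
  have hperm : ∀ (g : SL(2, ℤ)) (x : SL(2, ℤ) ⧸ Γ), (Φ g).perm x = g • x := fun g x => by
    have := congrArg (fun w => w.perm x) (DFunLike.congr_fun hcomp g)
    exact this
  have hfn : ∀ (g : SL(2, ℤ)) (x : SL(2, ℤ) ⧸ Γ),
      h44_Hs.proj ((Φ g).fn x) = (h44_ind Γ (h44_pair Γ φ ψ) g).fn x := fun g x => by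
    have := congrArg (fun w => w.fn x) (DFunLike.congr_fun hcomp g)
    exact this
  have hfix : ∀ γ : Γ, (Φ (γ : SL(2, ℤ))).perm ((1 : SL(2, ℤ)) : SL(2, ℤ) ⧸ Γ) =
      ((1 : SL(2, ℤ)) : SL(2, ℤ) ⧸ Γ) := fun γ => by
    rw [hperm, MulAction.Quotient.smul_mk, QuotientGroup.eq]
    simp
  refine ⟨fun γ => ((Φ (γ : SL(2, ℤ))).fn ((1 : SL(2, ℤ)) : SL(2, ℤ) ⧸ Γ)).z, fun g h => ?_⟩
  have h1 : (Φ ((g * h : Γ) : SL(2, ℤ))).fn ((1 : SL(2, ℤ)) : SL(2, ℤ) ⧸ Γ) =
      (Φ (g : SL(2, ℤ))).fn ((1 : SL(2, ℤ)) : SL(2, ℤ) ⧸ Γ) *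
        (Φ (h : SL(2, ℤ))).fn ((1 : SL(2, ℤ)) : SL(2, ℤ) ⧸ Γ) := by
    rw [Subgroup.coe_mul, map_mul, h44_Wr.mul_fn, hfix]
  have h2 : ((Φ (g : SL(2, ℤ))).fn ((1 : SL(2, ℤ)) : SL(2, ℤ) ⧸ Γ)).a =
      φ (Additive.ofMul g) := by
    have := hfn (g : SL(2, ℤ)) ((1 : SL(2, ℤ)) : SL(2, ℤ) ⧸ Γ)
    rw [h44_ind_fn_base, h44_pair_apply] at this
    exact congrArg (fun v => (Multiplicative.toAdd v).1) this
  have h3 : ((Φ (h : SL(2, ℤ))).fn ((1 : SL(2, ℤ)) : SL(2, ℤ) ⧸ Γ)).b =
      ψ (Additive.ofMul h) := by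
    have := hfn (h : SL(2, ℤ)) ((1 : SL(2, ℤ)) : SL(2, ℤ) ⧸ Γ)
    rw [h44_ind_fn_base, h44_pair_apply] at this
    exact congrArg (fun v => (Multiplicative.toAdd v).2) this
  show ((Φ ((g * h : Γ) : SL(2, ℤ))).fn ((1 : SL(2, ℤ)) : SL(2, ℤ) ⧸ Γ)).z = _
  rw [h1, h44_Hs.mul_z, h2, h3]

end Main

end Fermat.Agent.S41
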