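import Mathlib

/-!
# S41 block (B): transport of positive parabolic elements under conjugation

`δ` an integer `2 × 2` matrix with `0 < det δ`, `g g' ∈ SL(2, ℤ)` with `δ * g' = g * δ`
(i.e. `g' = δ⁻¹ g δ` over `ℚ`).  Then `g` and `g'` have the same trace, and if the trace is `2`
the sign of `g 0 1 - g 1 0` (the orientation of the parabolic element) is the same for `g` and
`g'`.  Consequently an isomorphism `κ : Γ' ≃* Γ` of subgroups of `SL(2, ℤ)` induced by such a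
conjugation carries primitive positive parabolic elements to primitive positive parabolic
elements and cusp systems to cusp systems.
-/

set_option autoImplicit false

namespace Fermat.Agent.S41

open scoped MatrixGroups
open Matrix

/-- For a trace-`2` element `[a, b; c, d]` of `SL(2, ℤ)`: `b c = -(a - 1)^2`. -/
theorem h84_entries (g : SL(2, ℤ)) (htr : g 0 0 + g 1 1 = 2) :
    g 0 1 * g 1 0 = -(g 0 0 - 1) ^ 2 := by
  have hdet := Matrix.SpecialLinearGroup.det_coe g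
  rw [Matrix.det_fin_two] at hdet
  have hdet' : g 0 0 * g 1 1 - g 0 1 * g 1 0 = 1 := hdet
  have h11 : g 1 1 = 2 - g 0 0 := by linarith
  rw [h11] at hdet'
  linear_combination -hdet'

/-- A trace-`2` element of `SL(2, ℤ)` with `g 0 1 = g 1 0` is the identity. -/
theorem h84_eq_one_of_sign_eq_zero (g : SL(2, ℤ)) (htr : g 0 0 + g 1 1 = 2)
    (h : g 0 1 - g 1 0 = 0) : g = 1 := by
  have he := h84_entries g htr
  have hb : g 0 1 = g 1 0 := by linarith
  rw [hb] at he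
  have h1 : g 1 0 = 0 := by nlinarith [sq_nonneg (g 1 0), sq_nonneg (g 0 0 - 1)]
  have h2 : g 0 0 = 1 := by nlinarith [sq_nonneg (g 1 0), sq_nonneg (g 0 0 - 1)]
  have h3 : g 1 1 = 1 := by linarith
  have h4 : g 0 1 = 0 := by rw [hb, h1]
  ext i j
  fin_cases i <;> fin_cases j <;> simp [h1, h2, h3, h4]

/-- Trace `2` and `g ≠ 1` force `g 0 1 - g 1 0 ≠ 0`. -/
theorem h84_sign_ne_zero (g : SL(2, ℤ)) (htr : g 0 0 + g 1 1 = 2) (hg : g ≠ 1) :
    g 0 1 - g 1 0 ≠ 0 := fun h => hg (h84_eq_one_of_sign_eq_zero g htr h)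

/-- Positivity of a degenerate binary quadratic form evaluated on the two rows of an invertible
matrix. -/
theorem h84_form_pos (β γ u p q r s : ℤ) (hβγ : β * γ = u ^ 2) (hβ : 0 ≤ β) (_hγ : 0 ≤ γ)
    (hsum : 0 < β + γ) (hD : p * s - q * r ≠ 0) :
    0 < β * (s ^ 2 + r ^ 2) + γ * (q ^ 2 + p ^ 2) + 2 * u * (q * s + p * r) := by
  rcases hβ.lt_or_eq with hβ' | hβ'
  · have hne : β * s + u * q ≠ 0 ∨ β * r + u * p ≠ 0 := by
      by_contra hcon
      push Not at hcon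
      obtain ⟨h1, h2⟩ := hcon
      have h3 : β * (p * s - q * r) = 0 := by linear_combination p * h1 - q * h2
      rcases mul_eq_zero.mp h3 with h4 | h4
      · exact hβ'.ne' h4
      · exact hD h4
    have hpos : 0 < (β * s + u * q) ^ 2 + (β * r + u * p) ^ 2 := by
      rcases hne with h | h
      · have := pow_pos (abs_pos.mpr h) 2
        rw [sq_abs] at this
        have := sq_nonneg (β * r + u * p)
        linarith
      · have := pow_pos (abs_pos.mpr h) 2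
        rw [sq_abs] at this
        have := sq_nonneg (β * s + u * q)
        linarith
    have hid : β * (β * (s ^ 2 + r ^ 2) + γ * (q ^ 2 + p ^ 2) + 2 * u * (q * s + p * r))
        = (β * s + u * q) ^ 2 + (β * r + u * p) ^ 2 := by
      linear_combination (q ^ 2 + p ^ 2) * hβγ
    rw [← hid] at hpos
    exact pos_of_mul_pos_right hpos hβ'.le |> fun h => h
  · subst hβ'
    have hu : u = 0 := by
      have : u ^ 2 = 0 := by rw [← hβγ]; ring
      exact pow_eq_zero_iff (two_ne_zero) |>.mp this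
    subst hu
    have hγ' : 0 < γ := by linarith
    have hpq : 0 < q ^ 2 + p ^ 2 := by
      by_contra hcon
      push Not at hcon
      have hq : q = 0 := by nlinarith [sq_nonneg q, sq_nonneg p]
      have hp : p = 0 := by nlinarith [sq_nonneg q, sq_nonneg p]
      apply hD
      rw [hq, hp]; ring
    have := mul_pos hγ' hpq
    linarith

/-- The basic identities relating `g' = δ⁻¹ g δ` to `g`, in integer form. -/
theorem h84_conj_identities (g g' : SL(2, ℤ)) (δ : Matrix (Fin 2) (Fin 2) ℤ)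
    (h : δ * (g' : Matrix (Fin 2) (Fin 2) ℤ) = (g : Matrix (Fin 2) (Fin 2) ℤ) * δ) :
    δ.det * (g' 0 1 - g' 1 0)
        = g 0 1 * (δ 1 1 ^ 2 + δ 1 0 ^ 2) - g 1 0 * (δ 0 1 ^ 2 + δ 0 0 ^ 2)
          + (g 0 0 - g 1 1) * (δ 0 1 * δ 1 1 + δ 0 0 * δ 1 0) ∧
      δ.det * (g' 0 0 + g' 1 1) = δ.det * (g 0 0 + g 1 1) := by
  have E00 := congrFun (congrFun h 0) 0
  have E01 := congrFun (congrFun h 0) 1
  have E10 := congrFun (congrFun h 1) 0
  have E11 := congrFun (congrFun h 1) 1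
  simp only [Matrix.mul_apply, Fin.sum_univ_two] at E00 E01 E10 E11
  rw [Matrix.det_fin_two]
  constructor
  · linear_combination δ 1 1 * E01 - δ 0 1 * E11 - δ 0 0 * E10 + δ 1 0 * E00
  · linear_combination δ 1 1 * E00 - δ 0 1 * E10 + δ 0 0 * E11 - δ 1 0 * E01

/-- Conjugation by a matrix of nonzero determinant preserves the trace. -/
theorem h84_trace_conj (g g' : SL(2, ℤ)) (δ : Matrix (Fin 2) (Fin 2) ℤ) (hδ : δ.det ≠ 0)
    (h : δ * (g' : Matrix (Fin 2) (Fin 2) ℤ) = (g : Matrix (Fin 2) (Fin 2) ℤ) * δ) :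
    g' 0 0 + g' 1 1 = g 0 0 + g 1 1 :=
  mul_left_cancel₀ hδ (h84_conj_identities g g' δ h).2

/-- **Sign lemma.**  For `g` of trace `2` and `δ * g' = g * δ` with `0 < det δ`:
`g'` has trace `2` and `g' 0 1 - g' 1 0` has the same sign as `g 0 1 - g 1 0`. -/
theorem h84_sign_conj (g g' : SL(2, ℤ)) (δ : Matrix (Fin 2) (Fin 2) ℤ) (hδ : 0 < δ.det)
    (h : δ * (g' : Matrix (Fin 2) (Fin 2) ℤ) = (g : Matrix (Fin 2) (Fin 2) ℤ) * δ)
    (htr : g 0 0 + g 1 1 = 2) :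
    g' 0 0 + g' 1 1 = 2 ∧ (0 < g 0 1 - g 1 0 → 0 < g' 0 1 - g' 1 0) ∧
      (g 0 1 - g 1 0 < 0 → g' 0 1 - g' 1 0 < 0) ∧ (g 0 1 - g 1 0 = 0 → g' 0 1 - g' 1 0 = 0) := by
  have htr' : g' 0 0 + g' 1 1 = 2 := by rw [h84_trace_conj g g' δ hδ.ne' h, htr]
  obtain ⟨hid, -⟩ := h84_conj_identities g g' δ h
  have hD : δ 0 0 * δ 1 1 - δ 0 1 * δ 1 0 ≠ 0 := by
    have := hδ.ne'
    rwa [Matrix.det_fin_two] at this
  have he := h84_entries g htr
  have h11 : g 1 1 = 2 - g 0 0 := by linarith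
  refine ⟨htr', ?_, ?_, ?_⟩
  · intro hpos
    -- `b ≥ 0 ≥ c`
    have hb : 0 ≤ g 0 1 := by
      by_contra hcon
      push Not at hcon
      nlinarith [sq_nonneg (g 0 0 - 1)]
    have hc : g 1 0 ≤ 0 := by
      by_contra hcon
      push Not at hcon
      nlinarith [sq_nonneg (g 0 0 - 1)]
    have key := h84_form_pos (g 0 1) (-(g 1 0)) (g 0 0 - 1) (δ 0 0) (δ 0 1) (δ 1 0) (δ 1 1)
      (by linear_combination -he) hb (by linarith) (by linarith) hD
    have : 0 < δ.det * (g' 0 1 - g' 1 0) := by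
      rw [hid, h11]
      linarith
    exact pos_of_mul_pos_right this hδ.le |> fun h => h
  · intro hneg
    have hb : g 0 1 ≤ 0 := by
      by_contra hcon
      push Not at hcon
      nlinarith [sq_nonneg (g 0 0 - 1)]
    have hc : 0 ≤ g 1 0 := by
      by_contra hcon
      push Not at hcon
      nlinarith [sq_nonneg (g 0 0 - 1)]
    have key := h84_form_pos (-(g 0 1)) (g 1 0) (-(g 0 0 - 1)) (δ 0 0) (δ 0 1) (δ 1 0) (δ 1 1)
      (by linear_combination -he) (by linarith) hc (by linarith) hD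
    have : 0 < δ.det * -(g' 0 1 - g' 1 0) := by
      rw [mul_neg, hid, h11]
      linarith
    have h2 := pos_of_mul_pos_right this hδ.le |> fun h => h
    linarith
  · intro hzero
    have hg1 := h84_eq_one_of_sign_eq_zero g htr hzero
    subst hg1
    have : δ.det * (g' 0 1 - g' 1 0) = 0 := by
      rw [hid]
      simp
    rcases mul_eq_zero.mp this with h0 | h0
    · exact absurd h0 hδ.ne'
    · exact h0

/-- **Sign lemma, iff form.** -/
theorem h84_sign_conj_iff (g g' : SL(2, ℤ)) (δ : Matrix (Fin 2) (Fin 2) ℤ) (hδ : 0 < δ.det)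
    (h : δ * (g' : Matrix (Fin 2) (Fin 2) ℤ) = (g : Matrix (Fin 2) (Fin 2) ℤ) * δ)
    (htr : g 0 0 + g 1 1 = 2) :
    (0 < g 0 1 - g 1 0 ↔ 0 < g' 0 1 - g' 1 0) := by
  obtain ⟨-, hp, hn, hz⟩ := h84_sign_conj g g' δ hδ h htr
  refine ⟨hp, fun h' => ?_⟩
  rcases lt_trichotomy (g 0 1 - g 1 0) 0 with h1 | h1 | h1
  · have := hn h1; linarith
  · have := hz h1; linarith
  · exact h1

/-! ### Positive parabolic elements, primitivity, cusp systems -/

/-- A positive parabolic element of `SL(2, ℤ)`: trace `2` and `g 0 1 - g 1 0 > 0`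
(e.g. `T = [1, 1; 0, 1]` and all its `SL(2, ℤ)`-conjugates). -/
def h84_IsPosPar (g : SL(2, ℤ)) : Prop := g 0 0 + g 1 1 = 2 ∧ 0 < g 0 1 - g 1 0

/-- `g ∈ Γ` is not a proper power in `Γ`. -/
def h84_IsPrimIn (Γ : Subgroup SL(2, ℤ)) (g : Γ) : Prop := ∀ (h : Γ) (k : ℕ), h ^ k = g → k = 1

/-- Primitive positive parabolic elements of `Γ`. -/
def h84_IsPPP (Γ : Subgroup SL(2, ℤ)) (g : Γ) : Prop :=
  h84_IsPosPar (g : SL(2, ℤ)) ∧ h84_IsPrimIn Γ g

/-- A cusp system of `Γ`: a finite set of primitive positive parabolic elements of `Γ` containing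
exactly one element of every `Γ`-conjugacy class of such elements. -/
def h84_IsCuspSystem (Γ : Subgroup SL(2, ℤ)) (R : Finset Γ) : Prop :=
  (∀ ρ ∈ R, h84_IsPPP Γ ρ) ∧
    (∀ g : Γ, h84_IsPPP Γ g → ∃ ρ ∈ R, ∃ γ : Γ, γ * ρ * γ⁻¹ = g) ∧
      ∀ ρ ∈ R, ∀ ρ' ∈ R, (∃ γ : Γ, γ * ρ * γ⁻¹ = ρ') → ρ = ρ'

theorem h84_isPosPar_ne_one {g : SL(2, ℤ)} (h : h84_IsPosPar g) : g ≠ 1 := by
  rintro rfl
  have := h.2
  simp at this

theorem h84_isPosPar_T : h84_IsPosPar ModularGroup.T := by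
  constructor <;> simp [ModularGroup.T]

/-- Positive parabolicity is invariant under conjugation by `δ`, `0 < det δ`. -/
theorem h84_isPosPar_conj_iff (g g' : SL(2, ℤ)) (δ : Matrix (Fin 2) (Fin 2) ℤ) (hδ : 0 < δ.det)
    (h : δ * (g' : Matrix (Fin 2) (Fin 2) ℤ) = (g : Matrix (Fin 2) (Fin 2) ℤ) * δ) :
    h84_IsPosPar g ↔ h84_IsPosPar g' := by
  have htr := h84_trace_conj g g' δ hδ.ne' h
  constructor
  · rintro ⟨h1, h2⟩
    exact ⟨by rw [htr, h1], (h84_sign_conj_iff g g' δ hδ h h1).mp h2⟩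
  · rintro ⟨h1, h2⟩
    have h1' : g 0 0 + g 1 1 = 2 := by rw [← htr, h1]
    exact ⟨h1', (h84_sign_conj_iff g g' δ hδ h h1').mpr h2⟩

/-- Positive parabolicity is invariant under conjugation in `SL(2, ℤ)`. -/
theorem h84_isPosPar_conj (γ g : SL(2, ℤ)) : h84_IsPosPar (γ * g * γ⁻¹) ↔ h84_IsPosPar g := by
  refine h84_isPosPar_conj_iff (γ * g * γ⁻¹) g (γ : Matrix (Fin 2) (Fin 2) ℤ) (by simp) ?_
  rw [← Matrix.SpecialLinearGroup.coe_mul, ← Matrix.SpecialLinearGroup.coe_mul,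
    inv_mul_cancel_right]

section Transport

variable {Γ Γ' : Subgroup SL(2, ℤ)}

/-- Primitivity is invariant under any isomorphism. -/
theorem h84_isPrimIn_map (κ : Γ' ≃* Γ) (g' : Γ') : h84_IsPrimIn Γ (κ g') ↔ h84_IsPrimIn Γ' g' := by
  constructor
  · intro h h' k hk
    exact h (κ h') k (by rw [← map_pow, hk])
  · intro h h' k hk
    refine h (κ.symm h') k ?_
    rw [← map_pow, hk, MulEquiv.symm_apply_apply]

/-- An isomorphism `κ : Γ' ≃* Γ` induced by conjugation with an integral matrix `δ` of positive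
determinant (`δ * g' = κ g' * δ`) preserves primitive positive parabolic elements. -/
theorem h84_isPPP_map (δ : Matrix (Fin 2) (Fin 2) ℤ) (hδ : 0 < δ.det) (κ : Γ' ≃* Γ)
    (hκ : ∀ g' : Γ', δ * ((g' : SL(2, ℤ)) : Matrix (Fin 2) (Fin 2) ℤ)
      = ((κ g' : SL(2, ℤ)) : Matrix (Fin 2) (Fin 2) ℤ) * δ) (g' : Γ') :
    h84_IsPPP Γ (κ g') ↔ h84_IsPPP Γ' g' := by
  unfold h84_IsPPP
  rw [h84_isPosPar_conj_iff (κ g' : SL(2, ℤ)) (g' : SL(2, ℤ)) δ hδ (hκ g'), h84_isPrimIn_map]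

/-- Abstract transport of cusp systems along an isomorphism preserving primitive positive
parabolic elements. -/
theorem h84_isCuspSystem_map_of (κ : Γ' ≃* Γ)
    (hκ : ∀ g' : Γ', h84_IsPPP Γ (κ g') ↔ h84_IsPPP Γ' g') (R' : Finset Γ')
    (hR' : h84_IsCuspSystem Γ' R') :
    h84_IsCuspSystem Γ (R'.map κ.toEquiv.toEmbedding) := by
  obtain ⟨h1, h2, h3⟩ := hR'
  refine ⟨?_, ?_, ?_⟩
  · intro ρ hρ
    obtain ⟨ρ', hρ', rfl⟩ := Finset.mem_map.mp hρ
    exact (hκ ρ').mpr (h1 ρ' hρ')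
  · intro g hg
    have hg' : h84_IsPPP Γ' (κ.symm g) := by
      rw [← hκ, MulEquiv.apply_symm_apply]; exact hg
    obtain ⟨ρ', hρ', γ', hγ'⟩ := h2 _ hg'
    refine ⟨κ ρ', Finset.mem_map.mpr ⟨ρ', hρ', rfl⟩, κ γ', ?_⟩
    rw [← map_inv, ← map_mul, ← map_mul, hγ', MulEquiv.apply_symm_apply]
  · intro ρ hρ ρ₂ hρ₂ hconj
    obtain ⟨ρ', hρ', rfl⟩ := Finset.mem_map.mp hρ
    obtain ⟨ρ₂', hρ₂', rfl⟩ := Finset.mem_map.mp hρ₂
    obtain ⟨γ, hγ⟩ := hconj
    have : ρ' = ρ₂' := by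
      refine h3 ρ' hρ' ρ₂' hρ₂' ⟨κ.symm γ, ?_⟩
      apply κ.injective
      rw [map_mul, map_mul, map_inv, MulEquiv.apply_symm_apply]
      exact hγ
    rw [this]

/-- **TRANSPORT.**  Conjugation by an integral matrix of positive determinant carries cusp
systems to cusp systems. -/
theorem h84_isCuspSystem_map (δ : Matrix (Fin 2) (Fin 2) ℤ) (hδ : 0 < δ.det) (κ : Γ' ≃* Γ)
    (hκ : ∀ g' : Γ', δ * ((g' : SL(2, ℤ)) : Matrix (Fin 2) (Fin 2) ℤ)
      = ((κ g' : SL(2, ℤ)) : Matrix (Fin 2) (Fin 2) ℤ) * δ) (R' : Finset Γ')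
    (hR' : h84_IsCuspSystem Γ' R') :
    h84_IsCuspSystem Γ (R'.map κ.toEquiv.toEmbedding) :=
  h84_isCuspSystem_map_of κ (h84_isPPP_map δ hδ κ hκ) R' hR'

/-- **TRANSPORT**, inverse direction. -/
theorem h84_isCuspSystem_map_symm (δ : Matrix (Fin 2) (Fin 2) ℤ) (hδ : 0 < δ.det) (κ : Γ' ≃* Γ)
    (hκ : ∀ g' : Γ', δ * ((g' : SL(2, ℤ)) : Matrix (Fin 2) (Fin 2) ℤ)
      = ((κ g' : SL(2, ℤ)) : Matrix (Fin 2) (Fin 2) ℤ) * δ) (R : Finset Γ)
    (hR : h84_IsCuspSystem Γ R) :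
    h84_IsCuspSystem Γ' (R.map κ.symm.toEquiv.toEmbedding) := by
  refine h84_isCuspSystem_map_of κ.symm (fun g => ?_) R hR
  rw [← h84_isPPP_map δ hδ κ hκ, MulEquiv.apply_symm_apply]

/-- **(CI), abstract assembly.**  Suppose the pairing values `b = B_Γ(φ, ψ)` and
`b' = B_Γ'(φ', ψ')` (`φ' = φ ∘ κ`, `ψ' = ψ ∘ κ`) are both given by the cusp formula
`c * B = d * ∑_{ρ ∈ R} e ρ` (`c ≠ 0`) for every Heisenberg lift `e` and every cusp system `R`.
Then `b' = b`. -/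
theorem h84_ci_of_cusp_formula (δ : Matrix (Fin 2) (Fin 2) ℤ) (hδ : 0 < δ.det) (κ : Γ' ≃* Γ)
    (hκ : ∀ g' : Γ', δ * ((g' : SL(2, ℤ)) : Matrix (Fin 2) (Fin 2) ℤ)
      = ((κ g' : SL(2, ℤ)) : Matrix (Fin 2) (Fin 2) ℤ) * δ)
    (φ ψ : Additive Γ →+ ℤ) (φ' ψ' : Additive Γ' →+ ℤ)
    (hφ' : ∀ g' : Γ', φ' (Additive.ofMul g') = φ (Additive.ofMul (κ g')))
    (hψ' : ∀ g' : Γ', ψ' (Additive.ofMul g') = ψ (Additive.ofMul (κ g')))
    (b b' c d : ℤ) (hc : c ≠ 0)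
    (hex : ∃ e : Γ → ℤ, ∀ g h : Γ,
      e (g * h) = e g + e h + φ (Additive.ofMul g) * ψ (Additive.ofMul h))
    (hexR : ∃ R' : Finset Γ', h84_IsCuspSystem Γ' R')
    (hb : ∀ (e : Γ → ℤ) (R : Finset Γ),
      (∀ g h : Γ, e (g * h) = e g + e h + φ (Additive.ofMul g) * ψ (Additive.ofMul h)) →
        h84_IsCuspSystem Γ R → c * b = d * ∑ ρ ∈ R, e ρ)
    (hb' : ∀ (e' : Γ' → ℤ) (R' : Finset Γ'),
      (∀ g h : Γ', e' (g * h) = e' g + e' h + φ' (Additive.ofMul g) * ψ' (Additive.ofMul h)) →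
        h84_IsCuspSystem Γ' R' → c * b' = d * ∑ ρ ∈ R', e' ρ) :
    b' = b := by
  obtain ⟨e, he⟩ := hex
  obtain ⟨R', hR'⟩ := hexR
  have h1 := hb e _ he (h84_isCuspSystem_map δ hδ κ hκ R' hR')
  have h2 := hb' (fun g' => e (κ g')) R' (fun g h => by
    show e (κ (g * h)) = _
    rw [map_mul, he, hφ', hψ']) hR'
  rw [Finset.sum_map] at h1
  have h3 : c * b' = c * b := by
    rw [h1, h2]; rfl
  exact mul_left_cancel₀ hc h3

end Transport

end Fermat.Agent.S41
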