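import Mathlib
import Fermat.Agent.S41.h42_CuspDefs
import Fermat.Agent.S41.h84_BTransport

/-!
# S41 block (B): TRANSPORT and the abstract (CI) assembly in the shared language
(`h42_IsPosPar`, `h42_IsCuspSystem` of `h42_CuspDefs`)
-/

set_option autoImplicit false

namespace Fermat.Agent.S41

open scoped MatrixGroups
open Matrix

theorem h84_isPosPar42_iff (Γ : Subgroup SL(2, ℤ)) (g : Γ) :
    h42_IsPosPar Γ g ↔ h84_IsPPP Γ g := by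
  unfold h42_IsPosPar h84_IsPPP h84_IsPosPar h84_IsPrimIn
  rw [Matrix.trace_fin_two]
  constructor
  · rintro ⟨h1, h2, h3⟩
    exact ⟨⟨h1, h2⟩, h3⟩
  · rintro ⟨⟨h1, h2⟩, h3⟩
    exact ⟨h1, h2, h3⟩

theorem h84_isCuspSystem42_iff (Γ : Subgroup SL(2, ℤ)) (R : Finset Γ) :
    h42_IsCuspSystem Γ R ↔ h84_IsCuspSystem Γ R := by
  unfold h42_IsCuspSystem h84_IsCuspSystem
  simp only [h84_isPosPar42_iff]
  constructor
  · rintro ⟨h1, h2, h3⟩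
    exact ⟨h1, h2, fun ρ hρ ρ' hρ' ⟨γ, hγ⟩ => h3 ρ hρ ρ' hρ' γ hγ⟩
  · rintro ⟨h1, h2, h3⟩
    exact ⟨h1, h2, fun ρ hρ ρ' hρ' γ hγ => h3 ρ hρ ρ' hρ' ⟨γ, hγ⟩⟩

section Transport

variable {Γ Γ' : Subgroup SL(2, ℤ)}

/-- Conjugation by an integral matrix of positive determinant preserves primitive positive
parabolic elements. -/
theorem h84_isPosPar42_map (δ : Matrix (Fin 2) (Fin 2) ℤ) (hδ : 0 < δ.det) (κ : Γ' ≃* Γ)
    (hκ : ∀ g' : Γ', δ * ((g' : SL(2, ℤ)) : Matrix (Fin 2) (Fin 2) ℤ)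
      = ((κ g' : SL(2, ℤ)) : Matrix (Fin 2) (Fin 2) ℤ) * δ) (g' : Γ') :
    h42_IsPosPar Γ (κ g') ↔ h42_IsPosPar Γ' g' := by
  rw [h84_isPosPar42_iff, h84_isPosPar42_iff]
  exact h84_isPPP_map δ hδ κ hκ g'

/-- **TRANSPORT** (shared language): conjugation by an integral matrix of positive determinant
carries cusp systems to cusp systems. -/
theorem h84_cuspSystem_transport (δ : Matrix (Fin 2) (Fin 2) ℤ) (hδ : 0 < δ.det) (κ : Γ' ≃* Γ)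
    (hκ : ∀ g' : Γ', δ * ((g' : SL(2, ℤ)) : Matrix (Fin 2) (Fin 2) ℤ)
      = ((κ g' : SL(2, ℤ)) : Matrix (Fin 2) (Fin 2) ℤ) * δ) (R' : Finset Γ')
    (hR' : h42_IsCuspSystem Γ' R') :
    h42_IsCuspSystem Γ (R'.map κ.toEquiv.toEmbedding) :=
  (h84_isCuspSystem42_iff _ _).mpr
    (h84_isCuspSystem_map δ hδ κ hκ R' ((h84_isCuspSystem42_iff _ _).mp hR'))

/-- **TRANSPORT**, inverse direction (shared language). -/
theorem h84_cuspSystem_transport_symm (δ : Matrix (Fin 2) (Fin 2) ℤ) (hδ : 0 < δ.det)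
    (κ : Γ' ≃* Γ)
    (hκ : ∀ g' : Γ', δ * ((g' : SL(2, ℤ)) : Matrix (Fin 2) (Fin 2) ℤ)
      = ((κ g' : SL(2, ℤ)) : Matrix (Fin 2) (Fin 2) ℤ) * δ) (R : Finset Γ)
    (hR : h42_IsCuspSystem Γ R) :
    h42_IsCuspSystem Γ' (R.map κ.symm.toEquiv.toEmbedding) :=
  (h84_isCuspSystem42_iff _ _).mpr
    (h84_isCuspSystem_map_symm δ hδ κ hκ R ((h84_isCuspSystem42_iff _ _).mp hR))

/-- **(CI), abstract assembly** (shared language).  If `b = B_Γ(φ, ψ)` and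
`b' = B_Γ'(φ ∘ κ, ψ ∘ κ)` are both given by the cusp formula `c * B = d * ∑_{ρ ∈ R} e ρ`
(`c ≠ 0`) for every Heisenberg lift `e` and every cusp system `R`, then `b' = b`. -/
theorem h84_ci_of_cusp_formula42 (δ : Matrix (Fin 2) (Fin 2) ℤ) (hδ : 0 < δ.det) (κ : Γ' ≃* Γ)
    (hκ : ∀ g' : Γ', δ * ((g' : SL(2, ℤ)) : Matrix (Fin 2) (Fin 2) ℤ)
      = ((κ g' : SL(2, ℤ)) : Matrix (Fin 2) (Fin 2) ℤ) * δ)
    (φ ψ : Additive Γ →+ ℤ) (φ' ψ' : Additive Γ' →+ ℤ)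
    (hφ' : ∀ g' : Γ', φ' (Additive.ofMul g') = φ (Additive.ofMul (κ g')))
    (hψ' : ∀ g' : Γ', ψ' (Additive.ofMul g') = ψ (Additive.ofMul (κ g')))
    (b b' c d : ℤ) (hc : c ≠ 0)
    (hex : ∃ e : Γ → ℤ, ∀ g h : Γ,
      e (g * h) = e g + e h + φ (Additive.ofMul g) * ψ (Additive.ofMul h))
    (hexR : ∃ R' : Finset Γ', h42_IsCuspSystem Γ' R')
    (hb : ∀ (e : Γ → ℤ) (R : Finset Γ),
      (∀ g h : Γ, e (g * h) = e g + e h + φ (Additive.ofMul g) * ψ (Additive.ofMul h)) →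
        h42_IsCuspSystem Γ R → c * b = d * ∑ ρ ∈ R, e ρ)
    (hb' : ∀ (e' : Γ' → ℤ) (R' : Finset Γ'),
      (∀ g h : Γ', e' (g * h) = e' g + e' h + φ' (Additive.ofMul g) * ψ' (Additive.ofMul h)) →
        h42_IsCuspSystem Γ' R' → c * b' = d * ∑ ρ ∈ R', e' ρ) :
    b' = b := by
  obtain ⟨R', hR'⟩ := hexR
  exact h84_ci_of_cusp_formula δ hδ κ hκ φ ψ φ' ψ' hφ' hψ' b b' c d hc hex
    ⟨R', (h84_isCuspSystem42_iff _ _).mp hR'⟩
    (fun e R he hR => hb e R he ((h84_isCuspSystem42_iff _ _).mpr hR))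
    (fun e' R' he' hR' => hb' e' R' he' ((h84_isCuspSystem42_iff _ _).mpr hR'))

end Transport

end Fermat.Agent.S41
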