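import Fermat.Agent.S41.h49_BHecke
import Fermat.Agent.S41.h8_BDefs
import Fermat.Agent.S41.h84_BTransport2
import Fermat.Agent.S41.h44_Heis

/-!
# S41, block (B), row B-HECKE, part 2: `(B3)`, `hadj₂`, `hsa` for the pairing `h8_B`

Everything is derived from
* the cusp formula `c * B_Γ(φ, ψ) = d * ∑_{ρ ∈ R} e ρ` (INTR + COUNT),
* existence of cusp systems (EXISTS-R),
* the adjunction `res`/`tr` (B-RESTR),
given as hypotheses, so that this file does not wait for those rows.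
-/

set_option autoImplicit false

namespace Fermat.Agent.S41

open CongruenceSubgroup Matrix.SpecialLinearGroup ModularCurve.Period
open scoped MatrixGroups
open Fermat.Agent.S16

theorem h49_neg_one_mem (M : ℕ) : (-1 : SL(2, ℤ)) ∈ Gamma0 M := by
  rw [h30_mem_Gamma0_iff]
  simp

/-- The cusp formula at level `M` with constants `c`, `d`: for parabolic `φ`, `ψ`, every
Heisenberg lift `e` and every cusp system `R`, `c * B(φ, ψ) = d * ∑_{ρ ∈ R} e ρ`. -/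
def h49_CuspFormula (M : ℕ) (c d : ℤ) : Prop :=
  ∀ φ ψ : Additive (Gamma0 M) →+ ℤ, IsParabolicHom (Gamma0 M) φ → IsParabolicHom (Gamma0 M) ψ →
    ∀ (e : Gamma0 M → ℤ) (R : Finset (Gamma0 M)),
      (∀ g h : Gamma0 M, e (g * h) = e g + e h + φ (Additive.ofMul g) * ψ (Additive.ofMul h)) →
        h42_IsCuspSystem (Gamma0 M) R → c * h8_B (Gamma0 M) φ ψ = d * ∑ ρ ∈ R, e ρ

/-- **(B3)**: the pairing `h8_B` at level `N q` is invariant under the Atkin-Lehner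
conjugation `W`, given the cusp formula and the existence of a cusp system at level `N q`. -/
theorem h49_B3_of_cuspFormula {N q : ℕ} [Fact q.Prime] (hqN : ¬ q ∣ N) (c d : ℤ) (hc : c ≠ 0)
    (hexR : ∃ R : Finset (Gamma0 (N * q)), h42_IsCuspSystem (Gamma0 (N * q)) R)
    (hcf : h49_CuspFormula (N * q) c d)
    (ψ ψ' : Additive (Gamma0 (N * q)) →+ ℤ)
    (hψ : IsParabolicHom (Gamma0 (N * q)) ψ) (hψ' : IsParabolicHom (Gamma0 (N * q)) ψ') :
    h8_B (Gamma0 (N * q)) (h30_W N q hqN ψ) (h30_W N q hqN ψ') = h8_B (Gamma0 (N * q)) ψ ψ' :=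
  h84_ci_of_cusp_formula42 (h49_wMat N q) (h49_wMat_det_pos N q hqN) (h49_wEquiv N q hqN)
    (h49_wMat_mul N q hqN) ψ ψ' (h30_W N q hqN ψ) (h30_W N q hqN ψ')
    (fun g' => h30_W_apply N q hqN ψ g') (fun g' => h30_W_apply N q hqN ψ' g')
    (h8_B (Gamma0 (N * q)) ψ ψ') (h8_B (Gamma0 (N * q)) (h30_W N q hqN ψ) (h30_W N q hqN ψ'))
    c d hc (h44_exists_heis (Gamma0 (N * q)) (h49_neg_one_mem _) ψ ψ') hexR
    (fun e R he hR => hcf ψ ψ' hψ hψ' e R he hR)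
    (fun e' R' he' hR' => hcf _ _ (h30_W_parabolic N q hqN ψ hψ)
      (h30_W_parabolic N q hqN ψ' hψ') e' R' he' hR')

/-- Antisymmetry of `h8_B` (no hypothesis on the homomorphisms). -/
theorem h49_B_antisymm (Γ : Subgroup SL(2, ℤ)) (φ ψ : Additive Γ →+ ℤ) :
    h8_B Γ ψ φ = -h8_B Γ φ ψ := by
  unfold h8_B
  rw [← finsum_neg_distrib]
  exact finsum_congr fun x => by ring

/-- **`hadj₂`** for `h8_B`. -/
theorem h49_B_hadj2 {N q : ℕ} [Fact q.Prime] (hqN : ¬ q ∣ N) (c d : ℤ) (hc : c ≠ 0)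
    (hexR : ∃ R : Finset (Gamma0 (N * q)), h42_IsCuspSystem (Gamma0 (N * q)) R)
    (hcf : h49_CuspFormula (N * q) c d)
    (hadj1 : ∀ (φ : Additive (Gamma0 N) →+ ℤ) (ψ : Additive (Gamma0 (N * q)) →+ ℤ),
      IsParabolicHom (Gamma0 N) φ → IsParabolicHom (Gamma0 (N * q)) ψ →
        h8_B (Gamma0 (N * q)) (h30_res N q φ) ψ = h8_B (Gamma0 N) φ (h30_tr N q hqN ψ))
    (φ : Additive (Gamma0 N) →+ ℤ) (ψ : Additive (Gamma0 (N * q)) →+ ℤ)
    (hφ : IsParabolicHom (Gamma0 N) φ) (hψ : IsParabolicHom (Gamma0 (N * q)) ψ) :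
    h8_B (Gamma0 (N * q)) (h30_W N q hqN (h30_res N q φ)) ψ =
      h8_B (Gamma0 N) φ (h30_tr N q hqN (h30_W N q hqN ψ)) :=
  h49_hadj2 (fun M => h8_B (Gamma0 M)) hqN hadj1
    (h49_B3_of_cuspFormula hqN c d hc hexR hcf) φ ψ hφ hψ

/-- **`hsa`** for `h8_B`: `T_ℓ` is self-adjoint at level `N` for every prime `ℓ ∤ N`, given the
cusp formula and a cusp system at level `N ℓ` and the `res`/`tr` adjunction for `(N, N ℓ)`. -/
theorem h49_B_hsa {N l : ℕ} [Fact l.Prime] (hlN : ¬ l ∣ N) (c d : ℤ) (hc : c ≠ 0)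
    (hexR : ∃ R : Finset (Gamma0 (N * l)), h42_IsCuspSystem (Gamma0 (N * l)) R)
    (hcf : h49_CuspFormula (N * l) c d)
    (hadj1 : ∀ (φ : Additive (Gamma0 N) →+ ℤ) (ψ : Additive (Gamma0 (N * l)) →+ ℤ),
      IsParabolicHom (Gamma0 N) φ → IsParabolicHom (Gamma0 (N * l)) ψ →
        h8_B (Gamma0 (N * l)) (h30_res N l φ) ψ = h8_B (Gamma0 N) φ (h30_tr N l hlN ψ))
    (φ ψ : Additive (Gamma0 N) →+ ℤ)
    (hφ : IsParabolicHom (Gamma0 N) φ) (hψ : IsParabolicHom (Gamma0 N) ψ) :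
    h8_B (Gamma0 N) (h30_heckeT N l hlN φ) ψ = h8_B (Gamma0 N) φ (h30_heckeT N l hlN ψ) :=
  h49_hsa (fun M => h8_B (Gamma0 M)) hlN
    (fun φ ψ _ _ => h49_B_antisymm (Gamma0 N) φ ψ)
    (fun φ ψ _ _ => h49_B_antisymm (Gamma0 (N * l)) φ ψ) hadj1
    (h49_B3_of_cuspFormula hlN c d hc hexR hcf) φ ψ hφ hψ

end Fermat.Agent.S41
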