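import Fermat.Agent.S41.h92_BSurj
import Fermat.Agent.S16.h36_Lift

/-!
# S41 block (B): B-PRIM and the final (B1), verbatim statements of board #1942

`Γ ≤ SL(2, ℤ)` with `-1 ∈ Γ`; definitions from `h8_BDefs`.

* `h92_exists_isPot` : parabolic homomorphisms have potentials;
* `h92_isPot_C`, `h92_isPot_unique`, `h92_isPot_add`;
* `h92_B_eq'` : `h8_B` computed with any potentials; `h92_B_add_left`, `h92_B_add_right`,
  `h92_B_antisymm`;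
* `h92_exists_hom_of_C` (SURJ, verbatim);
* `h92_B_nondeg` : **(B1)**, the hypothesis `hB_nd` of `h43_ribet_alg` for `h8_B`.
-/

set_option autoImplicit false

namespace Fermat.Agent.S41

open scoped MatrixGroups
open ModularGroup ModularCurve.Period Fermat.Agent.S16

section Prim

variable (Γ : Subgroup SL(2, ℤ))

theorem h92_TS_pow_six : (T * S : SL(2, ℤ)) ^ 6 = 1 := by decide

/-- A primitive of `φ` invariant under left multiplication by `a`, when `φ` kills the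
"stabilisers" `g⁻¹ a^k g ∈ Γ`. -/
theorem h92_exists_prim (φ : Additive Γ →+ ℤ) (a : SL(2, ℤ))
    (hstab : ∀ (k : ℤ) (g : SL(2, ℤ)) (γ : Γ),
      a ^ k * g * ((γ : SL(2, ℤ)))⁻¹ = g → φ (Additive.ofMul γ) = 0) :
    ∃ F : SL(2, ℤ) → ℤ, h8_IsPrim Γ φ F ∧ ∀ g, F (a * g) = F g := by
  obtain ⟨f, hf⟩ := h36_exists_potential (H := Multiplicative ℤ × Γ) (Y := SL(2, ℤ)) (A := ℤ)
    (fun h g => a ^ (Multiplicative.toAdd h.1) * g * (((h.2 : Γ) : SL(2, ℤ)))⁻¹)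
    (fun g => by
      show a ^ (Multiplicative.toAdd (1 : Multiplicative ℤ)) * g
        * ((((1 : Γ)) : SL(2, ℤ)))⁻¹ = g
      rw [toAdd_one, zpow_zero, one_mul, Subgroup.coe_one, inv_one, mul_one])
    (fun h h' g => by
      show a ^ (Multiplicative.toAdd (h.1 * h'.1)) * g * ((((h.2 * h'.2 : Γ)) : SL(2, ℤ)))⁻¹
        = a ^ (Multiplicative.toAdd h.1)
          * (a ^ (Multiplicative.toAdd h'.1) * g * (((h'.2 : Γ) : SL(2, ℤ)))⁻¹)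
          * (((h.2 : Γ) : SL(2, ℤ)))⁻¹
      rw [toAdd_mul, zpow_add, Subgroup.coe_mul, mul_inv_rev]
      group)
    (fun h => -φ (Additive.ofMul h.2))
    (fun h h' => by
      show -φ (Additive.ofMul (h.2 * h'.2)) = -φ (Additive.ofMul h.2) + -φ (Additive.ofMul h'.2)
      rw [ofMul_mul, map_add]
      ring)
    (fun h g hg => by
      show -φ (Additive.ofMul h.2) = 0
      rw [hstab _ g h.2 hg, neg_zero])
  refine ⟨f, fun g γ => ?_, fun g => ?_⟩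
  · have h1 := hf ((1 : Multiplicative ℤ), γ⁻¹) g
    have h2 : a ^ (Multiplicative.toAdd (1 : Multiplicative ℤ)) * g
        * ((((γ⁻¹ : Γ)) : SL(2, ℤ)))⁻¹ = g * (γ : SL(2, ℤ)) := by
      rw [toAdd_one, zpow_zero, one_mul, Subgroup.coe_inv, inv_inv]
    have h3 : f (g * (γ : SL(2, ℤ))) = -φ (Additive.ofMul (γ⁻¹ : Γ)) + f g := by
      rw [← h2]
      exact h1
    rw [h3, ofMul_inv, map_neg]
    ring
  · have h1 := hf (Multiplicative.ofAdd (1 : ℤ), (1 : Γ)) g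
    have h2 : a ^ (Multiplicative.toAdd (Multiplicative.ofAdd (1 : ℤ))) * g
        * ((((1 : Γ)) : SL(2, ℤ)))⁻¹ = a * g := by
      rw [toAdd_ofAdd, zpow_one, Subgroup.coe_one, inv_one, mul_one]
    have h3 : f (a * g) = -φ (Additive.ofMul (1 : Γ)) + f g := by
      rw [← h2]
      exact h1
    rw [h3, ofMul_one, map_zero]
    ring

/-- **Parabolic homomorphisms have potentials.** -/
theorem h92_exists_isPot (hneg : (-1 : SL(2, ℤ)) ∈ Γ) (φ : Additive Γ →+ ℤ)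
    (hφ : IsParabolicHom Γ φ) : ∃ v, h8_IsPot Γ φ v := by
  have _ := hneg
  -- `U`-invariant primitive: stabilisers are torsion
  obtain ⟨F, hF, hFU⟩ := h92_exists_prim Γ φ (T * S) (fun k g γ hk => by
    have h0 : (T * S) ^ k * g = g * (γ : SL(2, ℤ)) := mul_inv_eq_iff_eq_mul.mp hk
    have h1 : (γ : SL(2, ℤ)) = g⁻¹ * (T * S) ^ k * g⁻¹⁻¹ := by
      rw [inv_inv, mul_assoc]
      exact eq_inv_mul_iff_mul_eq.mpr h0.symm
    have hx : ((T * S : SL(2, ℤ)) ^ k) ^ 6 = 1 := by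
      rw [← zpow_natCast, ← zpow_mul, mul_comm, zpow_mul, zpow_natCast, h92_TS_pow_six, one_zpow]
    have h2 : (γ : SL(2, ℤ)) ^ 6 = 1 := by
      rw [h1, conj_pow, hx, mul_one, mul_inv_cancel]
    have h3 : γ ^ 6 = 1 := Subtype.ext h2
    have h4 : (6 : ℕ) • φ (Additive.ofMul γ) = 0 := by
      rw [← map_nsmul, ← ofMul_pow, h3, ofMul_one, map_zero]
    have h5 : (6 : ℤ) * φ (Additive.ofMul γ) = 0 := by
      rw [nsmul_eq_mul] at h4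
      exact_mod_cast h4
    omega)
  -- `T`-invariant primitive: stabilisers have trace 2
  obtain ⟨P, hP, hPT⟩ := h92_exists_prim Γ φ T (fun k g γ hk => by
    have h0 : T ^ k * g = g * (γ : SL(2, ℤ)) := mul_inv_eq_iff_eq_mul.mp hk
    have h1 : (γ : SL(2, ℤ)) = g⁻¹ * T ^ k * g := by
      rw [mul_assoc]
      exact eq_inv_mul_iff_mul_eq.mpr h0.symm
    apply hφ γ
    have h2 : (((γ : SL(2, ℤ))) : Matrix (Fin 2) (Fin 2) ℤ).trace = 2 := by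
      rw [h1, Matrix.SpecialLinearGroup.coe_mul, Matrix.SpecialLinearGroup.coe_mul,
        Matrix.trace_mul_cycle, ← Matrix.SpecialLinearGroup.coe_mul, mul_inv_cancel,
        Matrix.SpecialLinearGroup.coe_one, one_mul, coe_T_zpow, Matrix.trace_fin_two]
      simp
    rw [h2]
    norm_num)
  obtain ⟨v, hv⟩ := h92_exists_desc (Γ := Γ) (fun g => F g - P g) (fun g γ => by
    show F (g * (γ : SL(2, ℤ))) - P (g * (γ : SL(2, ℤ))) = F g - P g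
    rw [hF, hP]
    ring)
  exact ⟨v, F, P, hF, hP, hFU, hPT, hv⟩

/-- Potentials satisfy condition (C). -/
theorem h92_isPot_C (hneg : (-1 : SL(2, ℤ)) ∈ Γ) (φ : Additive Γ →+ ℤ)
    (v : SL(2, ℤ) ⧸ Γ → ℤ) (hv : h8_IsPot Γ φ v) :
    h8_C (fun x : SL(2, ℤ) ⧸ Γ => S • x) (fun x : SL(2, ℤ) ⧸ Γ => T • x) v :=
  h92_pot_C hneg hv

/-- Two potentials of `φ` differ by a `U`-invariant plus a `T`-invariant function. -/
theorem h92_isPot_unique (φ : Additive Γ →+ ℤ) (v v₂ : SL(2, ℤ) ⧸ Γ → ℤ)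
    (hv : h8_IsPot Γ φ v) (hv₂ : h8_IsPot Γ φ v₂) :
    ∃ w u : SL(2, ℤ) ⧸ Γ → ℤ, (∀ x, w (T • S • x) = w x) ∧ (∀ x, u (T • x) = u x) ∧
      ∀ x, v x = v₂ x + w x + u x := by
  obtain ⟨w, u, hw, hu, hsum⟩ := h92_pot_unique hv hv₂
  exact ⟨w, u, hw, hu, fun x => congrFun hsum x⟩

/-- Potentials add. -/
theorem h92_isPot_add (φ ψ : Additive Γ →+ ℤ) (v v' : SL(2, ℤ) ⧸ Γ → ℤ)
    (hv : h8_IsPot Γ φ v) (hv' : h8_IsPot Γ ψ v') : h8_IsPot Γ (φ + ψ) (v + v') := by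
  obtain ⟨F, P, hF, hP, hFU, hPT, hv⟩ := hv
  obtain ⟨F', P', hF', hP', hFU', hPT', hv'⟩ := hv'
  refine ⟨fun g => F g + F' g, fun g => P g + P' g, fun g γ => ?_, fun g γ => ?_, fun g => ?_,
    fun g => ?_, fun g => ?_⟩
  · show F (g * (γ : SL(2, ℤ))) + F' (g * (γ : SL(2, ℤ)))
      = F g + F' g + (φ (Additive.ofMul γ) + ψ (Additive.ofMul γ))
    rw [hF, hF']
    ring
  · show P (g * (γ : SL(2, ℤ))) + P' (g * (γ : SL(2, ℤ)))
      = P g + P' g + (φ (Additive.ofMul γ) + ψ (Additive.ofMul γ))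
    rw [hP, hP']
    ring
  · show F (T * S * g) + F' (T * S * g) = F g + F' g
    rw [hFU, hFU']
  · show P (T * g) + P' (T * g) = P g + P' g
    rw [hPT, hPT']
  · show v (g : SL(2, ℤ) ⧸ Γ) + v' (g : SL(2, ℤ) ⧸ Γ) = F g + F' g - (P g + P' g)
    rw [hv, hv']
    ring

/-- **The pairing may be computed with any potentials.** -/
theorem h92_B_eq' [Fintype (SL(2, ℤ) ⧸ Γ)] (hneg : (-1 : SL(2, ℤ)) ∈ Γ)
    (φ ψ : Additive Γ →+ ℤ) (v v' : SL(2, ℤ) ⧸ Γ → ℤ) (hv : h8_IsPot Γ φ v)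
    (hv' : h8_IsPot Γ ψ v') :
    h8_B Γ φ ψ = h8_B2 (fun x : SL(2, ℤ) ⧸ Γ => T • x) v v' :=
  h92_B_eq hneg hv hv'

/-- Additivity of `h8_B` in the first argument. -/
theorem h92_B_add_left [Γ.FiniteIndex] (hneg : (-1 : SL(2, ℤ)) ∈ Γ)
    (φ₁ φ₂ ψ : Additive Γ →+ ℤ) (h₁ : IsParabolicHom Γ φ₁) (h₂ : IsParabolicHom Γ φ₂)
    (hψ : IsParabolicHom Γ ψ) : h8_B Γ (φ₁ + φ₂) ψ = h8_B Γ φ₁ ψ + h8_B Γ φ₂ ψ := by
  have : Fintype (SL(2, ℤ) ⧸ Γ) := Fintype.ofFinite _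
  obtain ⟨v₁, hv₁⟩ := h92_exists_isPot Γ hneg φ₁ h₁
  obtain ⟨v₂, hv₂⟩ := h92_exists_isPot Γ hneg φ₂ h₂
  obtain ⟨v', hv'⟩ := h92_exists_isPot Γ hneg ψ hψ
  rw [h92_B_eq hneg (h92_isPot_add Γ φ₁ φ₂ v₁ v₂ hv₁ hv₂) hv', h92_B_eq hneg hv₁ hv',
    h92_B_eq hneg hv₂ hv', h8_B2_add_left]

/-- Additivity of `h8_B` in the second argument. -/
theorem h92_B_add_right [Γ.FiniteIndex] (hneg : (-1 : SL(2, ℤ)) ∈ Γ)
    (φ ψ₁ ψ₂ : Additive Γ →+ ℤ) (hφ : IsParabolicHom Γ φ) (h₁ : IsParabolicHom Γ ψ₁)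
    (h₂ : IsParabolicHom Γ ψ₂) : h8_B Γ φ (ψ₁ + ψ₂) = h8_B Γ φ ψ₁ + h8_B Γ φ ψ₂ := by
  have : Fintype (SL(2, ℤ) ⧸ Γ) := Fintype.ofFinite _
  obtain ⟨v, hv⟩ := h92_exists_isPot Γ hneg φ hφ
  obtain ⟨v₁, hv₁⟩ := h92_exists_isPot Γ hneg ψ₁ h₁
  obtain ⟨v₂, hv₂⟩ := h92_exists_isPot Γ hneg ψ₂ h₂
  rw [h92_B_eq hneg hv (h92_isPot_add Γ ψ₁ ψ₂ v₁ v₂ hv₁ hv₂), h92_B_eq hneg hv hv₁,
    h92_B_eq hneg hv hv₂, h8_B2_add_right]

/-- `h8_B` is antisymmetric. -/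
theorem h92_B_antisymm (φ ψ : Additive Γ →+ ℤ) : h8_B Γ ψ φ = - h8_B Γ φ ψ := by
  unfold h8_B
  rw [← finsum_neg_distrib]
  exact finsum_congr fun x => by ring

/-- **(SURJ)**, verbatim form of board #1942. -/
theorem h92_exists_hom_of_C (hneg : (-1 : SL(2, ℤ)) ∈ Γ) (v : SL(2, ℤ) ⧸ Γ → ℤ)
    (hv : h8_C (fun x : SL(2, ℤ) ⧸ Γ => S • x) (fun x : SL(2, ℤ) ⧸ Γ => T • x) v) :
    ∃ ψ : Additive Γ →+ ℤ, IsParabolicHom Γ ψ ∧ h8_IsPot Γ ψ v :=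
  h92_surj hneg v hv

/-- **(B1)**: `h8_B` is nondegenerate modulo an odd prime `p` on the parabolic homomorphisms. -/
theorem h92_B_nondeg [Γ.FiniteIndex] (hneg : (-1 : SL(2, ℤ)) ∈ Γ) (p : ℕ) [Fact p.Prime]
    (hp2 : p ≠ 2) (φ : Additive Γ →+ ℤ) (hφ : IsParabolicHom Γ φ)
    (h : ∀ ψ : Additive Γ →+ ℤ, IsParabolicHom Γ ψ → (p : ℤ) ∣ h8_B Γ φ ψ) :
    ∃ φ' : Additive Γ →+ ℤ, IsParabolicHom Γ φ' ∧ φ = p • φ' := by
  have : Fintype (SL(2, ℤ) ⧸ Γ) := Fintype.ofFinite _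
  exact h92_B1 hneg hp2 hφ (h92_exists_isPot Γ hneg φ hφ) (fun ψ hψ =>
    (ZMod.intCast_zmod_eq_zero_iff_dvd _ p).mpr (h ψ hψ))

end Prim

end Fermat.Agent.S41
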