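import Fermat.Agent.S41.h43_Asm
import Fermat.Agent.S41.h92_BPrim
import Fermat.Agent.S41.h49_BHecke2
import Fermat.Agent.S41.h42_Cusp
import Fermat.Agent.S41.h23_LRI1
import Fermat.Agent.S41.h7_LRI5b
import Fermat.Agent.S41.h30_LRFin

/-!
# S41: the duality package for `h43_S41_of`, from the (B) rows

`h99_S41_of_B` : the frozen S41 conclusion from the frozen hypotheses and the two (B) inputs
INTR (cusp-sum formula) and RESTR (`res`/`tr` adjunction), stated as hypotheses in the row shapes.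
-/

set_option autoImplicit false

open CongruenceSubgroup Matrix.SpecialLinearGroup ModularCurve.Period ModularGroup
open scoped MatrixGroups
open Fermat.Agent.S16
open WeierstrassCurve WeierstrassCurve.Affine WeierstrassCurve.Affine.Point

namespace Fermat.Agent.S41

/-- The row shape of INTR at the group `Γ` (with the `Fintype.ofFinite` instance). -/
def h99_Intr (Γ : Subgroup SL(2, ℤ)) [Γ.FiniteIndex] : Prop :=
  ∀ (φ ψ : Additive Γ →+ ℤ), IsParabolicHom Γ φ → IsParabolicHom Γ ψ →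
    ∀ (e : Γ → ℤ),
      (∀ g h : Γ, e (g * h) = e g + e h + φ (Additive.ofMul g) * ψ (Additive.ofMul h)) →
      ∀ (m : ℕ) (hm : ∀ g : SL(2, ℤ), g⁻¹ * T ^ m * g ∈ Γ)
        (r : SL(2, ℤ) ⧸ Γ → SL(2, ℤ)),
        (∀ x, (QuotientGroup.mk (r x) : SL(2, ℤ) ⧸ Γ) = x) →
        2 * @Finset.sum (SL(2, ℤ) ⧸ Γ) ℤ _ (@Finset.univ _ (Fintype.ofFinite _))
            (fun x => e ⟨(r x)⁻¹ * T ^ m * r x, hm (r x)⟩) = -(m : ℤ) * h8_B Γ φ ψ

/-- The row shape of RESTR for the pair `(N, N q)`. -/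
def h99_Restr (N q : ℕ) [Fact q.Prime] (hqN : ¬ q ∣ N) : Prop :=
  ∀ (φ : Additive (Gamma0 N) →+ ℤ) (ψ : Additive (Gamma0 (N * q)) →+ ℤ),
    IsParabolicHom (Gamma0 N) φ → IsParabolicHom (Gamma0 (N * q)) ψ →
      h8_B (Gamma0 (N * q)) (h30_res N q φ) ψ = h8_B (Gamma0 N) φ (h30_tr N q hqN ψ)

/-- INTR + COUNT give the cusp formula. -/
theorem h99_cuspFormula (M : ℕ) [NeZero M] (hintr : h99_Intr (Gamma0 M)) :
    ∃ c d : ℤ, c ≠ 0 ∧ h49_CuspFormula M c d := by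
  obtain ⟨m, hm0, hm⟩ := h42_exists_m (Gamma0 M)
  refine ⟨-(m : ℤ), 2 * (m : ℤ), by
    simpa using (Nat.cast_ne_zero (R := ℤ)).mpr hm0.ne', ?_⟩
  intro φ ψ hφ hψ e R he hR
  let _ : Fintype (SL(2, ℤ) ⧸ Gamma0 M) := Fintype.ofFinite _
  have h1 := hintr φ ψ hφ hψ e he m hm (fun x => Quotient.out x)
    (fun x => QuotientGroup.out_eq' x)
  have h2 := h42_count_heis (Gamma0 M) (h49_neg_one_mem M) φ ψ hφ hψ e he R hR m hm0 hm
    (fun x => Quotient.out x) (fun x => QuotientGroup.out_eq' x)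
  rw [h2] at h1
  linear_combination -h1

/-- The pairing on the lattice, reduced mod `p`. -/
noncomputable def h99_Bp (p M : ℕ) (x y : h43_Lat M) : ZMod p :=
  ((h8_B (Gamma0 M) x.1 y.1 : ℤ) : ZMod p)

theorem h99_Bp_add_left (p M : ℕ) [NeZero M] (a b c : h43_Lat M) :
    h99_Bp p M (a + b) c = h99_Bp p M a c + h99_Bp p M b c := by
  unfold h99_Bp
  rw [← Int.cast_add]
  congr 1
  exact h92_B_add_left (Gamma0 M) (h49_neg_one_mem M) a.1 b.1 c.1 a.2 b.2 c.2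

theorem h99_Bp_add_right (p M : ℕ) [NeZero M] (a b c : h43_Lat M) :
    h99_Bp p M a (b + c) = h99_Bp p M a b + h99_Bp p M a c := by
  unfold h99_Bp
  rw [← Int.cast_add]
  congr 1
  exact h92_B_add_right (Gamma0 M) (h49_neg_one_mem M) a.1 b.1 c.1 a.2 b.2 c.2

theorem h99_Bp_symm (p M : ℕ) (x y : h43_Lat M) :
    h99_Bp p M y x = (-1 : ZMod p) * h99_Bp p M x y := by
  unfold h99_Bp
  rw [h92_B_antisymm (Gamma0 M) x.1 y.1]
  push_cast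
  ring

theorem h99_Bp_nd (p M : ℕ) [NeZero M] [Fact p.Prime] (hp2 : p ≠ 2) (x : h43_Lat M)
    (h : ∀ y, h99_Bp p M x y = 0) : ∃ v : h43_Lat M, x = p • v := by
  obtain ⟨φ', hφ', hx⟩ := h92_B_nondeg (Gamma0 M) (h49_neg_one_mem M) p hp2 x.1 x.2
    (fun ψ hψ => (ZMod.intCast_zmod_eq_zero_iff_dvd _ p).mp (h ⟨ψ, hψ⟩))
  exact ⟨⟨φ', hφ'⟩, Subtype.ext hx⟩

/-- **S41 from INTR and RESTR.** -/
theorem h99_S41_of_B
    (hintr : ∀ (M : ℕ) [NeZero M], h99_Intr (Gamma0 M))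
    (hrestr : ∀ (N q : ℕ) [NeZero N] [Fact q.Prime] (hqN : ¬ q ∣ N), h99_Restr N q hqN)
    (E : WeierstrassCurve ℚ) [E.IsElliptic] {W : WeierstrassCurve ℤ} (hW : W.IsIntegralModelOf E)
    {p N q' : ℕ} (hp : p.Prime) (hp2 : p ≠ 2) (hN : 0 < N) (hq' : q'.Prime) (hq'N : ¬ q' ∣ N)
    (hirr : GaloisRepIsIrreducible (K := AlgebraicClosure ℚ) ℚ E p)
    (f : CuspForm (CongruenceSubgroup.Gamma0 N) 2) (𝔪 : Ideal (integralClosure ℤ ℂ))
    (hf : f.IsNormalizedEigenform) (hmax : 𝔪.IsMaximal) (hpm : (p : integralClosure ℤ ℂ) ∈ 𝔪)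
    (hcong : ∀ ℓ : ℕ, ℓ.Prime → W.IsGoodPrimeFor ℓ → ¬ ℓ ∣ N → ℓ ≠ p →
      ∃ a : integralClosure ℤ ℂ, (a : ℂ) = ModularFormClass.qCoeff f ℓ ∧
        a - ((W.apOfModel ℓ : ℤ) : integralClosure ℤ ℂ) ∈ 𝔪)
    (hLR : ∃ a : integralClosure ℤ ℂ, (a : ℂ) = ModularFormClass.qCoeff f q' ∧
      a ^ 2 - ((q' : integralClosure ℤ ℂ) + 1) ^ 2 ∈ 𝔪) :
    ∃ (g : CuspForm (CongruenceSubgroup.Gamma0 (N * q')) 2) (𝔪' : Ideal (integralClosure ℤ ℂ)),
      g.IsNormalizedEigenform ∧ 𝔪'.IsMaximal ∧ (p : integralClosure ℤ ℂ) ∈ 𝔪' ∧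
      (∀ ℓ : ℕ, ℓ.Prime → W.IsGoodPrimeFor ℓ → ¬ ℓ ∣ N * q' → ℓ ≠ p →
        ∃ a : integralClosure ℤ ℂ, (a : ℂ) = ModularFormClass.qCoeff g ℓ ∧
          a - ((W.apOfModel ℓ : ℤ) : integralClosure ℤ ℂ) ∈ 𝔪') ∧
      g.IsNewAt q' := by
  have : Fact q'.Prime := ⟨hq'⟩
  have : Fact p.Prime := ⟨hp⟩
  have : NeZero N := ⟨hN.ne'⟩
  have : NeZero (N * q') := ⟨Nat.mul_ne_zero hN.ne' hq'.ne_zero⟩
  obtain ⟨c, d, hc, hcf⟩ := h99_cuspFormula (N * q') (hintr (N * q'))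
  have hexR := h42_exists_cuspSystem (Gamma0 (N * q')) (h49_neg_one_mem _)
  refine h43_S41_of E hW hp hp2 hN hq'N hirr f 𝔪 hf hmax hpm hcong hLR
    (fun φ => h23_tr_res hq'N φ)
    (fun l _ hl ψ => h7_heckeT_W hq'N l hl ψ)
    (fun Ψ hpar hprim hUU hT =>
      h30_fin (M := N * q') (q := q') (p := p) (Dvd.intro_left N rfl)
        (fun l => W.IsGoodPrimeFor l ∧ l ≠ p) (fun l => W.apOfModel l) Ψ hpar hprim hUU hT)
    (h99_Bp p N) (h99_Bp p (N * q'))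
    (h99_Bp_add_left p N) (h99_Bp_add_right p N) (h99_Bp_nd p N hp2)
    (-1) (h99_Bp_symm p N)
    (h99_Bp_add_left p (N * q')) (h99_Bp_nd p (N * q') hp2)
    ?_ ?_ ?_
  · -- hadj₁
    intro x y
    unfold h99_Bp
    congr 1
    exact hrestr N q' hq'N x.1 y.1 x.2 y.2
  · -- hadj₂
    intro x y
    unfold h99_Bp
    congr 1
    exact h49_B_hadj2 hq'N c d hc hexR hcf (hrestr N q' hq'N) x.1 y.1 x.2 y.2
  · -- hsa
    intro l hl hlN x y
    have : Fact l.Prime := ⟨hl⟩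
    have : NeZero (N * l) := ⟨Nat.mul_ne_zero hN.ne' hl.ne_zero⟩
    obtain ⟨c', d', hc', hcf'⟩ := h99_cuspFormula (N * l) (hintr (N * l))
    have hexR' := h42_exists_cuspSystem (Gamma0 (N * l)) (h49_neg_one_mem _)
    unfold h99_Bp
    congr 1
    exact h49_B_hsa hlN c' d' hc' hexR' hcf' (hrestr N l hlN) x.1 y.1 x.2 y.2

end Fermat.Agent.S41
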