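import Fermat.Agent.S16.h18_PingPong

/-!
# (B-POT) potentials on `SL(2, ℤ)` from the universal property of `SL(2, ℤ)`

For `κ : SL(2, ℤ) → A` with `κ (S * g) = -κ g` and `κ (-g) = κ g` there is `H : SL(2, ℤ) → A`
with `H (S * g) = H g + κ g` and `H (T * S * g) = H g`.

The proof lets `S` and `U = T * S` act on `(SL(2, ℤ) ⧸ {±1}) × A` by
`(q, x) ↦ (S • q, x + κ q)` and `(q, x) ↦ (U • q, x)`; these permutations have orders dividing
`2` and `3`, so `h18_SL2Z_lift` gives an action of `SL(2, ℤ)` and `H g` is the second coordinate of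
the image of the base point under `g`.
-/

set_option autoImplicit false

namespace Fermat.Agent.S41

open scoped MatrixGroups
open ModularGroup

/-- The subgroup `{1, -1}` of `SL(2, ℤ)`. -/
def h18_pm : Subgroup SL(2, ℤ) where
  carrier := {g | g = 1 ∨ g = -1}
  mul_mem' := by
    rintro a b (rfl | rfl) (rfl | rfl)
    · left; simp
    · right; simp
    · right; simp
    · left; simp
  one_mem' := Or.inl rfl
  inv_mem' := by
    rintro a (rfl | rfl)
    · left; simp
    · right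
      rw [inv_eq_iff_eq_inv, eq_comm, inv_eq_iff_mul_eq_one]
      simp

theorem h18_mem_pm {g : SL(2, ℤ)} : g ∈ h18_pm ↔ g = 1 ∨ g = -1 := Iff.rfl

theorem h18_neg_one_mem_pm : (-1 : SL(2, ℤ)) ∈ h18_pm := Or.inr rfl

/-- `-1` acts trivially on `SL(2, ℤ) ⧸ {±1}`. -/
theorem h18_pm_neg_one_smul (q : SL(2, ℤ) ⧸ h18_pm) : (-1 : SL(2, ℤ)) • q = q := by
  induction q using QuotientGroup.induction_on with
  | H g =>
    rw [MulAction.Quotient.smul_mk]
    refine (QuotientGroup.eq.mpr ?_).symm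
    have : g⁻¹ * ((-1 : SL(2, ℤ)) • g) = -1 := by
      rw [smul_eq_mul, neg_one_mul, mul_neg, inv_mul_cancel]
    rw [this]
    exact h18_neg_one_mem_pm

/-- A function on `SL(2, ℤ)` invariant under `g ↦ -g`, as a function on the quotient. -/
def h18_kbar {A : Type*} (κ : SL(2, ℤ) → A) (hneg : ∀ g, κ (-g) = κ g) :
    SL(2, ℤ) ⧸ h18_pm → A :=
  Quotient.lift κ (by
    intro a b h
    have h' : a⁻¹ * b ∈ h18_pm := QuotientGroup.leftRel_apply.mp h
    rcases h' with h1 | h1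
    · have : b = a := by
        have := congrArg (fun x => a * x) h1
        simpa using this
      rw [this]
    · have : b = -a := by
        have := congrArg (fun x => a * x) h1
        simpa using this
      rw [this, hneg])

theorem h18_kbar_mk {A : Type*} (κ : SL(2, ℤ) → A) (hneg : ∀ g, κ (-g) = κ g) (g : SL(2, ℤ)) :
    h18_kbar κ hneg (QuotientGroup.mk g) = κ g := rfl

/-- The involution attached to `S` and `κ`. -/
def h18_permS {A : Type*} [AddCommGroup A] (κ : SL(2, ℤ) → A) (hS : ∀ g, κ (S * g) = -κ g)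
    (hneg : ∀ g, κ (-g) = κ g) : Equiv.Perm ((SL(2, ℤ) ⧸ h18_pm) × A) :=
  Function.Involutive.toPerm (fun y => (S • y.1, y.2 + h18_kbar κ hneg y.1)) (by
    rintro ⟨q, x⟩
    induction q using QuotientGroup.induction_on with
    | H g =>
      refine Prod.ext ?_ ?_
      · show S • S • (QuotientGroup.mk g : SL(2, ℤ) ⧸ h18_pm) = QuotientGroup.mk g
        rw [smul_smul, Fermat.Agent.S16.h18_S_mul_S, h18_pm_neg_one_smul]
      · show x + h18_kbar κ hneg (QuotientGroup.mk g) +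
          h18_kbar κ hneg (S • (QuotientGroup.mk g : SL(2, ℤ) ⧸ h18_pm)) = x
        rw [MulAction.Quotient.smul_mk, h18_kbar_mk, h18_kbar_mk, smul_eq_mul, hS]
        abel)

theorem h18_permS_apply {A : Type*} [AddCommGroup A] (κ : SL(2, ℤ) → A)
    (hS : ∀ g, κ (S * g) = -κ g) (hneg : ∀ g, κ (-g) = κ g)
    (y : (SL(2, ℤ) ⧸ h18_pm) × A) :
    h18_permS κ hS hneg y = (S • y.1, y.2 + h18_kbar κ hneg y.1) := rfl

theorem h18_permS_sq {A : Type*} [AddCommGroup A] (κ : SL(2, ℤ) → A)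
    (hS : ∀ g, κ (S * g) = -κ g) (hneg : ∀ g, κ (-g) = κ g) :
    h18_permS κ hS hneg ^ 2 = 1 := by
  ext1 y
  rw [sq, Equiv.Perm.mul_apply, Equiv.Perm.one_apply]
  exact Function.Involutive.toPerm_involutive _ y

/-- The permutation attached to `U = T * S`. -/
def h18_permU (A : Type*) : Equiv.Perm ((SL(2, ℤ) ⧸ h18_pm) × A) :=
  Equiv.prodCongr (MulAction.toPerm (T * S)) (Equiv.refl A)

theorem h18_permU_apply (A : Type*) (y : (SL(2, ℤ) ⧸ h18_pm) × A) :
    h18_permU A y = ((T * S) • y.1, y.2) := rfl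

theorem h18_permU_cube (A : Type*) : h18_permU A ^ 3 = 1 := by
  ext1 ⟨q, x⟩
  rw [pow_succ, pow_succ, pow_one, Equiv.Perm.mul_apply, Equiv.Perm.mul_apply,
    Equiv.Perm.one_apply, h18_permU_apply, h18_permU_apply, h18_permU_apply]
  refine Prod.ext ?_ rfl
  show (T * S) • (T * S) • (T * S) • q = q
  rw [smul_smul, smul_smul]
  have h3 : T * S * (T * S) * (T * S) = (-1 : SL(2, ℤ)) := by
    rw [← Fermat.Agent.S16.h18_TS_pow_three, pow_succ, pow_succ, pow_one]
  rw [h3, h18_pm_neg_one_smul]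

/-- **(B-POT)**: for `κ` odd under `S` and even under `-1` there is a potential `H` with
`H (S g) = H g + κ g` that is invariant under `U = T * S` (and under `-1`). -/
theorem h18_pot {A : Type*} [AddCommGroup A] (κ : SL(2, ℤ) → A)
    (hS : ∀ g, κ (S * g) = -κ g) (hneg : ∀ g, κ (-g) = κ g) :
    ∃ H : SL(2, ℤ) → A, (∀ g, H (S * g) = H g + κ g) ∧ (∀ g, H (T * S * g) = H g) ∧
      (∀ g, H (-g) = H g) := by
  obtain ⟨Φ, hΦS, hΦU⟩ := Fermat.Agent.S16.h18_SL2Z_lift (h18_permS κ hS hneg) (h18_permU A)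
    (h18_permS_sq κ hS hneg) (h18_permU_cube A)
  -- first coordinates
  have hfst : ∀ g : SL(2, ℤ), ∀ y : (SL(2, ℤ) ⧸ h18_pm) × A, (Φ g y).1 = g • y.1 := by
    intro g
    have hg : g ∈ Subgroup.closure ({S, T} : Set SL(2, ℤ)) := by
      rw [SpecialLinearGroup.SL2Z_generators]; trivial
    have hSfst : ∀ y : (SL(2, ℤ) ⧸ h18_pm) × A, (Φ S y).1 = S • y.1 := by
      intro y; rw [hΦS]; rfl
    have hUfst : ∀ y : (SL(2, ℤ) ⧸ h18_pm) × A, (Φ (T * S) y).1 = (T * S) • y.1 := by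
      intro y; rw [hΦU]; rfl
    have hinv : ∀ x : SL(2, ℤ), (∀ y : (SL(2, ℤ) ⧸ h18_pm) × A, (Φ x y).1 = x • y.1) →
        ∀ y : (SL(2, ℤ) ⧸ h18_pm) × A, (Φ x⁻¹ y).1 = x⁻¹ • y.1 := by
      intro x hx y
      have h1 := hx (Φ x⁻¹ y)
      rw [← Equiv.Perm.mul_apply, ← map_mul, mul_inv_cancel, map_one, Equiv.Perm.one_apply] at h1
      rw [h1, inv_smul_smul]
    have hmul : ∀ x z : SL(2, ℤ), (∀ y : (SL(2, ℤ) ⧸ h18_pm) × A, (Φ x y).1 = x • y.1) →
        (∀ y : (SL(2, ℤ) ⧸ h18_pm) × A, (Φ z y).1 = z • y.1) →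
        ∀ y : (SL(2, ℤ) ⧸ h18_pm) × A, (Φ (x * z) y).1 = (x * z) • y.1 := by
      intro x z hx hz y
      rw [map_mul, Equiv.Perm.mul_apply, hx, hz, smul_smul]
    induction hg using Subgroup.closure_induction with
    | mem x hx =>
      rcases hx with rfl | hx
      · exact hSfst
      · have hxT : x = T := hx
        have hT : (T : SL(2, ℤ)) = (T * S) * S⁻¹ := by rw [mul_inv_cancel_right]
        rw [hxT, hT]
        exact hmul _ _ hUfst (hinv _ hSfst)
    | one => intro y; rw [map_one, Equiv.Perm.one_apply, one_smul]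
    | mul x z _ _ hx hz => exact hmul x z hx hz
    | inv x _ hx => exact hinv x hx
  have hbase : ∀ g : SL(2, ℤ), (Φ g (QuotientGroup.mk 1, 0)).1 = QuotientGroup.mk g := by
    intro g
    rw [hfst, MulAction.Quotient.smul_mk, smul_eq_mul, mul_one]
  have hHS : ∀ g, (Φ (S * g) (QuotientGroup.mk 1, 0)).2 =
      (Φ g (QuotientGroup.mk 1, 0)).2 + κ g := by
    intro g
    rw [map_mul, Equiv.Perm.mul_apply, hΦS, h18_permS_apply, hbase, h18_kbar_mk]
  refine ⟨fun g => (Φ g (QuotientGroup.mk 1, 0)).2, hHS, ?_, ?_⟩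
  · intro g
    show (Φ (T * S * g) (QuotientGroup.mk 1, 0)).2 = (Φ g (QuotientGroup.mk 1, 0)).2
    rw [map_mul, Equiv.Perm.mul_apply, hΦU, h18_permU_apply]
  · intro g
    show (Φ (-g) (QuotientGroup.mk 1, 0)).2 = (Φ g (QuotientGroup.mk 1, 0)).2
    have h1 : -g = S * (S * g) := by
      rw [← mul_assoc, Fermat.Agent.S16.h18_S_mul_S, neg_one_mul]
    rw [h1, hHS, hHS, hS]
    abel

end Fermat.Agent.S41
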