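import Fermat.Agent.S41.h18_BPot

/-!
# (B-POT), one-hypothesis form

`κ (S * g) = -κ g` already implies `κ (-g) = κ g` because `S * S = -1`.
-/

set_option autoImplicit false

namespace Fermat.Agent.S41

open scoped MatrixGroups
open ModularGroup

theorem h18_even_of_odd {A : Type*} [AddCommGroup A] (κ : SL(2, ℤ) → A)
    (hS : ∀ g, κ (S * g) = -κ g) (g : SL(2, ℤ)) : κ (-g) = κ g := by
  have h1 : -g = S * (S * g) := by
    rw [← mul_assoc, Fermat.Agent.S16.h18_S_mul_S, neg_one_mul]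
  rw [h1, hS, hS, neg_neg]

/-- **(B-POT)**, one-hypothesis form. -/
theorem h18_pot' {A : Type*} [AddCommGroup A] (κ : SL(2, ℤ) → A)
    (hS : ∀ g, κ (S * g) = -κ g) :
    ∃ H : SL(2, ℤ) → A, (∀ g, H (S * g) = H g + κ g) ∧ (∀ g, H (T * S * g) = H g) ∧
      (∀ g, H (-g) = H g) :=
  h18_pot κ hS (h18_even_of_odd κ hS)

/-- **(B-POT)** with the `T`-form added: a potential `H` with `H (S g) = H g + κ g`,
`H (U g) = H g` also satisfies `H (T g) = H g + κ g` (because `T g = U (S⁻¹ g)` and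
`S⁻¹ g = -(S g)`). -/
theorem h18_pot_T {A : Type*} [AddCommGroup A] (κ : SL(2, ℤ) → A)
    (hS : ∀ g, κ (S * g) = -κ g) :
    ∃ H : SL(2, ℤ) → A, (∀ g, H (S * g) = H g + κ g) ∧ (∀ g, H (T * S * g) = H g) ∧
      (∀ g, H (-g) = H g) ∧ (∀ g, H (T * g) = H g + κ g) := by
  obtain ⟨H, h1, h2, h3⟩ := h18_pot' κ hS
  refine ⟨H, h1, h2, h3, ?_⟩
  intro g
  have hSinv : (S : SL(2, ℤ))⁻¹ * g = -(S * g) := by
    have : (S : SL(2, ℤ))⁻¹ = -S := by
      rw [inv_eq_iff_mul_eq_one, mul_neg, Fermat.Agent.S16.h18_S_mul_S, neg_neg]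
    rw [this, neg_mul]
  have hT : T * g = T * S * (S⁻¹ * g) := by
    rw [mul_assoc, mul_inv_cancel_left]
  rw [hT, h2, hSinv, h3, h1]

end Fermat.Agent.S41
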