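import Fermat.Agent.S41.h30_LRDefs

/-!
# S41, block (D), row D-I5a: `T_l ∘ res = res ∘ T_l`

The Hecke operator `T_l` (`l ∤ N q`) commutes with the restriction
`Hom(Γ₀(N), A) → Hom(Γ₀(N q), A)`: a decomposition `heckeRep l x * γ = γ'_x * heckeRep l (y x)`
at level `N q` is also a decomposition at level `N`.
-/

set_option autoImplicit false

namespace Fermat.Agent.S41

open CongruenceSubgroup Matrix.SpecialLinearGroup ModularCurve.Period
open scoped MatrixGroups
open Fermat.Agent.S16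
open P2MW.S_ModularForm_heckeT_slash_eq_self_of_mem_Gamma0.ModularForm.HeckeSlashInvariance

variable {N q : ℕ} [Fact q.Prime] (hqN : ¬ q ∣ N) {A : Type*} [AddCommGroup A]

/-- (I5a) `T_l ∘ res = res ∘ T_l`. -/
theorem h21_heckeT_res (l : ℕ) [Fact l.Prime] (hl : ¬ l ∣ N * q) (φ : Additive (Gamma0 N) →+ A) :
    h30_heckeT (N * q) l hl (h30_res N q φ) =
      h30_res N q (h30_heckeT N l (fun h => hl (Dvd.dvd.mul_right h q)) φ) := by
  refine AddMonoidHom.ext fun γa => ?_
  obtain ⟨γ, rfl⟩ : ∃ γ : Gamma0 (N * q), Additive.ofMul γ = γa := ⟨Additive.toMul γa, rfl⟩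
  obtain ⟨γ', y, hspec, hval⟩ := h30_heckeT_exists l hl γ
  rw [hval A (h30_res N q φ), h30_res_apply,
    h30_heckeT_apply_of l (fun h => hl (Dvd.dvd.mul_right h q)) φ (h30_incl N q γ)
      (fun x => h30_incl N q (γ' x)) y (fun x => hspec x)]
  rfl

end Fermat.Agent.S41
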