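import Fermat.Agent.S41.h8_BDefs

/-!
# S41 block (B), row B-HPRIM: the `U`-invariant Heisenberg primitive

For homomorphisms `φ ψ : Γ → ℤ`, a Heisenberg cochain `e` (`e (g h) = e g + e h + φ g ψ h`) and a
`U`-invariant primitive `F` of `φ` (`U = T * S`), there is `H : SL(2, ℤ) → ℤ` with
`H (g γ) = H g + e γ + F g ψ γ` and `H (U g) = H g`.

The proof is the cocycle version of the potential lemma: for a group `K` acting on `Y` and a
cocycle `c : K → Y → A` vanishing on stabilisers there is `f` with `f (a • y) = c a y + f y`.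
-/

set_option autoImplicit false

namespace Fermat.Agent.S41

open scoped MatrixGroups
open ModularGroup ModularCurve.Period CongruenceSubgroup

/-- Potentials for a cocycle of a group action which vanishes on all stabilisers. -/
theorem h24_exists_section {K Y A : Type*} [Group K] [AddCommGroup A] (act : K → Y → Y)
    (hone : ∀ y, act 1 y = y) (hmul : ∀ a b y, act (a * b) y = act a (act b y))
    (c : K → Y → A) (hc : ∀ a b y, c (a * b) y = c a (act b y) + c b y)
    (hstab : ∀ a y, act a y = y → c a y = 0) :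
    ∃ f : Y → A, ∀ a y, f (act a y) = c a y + f y := by
  classical
  let r : Setoid Y :=
    { r := fun y y' => ∃ a, act a y = y'
      iseqv := ⟨fun y => ⟨1, hone y⟩,
        fun {y y'} ⟨a, ha⟩ => ⟨a⁻¹, by rw [← ha, ← hmul, inv_mul_cancel, hone]⟩,
        fun {y y' y''} ⟨a, ha⟩ ⟨b, hb⟩ => ⟨b * a, by rw [hmul, ha, hb]⟩⟩ }
  have hrep : ∀ y : Y, ∃ a, act a (Quotient.out (Quotient.mk r y)) = y := fun y =>
    Quotient.exact (Quotient.out_eq (Quotient.mk r y))
  choose h hh using hrep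
  refine ⟨fun y => c (h y) (Quotient.out (Quotient.mk r y)), fun a y => ?_⟩
  have hq : Quotient.mk r (act a y) = Quotient.mk r y :=
    Quotient.sound ⟨a⁻¹, by rw [← hmul, inv_mul_cancel, hone]⟩
  set y₀ := Quotient.out (Quotient.mk r y) with hy₀
  have h1 : act (h (act a y)) y₀ = act a y := by
    have := hh (act a y)
    rwa [hq] at this
  have h2 : act (h y) y₀ = y := hh y
  -- `(a * h y)⁻¹ * h (a • y)` fixes `y₀`
  have h3 : act ((a * h y)⁻¹ * h (act a y)) y₀ = y₀ := by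
    rw [hmul, h1]
    have e : act a y = act (a * h y) y₀ := by rw [hmul, h2]
    rw [e, ← hmul, inv_mul_cancel, hone]
  have h4 := hstab _ _ h3
  -- `c (h (a • y)) y₀ = c (a * h y) y₀`
  have h5 : c (h (act a y)) y₀ = c (a * h y) y₀ := by
    have e : h (act a y) = (a * h y) * ((a * h y)⁻¹ * h (act a y)) := by
      rw [mul_inv_cancel_left]
    have := hc (a * h y) ((a * h y)⁻¹ * h (act a y)) y₀
    rw [← e, h3, h4, add_zero] at this
    exact this
  show c (h (act a y)) (Quotient.out (Quotient.mk r (act a y))) = c a y + c (h y) y₀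
  rw [hq, h5, hc, h2]

variable (Γ : Subgroup SL(2, ℤ))

/-- A Heisenberg cochain vanishes at `1`. -/
theorem h24_heis_one (φ ψ : Additive Γ →+ ℤ) (e : Γ → ℤ)
    (he : ∀ g h : Γ, e (g * h) = e g + e h + φ (Additive.ofMul g) * ψ (Additive.ofMul h)) :
    e 1 = 0 := by
  have h := he 1 1
  rw [mul_one, ofMul_one, map_zero, map_zero] at h
  linarith

/-- `φ`, `ψ` and `e` vanish on elements of finite order. -/
theorem h24_heis_torsion (φ ψ : Additive Γ →+ ℤ) (e : Γ → ℤ)
    (he : ∀ g h : Γ, e (g * h) = e g + e h + φ (Additive.ofMul g) * ψ (Additive.ofMul h))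
    (ε : Γ) (n : ℕ) (hn : n ≠ 0) (hε : ε ^ n = 1) :
    φ (Additive.ofMul ε) = 0 ∧ ψ (Additive.ofMul ε) = 0 ∧ e ε = 0 := by
  have hhom : ∀ χ : Additive Γ →+ ℤ, χ (Additive.ofMul ε) = 0 := by
    intro χ
    have h1 : χ (Additive.ofMul (ε ^ n)) = n • χ (Additive.ofMul ε) := by
      rw [ofMul_pow, map_nsmul]
    rw [hε, ofMul_one, map_zero, nsmul_eq_mul] at h1
    have hn' : (n : ℤ) ≠ 0 := by exact_mod_cast hn
    rcases mul_eq_zero.mp h1.symm with h2 | h2
    · exact absurd h2 hn'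
    · exact h2
  have hφ := hhom φ
  have hψ := hhom ψ
  refine ⟨hφ, hψ, ?_⟩
  have hpow : ∀ k : ℕ, e (ε ^ k) = k * e ε := by
    intro k
    induction k with
    | zero => rw [pow_zero, h24_heis_one Γ φ ψ e he]; simp
    | succ k ih =>
      rw [pow_succ, he, ih, hψ, mul_zero, add_zero]
      push_cast
      ring
  have h1 := hpow n
  rw [hε, h24_heis_one Γ φ ψ e he] at h1
  have hn' : (n : ℤ) ≠ 0 := by exact_mod_cast hn
  rcases mul_eq_zero.mp h1.symm with h2 | h2
  · exact absurd h2 hn'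
  · exact h2

set_option linter.unusedVariables false in
/-- **(B-HPRIM)** (the hypothesis `hneg` is not used). -/
theorem h24_exists_heis_prim (hneg : (-1 : SL(2, ℤ)) ∈ Γ) (φ ψ : Additive Γ →+ ℤ) (e : Γ → ℤ)
    (he : ∀ g h : Γ, e (g * h) = e g + e h + φ (Additive.ofMul g) * ψ (Additive.ofMul h))
    (F : SL(2, ℤ) → ℤ) (hF : h8_IsPrim Γ φ F) (hFU : ∀ g, F (T * S * g) = F g) :
    ∃ H : SL(2, ℤ) → ℤ,
      (∀ (g : SL(2, ℤ)) (γ : Γ), H (g * γ) = H g + e γ + F g * ψ (Additive.ofMul γ)) ∧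
        ∀ g, H (T * S * g) = H g := by
  have hU6 : (T * S : SL(2, ℤ)) ^ 6 = 1 := by decide
  -- `F` is invariant under all powers of `U`
  have hFUk : ∀ (k : ℤ) (g : SL(2, ℤ)), F ((T * S) ^ k * g) = F g := by
    intro k
    induction k using Int.induction_on with
    | zero => intro g; rw [zpow_zero, one_mul]
    | succ k ih =>
      intro g
      rw [zpow_add_one, mul_assoc, ih, hFU]
    | pred k ih =>
      intro g
      have h1 := ih ((T * S)⁻¹ * g)
      have h2 := hFU ((T * S)⁻¹ * g)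
      rw [mul_inv_cancel_left] at h2
      rw [zpow_sub_one, mul_assoc, h1, ← h2]
  -- the action of `ℤ × Γ` and the cocycle
  let act : Multiplicative ℤ × Γ → SL(2, ℤ) → SL(2, ℤ) :=
    fun a g => (T * S) ^ (Multiplicative.toAdd a.1) * g * ((a.2 : Γ) : SL(2, ℤ))⁻¹
  let c : Multiplicative ℤ × Γ → SL(2, ℤ) → ℤ :=
    fun a g => e (a.2⁻¹) + F g * ψ (Additive.ofMul (a.2⁻¹))
  have hone : ∀ g, act 1 g = g := by
    intro g
    show (T * S) ^ (Multiplicative.toAdd (1 : Multiplicative ℤ)) * g *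
      (((1 : Γ) : Γ) : SL(2, ℤ))⁻¹ = g
    rw [toAdd_one, zpow_zero, one_mul, OneMemClass.coe_one, inv_one, mul_one]
  have hmul : ∀ a b g, act (a * b) g = act a (act b g) := by
    intro a b g
    show (T * S) ^ (Multiplicative.toAdd (a.1 * b.1)) * g *
        (((a.2 * b.2 : Γ) : Γ) : SL(2, ℤ))⁻¹ =
      (T * S) ^ (Multiplicative.toAdd a.1) *
        ((T * S) ^ (Multiplicative.toAdd b.1) * g * ((b.2 : Γ) : SL(2, ℤ))⁻¹) *
          ((a.2 : Γ) : SL(2, ℤ))⁻¹
    rw [toAdd_mul, zpow_add, Subgroup.coe_mul, mul_inv_rev]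
    group
  have hc : ∀ a b g, c (a * b) g = c a (act b g) + c b g := by
    intro a b g
    show e ((a.2 * b.2)⁻¹) + F g * ψ (Additive.ofMul ((a.2 * b.2)⁻¹)) =
      e (a.2⁻¹) + F ((T * S) ^ (Multiplicative.toAdd b.1) * g * ((b.2 : Γ) : SL(2, ℤ))⁻¹) *
        ψ (Additive.ofMul (a.2⁻¹)) + (e (b.2⁻¹) + F g * ψ (Additive.ofMul (b.2⁻¹)))
    have h1 : F ((T * S) ^ (Multiplicative.toAdd b.1) * g * ((b.2 : Γ) : SL(2, ℤ))⁻¹) =
        F g + φ (Additive.ofMul (b.2⁻¹)) := by
      have h := hF ((T * S) ^ (Multiplicative.toAdd b.1) * g) (b.2⁻¹)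
      rw [Subgroup.coe_inv] at h
      rw [h, hFUk]
    rw [h1, mul_inv_rev, he, ofMul_mul, map_add]
    ring
  have hstab : ∀ a g, act a g = g → c a g = 0 := by
    intro a g hag
    have hag' : (T * S) ^ (Multiplicative.toAdd a.1) * g * ((a.2 : Γ) : SL(2, ℤ))⁻¹ = g := hag
    have h0 : (T * S) ^ (Multiplicative.toAdd a.1) * g = g * ((a.2 : Γ) : SL(2, ℤ)) :=
      mul_inv_eq_iff_eq_mul.mp hag'
    have h1 : ((a.2 : Γ) : SL(2, ℤ)) = g⁻¹ * (T * S) ^ (Multiplicative.toAdd a.1) * g := by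
      rw [mul_assoc, h0, inv_mul_cancel_left]
    have h2 : (a.2⁻¹ : Γ) ^ 6 = 1 := by
      apply Subtype.ext
      rw [Subgroup.coe_pow, Subgroup.coe_inv, h1, OneMemClass.coe_one, inv_pow]
      rw [inv_eq_one]
      have h3 : (g⁻¹ * (T * S) ^ (Multiplicative.toAdd a.1) * g) ^ 6 =
          g⁻¹ * ((T * S) ^ (Multiplicative.toAdd a.1)) ^ 6 * g := by
        have h := conj_pow (i := 6) (a := g⁻¹) (b := (T * S) ^ (Multiplicative.toAdd a.1))
        rwa [inv_inv] at h
      rw [h3, ← zpow_natCast, ← zpow_mul, mul_comm, zpow_mul, zpow_natCast, hU6, one_zpow,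
        mul_one, inv_mul_cancel]
    obtain ⟨-, h4, h5⟩ := h24_heis_torsion Γ φ ψ e he (a.2⁻¹) 6 (by norm_num) h2
    show e (a.2⁻¹) + F g * ψ (Additive.ofMul (a.2⁻¹)) = 0
    rw [h4, h5, mul_zero, add_zero]
  obtain ⟨H, hH⟩ := h24_exists_section act hone hmul c hc hstab
  refine ⟨H, fun g γ => ?_, fun g => ?_⟩
  · have h := hH (1, γ⁻¹) g
    have e1 : act (1, γ⁻¹) g = g * γ := by
      show (T * S) ^ (Multiplicative.toAdd (1 : Multiplicative ℤ)) * g *
        (((γ⁻¹ : Γ) : Γ) : SL(2, ℤ))⁻¹ = g * γ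
      rw [toAdd_one, zpow_zero, one_mul, Subgroup.coe_inv, inv_inv]
    have e2 : c (1, γ⁻¹) g = e γ + F g * ψ (Additive.ofMul γ) := by
      show e ((γ⁻¹)⁻¹) + F g * ψ (Additive.ofMul ((γ⁻¹)⁻¹)) = _
      rw [inv_inv]
    rw [e1, e2] at h
    linarith
  · have h := hH (Multiplicative.ofAdd 1, 1) g
    have e1 : act (Multiplicative.ofAdd 1, 1) g = T * S * g := by
      show (T * S) ^ (Multiplicative.toAdd (Multiplicative.ofAdd (1 : ℤ))) * g *
        (((1 : Γ) : Γ) : SL(2, ℤ))⁻¹ = T * S * g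
      rw [toAdd_ofAdd, zpow_one, OneMemClass.coe_one, inv_one, mul_one]
    have e2 : c (Multiplicative.ofAdd 1, 1) g = 0 := by
      show e ((1 : Γ)⁻¹) + F g * ψ (Additive.ofMul ((1 : Γ)⁻¹)) = 0
      rw [inv_one, h24_heis_one Γ φ ψ e he, ofMul_one, map_zero, mul_zero, add_zero]
    rw [e1, e2, zero_add] at h
    exact h

end Fermat.Agent.S41
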