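import Fermat.Agent.S41.h89_BModel

/-!
# S41 block (B): the abstract model in the `(σ, τ)` convention (K1–K4 of the (B) design)

`X` finite, `σ τ : Equiv.Perm X`, `σ * σ = 1`.  `h89_CK σ τ v` is the condition
`∀ x, (v (τ (σ x)) - v (σ x)) + (v (τ x) - v x) = 0` and
`h89_B2K τ v v' = ∑ x, (v x * v' (τ x) - v (τ x) * v' x)`.
These are the objects of `h89_BModel` at `υ := τ * σ`.
-/

set_option autoImplicit false
set_option linter.unusedSectionVars false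

namespace Fermat.Agent.S41

section K

variable {X : Type*} [Fintype X] {A : Type*} [CommRing A] {σ τ : Equiv.Perm X}

/-- condition (C) of the model in the `(σ, τ)` convention. -/
def h89_CK (σ τ : Equiv.Perm X) (v : X → A) : Prop :=
  ∀ x, (v (τ (σ x)) - v (σ x)) + (v (τ x) - v x) = 0

/-- the pairing of the model in the `(σ, τ)` convention. -/
def h89_B2K (τ : Equiv.Perm X) (v v' : X → A) : A :=
  ∑ x, (v x * v' (τ x) - v (τ x) * v' x)

theorem h89_CK_iff (hσ : σ * σ = 1) {v : X → A} :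
    h89_CK σ τ v ↔ v ∈ h89_C A σ (τ * σ) := by
  rw [h89_mem_C_iff hσ]
  refine forall_congr' fun x => ?_
  show _ ↔ v (τ (σ (σ x))) + v (τ (σ x)) = v x + v (σ x)
  rw [h89_sq_apply hσ]
  constructor
  · intro h
    linear_combination h
  · intro h
    linear_combination h

theorem h89_VU_iff {w : X → A} : (∀ x, w (τ (σ x)) = w x) ↔ w ∈ h89_VU A (τ * σ) := by
  rw [h89_mem_VU_iff]
  exact Iff.rfl

theorem h89_VT_iff (hσ : σ * σ = 1) {t : X → A} :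
    (∀ x, t (τ x) = t x) ↔ t ∈ h89_VT A σ (τ * σ) := by
  rw [h89_mem_VT_iff]
  refine forall_congr' fun x => ?_
  show _ ↔ t (τ (σ (σ x))) = t x
  rw [h89_sq_apply hσ]

theorem h89_B2K_eq (hσ : σ * σ = 1) (v v' : X → A) :
    h89_B2K τ v v' = h89_B2 A σ (τ * σ) v v' := by
  rw [h89_B2_eq, h89_B2K, Finset.sum_sub_distrib]
  congr 1
  · exact Finset.sum_congr rfl fun x _ => by
      show _ = v x * v' (τ (σ (σ x)))
      rw [h89_sq_apply hσ]
  · exact Finset.sum_congr rfl fun x _ => by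
      show _ = v (τ (σ (σ x))) * v' x
      rw [h89_sq_apply hσ]

/-- (K1) for `U`-invariant `w` (`w ∘ τ ∘ σ = w`). -/
theorem h89_K1_U (hσ : σ * σ = 1) {w : X → A} (hw : ∀ x, w (τ (σ x)) = w x) :
    h89_CK σ τ w ∧ ∀ v' : X → A, h89_CK σ τ v' → h89_B2K τ w v' = 0 := by
  have hw' := h89_VU_iff.mp hw
  refine ⟨(h89_CK_iff hσ).mpr (h89_VU_le_C hσ hw'), fun v' hv' => ?_⟩
  rw [h89_B2K_eq hσ]
  exact h89_B2_VU_left hσ hw' ((h89_CK_iff hσ).mp hv')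

/-- (K1) for `T`-invariant `t` (`t ∘ τ = t`). -/
theorem h89_K1_T (hσ : σ * σ = 1) {t : X → A} (ht : ∀ x, t (τ x) = t x) :
    h89_CK σ τ t ∧ ∀ v' : X → A, h89_B2K τ t v' = 0 := by
  have ht' := (h89_VT_iff hσ).mp ht
  refine ⟨(h89_CK_iff hσ).mpr (h89_VT_le_C hσ ht'), fun v' => ?_⟩
  rw [h89_B2K_eq hσ]
  exact h89_B2_VT_left ht' v'

/-- `B2K` is antisymmetric. -/
theorem h89_B2K_antisymm (v v' : X → A) : h89_B2K τ v' v = -h89_B2K τ v v' := by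
  rw [h89_B2K, h89_B2K, ← Finset.sum_neg_distrib]
  exact Finset.sum_congr rfl fun x _ => by ring

end K

section K2

variable {X : Type*} [Fintype X] {σ τ : Equiv.Perm X}

/-- (K2) the radical over a field with `2 ≠ 0`. -/
theorem h89_K2 {k : Type*} [Field k] (h2 : (2 : k) ≠ 0) (hσ : σ * σ = 1) {v : X → k}
    (hv : h89_CK σ τ v) (h : ∀ v' : X → k, h89_CK σ τ v' → h89_B2K τ v v' = 0) :
    ∃ w t : X → k, (∀ x, w (τ (σ x)) = w x) ∧ (∀ x, t (τ x) = t x) ∧ v = w + t := by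
  have hmem := h89_radical_field (σ := σ) (υ := τ * σ) h2 hσ ((h89_CK_iff hσ).mp hv)
    (fun w hw => by
      rw [← h89_B2K_eq hσ]
      exact h w ((h89_CK_iff hσ).mpr hw))
  obtain ⟨w, hw, t, ht, hsum⟩ := Submodule.mem_sup.mp hmem
  exact ⟨w, t, h89_VU_iff.mpr hw, (h89_VT_iff hσ).mpr ht, hsum.symm⟩

/-- (K3) lifting from `ZMod p` to `ℤ` (`p` an odd prime; no transitivity needed). -/
theorem h89_K3 (hσ : σ * σ = 1) {p : ℕ} [Fact p.Prime] (hp2 : p ≠ 2) {vbar : X → ZMod p}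
    (h : h89_CK σ τ vbar) :
    ∃ v : X → ℤ, h89_CK σ τ v ∧ ∀ x, ((v x : ℤ) : ZMod p) = vbar x := by
  obtain ⟨w, hw, hww⟩ := h89_lift (σ := σ) (υ := τ * σ) hσ hp2 ((h89_CK_iff hσ).mp h)
  exact ⟨w, (h89_CK_iff hσ).mpr hw, hww⟩

/-- (K4) integral nondegeneracy modulo an odd prime. -/
theorem h89_K4 (hσ : σ * σ = 1) {p : ℕ} [Fact p.Prime] (hp2 : p ≠ 2) {v : X → ℤ}
    (hv : h89_CK σ τ v)
    (h : ∀ v' : X → ℤ, h89_CK σ τ v' → (p : ℤ) ∣ h89_B2K τ v v') :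
    ∃ w t u : X → ℤ, (∀ x, w (τ (σ x)) = w x) ∧ (∀ x, t (τ x) = t x) ∧ h89_CK σ τ u ∧
      v = w + t + (p : ℤ) • u := by
  obtain ⟨w, hw, t, ht, u, hu, hsum⟩ := h89_B1_int (σ := σ) (υ := τ * σ) hσ hp2
    ((h89_CK_iff hσ).mp hv) (fun w hw => by
      rw [← h89_B2K_eq hσ]
      exact h w ((h89_CK_iff hσ).mpr hw))
  exact ⟨w, t, u, h89_VU_iff.mpr hw, (h89_VT_iff hσ).mpr ht, (h89_CK_iff hσ).mpr hu, hsum⟩

end K2

end Fermat.Agent.S41
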