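import Fermat.Agent.S16.h36_Lift
import Fermat.Agent.S41.h89_BModelK
import Fermat.Agent.S41.h18_BPot2
import Fermat.Agent.S41.h8_BDefs
import Fermat.Prelude.Def_ModularCurve_PeriodMap

/-!
# S41 block (B): surjectivity of the potential map (SURJ) and the radical step (B1)

`G = SL(2, ℤ)`, `Γ ≤ G` with `-1 ∈ Γ`, `U = T * S`.  A *primitive* of `φ : Γ → ℤ` is
`F : G → ℤ` with `F (g * γ) = F g + φ γ`; a parabolic `φ` has a `U`-invariant primitive `F` and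
a `T`-invariant primitive `P`, and `v = F - P` (a function on `G / Γ`) is its *potential*.

* `h24_potential_C` : potentials satisfy condition (C);
* `h24_surj`, `h24_surj_pot` : **(SURJ)** every right-`Γ`-invariant `v` with (C) is the
  potential of a parabolic homomorphism (from (POT) = `h18_pot'`);
* `h24_b1_core` : if `F - P = w + t + p u` with `w` `U`-invariant and right-`Γ`-invariant and
  `t` `T`-invariant, then `φ ∈ p Hom(Γ, ℤ)`;
* `h24_B1_model` : the nondegeneracy statement (B1) on any finite model `π : G → X` of `G / Γ`,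
  from (K4) of the abstract model;
* `h24_B1` : (B1) for the pairing `h8_B`.
-/

set_option autoImplicit false

namespace Fermat.Agent.S41

open Matrix ModularGroup ModularCurve.Period
open scoped MatrixGroups
open Fermat.Agent.S16

/-! ### Generation of `SL(2, ℤ)` -/

/-- The subgroup of left translations leaving a function invariant. -/
def h24_stab {B : Type*} (D : SL(2, ℤ) → B) : Subgroup SL(2, ℤ) where
  carrier := {h | ∀ g, D (h * g) = D g}
  mul_mem' := fun {a b} ha hb g => by rw [mul_assoc, ha, hb]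
  one_mem' := fun g => by rw [one_mul]
  inv_mem' := fun {a} ha g => by
    have h1 := ha (a⁻¹ * g)
    rw [mul_inv_cancel_left] at h1
    exact h1.symm

theorem h24_mem_stab {B : Type*} (D : SL(2, ℤ) → B) (h : SL(2, ℤ)) :
    h ∈ h24_stab D ↔ ∀ g, D (h * g) = D g := Iff.rfl

/-- Invariance under `h` implies invariance under all powers of `h`. -/
theorem h24_inv_zpow {B : Type*} (D : SL(2, ℤ) → B) (h : SL(2, ℤ))
    (hh : ∀ g, D (h * g) = D g) (k : ℤ) (g : SL(2, ℤ)) : D (h ^ k * g) = D g :=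
  (h24_stab D).zpow_mem hh k g

/-- A function on `SL(2, ℤ)` invariant under left translation by `S` and `T` is constant. -/
theorem h24_const_of_S_T {B : Type*} (D : SL(2, ℤ) → B) (hS : ∀ g, D (S * g) = D g)
    (hT : ∀ g, D (T * g) = D g) (g : SL(2, ℤ)) : D g = D 1 := by
  have hle : Subgroup.closure {S, T} ≤ h24_stab D := by
    rw [Subgroup.closure_le]
    rintro x (rfl | rfl)
    · exact hS
    · exact hT
  rw [SpecialLinearGroup.SL2Z_generators] at hle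
  have h1 := hle (Subgroup.mem_top g) 1
  rwa [mul_one] at h1

/-- A function invariant under `S` and `U = T * S` is constant. -/
theorem h24_const_of_S_U {B : Type*} (D : SL(2, ℤ) → B) (hS : ∀ g, D (S * g) = D g)
    (hU : ∀ g, D (T * S * g) = D g) (g : SL(2, ℤ)) : D g = D 1 := by
  refine h24_const_of_S_T D hS (fun g => ?_) g
  have h1 := hU (S⁻¹ * g)
  rw [mul_assoc, mul_inv_cancel_left] at h1
  have h2 := hS (S⁻¹ * g)
  rw [mul_inv_cancel_left] at h2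
  rw [h1, h2]

/-- A function invariant under `T` and `U = T * S` is constant. -/
theorem h24_const_of_T_U {B : Type*} (D : SL(2, ℤ) → B) (hT : ∀ g, D (T * g) = D g)
    (hU : ∀ g, D (T * S * g) = D g) (g : SL(2, ℤ)) : D g = D 1 := by
  refine h24_const_of_S_T D (fun g => ?_) hT g
  have h1 := hT (S * g)
  rw [← mul_assoc, hU] at h1
  exact h1.symm

/-! ### Potentials satisfy (C) -/

section Potential

variable (Γ : Subgroup SL(2, ℤ))

/-- A homomorphism to `ℤ` kills `-1`. -/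
theorem h24_hom_neg_one (hneg : (-1 : SL(2, ℤ)) ∈ Γ) (φ : Additive Γ →+ ℤ) :
    φ (Additive.ofMul (⟨-1, hneg⟩ : Γ)) = 0 := by
  have h1 : (⟨-1, hneg⟩ : Γ) * ⟨-1, hneg⟩ = 1 := by
    apply Subtype.ext
    show (-1 : SL(2, ℤ)) * -1 = 1
    rw [neg_mul_neg, one_mul]
  have h2 : φ (Additive.ofMul ((⟨-1, hneg⟩ : Γ) * ⟨-1, hneg⟩)) = 0 := by
    rw [h1, ofMul_one, map_zero]
  rw [ofMul_mul, map_add] at h2
  omega

/-- A primitive is invariant under `g ↦ -g`. -/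
theorem h24_prim_neg (hneg : (-1 : SL(2, ℤ)) ∈ Γ) (φ : Additive Γ →+ ℤ) (F : SL(2, ℤ) → ℤ)
    (hF : ∀ (g : SL(2, ℤ)) (γ : Γ), F (g * γ) = F g + φ (Additive.ofMul γ)) (g : SL(2, ℤ)) :
    F (-g) = F g := by
  have h1 := hF g ⟨-1, hneg⟩
  rw [h24_hom_neg_one Γ hneg φ, add_zero] at h1
  rw [← h1]
  congr 1
  show -g = g * -1
  rw [mul_neg, mul_one]

/-- The potential `v = F - P` of a homomorphism with a `U`-invariant primitive `F` and a
`T`-invariant primitive `P` satisfies condition (C). -/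
theorem h24_potential_C (hneg : (-1 : SL(2, ℤ)) ∈ Γ) (φ : Additive Γ →+ ℤ)
    (F P : SL(2, ℤ) → ℤ)
    (hF : ∀ (g : SL(2, ℤ)) (γ : Γ), F (g * γ) = F g + φ (Additive.ofMul γ))
    (hFU : ∀ g, F (T * S * g) = F g) (hPT : ∀ g, P (T * g) = P g) (g : SL(2, ℤ)) :
    ((F (T * S * g) - P (T * S * g)) - (F (S * g) - P (S * g))) +
      ((F (T * g) - P (T * g)) - (F g - P g)) = 0 := by
  have h1 : P (T * S * g) = P (S * g) := by rw [mul_assoc, hPT]
  have h2 : F (T * g) = F (S⁻¹ * g) := by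
    have h := hFU (S⁻¹ * g)
    rwa [mul_assoc, mul_inv_cancel_left] at h
  have h3 : F (S⁻¹ * g) = F (S * g) := by
    have h := h24_prim_neg Γ hneg φ F hF (S * g)
    rw [← h]
    congr 1
    have hSS : S * S = (-1 : SL(2, ℤ)) := by decide
    have hS : (S : SL(2, ℤ))⁻¹ = -S := by
      rw [inv_eq_iff_mul_eq_one, mul_neg, hSS, neg_neg]
    rw [hS, neg_mul]
  rw [hFU, h1, hPT, h2, h3]
  ring

/-- The potential is right-`Γ`-invariant. -/
theorem h24_potential_right (φ : Additive Γ →+ ℤ) (F P : SL(2, ℤ) → ℤ)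
    (hF : ∀ (g : SL(2, ℤ)) (γ : Γ), F (g * γ) = F g + φ (Additive.ofMul γ))
    (hP : ∀ (g : SL(2, ℤ)) (γ : Γ), P (g * γ) = P g + φ (Additive.ofMul γ))
    (g : SL(2, ℤ)) (γ : Γ) : F (g * γ) - P (g * γ) = F g - P g := by
  rw [hF, hP]
  ring

/-! ### (SURJ) -/

/-- **(SURJ)** Every right-`Γ`-invariant function with (C) is the potential of a parabolic
homomorphism; `hpot` is the statement (POT) for `κ g = v (T g) - v g`. -/
theorem h24_surj_of_pot (hneg : (-1 : SL(2, ℤ)) ∈ Γ)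
    (v : SL(2, ℤ) → ℤ) (hv : ∀ (g : SL(2, ℤ)) (γ : Γ), v (g * γ) = v g)
    (hC : ∀ g, (v (T * S * g) - v (S * g)) + (v (T * g) - v g) = 0)
    (hpot : ∃ H : SL(2, ℤ) → ℤ, (∀ g, H (S * g) = H g + (v (T * g) - v g)) ∧
      (∀ g, H (T * S * g) = H g)) :
    ∃ ψ : Additive Γ →+ ℤ, IsParabolicHom Γ ψ ∧ ∃ F P : SL(2, ℤ) → ℤ,
      (∀ (g : SL(2, ℤ)) (γ : Γ), F (g * γ) = F g + ψ (Additive.ofMul γ)) ∧
      (∀ g, F (T * S * g) = F g) ∧
      (∀ (g : SL(2, ℤ)) (γ : Γ), P (g * γ) = P g + ψ (Additive.ofMul γ)) ∧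
      (∀ g, P (T * g) = P g) ∧ ∀ g, v g = F g - P g := by
  obtain ⟨F, hFS, hFU⟩ := hpot
  -- the difference `F (g γ) - F g` does not depend on `g`
  have hD : ∀ (γ : Γ) (g : SL(2, ℤ)), F (g * γ) - F g = F γ - F 1 := by
    intro γ g
    have h1 := h24_const_of_S_U (fun g => F (g * γ) - F g) (fun g => ?_) (fun g => ?_) g
    · simpa using h1
    · show F (S * g * γ) - F (S * g) = F (g * γ) - F g
      rw [mul_assoc, hFS, hFS, ← mul_assoc T g, hv, hv]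
      ring
    · show F (T * S * g * γ) - F (T * S * g) = F (g * γ) - F g
      rw [mul_assoc (T * S) g, hFU, hFU]
  let ψ : Additive Γ →+ ℤ := AddMonoidHom.mk'
    (fun γ => F ((Additive.toMul γ : Γ) : SL(2, ℤ)) - F 1) (by
      intro a b
      show F (((Additive.toMul a : Γ) * (Additive.toMul b : Γ) : Γ) : SL(2, ℤ)) - F 1 = _
      rw [Subgroup.coe_mul]
      have h1 := hD (Additive.toMul b) ((Additive.toMul a : Γ) : SL(2, ℤ))
      linarith)
  have hψ : ∀ γ : Γ, ψ (Additive.ofMul γ) = F γ - F 1 := fun γ => rfl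
  have hFprim : ∀ (g : SL(2, ℤ)) (γ : Γ), F (g * γ) = F g + ψ (Additive.ofMul γ) := by
    intro g γ
    rw [hψ]
    linarith [hD γ g]
  have hPprim : ∀ (g : SL(2, ℤ)) (γ : Γ),
      F (g * γ) - v (g * γ) = F g - v g + ψ (Additive.ofMul γ) := by
    intro g γ
    rw [hFprim, hv]
    ring
  have hPT : ∀ g, F (T * g) - v (T * g) = F g - v g := by
    intro g
    have h1 : F (T * g) = F (S⁻¹ * g) := by
      have h := hFU (S⁻¹ * g)
      rwa [mul_assoc, mul_inv_cancel_left] at h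
    have h2 := hFS (S⁻¹ * g)
    rw [mul_inv_cancel_left] at h2
    have h3 := hC (S⁻¹ * g)
    rw [mul_assoc T S (S⁻¹ * g), mul_inv_cancel_left] at h3
    linarith
  have hPTk : ∀ (k : ℤ) (g : SL(2, ℤ)), F (T ^ k * g) - v (T ^ k * g) = F g - v g :=
    fun k g => h24_inv_zpow (fun g => F g - v g) T hPT k g
  refine ⟨ψ, ?_, F, fun g => F g - v g, hFprim, hFU, hPprim, hPT, fun g => by ring⟩
  -- parabolicity
  intro γ hγ
  obtain ⟨g, k, h | h⟩ := h36_parabolic_conj (γ : SL(2, ℤ)) hγ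
  · have e : g⁻¹ * (γ : SL(2, ℤ)) = T ^ k * g⁻¹ := by
      rw [h]
      group
    have h1 := hPprim g⁻¹ γ
    rw [e, hPTk] at h1
    linarith
  · have e : g⁻¹ * (γ : SL(2, ℤ)) = T ^ k * g⁻¹ * ((⟨-1, hneg⟩ : Γ) : SL(2, ℤ)) := by
      rw [h]
      show g⁻¹ * -(g * T ^ k * g⁻¹) = T ^ k * g⁻¹ * -1
      rw [mul_neg, mul_neg, mul_one, neg_inj]
      group
    have h1 := hPprim g⁻¹ γ
    have h2 := hPprim (T ^ k * g⁻¹) ⟨-1, hneg⟩
    rw [h24_hom_neg_one Γ hneg ψ, add_zero, hPTk] at h2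
    rw [e, h2] at h1
    linarith

/-- **(SURJ)**, unconditional: every right-`Γ`-invariant function with (C) is the potential of
a parabolic homomorphism. -/
theorem h24_surj (hneg : (-1 : SL(2, ℤ)) ∈ Γ)
    (v : SL(2, ℤ) → ℤ) (hv : ∀ (g : SL(2, ℤ)) (γ : Γ), v (g * γ) = v g)
    (hC : ∀ g, (v (T * S * g) - v (S * g)) + (v (T * g) - v g) = 0) :
    ∃ ψ : Additive Γ →+ ℤ, IsParabolicHom Γ ψ ∧ ∃ F P : SL(2, ℤ) → ℤ,
      (∀ (g : SL(2, ℤ)) (γ : Γ), F (g * γ) = F g + ψ (Additive.ofMul γ)) ∧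
      (∀ g, F (T * S * g) = F g) ∧
      (∀ (g : SL(2, ℤ)) (γ : Γ), P (g * γ) = P g + ψ (Additive.ofMul γ)) ∧
      (∀ g, P (T * g) = P g) ∧ ∀ g, v g = F g - P g := by
  obtain ⟨H, h1, h2, -⟩ := h18_pot' (fun g => v (T * g) - v g) (fun g => by
    have h := hC g
    rw [← mul_assoc]
    linarith)
  exact h24_surj_of_pot Γ hneg v hv hC ⟨H, h1, h2⟩

/-- **(SURJ)** in the language of `h8_BDefs`: every `v : G ⧸ Γ → ℤ` with condition (C) is a
potential of a parabolic homomorphism. -/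
theorem h24_surj_pot (hneg : (-1 : SL(2, ℤ)) ∈ Γ) (v : SL(2, ℤ) ⧸ Γ → ℤ)
    (hC : h8_C (fun x : SL(2, ℤ) ⧸ Γ => S • x) (fun x : SL(2, ℤ) ⧸ Γ => T • x) v) :
    ∃ ψ : Additive Γ →+ ℤ, IsParabolicHom Γ ψ ∧ h8_IsPot Γ ψ v := by
  obtain ⟨ψ, hψ, F, P, hF, hFU, hP, hPT, hv⟩ := h24_surj Γ hneg
    (fun g => v (g : SL(2, ℤ) ⧸ Γ))
    (fun g γ => by rw [QuotientGroup.mk_mul_of_mem g γ.2])
    (fun g => by
      have h := hC (g : SL(2, ℤ) ⧸ Γ)
      simp only [MulAction.Quotient.smul_mk, smul_eq_mul] at h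
      rw [mul_assoc]
      exact h)
  exact ⟨ψ, hψ, F, P, hF, hP, hFU, hPT, hv⟩

/-! ### The radical step -/

/-- **(B1), core.** If the potential `F - P` is `w + t + p u` with `w` right-`Γ`-invariant and
`U`-invariant and `t` `T`-invariant, then `φ` is divisible by `p`. -/
theorem h24_b1_core (p : ℕ) (φ : Additive Γ →+ ℤ) (F P w t u : SL(2, ℤ) → ℤ)
    (hF : ∀ (g : SL(2, ℤ)) (γ : Γ), F (g * γ) = F g + φ (Additive.ofMul γ))
    (hFU : ∀ g, F (T * S * g) = F g) (hPT : ∀ g, P (T * g) = P g)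
    (hwΓ : ∀ (g : SL(2, ℤ)) (γ : Γ), w (g * γ) = w g)
    (hwU : ∀ g, w (T * S * g) = w g) (htT : ∀ g, t (T * g) = t g)
    (h : ∀ g, F g - P g = w g + t g + (p : ℤ) * u g) :
    ∃ φ' : Additive Γ →+ ℤ, φ = p • φ' ∧ (IsParabolicHom Γ φ → IsParabolicHom Γ φ') := by
  -- `E = (F - w) mod p = (P + t) mod p` is invariant under `U` and `T`
  have hE' : ∀ g, ((F g - w g : ℤ) : ZMod p) = ((P g + t g : ℤ) : ZMod p) := by
    intro g
    have h1 : F g - w g = P g + t g + (p : ℤ) * u g := by linarith [h g]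
    rw [h1]
    push_cast
    rw [ZMod.natCast_self, zero_mul, add_zero]
  have hEU : ∀ g, ((F (T * S * g) - w (T * S * g) : ℤ) : ZMod p) = ((F g - w g : ℤ) : ZMod p) := by
    intro g
    rw [hFU, hwU]
  have hET : ∀ g, ((F (T * g) - w (T * g) : ℤ) : ZMod p) = ((F g - w g : ℤ) : ZMod p) := by
    intro g
    rw [hE', hE', hPT, htT]
  have hconst := h24_const_of_T_U (fun g => ((F g - w g : ℤ) : ZMod p)) hET hEU
  have hdvd : ∀ γ : Γ, (p : ℤ) ∣ φ (Additive.ofMul γ) := by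
    intro γ
    have h1 := hconst (γ : SL(2, ℤ))
    have h2 := (ZMod.intCast_eq_intCast_iff_dvd_sub _ _ _).mp h1
    have h3 := hF 1 γ
    have h4 := hwΓ 1 γ
    rw [one_mul] at h3 h4
    have h5 : φ (Additive.ofMul γ) = -(F 1 - w 1 - (F γ - w γ)) := by
      rw [h3, h4]
      ring
    rw [h5]
    exact (dvd_neg).mpr h2
  let φ' : Additive Γ →+ ℤ := AddMonoidHom.mk' (fun γ => φ γ / (p : ℤ)) (by
    intro a b
    show φ (a + b) / (p : ℤ) = φ a / (p : ℤ) + φ b / (p : ℤ)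
    rw [map_add]
    exact Int.add_ediv_of_dvd_left (hdvd (Additive.toMul a)))
  refine ⟨φ', ?_, ?_⟩
  · refine AddMonoidHom.ext fun γ => ?_
    show φ γ = p • (φ γ / (p : ℤ))
    have h1 : (p : ℤ) ∣ φ γ := hdvd (Additive.toMul γ)
    rw [nsmul_eq_mul, Int.mul_ediv_cancel' h1]
  · intro hφ γ hγ
    show φ (Additive.ofMul γ) / (p : ℤ) = 0
    rw [hφ γ hγ, Int.zero_ediv]

/-! ### (B1) on a finite model of `G / Γ` -/

section Model

variable {Γ} {X : Type*} (π : SL(2, ℤ) → X)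

/-- `π` is constant on left cosets. -/
theorem h24_pi_mul (hπ : ∀ g h, π g = π h ↔ g⁻¹ * h ∈ Γ) (g : SL(2, ℤ)) (γ : Γ) :
    π (g * γ) = π g := by
  rw [eq_comm, hπ, inv_mul_cancel_left]
  exact γ.2

theorem h24_pi_neg (hneg : (-1 : SL(2, ℤ)) ∈ Γ) (hπ : ∀ g h, π g = π h ↔ g⁻¹ * h ∈ Γ)
    (g : SL(2, ℤ)) : π (-g) = π g := by
  have h1 := h24_pi_mul π hπ g ⟨-1, hneg⟩
  rw [← h1]
  congr 1
  show -g = g * -1
  rw [mul_neg, mul_one]

/-- Right-`Γ`-invariant functions descend to the model. -/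
theorem h24_desc (hπ : ∀ g h, π g = π h ↔ g⁻¹ * h ∈ Γ) (hπs : Function.Surjective π)
    {B : Type*} (f : SL(2, ℤ) → B) (hf : ∀ (g : SL(2, ℤ)) (γ : Γ), f (g * γ) = f g) :
    ∃ v : X → B, ∀ g, v (π g) = f g := by
  choose r hr using hπs
  refine ⟨fun x => f (r x), fun g => ?_⟩
  have h1 : g⁻¹ * r (π g) ∈ Γ := (hπ g (r (π g))).mp (hr (π g)).symm
  have h2 := hf g ⟨_, h1⟩
  rw [← h2]
  show f (r (π g)) = f (g * (g⁻¹ * r (π g)))
  rw [mul_inv_cancel_left]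

variable (σ τ : Equiv.Perm X)

theorem h24_sigma_sq (hneg : (-1 : SL(2, ℤ)) ∈ Γ) (hπ : ∀ g h, π g = π h ↔ g⁻¹ * h ∈ Γ)
    (hπs : Function.Surjective π) (hσ : ∀ g, σ (π g) = π (S * g)) : σ * σ = 1 := by
  have hSS : S * S = (-1 : SL(2, ℤ)) := by decide
  refine Equiv.ext fun x => ?_
  obtain ⟨g, rfl⟩ := hπs x
  show σ (σ (π g)) = π g
  rw [hσ, hσ, ← mul_assoc, hSS, neg_one_mul, h24_pi_neg π hneg hπ]

/-- Condition (C) of the model, read on `G`. -/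
theorem h24_CK_iff (hπs : Function.Surjective π) (hσ : ∀ g, σ (π g) = π (S * g))
    (hτ : ∀ g, τ (π g) = π (T * g)) (v : X → ℤ) :
    h89_CK σ τ v ↔
      ∀ g, (v (π (T * S * g)) - v (π (S * g))) + (v (π (T * g)) - v (π g)) = 0 := by
  constructor
  · intro h g
    have h1 := h (π g)
    rwa [hσ, hτ, hτ, ← mul_assoc] at h1
  · intro h x
    obtain ⟨g, rfl⟩ := hπs x
    rw [hσ, hτ, hτ, ← mul_assoc]
    exact h g

variable [Fintype X]

theorem h24_B2K_add_right (v a b : X → ℤ) :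
    h89_B2K τ v (a + b) = h89_B2K τ v a + h89_B2K τ v b := by
  rw [h89_B2K, h89_B2K, h89_B2K, ← Finset.sum_add_distrib]
  exact Finset.sum_congr rfl fun x _ => by
    simp only [Pi.add_apply]
    ring

theorem h24_B2K_sub_right (v a b : X → ℤ) :
    h89_B2K τ v (a - b) = h89_B2K τ v a - h89_B2K τ v b := by
  rw [h89_B2K, h89_B2K, h89_B2K, ← Finset.sum_sub_distrib]
  exact Finset.sum_congr rfl fun x _ => by
    simp only [Pi.sub_apply]
    ring

/-- **(B1), model form.**  `π : G → X` a finite model of `G / Γ` with the permutations `σ`,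
`τ` induced by `S`, `T`; `φ` with potential `v`.  If for every parabolic `ψ` SOME potential
`v'` of `ψ` has `p ∣ B2K v v'`, then `φ ∈ p Hom(Γ, ℤ)`. -/
theorem h24_B1_model (hneg : (-1 : SL(2, ℤ)) ∈ Γ) (hπ : ∀ g h, π g = π h ↔ g⁻¹ * h ∈ Γ)
    (hπs : Function.Surjective π) (hσ : ∀ g, σ (π g) = π (S * g))
    (hτ : ∀ g, τ (π g) = π (T * g))
    {p : ℕ} [Fact p.Prime] (hp2 : p ≠ 2)
    (φ : Additive Γ →+ ℤ) (F P : SL(2, ℤ) → ℤ)
    (hF : ∀ (g : SL(2, ℤ)) (γ : Γ), F (g * γ) = F g + φ (Additive.ofMul γ))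
    (hFU : ∀ g, F (T * S * g) = F g) (hPT : ∀ g, P (T * g) = P g)
    (v : X → ℤ) (hvF : ∀ g, v (π g) = F g - P g)
    (hrad : ∀ ψ : Additive Γ →+ ℤ, IsParabolicHom Γ ψ →
      ∃ (F' P' : SL(2, ℤ) → ℤ) (v' : X → ℤ),
        (∀ (g : SL(2, ℤ)) (γ : Γ), F' (g * γ) = F' g + ψ (Additive.ofMul γ)) ∧
        (∀ g, F' (T * S * g) = F' g) ∧
        (∀ (g : SL(2, ℤ)) (γ : Γ), P' (g * γ) = P' g + ψ (Additive.ofMul γ)) ∧
        (∀ g, P' (T * g) = P' g) ∧ (∀ g, v' (π g) = F' g - P' g) ∧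
        (p : ℤ) ∣ h89_B2K τ v v') :
    ∃ φ' : Additive Γ →+ ℤ, φ = p • φ' ∧ (IsParabolicHom Γ φ → IsParabolicHom Γ φ') := by
  have hσσ := h24_sigma_sq π σ hneg hπ hπs hσ
  have hvC : h89_CK σ τ v := by
    rw [h24_CK_iff π σ τ hπs hσ hτ]
    intro g
    rw [hvF, hvF, hvF, hvF]
    exact h24_potential_C Γ hneg φ F P hF hFU hPT g
  -- the hypothesis of (K4)
  have hK : ∀ v' : X → ℤ, h89_CK σ τ v' → (p : ℤ) ∣ h89_B2K τ v v' := by
    intro v' hv'
    have hv'C := (h24_CK_iff π σ τ hπs hσ hτ v').mp hv'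
    have hv'Γ : ∀ (g : SL(2, ℤ)) (γ : Γ), v' (π (g * γ)) = v' (π g) := fun g γ => by
      rw [h24_pi_mul π hπ]
    obtain ⟨ψ, hψ, F₁, P₁, hF₁, hF₁U, hP₁, hP₁T, hv'₁⟩ :=
      h24_surj Γ hneg (fun g => v' (π g)) hv'Γ hv'C
    obtain ⟨F₂, P₂, v'', hF₂, hF₂U, hP₂, hP₂T, hv'₂, hdvd⟩ := hrad ψ hψ
    -- `v' - v'' = w₀ - t₀` with `w₀` `U`-invariant and `t₀` `T`-invariant
    obtain ⟨w₀, hw₀⟩ := h24_desc π hπ hπs (fun g => F₁ g - F₂ g) (fun g γ => by
      show F₁ (g * γ) - F₂ (g * γ) = F₁ g - F₂ g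
      rw [hF₁, hF₂]
      ring)
    obtain ⟨t₀, ht₀⟩ := h24_desc π hπ hπs (fun g => P₁ g - P₂ g) (fun g γ => by
      show P₁ (g * γ) - P₂ (g * γ) = P₁ g - P₂ g
      rw [hP₁, hP₂]
      ring)
    have hw₀U : ∀ x, w₀ (τ (σ x)) = w₀ x := by
      intro x
      obtain ⟨g, rfl⟩ := hπs x
      rw [hσ, hτ, hw₀, hw₀, ← mul_assoc, hF₁U, hF₂U]
    have ht₀T : ∀ x, t₀ (τ x) = t₀ x := by
      intro x
      obtain ⟨g, rfl⟩ := hπs x
      rw [hτ, ht₀, ht₀, hP₁T, hP₂T]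
    have hsplit : v' = v'' + (w₀ - t₀) := by
      funext x
      obtain ⟨g, rfl⟩ := hπs x
      have h1 := hv'₁ g
      simp only [Pi.add_apply, Pi.sub_apply, hw₀, ht₀, hv'₂]
      linarith
    have h1 : h89_B2K τ v w₀ = 0 := by
      rw [h89_B2K_antisymm, (h89_K1_U hσσ hw₀U).2 v hvC, neg_zero]
    have h2 : h89_B2K τ v t₀ = 0 := by
      rw [h89_B2K_antisymm, (h89_K1_T hσσ ht₀T).2 v, neg_zero]
    rw [hsplit, h24_B2K_add_right, h24_B2K_sub_right, h1, h2, sub_zero, add_zero]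
    exact hdvd
  obtain ⟨w, t, u, hw, ht, -, hsum⟩ := h89_K4 hσσ hp2 hvC hK
  refine h24_b1_core Γ p φ F P (fun g => w (π g)) (fun g => t (π g)) (fun g => u (π g)) hF hFU
    hPT (fun g γ => by rw [h24_pi_mul π hπ]) (fun g => ?_) (fun g => ?_) (fun g => ?_)
  · show w (π (T * S * g)) = w (π g)
    rw [mul_assoc, ← hτ, ← hσ, hw]
  · show t (π (T * g)) = t (π g)
    rw [← hτ, ht]
  · show F g - P g = w (π g) + t (π g) + (p : ℤ) * u (π g)
    rw [← hvF, hsum]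
    simp only [Pi.add_apply, Pi.smul_apply, smul_eq_mul]

end Model

/-! ### (B1) for the pairing `h8_B` -/

/-- **(B1)** for the pairing of `h8_BDefs`: if `p ∣ B(φ, ψ)` for every parabolic `ψ`, then
`φ ∈ p Hom(Γ, ℤ)` (and the quotient is parabolic if `φ` is).  `hφ`, `hex`: existence of
potentials (B-PRIM). -/
theorem h24_B1 (hneg : (-1 : SL(2, ℤ)) ∈ Γ) [Fintype (SL(2, ℤ) ⧸ Γ)]
    {p : ℕ} [Fact p.Prime] (hp2 : p ≠ 2) (φ : Additive Γ →+ ℤ)
    (hφ : ∃ v, h8_IsPot Γ φ v)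
    (hex : ∀ ψ : Additive Γ →+ ℤ, IsParabolicHom Γ ψ → ∃ v, h8_IsPot Γ ψ v)
    (h : ∀ ψ : Additive Γ →+ ℤ, IsParabolicHom Γ ψ → (p : ℤ) ∣ h8_B Γ φ ψ) :
    ∃ φ' : Additive Γ →+ ℤ, φ = p • φ' ∧ (IsParabolicHom Γ φ → IsParabolicHom Γ φ') := by
  obtain ⟨F, P, hF, -, hFU, hPT, hv⟩ := h8_pot_spec Γ φ hφ
  refine h24_B1_model (Γ := Γ) (QuotientGroup.mk : SL(2, ℤ) → SL(2, ℤ) ⧸ Γ)
    (MulAction.toPerm (S : SL(2, ℤ))) (MulAction.toPerm (T : SL(2, ℤ))) hneg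
    (fun g h => QuotientGroup.eq) QuotientGroup.mk_surjective (fun g => rfl) (fun g => rfl) hp2 φ
    F P hF hFU hPT (h8_pot Γ φ) hv (fun ψ hψ => ?_)
  obtain ⟨F', P', hF', hP', hF'U, hP'T, hv'⟩ := h8_pot_spec Γ ψ (hex ψ hψ)
  refine ⟨F', P', h8_pot Γ ψ, hF', hF'U, hP', hP'T, hv', ?_⟩
  have h1 := h ψ hψ
  rw [h8_B_eq_B2] at h1
  exact h1

end Potential

end Fermat.Agent.S41
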