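import Fermat.Agent.S41.h24_BSurj

/-!
# S41 block (B), row B-SURJ: the two row statements in the language of `h8_BDefs`

* `h24_exists_hom_of_C` : every `v : G ⧸ Γ → ℤ` with condition (C) is a potential of a
  parabolic homomorphism;
* `h24_dvd_of_isPot` : a homomorphism with a potential of the form `w + u + p r` (`w`
  `U`-invariant, `u` `T`-invariant) is divisible by `p`.
-/

set_option autoImplicit false

namespace Fermat.Agent.S41

open scoped MatrixGroups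
open ModularGroup ModularCurve.Period CongruenceSubgroup

variable (Γ : Subgroup SL(2, ℤ))

/-- **(SURJ)** -/
theorem h24_exists_hom_of_C (hneg : (-1 : SL(2, ℤ)) ∈ Γ) (v : SL(2, ℤ) ⧸ Γ → ℤ)
    (hv : h8_C (fun x : SL(2, ℤ) ⧸ Γ => S • x) (fun x : SL(2, ℤ) ⧸ Γ => T • x) v) :
    ∃ ψ : Additive Γ →+ ℤ, IsParabolicHom Γ ψ ∧ h8_IsPot Γ ψ v :=
  h24_surj_pot Γ hneg v hv

/-- **(ZERO)** -/
theorem h24_dvd_of_isPot (p : ℕ) (φ : Additive Γ →+ ℤ) (hφ : IsParabolicHom Γ φ)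
    (w u r : SL(2, ℤ) ⧸ Γ → ℤ) (hw : ∀ x, w (T • S • x) = w x) (hu : ∀ x, u (T • x) = u x)
    (hv : h8_IsPot Γ φ (fun x => w x + u x + p * r x)) :
    ∃ φ' : Additive Γ →+ ℤ, IsParabolicHom Γ φ' ∧ φ = p • φ' := by
  obtain ⟨F, P, hF, -, hFU, hPT, hFP⟩ := hv
  obtain ⟨φ', h1, h2⟩ := h24_b1_core Γ p φ F P (fun g => w (g : SL(2, ℤ) ⧸ Γ))
    (fun g => u (g : SL(2, ℤ) ⧸ Γ)) (fun g => r (g : SL(2, ℤ) ⧸ Γ)) hF hFU hPT
    (fun g γ => by rw [QuotientGroup.mk_mul_of_mem g γ.2])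
    (fun g => by
      have h := hw (g : SL(2, ℤ) ⧸ Γ)
      simp only [MulAction.Quotient.smul_mk, smul_eq_mul] at h
      rw [mul_assoc]
      exact h)
    (fun g => by
      have h := hu (g : SL(2, ℤ) ⧸ Γ)
      simp only [MulAction.Quotient.smul_mk, smul_eq_mul] at h
      exact h)
    (fun g => (hFP g).symm)
  exact ⟨φ', h2 hφ, h1⟩

end Fermat.Agent.S41
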