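import Fermat.Agent.S16.h30_HeckeHom

/-!
# S41, block (D): the two-level Hecke engine

For a finite family `α : ι → GL (Fin 2) ℝ` such that every `α x * γ` (`γ ∈ Γ₀(N)`) is of the
form `γ' * α y` with `γ' ∈ Γ₀(M)` (`h30_Ex2 M N α`), the `α x` lying in distinct left cosets of
`Γ₀(M)` (`h30_Inj2 M α`), the operator `(h30_hecke2 ψ) γ = ∑ x, ψ (γ'_x)` is an additive map
`Hom(Γ₀(M), A) → Hom(Γ₀(N), A)`.  Restriction, transfer, conjugation by a normalising element
and the classical Hecke operators are all of this form.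
-/

set_option autoImplicit false

namespace Fermat.Agent.S41

open CongruenceSubgroup Matrix.SpecialLinearGroup ModularCurve.Period
open scoped MatrixGroups
open Fermat.Agent.S16

section Engine2

variable {M N : ℕ} {ι : Type*}

/-- Existence of the transition: `α x * γ = γ' * α y`, `γ ∈ Γ₀(N)`, `γ' ∈ Γ₀(M)`. -/
def h30_Ex2 (M N : ℕ) (α : ι → GL (Fin 2) ℝ) : Prop :=
  ∀ (γ : Gamma0 N) (x : ι), ∃ (γ' : Gamma0 M) (y : ι),
    α x * mapGL ℝ (γ : SL(2, ℤ)) = mapGL ℝ (γ' : SL(2, ℤ)) * α y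

/-- The representatives lie in distinct left cosets of `Γ₀(M)`. -/
def h30_Inj2 (M : ℕ) (α : ι → GL (Fin 2) ℝ) : Prop :=
  ∀ x y : ι, (∃ δ : Gamma0 M, α x = mapGL ℝ (δ : SL(2, ℤ)) * α y) → x = y

variable {α : ι → GL (Fin 2) ℝ}

/-- The `Γ₀(M)`-part of `α x * γ`. -/
noncomputable def h30_step2 (hex : h30_Ex2 M N α) (γ : Gamma0 N) (x : ι) : Gamma0 M :=
  (hex γ x).choose

/-- The index of the coset of `α x * γ`. -/
noncomputable def h30_idx2 (hex : h30_Ex2 M N α) (γ : Gamma0 N) (x : ι) : ι :=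
  (hex γ x).choose_spec.choose

theorem h30_step2_spec (hex : h30_Ex2 M N α) (γ : Gamma0 N) (x : ι) :
    α x * mapGL ℝ (γ : SL(2, ℤ)) =
      mapGL ℝ (h30_step2 hex γ x : SL(2, ℤ)) * α (h30_idx2 hex γ x) :=
  (hex γ x).choose_spec.choose_spec

theorem h30_unique2 (hex : h30_Ex2 M N α) (hinj : h30_Inj2 M α) (γ : Gamma0 N) (x : ι)
    (γ' : Gamma0 M) (y : ι)
    (h : α x * mapGL ℝ (γ : SL(2, ℤ)) = mapGL ℝ (γ' : SL(2, ℤ)) * α y) :
    h30_step2 hex γ x = γ' ∧ h30_idx2 hex γ x = y := by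
  have h1 := h30_step2_spec hex γ x
  rw [h] at h1
  have hy : y = h30_idx2 hex γ x := by
    apply hinj
    refine ⟨γ'⁻¹ * h30_step2 hex γ x, ?_⟩
    rw [Subgroup.coe_mul, Subgroup.coe_inv, map_mul, map_inv, mul_assoc, ← h1,
      inv_mul_cancel_left]
  subst hy
  have h2 : mapGL ℝ (γ' : SL(2, ℤ)) = mapGL ℝ (h30_step2 hex γ x : SL(2, ℤ)) :=
    mul_right_cancel h1
  exact ⟨Subtype.ext (mapGL_injective h2).symm, rfl⟩

theorem h30_idx2_injective (hex : h30_Ex2 M N α) (hinj : h30_Inj2 M α) (γ : Gamma0 N) :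
    Function.Injective (h30_idx2 hex γ) := by
  intro x x' hxx
  apply hinj
  have h1 := h30_step2_spec hex γ x
  have h2 := h30_step2_spec hex γ x'
  rw [hxx] at h1
  refine ⟨h30_step2 hex γ x * (h30_step2 hex γ x')⁻¹, ?_⟩
  have h3 : α x = mapGL ℝ (h30_step2 hex γ x : SL(2, ℤ)) * α (h30_idx2 hex γ x') *
      (mapGL ℝ (γ : SL(2, ℤ)))⁻¹ := by
    rw [← h1, mul_inv_cancel_right]
  have h4 : α (h30_idx2 hex γ x') = (mapGL ℝ (h30_step2 hex γ x' : SL(2, ℤ)))⁻¹ * α x' *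
      mapGL ℝ (γ : SL(2, ℤ)) := by
    rw [mul_assoc, h2, inv_mul_cancel_left]
  rw [h3, h4, Subgroup.coe_mul, Subgroup.coe_inv, map_mul, map_inv]
  group

theorem h30_step2_one (hex : h30_Ex2 M N α) (hinj : h30_Inj2 M α) (x : ι) :
    h30_step2 hex (1 : Gamma0 N) x = 1 ∧ h30_idx2 hex (1 : Gamma0 N) x = x :=
  h30_unique2 hex hinj 1 x 1 x (by simp)

theorem h30_step2_mul (hex : h30_Ex2 M N α) (hinj : h30_Inj2 M α) (γ δ : Gamma0 N) (x : ι) :
    h30_step2 hex (γ * δ) x = h30_step2 hex γ x * h30_step2 hex δ (h30_idx2 hex γ x) ∧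
      h30_idx2 hex (γ * δ) x = h30_idx2 hex δ (h30_idx2 hex γ x) := by
  apply h30_unique2 hex hinj
  rw [Subgroup.coe_mul, Subgroup.coe_mul, map_mul, map_mul, ← mul_assoc, h30_step2_spec hex γ x,
    mul_assoc, h30_step2_spec hex δ, ← mul_assoc]

variable [Fintype ι]

/-- The permutation of the index set induced by `γ`. -/
noncomputable def h30_idxEquiv2 (hex : h30_Ex2 M N α) (hinj : h30_Inj2 M α) (γ : Gamma0 N) :
    Equiv.Perm ι :=
  Equiv.ofBijective (h30_idx2 hex γ)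
    (Finite.injective_iff_bijective.mp (h30_idx2_injective hex hinj γ))

@[simp] theorem h30_idxEquiv2_apply (hex : h30_Ex2 M N α) (hinj : h30_Inj2 M α) (γ : Gamma0 N)
    (x : ι) : h30_idxEquiv2 hex hinj γ x = h30_idx2 hex γ x := rfl

variable {A : Type*} [AddCommGroup A]

/-- The operator attached to `α` on a single homomorphism. -/
noncomputable def h30_heckeFun2 (hex : h30_Ex2 M N α) (hinj : h30_Inj2 M α)
    (ψ : Additive (Gamma0 M) →+ A) : Additive (Gamma0 N) →+ A where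
  toFun γ := ∑ x, ψ (Additive.ofMul (h30_step2 hex (Additive.toMul γ) x))
  map_zero' := by
    have h : ∀ x, h30_step2 hex (Additive.toMul (0 : Additive (Gamma0 N))) x = 1 :=
      fun x => (h30_step2_one hex hinj x).1
    simp only [h, ofMul_one, map_zero, Finset.sum_const_zero]
  map_add' γ δ := by
    rw [← Equiv.sum_comp (h30_idxEquiv2 hex hinj (Additive.toMul γ))
      (fun x => ψ (Additive.ofMul (h30_step2 hex (Additive.toMul δ) x))),
      ← Finset.sum_add_distrib]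
    refine Finset.sum_congr rfl fun x _ => ?_
    rw [toMul_add, (h30_step2_mul hex hinj _ _ x).1, ofMul_mul, map_add]
    rfl

/-- The operator attached to `α`: `Hom(Γ₀(M), A) → Hom(Γ₀(N), A)`. -/
noncomputable def h30_hecke2 (hex : h30_Ex2 M N α) (hinj : h30_Inj2 M α) :
    (Additive (Gamma0 M) →+ A) →+ (Additive (Gamma0 N) →+ A) where
  toFun ψ := h30_heckeFun2 hex hinj ψ
  map_zero' := by
    refine AddMonoidHom.ext fun γ => ?_
    simp [h30_heckeFun2]
  map_add' ψ φ := by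
    refine AddMonoidHom.ext fun γ => ?_
    simp [h30_heckeFun2, Finset.sum_add_distrib]

theorem h30_hecke2_apply (hex : h30_Ex2 M N α) (hinj : h30_Inj2 M α)
    (ψ : Additive (Gamma0 M) →+ A) (γ : Gamma0 N) :
    h30_hecke2 hex hinj ψ (Additive.ofMul γ) =
      ∑ x, ψ (Additive.ofMul (h30_step2 hex γ x)) := rfl

/-- The value of the operator from ANY decomposition `α x * γ = γ' x * α (y x)`. -/
theorem h30_hecke2_apply_of (hex : h30_Ex2 M N α) (hinj : h30_Inj2 M α)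
    (ψ : Additive (Gamma0 M) →+ A) (γ : Gamma0 N) (γ' : ι → Gamma0 M) (y : ι → ι)
    (h : ∀ x, α x * mapGL ℝ (γ : SL(2, ℤ)) = mapGL ℝ (γ' x : SL(2, ℤ)) * α (y x)) :
    h30_hecke2 hex hinj ψ (Additive.ofMul γ) = ∑ x, ψ (Additive.ofMul (γ' x)) := by
  rw [h30_hecke2_apply]
  refine Finset.sum_congr rfl fun x _ => ?_
  rw [(h30_unique2 hex hinj γ x (γ' x) (y x) (h x)).1]

/-- Compatibility with a change of coefficients. -/
theorem h30_hecke2_comp {B : Type*} [AddCommGroup B] (hex : h30_Ex2 M N α) (hinj : h30_Inj2 M α)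
    (g : A →+ B) (ψ : Additive (Gamma0 M) →+ A) :
    h30_hecke2 hex hinj (g.comp ψ) = g.comp (h30_hecke2 hex hinj ψ) := by
  refine AddMonoidHom.ext fun γ => ?_
  show ∑ x, g (ψ _) = g (∑ x, ψ _)
  rw [map_sum]

/-- Telescoping: conjugating the steps by elements indexed through a permutation does not
change the sum. -/
theorem h30_sum_twist {Γ : Type*} [Group Γ] (ψ : Additive Γ →+ A) (τ g : ι → Γ)
    (y : Equiv.Perm ι) :
    ∑ x, ψ (Additive.ofMul ((τ x)⁻¹ * g x * τ (y x))) = ∑ x, ψ (Additive.ofMul (g x)) := by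
  have h1 : ∀ x, ψ (Additive.ofMul ((τ x)⁻¹ * g x * τ (y x))) =
      ψ (Additive.ofMul (g x)) + (ψ (Additive.ofMul (τ (y x))) - ψ (Additive.ofMul (τ x))) := by
    intro x
    rw [ofMul_mul, ofMul_mul, ofMul_inv, map_add, map_add, map_neg]
    abel
  rw [Finset.sum_congr rfl fun x _ => h1 x, Finset.sum_add_distrib, Finset.sum_sub_distrib,
    Equiv.sum_comp y (fun x => ψ (Additive.ofMul (τ x))), sub_self, add_zero]

/-- The classical one-level operator is the two-level operator with `M = N`. -/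
theorem h30_hecke_eq_hecke2 (hex : h30_Ex N α) (hinj : h30_Inj α) (hex2 : h30_Ex2 N N α)
    (hinj2 : h30_Inj2 N α) (ψ : Additive (Gamma0 N) →+ A) :
    h30_hecke hex hinj ψ = h30_hecke2 hex2 hinj2 ψ := by
  refine AddMonoidHom.ext fun γa => ?_
  obtain ⟨γ, rfl⟩ : ∃ γ : Gamma0 N, Additive.ofMul γ = γa := ⟨Additive.toMul γa, rfl⟩
  exact (h30_hecke2_apply_of hex2 hinj2 ψ γ _ _ (fun x => h30_step_spec hex γ x)).symm

end Engine2

/-! ### Parabolic homomorphisms are preserved (torsion-free coefficients) -/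

section Parabolic

/-- Cayley-Hamilton for traces of `2 × 2` matrices of determinant one. -/
theorem h30_trace_rec (B g : Matrix (Fin 2) (Fin 2) ℤ)
    (hdet : g 0 0 * g 1 1 - g 0 1 * g 1 0 = 1) :
    (B * g * g).trace = g.trace * (B * g).trace - B.trace := by
  simp only [Matrix.trace_fin_two, Matrix.mul_apply, Fin.sum_univ_two]
  linear_combination (-(B 0 0 + B 1 1)) * hdet

/-- Powers of an element of trace `±2` have trace `±2`. -/
theorem h30_trace_pow (g : SL(2, ℤ))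
    (h : (g : Matrix (Fin 2) (Fin 2) ℤ).trace ^ 2 = 4) (m : ℕ) :
    ((g ^ m : SL(2, ℤ)) : Matrix (Fin 2) (Fin 2) ℤ).trace ^ 2 = 4 := by
  set t : ℤ := (g : Matrix (Fin 2) (Fin 2) ℤ).trace with ht
  have hdet : (g : Matrix (Fin 2) (Fin 2) ℤ) 0 0 * (g : Matrix (Fin 2) (Fin 2) ℤ) 1 1 -
      (g : Matrix (Fin 2) (Fin 2) ℤ) 0 1 * (g : Matrix (Fin 2) (Fin 2) ℤ) 1 0 = 1 := by
    rw [← Matrix.det_fin_two]
    exact g.det_coe
  have hrec : ∀ k : ℕ, ((g ^ (k + 2) : SL(2, ℤ)) : Matrix (Fin 2) (Fin 2) ℤ).trace =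
      t * ((g ^ (k + 1) : SL(2, ℤ)) : Matrix (Fin 2) (Fin 2) ℤ).trace -
        ((g ^ k : SL(2, ℤ)) : Matrix (Fin 2) (Fin 2) ℤ).trace := by
    intro k
    rw [pow_succ, pow_succ, coe_mul, coe_mul, h30_trace_rec _ _ hdet]
  -- `t = 2 s`, `s ^ 2 = 1`
  have hs : ∃ s : ℤ, t = 2 * s ∧ s ^ 2 = 1 := by
    have h2 : (t - 2) * (t + 2) = 0 := by linear_combination h
    rcases mul_eq_zero.mp h2 with h3 | h3
    · exact ⟨1, by linarith, by norm_num⟩
    · exact ⟨-1, by linarith, by norm_num⟩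
  obtain ⟨s, hts, hs2⟩ := hs
  have key : ∀ k : ℕ, ((g ^ k : SL(2, ℤ)) : Matrix (Fin 2) (Fin 2) ℤ).trace = 2 * s ^ k ∧
      ((g ^ (k + 1) : SL(2, ℤ)) : Matrix (Fin 2) (Fin 2) ℤ).trace = 2 * s ^ (k + 1) := by
    intro k
    induction k with
    | zero =>
      refine ⟨?_, ?_⟩
      · rw [pow_zero, coe_one, Matrix.trace_one]
        simp
      · rw [zero_add, pow_one, pow_one, ← ht, hts]
    | succ k ih =>
      refine ⟨ih.2, ?_⟩
      rw [hrec k, ih.1, ih.2, hts]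
      linear_combination (2 * s ^ k) * hs2
  rw [(key m).1]
  have : (2 * s ^ m) ^ 2 = 4 * (s ^ 2) ^ m := by ring
  rw [this, hs2, one_pow, mul_one]

variable {M N : ℕ} {ι : Type*} [Fintype ι] {α : ι → GL (Fin 2) ℝ}
  {A : Type*} [AddCommGroup A]

/-- The trace of a conjugate. -/
theorem h30_trace_of_conj {g g' : SL(2, ℤ)} {a : GL (Fin 2) ℝ}
    (h : a * mapGL ℝ g = mapGL ℝ g' * a) :
    (g' : Matrix (Fin 2) (Fin 2) ℤ).trace = (g : Matrix (Fin 2) (Fin 2) ℤ).trace := by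
  have h1 : mapGL ℝ g' = a * mapGL ℝ g * a⁻¹ := by
    rw [h, mul_inv_cancel_right]
  have h2 : ((mapGL ℝ g' : GL (Fin 2) ℝ) : Matrix (Fin 2) (Fin 2) ℝ).trace =
      ((mapGL ℝ g : GL (Fin 2) ℝ) : Matrix (Fin 2) (Fin 2) ℝ).trace := by
    rw [h1, Matrix.GeneralLinearGroup.coe_mul, Matrix.GeneralLinearGroup.coe_mul,
      Matrix.trace_mul_comm, ← mul_assoc, ← Matrix.GeneralLinearGroup.coe_mul, inv_mul_cancel,
      Matrix.GeneralLinearGroup.coe_one, one_mul]
  rw [h30_coe_mapGL, h30_coe_mapGL, Matrix.trace_fin_two_of, Matrix.trace_fin_two_of] at h2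
  rw [Matrix.trace_fin_two, Matrix.trace_fin_two]
  exact_mod_cast h2

/-- Every two-level operator maps parabolic homomorphisms to parabolic homomorphisms when the
coefficients are torsion-free. -/
theorem h30_hecke2_parabolic [IsAddTorsionFree A] (hex : h30_Ex2 M N α) (hinj : h30_Inj2 M α)
    (ψ : Additive (Gamma0 M) →+ A) (hψ : IsParabolicHom (Gamma0 M) ψ) :
    IsParabolicHom (Gamma0 N) (h30_hecke2 hex hinj ψ) := by
  intro γ hγ
  -- a power of `γ` fixing every index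
  set σ : Equiv.Perm ι := h30_idxEquiv2 hex hinj γ with hσ
  obtain ⟨m, hm0, hm⟩ : ∃ m : ℕ, 0 < m ∧ σ ^ m = 1 :=
    ⟨orderOf σ, orderOf_pos σ, pow_orderOf_eq_one σ⟩
  have hidx : ∀ (k : ℕ) (x : ι), h30_idx2 hex (γ ^ k) x = (σ ^ k) x := by
    intro k
    induction k with
    | zero =>
      intro x
      rw [pow_zero, pow_zero]
      exact (h30_step2_one hex hinj x).2
    | succ k ih =>
      intro x
      rw [pow_succ, (h30_step2_mul hex hinj _ _ x).2, ih, pow_succ']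
      rfl
  have hfix : ∀ x, h30_idx2 hex (γ ^ m) x = x := fun x => by rw [hidx, hm]; rfl
  have hzero : h30_hecke2 hex hinj ψ (Additive.ofMul (γ ^ m)) = 0 := by
    rw [h30_hecke2_apply]
    refine Finset.sum_eq_zero fun x _ => ?_
    apply hψ
    have h1 := h30_step2_spec hex (γ ^ m) x
    rw [hfix x] at h1
    rw [h30_trace_of_conj h1, Subgroup.coe_pow]
    exact h30_trace_pow _ hγ m
  rw [ofMul_pow, map_nsmul] at hzero
  exact (smul_eq_zero_iff_right hm0.ne').mp hzero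

end Parabolic

end Fermat.Agent.S41
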