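import Mathlib
import Fermat.Agent.S16.h30_HeckeHom

/-!
# S41, block (A*): the averaging form of Ihara's lemma (integer matrices only)

`φ₁, φ₂ : Γ₀(N) → F` additive characters, `φ₁` killing `[1 1; 0 1]`, related by the kernel
relation `φ₁ v + φ₂ (v^δ) = 0` for `v ∈ Γ₀(N q)` (`v^δ = [a, q b; c / q, d]`).  Then for
`g ∈ Γ₀(N)` with bottom row `(c, d)`, `q ∤ c`, and a prime `l ∤ N q c`, `l ≡ 1 mod c`, with
`p ∣ ord_l (q ^ (2 k))` (`q ^ (2 k) ≡ 1 mod c`), one has `(T_l φ₁) g = 2 φ₁ g`.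
-/

set_option autoImplicit false
set_option linter.unusedSimpArgs false

namespace Fermat.Agent.S41

open CongruenceSubgroup Matrix.SpecialLinearGroup
open scoped MatrixGroups
open Fermat.Agent.S16

/-! ### Elements of `Γ₀(N)` by entries -/

/-- The matrix `[a b; c d]` of determinant one. -/
def h45_mkSL (a b c d : ℤ) (hdet : a * d - b * c = 1) : SL(2, ℤ) :=
  ⟨!![a, b; c, d], by rw [Matrix.det_fin_two_of]; exact hdet⟩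

/-- The matrix `[a b; c d]` of determinant one with `N ∣ c`, as an element of `Γ₀(N)`. -/
def h45_mk (N : ℕ) (a b c d : ℤ) (hdet : a * d - b * c = 1) (hc : (N : ℤ) ∣ c) : Gamma0 N :=
  ⟨h45_mkSL a b c d hdet, by
    rw [Gamma0_mem]
    exact (ZMod.intCast_zmod_eq_zero_iff_dvd c N).mpr hc⟩

section mk

variable {N : ℕ}

@[simp] theorem h45_mk_00 (a b c d : ℤ) (hdet : a * d - b * c = 1) (hc : (N : ℤ) ∣ c) :
    (h45_mk N a b c d hdet hc : SL(2, ℤ)) 0 0 = a := rfl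

@[simp] theorem h45_mk_01 (a b c d : ℤ) (hdet : a * d - b * c = 1) (hc : (N : ℤ) ∣ c) :
    (h45_mk N a b c d hdet hc : SL(2, ℤ)) 0 1 = b := rfl

@[simp] theorem h45_mk_10 (a b c d : ℤ) (hdet : a * d - b * c = 1) (hc : (N : ℤ) ∣ c) :
    (h45_mk N a b c d hdet hc : SL(2, ℤ)) 1 0 = c := rfl

@[simp] theorem h45_mk_11 (a b c d : ℤ) (hdet : a * d - b * c = 1) (hc : (N : ℤ) ∣ c) :
    (h45_mk N a b c d hdet hc : SL(2, ℤ)) 1 1 = d := rfl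

theorem h45_ext {γ δ : Gamma0 N} (h00 : (γ : SL(2, ℤ)) 0 0 = (δ : SL(2, ℤ)) 0 0)
    (h01 : (γ : SL(2, ℤ)) 0 1 = (δ : SL(2, ℤ)) 0 1)
    (h10 : (γ : SL(2, ℤ)) 1 0 = (δ : SL(2, ℤ)) 1 0)
    (h11 : (γ : SL(2, ℤ)) 1 1 = (δ : SL(2, ℤ)) 1 1) : γ = δ := by
  apply Subtype.ext
  ext i j
  fin_cases i <;> fin_cases j <;> assumption

theorem h45_det (γ : Gamma0 N) :
    (γ : SL(2, ℤ)) 0 0 * (γ : SL(2, ℤ)) 1 1 - (γ : SL(2, ℤ)) 0 1 * (γ : SL(2, ℤ)) 1 0 = 1 :=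
  by
    have h := (γ : SL(2, ℤ)).2
    rw [Matrix.det_fin_two] at h
    exact h

theorem h45_dvd (γ : Gamma0 N) : (N : ℤ) ∣ (γ : SL(2, ℤ)) 1 0 :=
  (ZMod.intCast_zmod_eq_zero_iff_dvd _ _).mp (Gamma0_mem.mp γ.2)

theorem h45_mul_00 (γ δ : Gamma0 N) : ((γ * δ : Gamma0 N) : SL(2, ℤ)) 0 0 =
    (γ : SL(2, ℤ)) 0 0 * (δ : SL(2, ℤ)) 0 0 + (γ : SL(2, ℤ)) 0 1 * (δ : SL(2, ℤ)) 1 0 := by
  simp [Matrix.mul_apply, Fin.sum_univ_two]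

theorem h45_mul_01 (γ δ : Gamma0 N) : ((γ * δ : Gamma0 N) : SL(2, ℤ)) 0 1 =
    (γ : SL(2, ℤ)) 0 0 * (δ : SL(2, ℤ)) 0 1 + (γ : SL(2, ℤ)) 0 1 * (δ : SL(2, ℤ)) 1 1 := by
  simp [Matrix.mul_apply, Fin.sum_univ_two]

theorem h45_mul_10 (γ δ : Gamma0 N) : ((γ * δ : Gamma0 N) : SL(2, ℤ)) 1 0 =
    (γ : SL(2, ℤ)) 1 0 * (δ : SL(2, ℤ)) 0 0 + (γ : SL(2, ℤ)) 1 1 * (δ : SL(2, ℤ)) 1 0 := by
  simp [Matrix.mul_apply, Fin.sum_univ_two]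

theorem h45_mul_11 (γ δ : Gamma0 N) : ((γ * δ : Gamma0 N) : SL(2, ℤ)) 1 1 =
    (γ : SL(2, ℤ)) 1 0 * (δ : SL(2, ℤ)) 0 1 + (γ : SL(2, ℤ)) 1 1 * (δ : SL(2, ℤ)) 1 1 := by
  simp [Matrix.mul_apply, Fin.sum_univ_two]

end mk

/-! ### (a) Characters killing `[1 1; 0 1]` only depend on the bottom row -/

section row

variable {N : ℕ} {F : Type*} [AddCommGroup F]

@[simp] theorem h45_upper_00 (k : ℤ) : (h30_upper N k : SL(2, ℤ)) 0 0 = 1 := rfl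
@[simp] theorem h45_upper_01 (k : ℤ) : (h30_upper N k : SL(2, ℤ)) 0 1 = k := rfl
@[simp] theorem h45_upper_10 (k : ℤ) : (h30_upper N k : SL(2, ℤ)) 1 0 = 0 := rfl
@[simp] theorem h45_upper_11 (k : ℤ) : (h30_upper N k : SL(2, ℤ)) 1 1 = 1 := rfl

theorem h45_upper_add (j k : ℤ) : h30_upper N (j + k) = h30_upper N j * h30_upper N k := by
  apply h45_ext
  · rw [h45_mul_00]; simp
  · rw [h45_mul_01]; simp [add_comm]
  · rw [h45_mul_10]; simp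
  · rw [h45_mul_11]; simp

theorem h45_upper_zero : h30_upper N 0 = 1 := by
  apply h45_ext <;> simp

/-- A character killing `[1 1; 0 1]` kills all `[1 k; 0 1]`. -/
theorem h45_phi_upper (φ : Additive (Gamma0 N) →+ F)
    (hT : φ (Additive.ofMul (h30_upper N 1)) = 0) (k : ℤ) :
    φ (Additive.ofMul (h30_upper N k)) = 0 := by
  induction k using Int.induction_on with
  | zero => rw [h45_upper_zero]; exact map_zero φ
  | succ i ih => rw [h45_upper_add, ofMul_mul, map_add, ih, hT, add_zero]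
  | pred i ih =>
    have h : h30_upper N (-(i : ℤ)) = h30_upper N (-(i : ℤ) - 1) * h30_upper N 1 := by
      rw [← h45_upper_add]; congr 1; ring
    rw [h, ofMul_mul, map_add, hT, add_zero] at ih
    exact ih

/-- Two elements with the same bottom-left entry `c` and bottom-right entries congruent
modulo `c` have the same value. -/
theorem h45_phi_eq_of_row (φ : Additive (Gamma0 N) →+ F)
    (hT : φ (Additive.ofMul (h30_upper N 1)) = 0) {γ γ' : Gamma0 N}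
    (h10 : (γ' : SL(2, ℤ)) 1 0 = (γ : SL(2, ℤ)) 1 0)
    (h11 : (γ : SL(2, ℤ)) 1 0 ∣ (γ' : SL(2, ℤ)) 1 1 - (γ : SL(2, ℤ)) 1 1) :
    φ (Additive.ofMul γ') = φ (Additive.ofMul γ) := by
  obtain ⟨s, hs⟩ := h11
  have hd := h45_det γ
  have hd' := h45_det γ'
  rw [h10] at hd'
  -- `γ' = [1 t; 0 1] * γ * [1 s; 0 1]` with `t = b' * a - a' * (b + a * s)`
  have key : γ' = h30_upper N ((γ' : SL(2, ℤ)) 0 1 * (γ : SL(2, ℤ)) 0 0 -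
      (γ' : SL(2, ℤ)) 0 0 * ((γ : SL(2, ℤ)) 0 1 + (γ : SL(2, ℤ)) 0 0 * s)) *
      (γ * h30_upper N s) := by
    apply h45_ext
    · simp only [h45_mul_00, h45_mul_01, h45_mul_10, h45_mul_11, h45_upper_00, h45_upper_01,
        h45_upper_10, h45_upper_11]
      linear_combination (-(γ' : SL(2, ℤ)) 0 0) * hd + (γ : SL(2, ℤ)) 0 0 * hd' -
        ((γ : SL(2, ℤ)) 0 0 * (γ' : SL(2, ℤ)) 0 0) * hs
    · simp only [h45_mul_00, h45_mul_01, h45_mul_10, h45_mul_11, h45_upper_00, h45_upper_01,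
        h45_upper_10, h45_upper_11]
      linear_combination (-(γ' : SL(2, ℤ)) 0 1) * hd +
        ((γ : SL(2, ℤ)) 0 1 + (γ : SL(2, ℤ)) 0 0 * s) * hd' -
        ((γ' : SL(2, ℤ)) 0 0 * ((γ : SL(2, ℤ)) 0 1 + (γ : SL(2, ℤ)) 0 0 * s)) * hs
    · simp only [h45_mul_00, h45_mul_01, h45_mul_10, h45_mul_11, h45_upper_00, h45_upper_01,
        h45_upper_10, h45_upper_11]
      rw [h10]
      ring
    · simp only [h45_mul_00, h45_mul_01, h45_mul_10, h45_mul_11, h45_upper_00, h45_upper_01,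
        h45_upper_10, h45_upper_11]
      linear_combination hs
  rw [key, ofMul_mul, ofMul_mul, map_add, map_add, h45_phi_upper φ hT, h45_phi_upper φ hT,
    zero_add, add_zero]

end row

/-! ### (b) The unit translation `[C; q² D] = [C; D] - 2 σ` -/

section unit

variable {N : ℕ} {F : Type*} [AddCommGroup F]

/-- The kernel relation: `φ₁ v + φ₂ (δ v δ⁻¹) = 0` for `v ∈ Γ₀(N q)`, `δ = diag(q, 1)`, written
entrywise (`w = δ v δ⁻¹ = [a, q b; c / q, d]`). -/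
def h45_K (N q : ℕ) (φ₁ φ₂ : Additive (Gamma0 N) →+ F) : Prop :=
  ∀ v w : Gamma0 N, (w : SL(2, ℤ)) 0 0 = (v : SL(2, ℤ)) 0 0 →
    (w : SL(2, ℤ)) 0 1 = q * (v : SL(2, ℤ)) 0 1 →
    q * (w : SL(2, ℤ)) 1 0 = (v : SL(2, ℤ)) 1 0 →
    (w : SL(2, ℤ)) 1 1 = (v : SL(2, ℤ)) 1 1 →
    φ₁ (Additive.ofMul v) + φ₂ (Additive.ofMul w) = 0

theorem h45_core {q : ℕ} {φ₁ φ₂ : Additive (Gamma0 N) →+ F} (hK : h45_K N q φ₁ φ₂)
    (b₀ d₀ : ℤ) (hr : (q : ℤ) * d₀ - b₀ * N = 1)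
    (a₂ b₁ C D : ℤ) (hdet : (q : ℤ) ^ 2 * a₂ * D - b₁ * C = 1) (hC : (N : ℤ) ∣ C)
    (hdet'' : a₂ * ((q : ℤ) ^ 2 * D) - b₁ * C = 1)
    (hy₀ : d₀ * (q : ℤ) * 1 - (-b₀) * (-(N : ℤ)) = 1) :
    φ₁ (Additive.ofMul (h45_mk N a₂ b₁ C ((q : ℤ) ^ 2 * D) hdet'' hC)) =
      φ₁ (Additive.ofMul (h45_mk N ((q : ℤ) ^ 2 * a₂) b₁ C D hdet hC)) -
        2 • (φ₁ (Additive.ofMul (h45_mk N q b₀ N d₀ hr dvd_rfl)) -
          φ₂ (Additive.ofMul (h45_mk N (d₀ * q) (-b₀) (-(N : ℤ)) 1 hy₀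
            (dvd_neg.mpr dvd_rfl)))) := by
  set x := h45_mk N q b₀ N d₀ hr dvd_rfl with hx
  set y₀ := h45_mk N (d₀ * q) (-b₀) (-(N : ℤ)) 1 hy₀ (dvd_neg.mpr dvd_rfl) with hy₀'
  set γ₁ := h45_mk N ((q : ℤ) ^ 2 * a₂) b₁ C D hdet hC with hγ₁
  set γ₂ := h45_mk N a₂ b₁ C ((q : ℤ) ^ 2 * D) hdet'' hC with hγ₂
  obtain ⟨C', rfl⟩ := hC
  -- `z = x⁻¹ γ₁`
  have hzdet : (d₀ * ((q : ℤ) ^ 2 * a₂) - b₀ * (N * C')) * (-(N : ℤ) * b₁ + q * D) -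
      (d₀ * b₁ - b₀ * D) * (-(N : ℤ) * ((q : ℤ) ^ 2 * a₂) + q * (N * C')) = 1 := by
    linear_combination ((q : ℤ) ^ 2 * a₂ * D - b₁ * (N * C')) * hr + hdet
  have hzdvd : (N : ℤ) ∣ -(N : ℤ) * ((q : ℤ) ^ 2 * a₂) + q * (N * C') :=
    ⟨-((q : ℤ) ^ 2 * a₂) + q * C', by ring⟩
  set z := h45_mk N (d₀ * ((q : ℤ) ^ 2 * a₂) - b₀ * (N * C')) (d₀ * b₁ - b₀ * D)
    (-(N : ℤ) * ((q : ℤ) ^ 2 * a₂) + q * (N * C')) (-(N : ℤ) * b₁ + q * D) hzdet hzdvd with hz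
  have hxz : x * z = γ₁ := by
    apply h45_ext
    · rw [h45_mul_00]; simp only [hx, hz, hγ₁, h45_mk_00, h45_mk_01, h45_mk_10, h45_mk_11]
      linear_combination ((q : ℤ) ^ 2 * a₂) * hr
    · rw [h45_mul_01]; simp only [hx, hz, hγ₁, h45_mk_00, h45_mk_01, h45_mk_10, h45_mk_11]
      linear_combination b₁ * hr
    · rw [h45_mul_10]; simp only [hx, hz, hγ₁, h45_mk_00, h45_mk_01, h45_mk_10, h45_mk_11]
      linear_combination (N * C') * hr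
    · rw [h45_mul_11]; simp only [hx, hz, hγ₁, h45_mk_00, h45_mk_01, h45_mk_10, h45_mk_11]
      linear_combination D * hr
  -- `zδ`
  have hzδdet : (d₀ * ((q : ℤ) ^ 2 * a₂) - b₀ * (N * C')) * (-(N : ℤ) * b₁ + q * D) -
      (q * (d₀ * b₁ - b₀ * D)) * (-(N : ℤ) * (q * a₂) + N * C') = 1 := by
    linear_combination hzdet
  have hzδdvd : (N : ℤ) ∣ -(N : ℤ) * (q * a₂) + N * C' := ⟨-(q * a₂) + C', by ring⟩
  set zδ := h45_mk N (d₀ * ((q : ℤ) ^ 2 * a₂) - b₀ * (N * C')) (q * (d₀ * b₁ - b₀ * D))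
    (-(N : ℤ) * (q * a₂) + N * C') (-(N : ℤ) * b₁ + q * D) hzδdet hzδdvd with hzδ
  have hKz : φ₁ (Additive.ofMul z) + φ₂ (Additive.ofMul zδ) = 0 := by
    apply hK z zδ
    · simp only [hz, hzδ, h45_mk_00]
    · simp only [hz, hzδ, h45_mk_01]
    · simp only [hz, hzδ, h45_mk_10]; ring
    · simp only [hz, hzδ, h45_mk_11]
  -- `vδ`, `v = γ₂ x`
  have hvδdet : (a₂ * q + b₁ * N) * (N * C' * b₀ + (q : ℤ) ^ 2 * D * d₀) -
      (q * (a₂ * b₀ + b₁ * d₀)) * (N * C' + q * D * N) = 1 := by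
    linear_combination ((q : ℤ) ^ 2 * a₂ * D - b₁ * (N * C')) * hr + hdet
  have hvδdvd : (N : ℤ) ∣ N * C' + q * D * N := ⟨C' + q * D, by ring⟩
  set vδ := h45_mk N (a₂ * q + b₁ * N) (q * (a₂ * b₀ + b₁ * d₀)) (N * C' + q * D * N)
    (N * C' * b₀ + (q : ℤ) ^ 2 * D * d₀) hvδdet hvδdvd with hvδ
  have hKv : φ₁ (Additive.ofMul (γ₂ * x)) + φ₂ (Additive.ofMul vδ) = 0 := by
    apply hK (γ₂ * x) vδ
    · rw [h45_mul_00]; simp only [hx, hγ₂, hvδ, h45_mk_00, h45_mk_01, h45_mk_10, h45_mk_11]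
    · rw [h45_mul_01]; simp only [hx, hγ₂, hvδ, h45_mk_00, h45_mk_01, h45_mk_10, h45_mk_11]
    · rw [h45_mul_10]; simp only [hx, hγ₂, hvδ, h45_mk_00, h45_mk_01, h45_mk_10, h45_mk_11]
      ring
    · rw [h45_mul_11]; simp only [hx, hγ₂, hvδ, h45_mk_00, h45_mk_01, h45_mk_10, h45_mk_11]
  have hy : y₀ * vδ * y₀ = zδ := by
    apply h45_ext
    · rw [h45_mul_00, h45_mul_00, h45_mul_01]
      simp only [hy₀', hvδ, hzδ, h45_mk_00, h45_mk_01, h45_mk_10, h45_mk_11]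
      linear_combination (d₀ * ((q : ℤ) ^ 2 * a₂) - b₀ * (N * C')) * hr
    · rw [h45_mul_01, h45_mul_00, h45_mul_01]
      simp only [hy₀', hvδ, hzδ, h45_mk_00, h45_mk_01, h45_mk_10, h45_mk_11]
      linear_combination (q * (d₀ * b₁ - b₀ * D)) * hr
    · rw [h45_mul_10, h45_mul_10, h45_mul_11]
      simp only [hy₀', hvδ, hzδ, h45_mk_00, h45_mk_01, h45_mk_10, h45_mk_11]
      linear_combination (-(N : ℤ) * (q * a₂) + N * C') * hr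
    · rw [h45_mul_11, h45_mul_10, h45_mul_11]
      simp only [hy₀', hvδ, hzδ, h45_mk_00, h45_mk_01, h45_mk_10, h45_mk_11]
      linear_combination (-(N : ℤ) * b₁ + q * D) * hr
  have e1 : φ₁ (Additive.ofMul γ₂) + φ₁ (Additive.ofMul x) + φ₂ (Additive.ofMul vδ) = 0 := by
    rw [← map_add, ← ofMul_mul]; exact hKv
  have e2 : φ₁ (Additive.ofMul x) + φ₁ (Additive.ofMul z) = φ₁ (Additive.ofMul γ₁) := by
    rw [← map_add, ← ofMul_mul, hxz]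
  have e3 : φ₂ (Additive.ofMul zδ) =
      φ₂ (Additive.ofMul y₀) + φ₂ (Additive.ofMul vδ) + φ₂ (Additive.ofMul y₀) := by
    rw [← hy, ofMul_mul, ofMul_mul, map_add, map_add]
  have e4 : φ₁ (Additive.ofMul γ₂) = φ₁ (Additive.ofMul γ₁) - 2 • (φ₁ (Additive.ofMul x) -
      φ₂ (Additive.ofMul y₀)) + ((φ₁ (Additive.ofMul γ₂) + φ₁ (Additive.ofMul x) +
        φ₂ (Additive.ofMul vδ)) - (φ₁ (Additive.ofMul z) + φ₂ (Additive.ofMul zδ))) := by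
    rw [← e2, e3]; abel
  rw [e1, hKz, sub_zero, add_zero] at e4
  exact e4

/-- An element of `Γ₀(N)` with prescribed coprime bottom row. -/
theorem h45_exists_row (C D : ℤ) (hC : (N : ℤ) ∣ C) (h : IsCoprime C D) :
    ∃ γ : Gamma0 N, (γ : SL(2, ℤ)) 1 0 = C ∧ (γ : SL(2, ℤ)) 1 1 = D := by
  obtain ⟨u, v, huv⟩ := h
  exact ⟨h45_mk N v (-u) C D (by linear_combination huv) hC, rfl, rfl⟩

theorem h45_isCoprime_row (γ : Gamma0 N) :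
    IsCoprime ((γ : SL(2, ℤ)) 1 0) ((γ : SL(2, ℤ)) 1 1) :=
  ⟨-(γ : SL(2, ℤ)) 0 1, (γ : SL(2, ℤ)) 0 0, by linear_combination h45_det γ⟩

/-- The constant `σ` of the unit translation exists. -/
theorem h45_unit_translate {q : ℕ} (hqN : Nat.Coprime q N) {φ₁ φ₂ : Additive (Gamma0 N) →+ F}
    (hT : φ₁ (Additive.ofMul (h30_upper N 1)) = 0) (hK : h45_K N q φ₁ φ₂) :
    ∃ σ : F, ∀ γ γ' : Gamma0 N, IsCoprime (q : ℤ) ((γ : SL(2, ℤ)) 1 0) →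
      (γ' : SL(2, ℤ)) 1 0 = (γ : SL(2, ℤ)) 1 0 →
      (γ : SL(2, ℤ)) 1 0 ∣ (γ' : SL(2, ℤ)) 1 1 - (q : ℤ) ^ 2 * (γ : SL(2, ℤ)) 1 1 →
      φ₁ (Additive.ofMul γ') = φ₁ (Additive.ofMul γ) - 2 • σ := by
  have hb : (q : ℤ) * (Nat.gcdA q N) - (-(Nat.gcdB q N)) * N = 1 := by
    have h := Nat.gcd_eq_gcd_ab q N
    rw [hqN] at h
    push_cast at h
    linear_combination -h
  set d₀ : ℤ := Nat.gcdA q N
  set b₀ : ℤ := -(Nat.gcdB q N)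
  have hy₀ : d₀ * (q : ℤ) * 1 - (-b₀) * (-(N : ℤ)) = 1 := by linear_combination hb
  refine ⟨φ₁ (Additive.ofMul (h45_mk N q b₀ N d₀ hb dvd_rfl)) -
    φ₂ (Additive.ofMul (h45_mk N (d₀ * q) (-b₀) (-(N : ℤ)) 1 hy₀ (dvd_neg.mpr dvd_rfl))), ?_⟩
  intro γ γ' hq h10 h11
  have hdet := h45_det γ
  have hq2 : IsCoprime ((q : ℤ) ^ 2) ((γ : SL(2, ℤ)) 1 0) := hq.pow_left
  obtain ⟨u, v, huv⟩ := hq2
  -- replace the top row of `γ` so that the top-left entry is `q² * a₂`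
  have hdet1 : (q : ℤ) ^ 2 * ((γ : SL(2, ℤ)) 0 0 * u) * (γ : SL(2, ℤ)) 1 1 -
      ((γ : SL(2, ℤ)) 0 1 - (γ : SL(2, ℤ)) 0 0 * v * (γ : SL(2, ℤ)) 1 1) *
        (γ : SL(2, ℤ)) 1 0 = 1 := by
    linear_combination ((γ : SL(2, ℤ)) 0 0 * (γ : SL(2, ℤ)) 1 1) * huv + hdet
  have hdet2 : ((γ : SL(2, ℤ)) 0 0 * u) * ((q : ℤ) ^ 2 * (γ : SL(2, ℤ)) 1 1) -
      ((γ : SL(2, ℤ)) 0 1 - (γ : SL(2, ℤ)) 0 0 * v * (γ : SL(2, ℤ)) 1 1) *
        (γ : SL(2, ℤ)) 1 0 = 1 := by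
    linear_combination hdet1
  have hcore := h45_core hK b₀ d₀ hb ((γ : SL(2, ℤ)) 0 0 * u)
    ((γ : SL(2, ℤ)) 0 1 - (γ : SL(2, ℤ)) 0 0 * v * (γ : SL(2, ℤ)) 1 1) ((γ : SL(2, ℤ)) 1 0)
    ((γ : SL(2, ℤ)) 1 1) hdet1 (h45_dvd γ) hdet2 hy₀
  have e1 : φ₁ (Additive.ofMul (h45_mk N ((q : ℤ) ^ 2 * ((γ : SL(2, ℤ)) 0 0 * u))
      ((γ : SL(2, ℤ)) 0 1 - (γ : SL(2, ℤ)) 0 0 * v * (γ : SL(2, ℤ)) 1 1) ((γ : SL(2, ℤ)) 1 0)
      ((γ : SL(2, ℤ)) 1 1) hdet1 (h45_dvd γ))) = φ₁ (Additive.ofMul γ) := by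
    apply h45_phi_eq_of_row φ₁ hT
    · simp only [h45_mk_10]
    · simp only [h45_mk_11, sub_self, dvd_zero]
  have e2 : φ₁ (Additive.ofMul γ') = φ₁ (Additive.ofMul (h45_mk N ((γ : SL(2, ℤ)) 0 0 * u)
      ((γ : SL(2, ℤ)) 0 1 - (γ : SL(2, ℤ)) 0 0 * v * (γ : SL(2, ℤ)) 1 1) ((γ : SL(2, ℤ)) 1 0)
      ((q : ℤ) ^ 2 * (γ : SL(2, ℤ)) 1 1) hdet2 (h45_dvd γ))) := by
    apply h45_phi_eq_of_row φ₁ hT
    · simp only [h45_mk_10]; exact h10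
    · simp only [h45_mk_10, h45_mk_11]; exact h11
  rw [e2, hcore, e1]

/-- The `k`-fold unit translation: `[C; q^(2k) D] = [C; D] - 2 k σ`. -/
theorem h45_unit_translate_pow {q : ℕ} {φ₁ : Additive (Gamma0 N) →+ F}
    (hT : φ₁ (Additive.ofMul (h30_upper N 1)) = 0) (σ : F)
    (hσ : ∀ γ γ' : Gamma0 N, IsCoprime (q : ℤ) ((γ : SL(2, ℤ)) 1 0) →
      (γ' : SL(2, ℤ)) 1 0 = (γ : SL(2, ℤ)) 1 0 →
      (γ : SL(2, ℤ)) 1 0 ∣ (γ' : SL(2, ℤ)) 1 1 - (q : ℤ) ^ 2 * (γ : SL(2, ℤ)) 1 1 →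
      φ₁ (Additive.ofMul γ') = φ₁ (Additive.ofMul γ) - 2 • σ) (k : ℕ) :
    ∀ γ γ' : Gamma0 N, IsCoprime (q : ℤ) ((γ : SL(2, ℤ)) 1 0) →
      (γ' : SL(2, ℤ)) 1 0 = (γ : SL(2, ℤ)) 1 0 →
      (γ : SL(2, ℤ)) 1 0 ∣ (γ' : SL(2, ℤ)) 1 1 - (q : ℤ) ^ (2 * k) * (γ : SL(2, ℤ)) 1 1 →
      φ₁ (Additive.ofMul γ') = φ₁ (Additive.ofMul γ) - 2 • (k • σ) := by
  induction k with
  | zero =>
    intro γ γ' _ h10 h11
    rw [zero_smul, smul_zero, sub_zero]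
    apply h45_phi_eq_of_row φ₁ hT h10
    simpa using h11
  | succ k ih =>
    intro γ γ' hq h10 h11
    -- an intermediate element with bottom row `(C, q^(2k) D)`
    have hcop : IsCoprime ((γ : SL(2, ℤ)) 1 0) ((q : ℤ) ^ (2 * k) * (γ : SL(2, ℤ)) 1 1) :=
      IsCoprime.mul_right hq.symm.pow_right (h45_isCoprime_row γ)
    obtain ⟨γm, hm10, hm11⟩ := h45_exists_row (N := N) _ _ (h45_dvd γ) hcop
    have h1 := ih γ γm hq hm10 (by rw [hm11, sub_self]; exact dvd_zero _)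
    have h2 := hσ γm γ' (by rw [hm10]; exact hq) (by rw [hm10]; exact h10) (by
      rw [hm10, hm11]
      have : (q : ℤ) ^ 2 * ((q : ℤ) ^ (2 * k) * (γ : SL(2, ℤ)) 1 1) =
          (q : ℤ) ^ (2 * (k + 1)) * (γ : SL(2, ℤ)) 1 1 := by ring
      rw [this]; exact h11)
    rw [h2, h1, add_smul, one_smul, smul_add]
    abel

end unit

end Fermat.Agent.S41
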