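/-
S41 block (A*), row S41-A3 (helper61): two Mathlib-only lemmas used by the averaging
argument for Ihara's lemma.

* `h61_orbit_sum`: if `Ψ (u * t) = Ψ t - 2 • s` on a finite commutative group and the order of
  `u` is divisible by `p`, where `p` kills the coefficient group, then `∑ t, Ψ t = 0`.
* `h61_order_arith`: if `p ^ (v_p(2k) + 1) ∣ l - 1` and `q` is not a `p`-th power mod `l`,
  then `p` divides the order of `q ^ (2k)` mod `l`.
-/
import Mathlib

set_option autoImplicit false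

namespace Fermat.Agent.S41

/-- Values along a `u`-orbit. -/
theorem h61_orbit_step {G : Type*} [CommGroup G] {F : Type*} [AddCommGroup F]
    (u : G) (Ψ : G → F) (s : F) (hΨ : ∀ t, Ψ (u * t) = Ψ t - 2 • s) (t : G) (i : ℕ) :
    Ψ (u ^ i * t) = Ψ t - (2 * i) • s := by
  induction i with
  | zero => simp
  | succ i ih =>
    rw [pow_succ', mul_assoc, hΨ, ih, mul_add, add_smul, mul_one]
    abel

/-- Sum over one orbit vanishes. -/
theorem h61_orbit_sum_one {G : Type*} [CommGroup G] {F : Type*} [AddCommGroup F]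
    (p : ℕ) (hp : ∀ x : F, p • x = 0) (u : G) (hu : p ∣ orderOf u) (Ψ : G → F) (s : F)
    (hΨ : ∀ t, Ψ (u * t) = Ψ t - 2 • s) (t : G) :
    ∑ i ∈ Finset.range (orderOf u), Ψ (u ^ i * t) = 0 := by
  have hm : ∀ x : F, orderOf u • x = 0 := by
    intro x
    obtain ⟨c, hc⟩ := hu
    rw [hc, mul_comm, mul_smul, hp, smul_zero]
  simp_rw [h61_orbit_step u Ψ s hΨ t]
  rw [Finset.sum_sub_distrib, Finset.sum_const, Finset.card_range, hm, zero_sub, neg_eq_zero,
    ← Finset.sum_smul, ← Finset.mul_sum, mul_comm, Finset.sum_range_id_mul_two, mul_smul, hm]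

theorem h61_orbit_sum {G : Type*} [CommGroup G] [Fintype G] {F : Type*} [AddCommGroup F]
    (p : ℕ) (hp : ∀ x : F, p • x = 0) (u : G) (hu : p ∣ orderOf u) (Ψ : G → F) (s : F)
    (hΨ : ∀ t, Ψ (u * t) = Ψ t - 2 • s) : ∑ t, Ψ t = 0 := by
  classical
  set H : Subgroup G := Subgroup.zpowers u with hH
  rw [← Finset.sum_fiberwise (s := Finset.univ) (g := fun t : G => (QuotientGroup.mk t : G ⧸ H))
    (f := Ψ)]
  refine Finset.sum_eq_zero fun c _ => ?_
  induction c using QuotientGroup.induction_on with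
  | H t₀ =>
    have hset : (Finset.univ.filter fun t : G => (QuotientGroup.mk t : G ⧸ H) = (t₀ : G ⧸ H))
        = (Finset.range (orderOf u)).image (fun i => u ^ i * t₀) := by
      ext t
      simp only [Finset.mem_filter, Finset.mem_univ, true_and, Finset.mem_image,
        Finset.mem_range]
      rw [eq_comm, QuotientGroup.eq, hH, mem_zpowers_iff_mem_range_orderOf]
      simp only [Finset.mem_image, Finset.mem_range]
      constructor
      · rintro ⟨i, hi, h⟩
        refine ⟨i, hi, ?_⟩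
        rw [h, mul_comm, mul_inv_cancel_left]
      · rintro ⟨i, hi, h⟩
        refine ⟨i, hi, ?_⟩
        rw [← h, mul_comm, mul_inv_cancel_right]
    rw [hset, Finset.sum_image]
    · exact h61_orbit_sum_one p hp u hu Ψ s hΨ t₀
    · intro i hi j hj hij
      have hi' : i < orderOf u := by simpa using hi
      have hj' : j < orderOf u := by simpa using hj
      exact pow_injOn_Iio_orderOf hi' hj' (mul_right_cancel hij)

/-- If `g ∣ p ^ (e + 1) * n` and `p ^ (e + 1)` does not divide `g`, then `g ∣ p ^ e * n`. -/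
theorem h61_dvd_of_not_pow_dvd {p : ℕ} (hp : p.Prime) (e n g : ℕ) (h : g ∣ p ^ (e + 1) * n)
    (hng : ¬ p ^ (e + 1) ∣ g) : g ∣ p ^ e * n := by
  obtain ⟨g₁, g₂, hg₁, hg₂, hgg⟩ := (Nat.dvd_mul).1 h
  obtain ⟨a, ha, rfl⟩ := (Nat.dvd_prime_pow hp).1 hg₁
  have ha' : a ≤ e := by
    by_contra hcon
    have hae : a = e + 1 := by omega
    apply hng
    rw [← hgg, hae]
    exact dvd_mul_right _ _
  rw [← hgg]
  exact Nat.mul_dvd_mul (pow_dvd_pow p ha') hg₂

theorem h61_order_arith (p l q k : ℕ) [Fact p.Prime] [Fact l.Prime] (hk : 0 < k)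
    (hl : p ^ (padicValNat p (2 * k) + 1) ∣ l - 1)
    (hq : ∀ x : ZMod l, x ^ p ≠ (q : ZMod l)) :
    p ∣ orderOf ((q : ZMod l) ^ (2 * k)) := by
  have hp : p.Prime := Fact.out
  have hlp : l.Prime := Fact.out
  have hl2 := hlp.two_le
  set e := padicValNat p (2 * k) with he
  have hq0 : (q : ZMod l) ≠ 0 := by
    intro h0
    exact hq 0 (by rw [h0, zero_pow hp.ne_zero])
  by_contra hpm
  set m := orderOf ((q : ZMod l) ^ (2 * k)) with hm
  have h1 : (q : ZMod l) ^ (l - 1) = 1 := ZMod.pow_card_sub_one_eq_one hq0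
  have h2 : (q : ZMod l) ^ (2 * k * m) = 1 := by rw [pow_mul, hm, pow_orderOf_eq_one]
  set g := Nat.gcd (2 * k * m) (l - 1) with hg
  have h3 : (q : ZMod l) ^ g = 1 := pow_gcd_eq_one.mpr ⟨h2, h1⟩
  have hng : ¬ p ^ (e + 1) ∣ g := by
    intro hd
    have hd2 : p ^ (e + 1) ∣ 2 * k * m := hd.trans (Nat.gcd_dvd_left _ _)
    have hcop : Nat.Coprime (p ^ (e + 1)) m :=
      Nat.Coprime.pow_left _ ((Nat.Prime.coprime_iff_not_dvd hp).mpr hpm)
    have hd3 : p ^ (e + 1) ∣ 2 * k := hcop.dvd_of_dvd_mul_right hd2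
    exact pow_succ_padicValNat_not_dvd (by omega) hd3
  obtain ⟨n, hn⟩ := hl
  have hn0 : 0 < n := by
    rcases Nat.eq_zero_or_pos n with h | h
    · rw [h, mul_zero] at hn; omega
    · exact h
  have hgd : g ∣ p ^ e * n :=
    h61_dvd_of_not_pow_dvd hp e n g (hn ▸ Nat.gcd_dvd_right _ _) hng
  have h4 : (q : ZMod l) ^ (p ^ e * n) = 1 := by
    obtain ⟨c, hc⟩ := hgd
    rw [hc, pow_mul, h3, one_pow]
  -- `q` is a `p`-th power
  have hcyc : IsCyclic (ZMod l)ˣ := ZMod.isCyclic_units_prime hlp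
  obtain ⟨γ, hγ⟩ := IsCyclic.exists_generator (α := (ZMod l)ˣ)
  obtain ⟨j, hj⟩ : ∃ j : ℕ, γ ^ j = Units.mk0 (q : ZMod l) hq0 :=
    (mem_powers_iff_mem_zpowers.mpr (hγ _))
  have hord : orderOf γ = l - 1 := by
    rw [orderOf_eq_card_of_forall_mem_zpowers hγ, Nat.card_eq_fintype_card, ZMod.card_units]
  have h5 : γ ^ (j * (p ^ e * n)) = 1 := by
    rw [pow_mul, hj]
    apply Units.ext
    simpa using h4
  have h6 : p ^ (e + 1) * n ∣ j * (p ^ e * n) := by
    rw [← hn, ← hord]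
    exact orderOf_dvd_of_pow_eq_one h5
  have h7 : p ∣ j := by
    have h8 : p * (p ^ e * n) ∣ j * (p ^ e * n) := by
      have : p * (p ^ e * n) = p ^ (e + 1) * n := by ring
      rw [this]; exact h6
    exact Nat.dvd_of_mul_dvd_mul_right (Nat.mul_pos (pow_pos hp.pos e) hn0) h8
  obtain ⟨j', rfl⟩ := h7
  apply hq (((γ ^ j' : (ZMod l)ˣ) : ZMod l))
  have h9 : ((γ ^ (p * j') : (ZMod l)ˣ) : ZMod l) = (q : ZMod l) := by rw [hj]; rfl
  rw [← h9, mul_comm, pow_mul]
  simp

end Fermat.Agent.S41
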