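import Mathlib
import Fermat.Agent.S41.h45_IharaAvg
import Fermat.Agent.S41.h30_HeckeRows
import Fermat.Agent.S41.h61_OrbitSum

/-!
# S41, block (A*): assembly

`h45_ihara_avg`: under the kernel relation, `(T_l φ₁) g = 2 φ₁ g` for the primes `l` described
in `h45_IharaAvg.lean`; `h45_ihara_exists` / `h45_ihara_ap`: packaged forms for a nonzero class.
-/

set_option autoImplicit false
set_option linter.unusedSimpArgs false

namespace Fermat.Agent.S41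

open CongruenceSubgroup Matrix.SpecialLinearGroup
open scoped MatrixGroups
open Fermat.Agent.S16

variable {N : ℕ} {F : Type*} [AddCommGroup F]

/-- **(A\*)**: the averaging form of Ihara's lemma. -/
theorem h45_ihara_avg {q p : ℕ} (hqN : Nat.Coprime q N)
    {φ₁ φ₂ : Additive (Gamma0 N) →+ F}
    (hT : φ₁ (Additive.ofMul (h30_upper N 1)) = 0) (hK : h45_K N q φ₁ φ₂)
    (hpF : ∀ x : F, p • x = 0) (l : ℕ) [Fact l.Prime] (hlN : ¬ l ∣ N) (hlq : ¬ l ∣ q)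
    (g : Gamma0 N) (hqc : IsCoprime (q : ℤ) ((g : SL(2, ℤ)) 1 0))
    (hl1 : (g : SL(2, ℤ)) 1 0 ∣ (l : ℤ) - 1) (k : ℕ)
    (hk : (g : SL(2, ℤ)) 1 0 ∣ (q : ℤ) ^ (2 * k) - 1)
    (hord : p ∣ orderOf ((q : ZMod l) ^ (2 * k))) :
    h30_heckeT N l hlN φ₁ (Additive.ofMul g) = 2 • φ₁ (Additive.ofMul g) := by
  have hl : l.Prime := Fact.out
  have hlZ : Prime (l : ℤ) := Nat.prime_iff_prime_int.mp hl
  -- `l ∤ c`
  have hlc : ¬ (l : ℤ) ∣ (g : SL(2, ℤ)) 1 0 := by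
    intro h
    have h1 : (l : ℤ) ∣ (l : ℤ) - 1 := h.trans hl1
    have h2 : (l : ℤ) ∣ 1 := by
      have := dvd_sub (dvd_refl (l : ℤ)) h1
      simpa using this
    exact hlZ.not_dvd_one h2
  have hcopl : IsCoprime (l : ℤ) ((g : SL(2, ℤ)) 1 0) :=
    (hlZ.irreducible.coprime_iff_not_dvd).mpr hlc
  have hql : IsCoprime (q : ℤ) (l : ℤ) :=
    (Nat.isCoprime_iff_coprime.mpr ((Nat.Prime.coprime_iff_not_dvd hl).mpr hlq)).symm
  obtain ⟨σ, hσ⟩ := h45_unit_translate hqN hT hK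
  obtain ⟨γA, γB, γ, hsum, hA10, hA11, hB10, hB11, hγ⟩ := h30_hecke_rows l hlN φ₁ g hlc
  -- the two special terms
  have eA : φ₁ (Additive.ofMul γA) = φ₁ (Additive.ofMul g) := by
    apply h45_phi_eq_of_row φ₁ hT hA10
    rw [hA11]
    have : (l : ℤ) * (g : SL(2, ℤ)) 1 1 - (g : SL(2, ℤ)) 1 1 =
        ((l : ℤ) - 1) * (g : SL(2, ℤ)) 1 1 := by ring
    rw [this]
    exact hl1.mul_right _
  have eB : φ₁ (Additive.ofMul γB) = φ₁ (Additive.ofMul g) := by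
    apply h45_phi_eq_of_row φ₁ hT hB10
    have : (γB : SL(2, ℤ)) 1 1 - (g : SL(2, ℤ)) 1 1 =
        ((l : ℤ) * (γB : SL(2, ℤ)) 1 1 - (g : SL(2, ℤ)) 1 1) -
          ((l : ℤ) - 1) * (γB : SL(2, ℤ)) 1 1 := by ring
    rw [this]
    exact dvd_sub hB11 (hl1.mul_right _)
  -- the unit `u = q ^ (2 k)`
  have hq0 : (q : ZMod l) ≠ 0 := by
    rw [Ne, ZMod.natCast_eq_zero_iff]; exact hlq
  set u : (ZMod l)ˣ := (Units.mk0 (q : ZMod l) hq0) ^ (2 * k) with hu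
  have huval : (u : ZMod l) = (q : ZMod l) ^ (2 * k) := by
    rw [hu, Units.val_pow_eq_pow_val, Units.val_mk0]
  have hou : p ∣ orderOf u := by
    rw [← orderOf_units, huval]; exact hord
  have hΨ : ∀ t : (ZMod l)ˣ, φ₁ (Additive.ofMul (γ (u * t))) =
      φ₁ (Additive.ofMul (γ t)) - 2 • (k • σ) := by
    intro t
    obtain ⟨ht10, ht11, htl⟩ := hγ t
    obtain ⟨hs10, hs11, hsl⟩ := hγ (u * t)
    apply h45_unit_translate_pow hT σ hσ k (γ t) (γ (u * t))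
    · rw [ht10]; exact IsCoprime.mul_right hql hqc
    · rw [hs10, ht10]
    · rw [ht10]
      apply IsCoprime.mul_dvd hcopl
      · rw [← ZMod.intCast_zmod_eq_zero_iff_dvd]
        push_cast
        rw [hsl, htl, Units.val_mul, huval]
        ring
      · have : ((γ (u * t) : Gamma0 N) : SL(2, ℤ)) 1 1 -
            (q : ℤ) ^ (2 * k) * ((γ t : Gamma0 N) : SL(2, ℤ)) 1 1 =
            (((γ (u * t) : Gamma0 N) : SL(2, ℤ)) 1 1 - (g : SL(2, ℤ)) 1 1) -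
              (q : ℤ) ^ (2 * k) * (((γ t : Gamma0 N) : SL(2, ℤ)) 1 1 - (g : SL(2, ℤ)) 1 1) -
              ((q : ℤ) ^ (2 * k) - 1) * (g : SL(2, ℤ)) 1 1 := by ring
        rw [this]
        exact dvd_sub (dvd_sub hs11 (ht11.mul_left _)) (hk.mul_right _)
  have hsum0 : ∑ t, φ₁ (Additive.ofMul (γ t)) = 0 :=
    h61_orbit_sum p hpF u hou (fun t => φ₁ (Additive.ofMul (γ t))) (k • σ) hΨ
  rw [hsum, eA, eB, hsum0, add_zero, two_nsmul]

/-- If `φ₁ ≠ 0` then `φ₁` is nonzero at some element whose lower-left entry is prime to `q`. -/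
theorem h45_exists_good {q : ℕ} (hq : q.Prime) (hqN : ¬ q ∣ N)
    {φ₁ : Additive (Gamma0 N) →+ F} (hne : φ₁ ≠ 0) :
    ∃ g : Gamma0 N, φ₁ (Additive.ofMul g) ≠ 0 ∧ IsCoprime (q : ℤ) ((g : SL(2, ℤ)) 1 0) := by
  by_contra hcon
  push Not at hcon
  apply hne
  have hqZ : Prime (q : ℤ) := Nat.prime_iff_prime_int.mp hq
  have hqNZ : ¬ (q : ℤ) ∣ (N : ℤ) := by
    rw [Int.natCast_dvd_natCast]; exact hqN
  have key : ∀ g : Gamma0 N, ¬ (q : ℤ) ∣ (g : SL(2, ℤ)) 1 0 → φ₁ (Additive.ofMul g) = 0 := by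
    intro g hg
    by_contra h
    exact hg (by
      have := hcon g h
      rwa [hqZ.irreducible.coprime_iff_not_dvd, not_not] at this)
  set L : Gamma0 N := h45_mk N 1 0 N 1 (by ring) dvd_rfl with hL
  have hL0 : φ₁ (Additive.ofMul L) = 0 := key L (by simpa [hL] using hqNZ)
  refine AddMonoidHom.ext fun x => ?_
  obtain ⟨g, rfl⟩ := Additive.ofMul.surjective x
  rw [AddMonoidHom.zero_apply]
  by_cases hg : (q : ℤ) ∣ (g : SL(2, ℤ)) 1 0
  · have hgL : φ₁ (Additive.ofMul (g * L)) = 0 := by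
      apply key
      rw [h45_mul_10]
      simp only [hL, h45_mk_00, h45_mk_10, mul_one]
      intro h
      have h2 : (q : ℤ) ∣ (g : SL(2, ℤ)) 1 1 * N := (dvd_add_right hg).mp h
      rcases hqZ.dvd_or_dvd h2 with h3 | h3
      · have hdet := h45_det g
        have : (q : ℤ) ∣ 1 := by
          rw [← hdet]
          exact dvd_sub (h3.mul_left _) (hg.mul_left _)
        exact hqZ.not_dvd_one this
      · exact hqNZ h3
    rw [ofMul_mul, map_add, hL0, add_zero] at hgL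
    exact hgL
  · exact key g hg

/-- If `φ₁ = 0` in the kernel relation and `φ₂` kills `[1 1; 0 1]`, then `φ₂ = 0`. -/
theorem h45_phi2_zero {q : ℕ} (hq : q.Prime) {φ₁ φ₂ : Additive (Gamma0 N) →+ F}
    (hK : h45_K N q φ₁ φ₂) (h1 : φ₁ = 0)
    (hT₂ : φ₂ (Additive.ofMul (h30_upper N 1)) = 0) : φ₂ = 0 := by
  have hqZ : Prime (q : ℤ) := Nat.prime_iff_prime_int.mp hq
  -- `φ₂` vanishes on elements whose upper-right entry is divisible by `q`
  have key : ∀ w : Gamma0 N, (q : ℤ) ∣ (w : SL(2, ℤ)) 0 1 → φ₂ (Additive.ofMul w) = 0 := by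
    intro w hw
    obtain ⟨b, hb⟩ := hw
    have hdet := h45_det w
    have hv : (w : SL(2, ℤ)) 0 0 * (w : SL(2, ℤ)) 1 1 - b * ((q : ℤ) * (w : SL(2, ℤ)) 1 0) = 1 := by
      rw [hb] at hdet; linear_combination hdet
    have h := hK (h45_mk N ((w : SL(2, ℤ)) 0 0) b ((q : ℤ) * (w : SL(2, ℤ)) 1 0)
      ((w : SL(2, ℤ)) 1 1) hv ((h45_dvd w).mul_left _)) w (by simp) (by simpa using hb)
      (by simp) (by simp)
    rw [h1, AddMonoidHom.zero_apply, zero_add] at h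
    exact h
  -- solve `a' j + b' ≡ 0 mod q` when `q ∤ a'`
  have solve : ∀ a' b' : ℤ, ¬ (q : ℤ) ∣ a' → ∃ j : ℤ, (q : ℤ) ∣ a' * j + b' := by
    intro a' b' ha'
    obtain ⟨u, v, huv⟩ := (hqZ.irreducible.coprime_iff_not_dvd).mpr ha'
    exact ⟨-v * b', b' * u, by linear_combination (-b') * huv⟩
  refine AddMonoidHom.ext fun x => ?_
  obtain ⟨γ, rfl⟩ := Additive.ofMul.surjective x
  rw [AddMonoidHom.zero_apply]
  have hU := h45_phi_upper φ₂ hT₂
  by_cases ha : (q : ℤ) ∣ (γ : SL(2, ℤ)) 0 0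
  · -- then `q ∤ a + c`
    have hac : ¬ (q : ℤ) ∣ (γ : SL(2, ℤ)) 0 0 + (γ : SL(2, ℤ)) 1 0 := by
      intro h
      have hc : (q : ℤ) ∣ (γ : SL(2, ℤ)) 1 0 := (dvd_add_right ha).mp h
      have hdet := h45_det γ
      have : (q : ℤ) ∣ 1 := by
        rw [← hdet]
        exact dvd_sub (ha.mul_right _) (hc.mul_left _)
      exact hqZ.not_dvd_one this
    obtain ⟨j, hj⟩ := solve _ ((γ : SL(2, ℤ)) 0 1 + (γ : SL(2, ℤ)) 1 1) hac
    have h := key (h30_upper N 1 * γ * h30_upper N j) (by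
      rw [h45_mul_01, h45_mul_00, h45_mul_01]
      simp only [h45_upper_00, h45_upper_01, h45_upper_10, h45_upper_11]
      convert hj using 1
      ring)
    rw [ofMul_mul, ofMul_mul, map_add, map_add, hU, hU, add_zero, zero_add] at h
    exact h
  · obtain ⟨j, hj⟩ := solve _ ((γ : SL(2, ℤ)) 0 1) ha
    have h := key (γ * h30_upper N j) (by
      rw [h45_mul_01]
      simp only [h45_upper_00, h45_upper_01, h45_upper_10, h45_upper_11]
      convert hj using 1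
      ring)
    rw [ofMul_mul, map_add, hU, add_zero] at h
    exact h

/-- Packaged form of **(A\*)** for a nonzero class: there are `g` with `φ₁ g ≠ 0` and a modulus
`M` such that `(T_l φ₁) g = 2 φ₁ g` for every prime `l ∤ N`, `l ≡ 1 mod M`, modulo which `q` is
not a `p`-th power. -/
theorem h45_ihara_exists {q p : ℕ} (hq : q.Prime) (hqN : ¬ q ∣ N) [Fact p.Prime]
    (hpF : ∀ x : F, p • x = 0) {φ₁ φ₂ : Additive (Gamma0 N) →+ F}
    (hT : φ₁ (Additive.ofMul (h30_upper N 1)) = 0) (hK : h45_K N q φ₁ φ₂) (hne : φ₁ ≠ 0) :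
    ∃ (g : Gamma0 N) (M : ℕ), 0 < M ∧ φ₁ (Additive.ofMul g) ≠ 0 ∧
      ∀ (l : ℕ) [Fact l.Prime] (hlN : ¬ l ∣ N), M ∣ l - 1 →
        (∀ x : ZMod l, x ^ p ≠ (q : ZMod l)) →
        h30_heckeT N l hlN φ₁ (Additive.ofMul g) = 2 • φ₁ (Additive.ofMul g) := by
  have hp : p.Prime := Fact.out
  obtain ⟨g, hg, hqc⟩ := h45_exists_good hq hqN hne
  have hqZ : Prime (q : ℤ) := Nat.prime_iff_prime_int.mp hq
  -- `c ≠ 0`
  have hc0 : (g : SL(2, ℤ)) 1 0 ≠ 0 := by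
    intro h
    rw [h] at hqc
    have : IsUnit (q : ℤ) := isCoprime_zero_right.mp hqc
    exact hqZ.not_isUnit this
  set n : ℕ := ((g : SL(2, ℤ)) 1 0).natAbs with hn
  have hn0 : 0 < n := Int.natAbs_pos.mpr hc0
  have hqn : Nat.Coprime q n := by
    rw [hn]
    have := Int.isCoprime_iff_gcd_eq_one.mp hqc
    rw [Int.gcd_eq_natAbs, Int.natAbs_natCast] at this
    exact this
  set k : ℕ := Nat.totient n with hk
  have hk0 : 0 < k := Nat.totient_pos.mpr hn0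
  -- `c ∣ q ^ (2 k) - 1`
  have hkc : (g : SL(2, ℤ)) 1 0 ∣ (q : ℤ) ^ (2 * k) - 1 := by
    have h1 : q ^ k ≡ 1 [MOD n] := Nat.ModEq.pow_totient hqn
    have h2 : (q ^ k) ^ 2 ≡ 1 ^ 2 [MOD n] := h1.pow 2
    rw [← pow_mul, mul_comm, one_pow] at h2
    have h3 : ((q ^ (2 * k) : ℕ) : ℤ) ≡ ((1 : ℕ) : ℤ) [ZMOD (n : ℤ)] :=
      Int.natCast_modEq_iff.mpr h2
    have h4 : (n : ℤ) ∣ (q : ℤ) ^ (2 * k) - 1 := by
      have := h3.symm.dvd
      push_cast at this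
      exact this
    rw [hn] at h4
    exact Int.natAbs_dvd.mp h4
  refine ⟨g, n * p ^ (padicValNat p (2 * k) + 1), Nat.mul_pos hn0 (pow_pos hp.pos _), hg, ?_⟩
  intro l _ hlN hM hqp
  have hl : l.Prime := Fact.out
  have hlq : ¬ l ∣ q := by
    intro h
    have h0 : (q : ZMod l) = 0 := (ZMod.natCast_eq_zero_iff q l).mpr h
    exact hqp 0 (by rw [h0, zero_pow hp.ne_zero])
  have hl1 : (g : SL(2, ℤ)) 1 0 ∣ (l : ℤ) - 1 := by
    have h1 : n ∣ l - 1 := (dvd_mul_right _ _).trans hM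
    have h2 : (n : ℤ) ∣ ((l - 1 : ℕ) : ℤ) := Int.natCast_dvd_natCast.mpr h1
    rw [Nat.cast_sub hl.one_le, Nat.cast_one, hn] at h2
    exact Int.natAbs_dvd.mp h2
  have hord : p ∣ orderOf ((q : ZMod l) ^ (2 * k)) :=
    h61_order_arith p l q k hk0 ((dvd_mul_left _ _).trans hM) hqp
  exact h45_ihara_avg (hq.coprime_iff_not_dvd.mpr hqN) hT hK hpF l hlN hlq g hqc hl1 k hkc hord

/-- Integer-eigenvalue form: a nonzero class in the kernel with `T_l φ₁ = a_l φ₁` has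
`a_l ≡ 2 mod p` for all primes `l ∤ N`, `l ≡ 1 mod M`, modulo which `q` is not a `p`-th
power. -/
theorem h45_ihara_ap {q p : ℕ} (hq : q.Prime) (hqN : ¬ q ∣ N) [Fact p.Prime]
    (hpF : ∀ x : F, p • x = 0) {φ₁ φ₂ : Additive (Gamma0 N) →+ F}
    (hT : φ₁ (Additive.ofMul (h30_upper N 1)) = 0) (hK : h45_K N q φ₁ φ₂) (hne : φ₁ ≠ 0) :
    ∃ M : ℕ, 0 < M ∧ ∀ (l : ℕ) [Fact l.Prime] (hlN : ¬ l ∣ N), M ∣ l - 1 →
      (∀ x : ZMod l, x ^ p ≠ (q : ZMod l)) →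
      ∀ a : ℤ, h30_heckeT N l hlN φ₁ = a • φ₁ → (p : ℤ) ∣ a - 2 := by
  have hp : p.Prime := Fact.out
  have hpZ : Prime (p : ℤ) := Nat.prime_iff_prime_int.mp hp
  obtain ⟨g, M, hM, hg, h⟩ := h45_ihara_exists hq hqN hpF hT hK hne
  refine ⟨M, hM, ?_⟩
  intro l _ hlN hMl hqp a ha
  have h1 := h l hlN hMl hqp
  rw [ha, AddMonoidHom.smul_apply] at h1
  by_contra hpa
  obtain ⟨u, v, huv⟩ := (hpZ.irreducible.coprime_iff_not_dvd).mpr hpa
  apply hg
  have h2 : (a - 2) • φ₁ (Additive.ofMul g) = 0 := by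
    rw [sub_smul, h1, ofNat_zsmul, sub_self]
  calc φ₁ (Additive.ofMul g) = (1 : ℤ) • φ₁ (Additive.ofMul g) := (one_smul _ _).symm
    _ = (u * (p : ℤ) + v * (a - 2)) • φ₁ (Additive.ofMul g) := by rw [huv]
    _ = u • ((p : ℤ) • φ₁ (Additive.ofMul g)) + v • ((a - 2) • φ₁ (Additive.ofMul g)) := by
        rw [add_smul, mul_smul, mul_smul]
    _ = 0 := by
        rw [h2, smul_zero, add_zero, natCast_zsmul, hpF, smul_zero]

end Fermat.Agent.S41
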