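import Mathlib
import Fermat.Agent.S41.h45_IharaMain
import Fermat.Prelude.Def_ModularCurve_PeriodMap

/-!
# S41: IHARA-OUT (abstract forms)

A pair `(φ₁, φ₂)` of characters of `Γ₀(N)` with values in a group killed by `p`, both killing
`[1 1; 0 1]`, in the kernel relation, with `φ₁` a `T_l`-eigenvector with eigenvalues `a_l` for the
good primes, vanishes as soon as the eigen-system is not "Eisenstein on the Kummer set"
(for every `M` there is a good prime `l ≡ 1 mod M`, `q` not a `p`-th power mod `l`, with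
`a_l ≢ 2 mod p`).  Also: the lattice/reduction-mod-`p` dictionary.
-/

set_option autoImplicit false

namespace Fermat.Agent.S41

open CongruenceSubgroup Matrix.SpecialLinearGroup
open scoped MatrixGroups
open Fermat.Agent.S16

variable {N : ℕ}

/-- A parabolic character kills `[1 k; 0 1]`. -/
theorem h45_parabolic_upper {A : Type*} [AddCommGroup A] {φ : Additive (Gamma0 N) →+ A}
    (hφ : ModularCurve.Period.IsParabolicHom (Gamma0 N) φ) (k : ℤ) :
    φ (Additive.ofMul (h30_upper N k)) = 0 := by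
  apply hφ
  rw [Matrix.trace_fin_two]
  have h0 : ((h30_upper N k : Gamma0 N) : SL(2, ℤ)) 0 0 = 1 := h45_upper_00 k
  have h1 : ((h30_upper N k : Gamma0 N) : SL(2, ℤ)) 1 1 = 1 := h45_upper_11 k
  rw [h0, h1]
  norm_num

/-- **IHARA-OUT, abstract form.** -/
theorem h45_ihara_out {q p : ℕ} {F : Type*} [AddCommGroup F] (hq : q.Prime) (hqN : ¬ q ∣ N)
    [Fact p.Prime] (hpF : ∀ x : F, p • x = 0) {φ₁ φ₂ : Additive (Gamma0 N) →+ F}
    (hT₁ : φ₁ (Additive.ofMul (h30_upper N 1)) = 0)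
    (hT₂ : φ₂ (Additive.ofMul (h30_upper N 1)) = 0)
    (hK : h45_K N q φ₁ φ₂) (good : ℕ → Prop) (a : ℕ → ℤ)
    (heig : ∀ (l : ℕ) [Fact l.Prime] (hlN : ¬ l ∣ N), good l →
      h30_heckeT N l hlN φ₁ = a l • φ₁)
    (hNE : ∀ M : ℕ, 0 < M → ∃ l : ℕ, l.Prime ∧ ¬ l ∣ N ∧ good l ∧ M ∣ l - 1 ∧
      (∀ x : ZMod l, x ^ p ≠ (q : ZMod l)) ∧ ¬ (p : ℤ) ∣ a l - 2) :
    φ₁ = 0 ∧ φ₂ = 0 := by
  have h1 : φ₁ = 0 := by
    by_contra hne
    obtain ⟨M, hM, h⟩ := h45_ihara_ap hq hqN hpF hT₁ hK hne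
    obtain ⟨l, hl, hlN, hgood, hMl, hqp, hnd⟩ := hNE M hM
    have : Fact l.Prime := ⟨hl⟩
    exact hnd (h l hlN hMl hqp (a l) (heig l hlN hgood))
  exact ⟨h1, h45_phi2_zero hq hK h1 hT₂⟩

/-- The "not Eisenstein on the Kummer set" hypothesis in its existential form, from the
contradiction form (the shape proved on the Galois side). -/
theorem h45_exists_of_notEis {q p : ℕ} (good : ℕ → Prop) (a : ℕ → ℤ)
    (hNE : ∀ M : ℕ, 0 < M → (∀ l : ℕ, l.Prime → good l → M ∣ l - 1 →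
      (∀ x : ZMod l, x ^ p ≠ (q : ZMod l)) → (p : ℤ) ∣ a l - 2) → False)
    (M : ℕ) (hM : 0 < M) :
    ∃ l : ℕ, l.Prime ∧ good l ∧ M ∣ l - 1 ∧
      (∀ x : ZMod l, x ^ p ≠ (q : ZMod l)) ∧ ¬ (p : ℤ) ∣ a l - 2 := by
  by_contra hcon
  apply hNE M hM
  intro l hl hgood hMl hqp
  by_contra hnd
  exact hcon ⟨l, hl, hgood, hMl, hqp, hnd⟩

/-! ### Reduction modulo `p` of integral characters -/

section red

variable {Γ : Type*} [Group Γ] (p : ℕ)

/-- Reduction modulo `p` of an integer-valued character. -/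
def h45_red (φ : Additive Γ →+ ℤ) : Additive Γ →+ ZMod p :=
  (Int.castAddHom (ZMod p)).comp φ

@[simp] theorem h45_red_apply (φ : Additive Γ →+ ℤ) (x : Additive Γ) :
    h45_red p φ x = ((φ x : ℤ) : ZMod p) := rfl

theorem h45_red_add (φ ψ : Additive Γ →+ ℤ) : h45_red p (φ + ψ) = h45_red p φ + h45_red p ψ := by
  ext x
  simp

theorem h45_red_zsmul (n : ℤ) (φ : Additive Γ →+ ℤ) :
    h45_red p (n • φ) = n • h45_red p φ := by
  ext x
  simp

theorem h45_red_sub (φ ψ : Additive Γ →+ ℤ) : h45_red p (φ - ψ) = h45_red p φ - h45_red p ψ := by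
  ext x
  simp

theorem h45_red_nsmul_self (φ : Additive Γ →+ ℤ) : h45_red p (p • φ) = 0 := by
  ext x
  simp

/-- A character reducing to zero is `p` times a character (for `p ≠ 0`). -/
theorem h45_red_eq_zero_iff (hp : p ≠ 0) (φ : Additive Γ →+ ℤ) :
    h45_red p φ = 0 ↔ ∃ ψ : Additive Γ →+ ℤ, φ = p • ψ := by
  constructor
  · intro h
    have hdvd : ∀ x, (p : ℤ) ∣ φ x := by
      intro x
      have := congrArg (fun f : Additive Γ →+ ZMod p => f x) h
      simp only [h45_red_apply, AddMonoidHom.zero_apply] at this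
      exact (ZMod.intCast_zmod_eq_zero_iff_dvd _ _).mp this
    have hp' : (p : ℤ) ≠ 0 := by exact_mod_cast hp
    refine ⟨{ toFun := fun x => φ x / p
              map_zero' := by simp
              map_add' := ?_ }, ?_⟩
    · intro x y
      rw [map_add]
      exact Int.add_ediv_of_dvd_left (hdvd x)
    · refine AddMonoidHom.ext fun x => ?_
      show φ x = p • (φ x / (p : ℤ))
      rw [nsmul_eq_mul]
      exact (Int.mul_ediv_cancel' (hdvd x)).symm
  · rintro ⟨ψ, rfl⟩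
    exact h45_red_nsmul_self p ψ

theorem h45_red_smul_eq_zero (φ : Additive Γ →+ ℤ) (x : Additive Γ) :
    p • h45_red p φ x = 0 := by
  rw [nsmul_eq_mul]
  simp

end red

/-- Reduction modulo `p` commutes with the Hecke operators on characters of `Γ₀(N)`. -/
theorem h45_red_heckeT (p l : ℕ) [Fact l.Prime] (hlN : ¬ l ∣ N)
    (φ : Additive (Gamma0 N) →+ ℤ) :
    h30_heckeT N l hlN (h45_red p φ) = h45_red p (h30_heckeT N l hlN φ) :=
  h30_heckeT_comp l hlN (Int.castAddHom (ZMod p)) φ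

/-- **IHARA-OUT, integral form**: integral characters `φ₁, φ₂` of `Γ₀(N)` killing `[1 1; 0 1]`
whose reductions mod `p` are in the kernel relation, with `T_l φ₁ ≡ a_l φ₁ mod p` for the good
primes, are divisible by `p` when the eigen-system is not Eisenstein on the Kummer set. -/
theorem h45_ihara_out_int {q p : ℕ} (hq : q.Prime) (hqN : ¬ q ∣ N) [Fact p.Prime]
    {φ₁ φ₂ : Additive (Gamma0 N) →+ ℤ}
    (hT₁ : φ₁ (Additive.ofMul (h30_upper N 1)) = 0)
    (hT₂ : φ₂ (Additive.ofMul (h30_upper N 1)) = 0)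
    (hK : h45_K N q (h45_red p φ₁) (h45_red p φ₂)) (good : ℕ → Prop) (a : ℕ → ℤ)
    (heig : ∀ (l : ℕ) [Fact l.Prime] (hlN : ¬ l ∣ N), good l →
      ∃ ψ : Additive (Gamma0 N) →+ ℤ, h30_heckeT N l hlN φ₁ - a l • φ₁ = p • ψ)
    (hNE : ∀ M : ℕ, 0 < M → ∃ l : ℕ, l.Prime ∧ ¬ l ∣ N ∧ good l ∧ M ∣ l - 1 ∧
      (∀ x : ZMod l, x ^ p ≠ (q : ZMod l)) ∧ ¬ (p : ℤ) ∣ a l - 2) :
    (∃ ψ : Additive (Gamma0 N) →+ ℤ, φ₁ = p • ψ) ∧
      (∃ ψ : Additive (Gamma0 N) →+ ℤ, φ₂ = p • ψ) := by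
  have hp : p.Prime := Fact.out
  have key := h45_ihara_out (F := ZMod p) hq hqN (p := p)
    (fun x => by rw [nsmul_eq_mul]; simp)
    (φ₁ := h45_red p φ₁) (φ₂ := h45_red p φ₂)
    (by rw [h45_red_apply, hT₁]; simp) (by rw [h45_red_apply, hT₂]; simp) hK good a
    (by
      intro l _ hlN hgood
      obtain ⟨ψ, hψ⟩ := heig l hlN hgood
      have := congrArg (h45_red p) hψ
      rw [h45_red_sub, h45_red_zsmul, h45_red_nsmul_self, sub_eq_zero] at this
      rw [h45_red_heckeT]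
      exact this)
    hNE
  exact ⟨(h45_red_eq_zero_iff p hp.ne_zero φ₁).mp key.1,
    (h45_red_eq_zero_iff p hp.ne_zero φ₂).mp key.2⟩

end Fermat.Agent.S41
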