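import Fermat.Agent.S41.h30_LRDefs
import Fermat.Agent.S41.h45_IharaOut

/-!
# S41, block (D): the kernel of `α = res + W ∘ res` is helper45's kernel relation `h45_K`;
the classical Hecke operators preserve parabolic homomorphisms
-/

set_option autoImplicit false

namespace Fermat.Agent.S41

open CongruenceSubgroup Matrix.SpecialLinearGroup ModularCurve.Period
open scoped MatrixGroups
open Fermat.Agent.S16
open P2MW.S_ModularForm_heckeT_slash_eq_self_of_mem_Gamma0.ModularForm.HeckeSlashInvariance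

section Ker

variable {N q : ℕ} [Fact q.Prime] (hqN : ¬ q ∣ N) {A : Type*} [AddCommGroup A]

/-- `W (res φ) (γ) = φ (diag(q,1) γ diag(q,1)⁻¹)`. -/
theorem h30_W_res_apply (φ : Additive (Gamma0 N) →+ A) (γ : Gamma0 (N * q)) :
    h30_W N q hqN (h30_res N q φ) (Additive.ofMul γ) = φ (Additive.ofMul (h30_cj N q γ)) := by
  rw [h30_W_apply, h30_res_apply]
  have h1 : h30_incl N q (h30_wc N q (h30_coprime hqN) γ) =
      h30_tp N q (h30_coprime hqN) * h30_cj N q γ * (h30_tp N q (h30_coprime hqN))⁻¹ :=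
    Subtype.ext rfl
  rw [h1, ofMul_mul, ofMul_mul, ofMul_inv, map_add, map_add, map_neg]
  abel

/-- The second degeneracy map `W ∘ res` as composition with `h30_cj`. -/
theorem h30_alpha_apply (φ₁ φ₂ : Additive (Gamma0 N) →+ A) (γ : Gamma0 (N * q)) :
    (h30_res N q φ₁ + h30_W N q hqN (h30_res N q φ₂)) (Additive.ofMul γ) =
      φ₁ (Additive.ofMul (h30_incl N q γ)) + φ₂ (Additive.ofMul (h30_cj N q γ)) := by
  rw [AddMonoidHom.add_apply, h30_W_res_apply, h30_res_apply]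

/-- **KER bridge.** A pair in the kernel of `α = res + W ∘ res` satisfies the kernel relation
`h45_K` of the Ihara block. -/
theorem h30_K_of_ker (φ₁ φ₂ : Additive (Gamma0 N) →+ A)
    (h : h30_res N q φ₁ + h30_W N q hqN (h30_res N q φ₂) = 0) : h45_K N q φ₁ φ₂ := by
  intro v w h00 h01 h10 h11
  have hq0 : (q : ℤ) ≠ 0 := Nat.cast_ne_zero.mpr (NeZero.ne q)
  have hmem : (v : SL(2, ℤ)) ∈ Gamma0 (N * q) := by
    rw [h30_mem_Gamma0_iff]
    push_cast
    exact (h30_isCoprime_int N q hqN).mul_dvd (h30_dvd_of_mem v) ⟨_, h10.symm⟩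
  have hcj : h30_cj N q ⟨(v : SL(2, ℤ)), hmem⟩ = w := by
    apply h45_ext
    · exact h00.symm
    · exact h01.symm
    · show (v : SL(2, ℤ)) 1 0 / (q : ℤ) = (w : SL(2, ℤ)) 1 0
      rw [← h10, Int.mul_ediv_cancel_left _ hq0]
    · exact h11.symm
  have h2 := h30_alpha_apply hqN φ₁ φ₂ ⟨(v : SL(2, ℤ)), hmem⟩
  rw [h, AddMonoidHom.zero_apply, hcj] at h2
  exact h2.symm

/-- The converse. -/
theorem h30_ker_of_K (φ₁ φ₂ : Additive (Gamma0 N) →+ A) (h : h45_K N q φ₁ φ₂) :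
    h30_res N q φ₁ + h30_W N q hqN (h30_res N q φ₂) = 0 := by
  refine AddMonoidHom.ext fun γa => ?_
  obtain ⟨γ, rfl⟩ : ∃ γ : Gamma0 (N * q), Additive.ofMul γ = γa := ⟨Additive.toMul γa, rfl⟩
  rw [h30_alpha_apply, AddMonoidHom.zero_apply]
  apply h
  · rfl
  · rfl
  · show (q : ℤ) * ((γ : SL(2, ℤ)) 1 0 / (q : ℤ)) = (γ : SL(2, ℤ)) 1 0
    exact Int.mul_ediv_cancel' (h30_q_dvd γ)
  · rfl

/-- **KER bridge, lattice form.** If `res φ₁ + W (res φ₂)` is divisible by `p`, the reductions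
mod `p` satisfy `h45_K`. -/
theorem h30_K_red_of_ker (p : ℕ) (φ₁ φ₂ : Additive (Gamma0 N) →+ ℤ)
    (h : ∃ z : Additive (Gamma0 (N * q)) →+ ℤ,
      h30_res N q φ₁ + h30_W N q hqN (h30_res N q φ₂) = p • z) :
    h45_K N q (h45_red p φ₁) (h45_red p φ₂) := by
  obtain ⟨z, hz⟩ := h
  apply h30_K_of_ker hqN
  have h1 : h30_res N q (h45_red p φ₁) + h30_W N q hqN (h30_res N q (h45_red p φ₂)) =
      h45_red p (h30_res N q φ₁ + h30_W N q hqN (h30_res N q φ₂)) := by
    rw [h45_red_add]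
    show h30_res N q ((Int.castAddHom (ZMod p)).comp φ₁) +
      h30_W N q hqN (h30_res N q ((Int.castAddHom (ZMod p)).comp φ₂)) =
      (Int.castAddHom (ZMod p)).comp (h30_res N q φ₁) +
        (Int.castAddHom (ZMod p)).comp (h30_W N q hqN (h30_res N q φ₂))
    rw [h30_res_comp, h30_res_comp, h30_W_comp]
  rw [h1, hz, h45_red_nsmul_self]

end Ker

/-! ### Parabolic homomorphisms -/

section Par

variable {N : ℕ} {A : Type*} [AddCommGroup A]

theorem h30_inj2_of_inj {ι : Type*} {α : ι → GL (Fin 2) ℝ} (h : h30_Inj α) (M : ℕ) :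
    h30_Inj2 M α :=
  fun x y ⟨δ, hδ⟩ => h x y ⟨(δ : SL(2, ℤ)), hδ⟩

/-- Every one-level Hecke operator preserves parabolic homomorphisms (torsion-free
coefficients). -/
theorem h30_hecke_parabolic [IsAddTorsionFree A] {ι : Type*} [Fintype ι]
    {α : ι → GL (Fin 2) ℝ} (hex : h30_Ex N α) (hinj : h30_Inj α)
    (ψ : Additive (Gamma0 N) →+ A) (hψ : IsParabolicHom (Gamma0 N) ψ) :
    IsParabolicHom (Gamma0 N) (h30_hecke hex hinj ψ) := by
  rw [h30_hecke_eq_hecke2 hex hinj hex (h30_inj2_of_inj hinj N)]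
  exact h30_hecke2_parabolic _ _ ψ hψ

theorem h30_heckeT_parabolic [IsAddTorsionFree A] (l : ℕ) [Fact l.Prime] (hlN : ¬ l ∣ N)
    (ψ : Additive (Gamma0 N) →+ A) (hψ : IsParabolicHom (Gamma0 N) ψ) :
    IsParabolicHom (Gamma0 N) (h30_heckeT N l hlN ψ) :=
  h30_hecke_parabolic _ _ ψ hψ

theorem h30_heckeU_parabolic [IsAddTorsionFree A] (q : ℕ) [NeZero q] (hqN : q ∣ N)
    (ψ : Additive (Gamma0 N) →+ A) (hψ : IsParabolicHom (Gamma0 N) ψ) :
    IsParabolicHom (Gamma0 N) (h30_heckeU N q hqN ψ) :=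
  h30_hecke_parabolic _ _ ψ hψ

theorem h30_res_parabolic (q : ℕ) (φ : Additive (Gamma0 N) →+ A)
    (hφ : IsParabolicHom (Gamma0 N) φ) : IsParabolicHom (Gamma0 (N * q)) (h30_res N q φ) :=
  fun γ hγ => hφ (h30_incl N q γ) hγ

/-- A `p`-th part of a parabolic integral homomorphism is parabolic. -/
theorem h30_parabolic_of_nsmul {Γ : Subgroup SL(2, ℤ)} {p : ℕ} (hp : p ≠ 0)
    (ψ : Additive Γ →+ ℤ) (h : IsParabolicHom Γ (p • ψ)) : IsParabolicHom Γ ψ := by
  intro γ hγ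
  have h1 := h γ hγ
  rw [AddMonoidHom.smul_apply, smul_eq_zero] at h1
  exact h1.resolve_left hp

end Par

end Fermat.Agent.S41
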