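/-
S41 block (C'), row C-RED1 (helper32): the reduction homomorphism of an integral Weierstrass
curve with unit discriminant over a valuation subring.

`K` a field, `A : ValuationSubring K`, `k = IsLocalRing.ResidueField A`.

Model form (`WA : WeierstrassCurve A`, generic fibre `WA.map A.subtype`, special fibre
`WA.map (IsLocalRing.residue A)`, `hΔ : IsUnit WA.Δ`):
* `h32_redHom A WA hΔ`        : the reduction homomorphism (generic fibre points →+ special fibre
  points);
* `h32_redHom_eq_zero_iff`    : its kernel is `h86_E1`;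
* `h32_redHom_some`           : `r (x, y) = (res x, res y)` for integral `x, y`;
* `h32_redHom_some_of_notMem` : `r (x, y) = 0` when `x ∉ A`;
* `h32_exists_red_of_eq`      : existence form, with generic and special fibre given up to
  equality (`WA.map A.subtype = W`, `WA.map (residue A) = Wk`).

Curve form (`W : WeierstrassCurve K`, `hW : h86_Integral A W`):
* `h32_model A W hW`    : the curve over `A` with the coefficients of `W`;
* `h32_redCurve A W hW` : the reduced curve over `k` (coefficients = residues);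
* `h32_exists_red`      : if `W.Δ` is a unit of `A` there is an additive homomorphism
  `r : W(K) →+ W̄(k)` with `r P = 0 ↔ P ∈ h86_E1 A W hW` and
  `r (x, y) = (res x, res y)` for integral `x, y`.

Proof: the abstract criterion `h61_red_additive` (generic chord + generic tangent); the slope of
a generic chord / tangent is integral and reduces to the slope downstairs.
-/
import Mathlib
import Fermat.Agent.S05.h86_Formal
import Fermat.Agent.S05.h18_Red
import Fermat.Agent.S41.h61_RedAbs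

set_option autoImplicit false

namespace Fermat.Agent.S41

open WeierstrassCurve WeierstrassCurve.Affine Fermat.Agent.S05

section Aux

/-- equality of affine points from equality of coordinates. -/
theorem h32_some_congr {F : Type*} [CommRing F] {W : Affine F} {x y x' y' : F}
    (h : W.Nonsingular x y) (h' : W.Nonsingular x' y') (hx : x = x') (hy : y = y') :
    Point.some x y h = Point.some x' y' h' := by
  subst hx hy
  rfl

theorem h32_some_inj {F : Type*} [CommRing F] {W : Affine F} {x y x' y' : F}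
    {h : W.Nonsingular x y} {h' : W.Nonsingular x' y'}
    (he : Point.some x y h = Point.some x' y' h') : x = x' ∧ y = y' := by
  cases he
  exact ⟨rfl, rfl⟩

/-- the slope of a chord through two points whose `x`-coordinates differ by a unit is the image
of an element of the base ring. -/
theorem h32_slope_chord {R F : Type*} [CommRing R] [Field F] [DecidableEq F] (f : R →+* F)
    (W' : WeierstrassCurve R) (X₁ Y₁ X₂ Y₂ : R) (u : Rˣ) (hu : (u : R) = X₁ - X₂) :
    (W'.map f).toAffine.slope (f X₁) (f X₂) (f Y₁) (f Y₂) =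
      f ((Y₁ - Y₂) * ((u⁻¹ : Rˣ) : R)) := by
  have hne : f X₁ ≠ f X₂ := by
    intro e
    have h0 : f (u : R) = 0 := by rw [hu, map_sub, e, sub_self]
    exact (IsUnit.map f u.isUnit).ne_zero h0
  rw [Affine.slope_of_X_ne hne, map_mul, map_units_inv, hu, map_sub, map_sub, div_eq_mul_inv]

/-- the slope of the tangent at a point with `y - negY x y` a unit is the image of an element
of the base ring. -/
theorem h32_slope_tangent {R F : Type*} [CommRing R] [Field F] [DecidableEq F] (f : R →+* F)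
    (W' : WeierstrassCurve R) (X Y : R) (u : Rˣ) (hu : (u : R) = Y - W'.toAffine.negY X Y) :
    (W'.map f).toAffine.slope (f X) (f X) (f Y) (f Y) =
      f ((3 * X ^ 2 + 2 * W'.a₂ * X + W'.a₄ - W'.a₁ * Y) * ((u⁻¹ : Rˣ) : R)) := by
  have hne : f Y ≠ (W'.map f).toAffine.negY (f X) (f Y) := by
    intro e
    have h0 : f (u : R) = 0 := by
      rw [hu, map_sub, ← Affine.map_negY, ← e, sub_self]
    exact (IsUnit.map f u.isUnit).ne_zero h0
  rw [Affine.slope_of_Y_ne rfl hne, map_mul, map_units_inv, hu, div_eq_mul_inv, map_sub (f := f) Y,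
    ← Affine.map_negY]
  congr 1
  simp only [map_sub, map_add, map_mul, map_pow, map_ofNat, WeierstrassCurve.map_a₁,
    WeierstrassCurve.map_a₂, WeierstrassCurve.map_a₄]

end Aux

section Model

variable {K : Type*} [Field K] (A : ValuationSubring K)

theorem h32_res_eq_zero_iff (X : ↥A) :
    IsLocalRing.residue ↥A X = 0 ↔ (X : K) ∈ A.nonunits := by
  rw [IsLocalRing.residue_eq_zero_iff, ValuationSubring.coe_mem_nonunits_iff]

variable (WA : WeierstrassCurve ↥A)

/-- the generic fibre of a curve over `A` has integral coefficients. -/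
theorem h32_map_integral18 : h18_Integral A (WA.map A.subtype).toAffine :=
  ⟨WA.a₁.2, WA.a₂.2, WA.a₃.2, WA.a₄.2, WA.a₆.2⟩

theorem h32_map_Δ_notMem_iff : (WA.map A.subtype).Δ ∉ A.nonunits ↔ IsUnit WA.Δ := by
  rw [WeierstrassCurve.map_Δ]
  show ((WA.Δ : ↥A) : K) ∉ A.nonunits ↔ _
  rw [ValuationSubring.coe_mem_nonunits_iff, IsLocalRing.notMem_maximalIdeal]

theorem h32_map_Δ_notMem (hΔ : IsUnit WA.Δ) : (WA.map A.subtype).Δ ∉ A.nonunits :=
  (h32_map_Δ_notMem_iff A WA).2 hΔ

/-- the reduced curve has nonzero discriminant. -/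
theorem h32_red_Δ_ne_zero (hΔ : IsUnit WA.Δ) : (WA.map (IsLocalRing.residue ↥A)).Δ ≠ 0 := by
  rw [WeierstrassCurve.map_Δ]
  exact (IsLocalRing.residue_ne_zero_iff_isUnit _).2 hΔ

/-- the reduced curve is elliptic. -/
theorem h32_red_isElliptic (hΔ : IsUnit WA.Δ) :
    (WA.map (IsLocalRing.residue ↥A)).IsElliptic :=
  ⟨(h32_red_Δ_ne_zero A WA hΔ).isUnit⟩

/-- the reduction of an integral point is a nonsingular point of the reduced curve. -/
theorem h32_nonsingular_red (hΔ : IsUnit WA.Δ) {x y : K} (hx : x ∈ A) (hy : y ∈ A)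
    (h : (WA.map A.subtype).toAffine.Equation x y) :
    (WA.map (IsLocalRing.residue ↥A)).toAffine.Nonsingular
      (IsLocalRing.residue ↥A ⟨x, hx⟩) (IsLocalRing.residue ↥A ⟨y, hy⟩) := by
  have h1 : WA.toAffine.Equation (⟨x, hx⟩ : ↥A) ⟨y, hy⟩ :=
    (Affine.map_equation WA.toAffine (f := A.subtype) Subtype.val_injective ⟨x, hx⟩ ⟨y, hy⟩).1 h
  have h2 := Affine.Equation.map (IsLocalRing.residue ↥A) h1
  refine (Affine.equation_iff_nonsingular_of_Δ_ne_zero ?_).1 h2
  rw [WeierstrassCurve.map_Δ]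
  exact (IsLocalRing.residue_ne_zero_iff_isUnit _).2 hΔ

open Classical in
/-- the reduction map on points (set-theoretic). -/
noncomputable def h32_red (hΔ : IsUnit WA.Δ) :
    (WA.map A.subtype).toAffine.Point → (WA.map (IsLocalRing.residue ↥A)).toAffine.Point
  | .zero => .zero
  | .some x y h =>
      if hxy : x ∈ A ∧ y ∈ A then
        .some (IsLocalRing.residue ↥A ⟨x, hxy.1⟩) (IsLocalRing.residue ↥A ⟨y, hxy.2⟩)
          (h32_nonsingular_red A WA hΔ hxy.1 hxy.2 h.left)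
      else .zero

theorem h32_red_zero (hΔ : IsUnit WA.Δ) : h32_red A WA hΔ 0 = 0 := rfl

open Classical in
theorem h32_red_some (hΔ : IsUnit WA.Δ) {x y : K}
    (h : (WA.map A.subtype).toAffine.Nonsingular x y) (hx : x ∈ A) (hy : y ∈ A) :
    h32_red A WA hΔ (Point.some x y h) =
      Point.some (IsLocalRing.residue ↥A ⟨x, hx⟩) (IsLocalRing.residue ↥A ⟨y, hy⟩)
        (h32_nonsingular_red A WA hΔ hx hy h.left) := by
  show @dite _ (x ∈ A ∧ y ∈ A) _ _ _ = _
  rw [dif_pos ⟨hx, hy⟩]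

open Classical in
theorem h32_red_some_of_notMem (hΔ : IsUnit WA.Δ) {x y : K}
    (h : (WA.map A.subtype).toAffine.Nonsingular x y) (hx : x ∉ A) :
    h32_red A WA hΔ (Point.some x y h) = 0 := by
  show @dite _ (x ∈ A ∧ y ∈ A) _ _ _ = _
  rw [dif_neg (fun hh => hx hh.1)]
  rfl

/-- the generic fibre has integral coefficients (`h86_Integral` form). -/
theorem h32_map_integral86 : h86_Integral A (WA.map A.subtype) :=
  ⟨WA.a₁.2, WA.a₂.2, WA.a₃.2, WA.a₄.2, WA.a₆.2⟩

/-- integrality of the `y`-coordinate of a point with integral `x`-coordinate. -/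
theorem h32_y_mem {x y : K} (h : (WA.map A.subtype).toAffine.Nonsingular x y) (hx : x ∈ A) :
    y ∈ A :=
  h18_y_mem (h32_map_integral18 A WA) h.left hx

/-- (h0) the reduction map kills exactly `E₁`. -/
theorem h32_red_eq_zero_iff [DecidableEq K] (hΔ : IsUnit WA.Δ)
    (P : (WA.map A.subtype).toAffine.Point) :
    h32_red A WA hΔ P = 0 ↔ P ∈ h86_E1 A (WA.map A.subtype) (h32_map_integral86 A WA) := by
  rcases P with _ | ⟨x, y, h⟩
  · exact ⟨fun _ => (h86_E1 A (WA.map A.subtype) (h32_map_integral86 A WA)).zero_mem,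
      fun _ => rfl⟩
  · rw [h86_some_mem_E1_iff]
    by_cases hx : x ∈ A
    · have hy : y ∈ A := h32_y_mem A WA h hx
      rw [h32_red_some A WA hΔ h hx hy]
      exact ⟨fun h0 => absurd h0 (Point.some_ne_zero _), fun hn => absurd hx hn⟩
    · exact ⟨fun _ => hx, fun _ => h32_red_some_of_notMem A WA hΔ h hx⟩

/-- (hneg) the reduction map commutes with negation. -/
theorem h32_red_neg [DecidableEq K] [DecidableEq (IsLocalRing.ResidueField ↥A)]
    (hΔ : IsUnit WA.Δ) (P : (WA.map A.subtype).toAffine.Point) :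
    h32_red A WA hΔ (-P) = -h32_red A WA hΔ P := by
  rcases P with _ | ⟨x, y, h⟩
  · rfl
  · rw [Point.neg_some]
    by_cases hx : x ∈ A
    · have hy : y ∈ A := h32_y_mem A WA h hx
      have hy' : (WA.map A.subtype).toAffine.negY x y ∈ A :=
        h32_y_mem A WA ((Affine.nonsingular_neg ..).mpr h) hx
      rw [h32_red_some A WA hΔ _ hx hy', h32_red_some A WA hΔ h hx hy, Point.neg_some]
      refine h32_some_congr _ _ rfl ?_
      rw [Affine.map_negY]
      exact congrArg (IsLocalRing.residue ↥A) (Subtype.ext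
        (Affine.map_negY (W' := WA.toAffine) A.subtype ⟨x, hx⟩ ⟨y, hy⟩).symm)
    · rw [h32_red_some_of_notMem A WA hΔ _ hx, h32_red_some_of_notMem A WA hΔ h hx, neg_zero]

/-- (hinj) two integral points with the same reduction differ by an element of `E₁`. -/
theorem h32_red_inj [DecidableEq K] (hΔ : IsUnit WA.Δ)
    (P P' : (WA.map A.subtype).toAffine.Point)
    (hP : P ∉ h86_E1 A (WA.map A.subtype) (h32_map_integral86 A WA))
    (hP' : P' ∉ h86_E1 A (WA.map A.subtype) (h32_map_integral86 A WA))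
    (he : h32_red A WA hΔ P = h32_red A WA hΔ P') :
    P - P' ∈ h86_E1 A (WA.map A.subtype) (h32_map_integral86 A WA) := by
  rcases P with _ | ⟨x, y, h⟩
  · exact absurd (h86_E1 A (WA.map A.subtype) (h32_map_integral86 A WA)).zero_mem hP
  rcases P' with _ | ⟨x', y', h'⟩
  · exact absurd (h86_E1 A (WA.map A.subtype) (h32_map_integral86 A WA)).zero_mem hP'
  rw [h86_some_mem_E1_iff, not_not] at hP hP'
  have hy : y ∈ A := h32_y_mem A WA h hP
  have hy' : y' ∈ A := h32_y_mem A WA h' hP'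
  rw [h32_red_some A WA hΔ h hP hy, h32_red_some A WA hΔ h' hP' hy'] at he
  obtain ⟨e1, e2⟩ := h32_some_inj he
  have hxx : x - x' ∈ A.nonunits := by
    have : IsLocalRing.residue ↥A ((⟨x, hP⟩ : ↥A) - ⟨x', hP'⟩) = 0 := by
      rw [map_sub, e1, sub_self]
    exact (h32_res_eq_zero_iff A _).1 this
  have hyy : y - y' ∈ A.nonunits := by
    have : IsLocalRing.residue ↥A ((⟨y, hy⟩ : ↥A) - ⟨y', hy'⟩) = 0 := by
      rw [map_sub, e2, sub_self]
    exact (h32_res_eq_zero_iff A _).1 this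
  rw [h86_mem_E1_iff]
  exact h18_sub_mem_E1 (h32_map_integral18 A WA) h' h hP' hy' hxx hyy
    (h18_nonsingular_reduction_of_Δ_unit (h32_map_integral18 A WA) (h32_map_Δ_notMem A WA hΔ)
      h'.left hP')

/-- core computation: if the slope is integral and reduces to the slope of the reduced points,
and the reduced points are not opposite, then the reduction of the sum is the sum of the
reductions. -/
theorem h32_red_add_of_slope [DecidableEq K] [DecidableEq (IsLocalRing.ResidueField ↥A)]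
    (hΔ : IsUnit WA.Δ) {X₁ Y₁ X₂ Y₂ L : ↥A}
    (h₁ : (WA.map A.subtype).toAffine.Nonsingular (X₁ : K) (Y₁ : K))
    (h₂ : (WA.map A.subtype).toAffine.Nonsingular (X₂ : K) (Y₂ : K))
    (hK : (WA.map A.subtype).toAffine.slope (X₁ : K) (X₂ : K) (Y₁ : K) (Y₂ : K) = (L : K))
    (hk : (WA.map (IsLocalRing.residue ↥A)).toAffine.slope (IsLocalRing.residue ↥A X₁)
      (IsLocalRing.residue ↥A X₂) (IsLocalRing.residue ↥A Y₁) (IsLocalRing.residue ↥A Y₂) =
        IsLocalRing.residue ↥A L)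
    (hne : ¬ (IsLocalRing.residue ↥A X₁ = IsLocalRing.residue ↥A X₂ ∧
      IsLocalRing.residue ↥A Y₁ = (WA.map (IsLocalRing.residue ↥A)).toAffine.negY
        (IsLocalRing.residue ↥A X₂) (IsLocalRing.residue ↥A Y₂))) :
    h32_red A WA hΔ (Point.some _ _ h₁ + Point.some _ _ h₂) =
      h32_red A WA hΔ (Point.some _ _ h₁) + h32_red A WA hΔ (Point.some _ _ h₂) := by
  have hxy : ¬ ((X₁ : K) = X₂ ∧
      (Y₁ : K) = (WA.map A.subtype).toAffine.negY (X₂ : K) (Y₂ : K)) := by
    rintro ⟨e1, e2⟩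
    apply hne
    have e1' : X₁ = X₂ := Subtype.ext e1
    have e2' : Y₁ = WA.toAffine.negY X₂ Y₂ :=
      Subtype.ext (e2.trans (Affine.map_negY (W' := WA.toAffine) A.subtype X₂ Y₂))
    refine ⟨by rw [e1'], ?_⟩
    rw [Affine.map_negY, ← e2']
  have hX : (WA.map A.subtype).toAffine.addX (X₁ : K) (X₂ : K)
      ((WA.map A.subtype).toAffine.slope (X₁ : K) (X₂ : K) (Y₁ : K) (Y₂ : K)) =
        ((WA.toAffine.addX X₁ X₂ L : ↥A) : K) := by
    rw [hK]
    exact Affine.map_addX (W' := WA.toAffine) A.subtype X₁ X₂ L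
  have hY : (WA.map A.subtype).toAffine.addY (X₁ : K) (X₂ : K) (Y₁ : K)
      ((WA.map A.subtype).toAffine.slope (X₁ : K) (X₂ : K) (Y₁ : K) (Y₂ : K)) =
        ((WA.toAffine.addY X₁ X₂ Y₁ L : ↥A) : K) := by
    rw [hK]
    exact Affine.map_addY (W' := WA.toAffine) A.subtype X₁ Y₁ X₂ L
  have hXm : (WA.map A.subtype).toAffine.addX (X₁ : K) (X₂ : K)
      ((WA.map A.subtype).toAffine.slope (X₁ : K) (X₂ : K) (Y₁ : K) (Y₂ : K)) ∈ A := by
    rw [hX]; exact Subtype.property _
  have hYm : (WA.map A.subtype).toAffine.addY (X₁ : K) (X₂ : K) (Y₁ : K)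
      ((WA.map A.subtype).toAffine.slope (X₁ : K) (X₂ : K) (Y₁ : K) (Y₂ : K)) ∈ A := by
    rw [hY]; exact Subtype.property _
  rw [Point.add_some hxy, h32_red_some A WA hΔ _ hXm hYm,
    h32_red_some A WA hΔ h₁ X₁.2 Y₁.2, h32_red_some A WA hΔ h₂ X₂.2 Y₂.2]
  have hne' : ¬ (IsLocalRing.residue ↥A ⟨(X₁ : K), X₁.2⟩ = IsLocalRing.residue ↥A ⟨(X₂ : K), X₂.2⟩ ∧
      IsLocalRing.residue ↥A ⟨(Y₁ : K), Y₁.2⟩ = (WA.map (IsLocalRing.residue ↥A)).toAffine.negY
        (IsLocalRing.residue ↥A ⟨(X₂ : K), X₂.2⟩) (IsLocalRing.residue ↥A ⟨(Y₂ : K), Y₂.2⟩)) := hne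
  rw [Point.add_some hne']
  refine h32_some_congr _ _ ?_ ?_
  · have e : (⟨_, hXm⟩ : ↥A) = WA.toAffine.addX X₁ X₂ L := Subtype.ext hX
    rw [e]
    show _ = (WA.map (IsLocalRing.residue ↥A)).toAffine.addX (IsLocalRing.residue ↥A X₁)
      (IsLocalRing.residue ↥A X₂) ((WA.map (IsLocalRing.residue ↥A)).toAffine.slope
        (IsLocalRing.residue ↥A X₁) (IsLocalRing.residue ↥A X₂) (IsLocalRing.residue ↥A Y₁)
        (IsLocalRing.residue ↥A Y₂))
    rw [hk]
    exact (Affine.map_addX (W' := WA.toAffine) (IsLocalRing.residue ↥A) X₁ X₂ L).symm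
  · have e : (⟨_, hYm⟩ : ↥A) = WA.toAffine.addY X₁ X₂ Y₁ L := Subtype.ext hY
    rw [e]
    show _ = (WA.map (IsLocalRing.residue ↥A)).toAffine.addY (IsLocalRing.residue ↥A X₁)
      (IsLocalRing.residue ↥A X₂) (IsLocalRing.residue ↥A Y₁)
      ((WA.map (IsLocalRing.residue ↥A)).toAffine.slope
        (IsLocalRing.residue ↥A X₁) (IsLocalRing.residue ↥A X₂) (IsLocalRing.residue ↥A Y₁)
        (IsLocalRing.residue ↥A Y₂))
    rw [hk]
    exact (Affine.map_addY (W' := WA.toAffine) (IsLocalRing.residue ↥A) X₁ Y₁ X₂ L).symm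

/-- (hadd) the generic chord. -/
theorem h32_red_add [DecidableEq K] [DecidableEq (IsLocalRing.ResidueField ↥A)]
    (hΔ : IsUnit WA.Δ) (P Q : (WA.map A.subtype).toAffine.Point)
    (hP : P ∉ h86_E1 A (WA.map A.subtype) (h32_map_integral86 A WA))
    (hQ : Q ∉ h86_E1 A (WA.map A.subtype) (h32_map_integral86 A WA))
    (h1 : h32_red A WA hΔ P ≠ h32_red A WA hΔ Q)
    (h2 : h32_red A WA hΔ P ≠ -h32_red A WA hΔ Q) :
    h32_red A WA hΔ (P + Q) = h32_red A WA hΔ P + h32_red A WA hΔ Q := by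
  rcases P with _ | ⟨x₁, y₁, h₁⟩
  · exact absurd (h86_E1 A (WA.map A.subtype) (h32_map_integral86 A WA)).zero_mem hP
  rcases Q with _ | ⟨x₂, y₂, h₂⟩
  · exact absurd (h86_E1 A (WA.map A.subtype) (h32_map_integral86 A WA)).zero_mem hQ
  rw [h86_some_mem_E1_iff, not_not] at hP hQ
  have hy₁ : y₁ ∈ A := h32_y_mem A WA h₁ hP
  have hy₂ : y₂ ∈ A := h32_y_mem A WA h₂ hQ
  rw [h32_red_some A WA hΔ h₁ hP hy₁, h32_red_some A WA hΔ h₂ hQ hy₂] at h1 h2
  -- the reduced `x`-coordinates differ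
  have hxne : IsLocalRing.residue ↥A ⟨x₁, hP⟩ ≠ IsLocalRing.residue ↥A ⟨x₂, hQ⟩ := by
    intro e
    rcases Affine.Y_eq_of_X_eq (h32_nonsingular_red A WA hΔ hP hy₁ h₁.left).left
      (h32_nonsingular_red A WA hΔ hQ hy₂ h₂.left).left e with e' | e'
    · exact h1 (h32_some_congr _ _ e e')
    · apply h2
      rw [Point.neg_some]
      exact h32_some_congr _ _ e e'
  obtain ⟨u, hu⟩ : IsUnit ((⟨x₁, hP⟩ : ↥A) - ⟨x₂, hQ⟩) := by
    rw [← IsLocalRing.residue_ne_zero_iff_isUnit, map_sub]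
    exact sub_ne_zero.mpr hxne
  exact h32_red_add_of_slope A WA hΔ (X₁ := ⟨x₁, hP⟩) (Y₁ := ⟨y₁, hy₁⟩) (X₂ := ⟨x₂, hQ⟩)
    (Y₂ := ⟨y₂, hy₂⟩) (L := ((⟨y₁, hy₁⟩ : ↥A) - (⟨y₂, hy₂⟩ : ↥A)) * ((u⁻¹ : (↥A)ˣ) : ↥A)) h₁ h₂
    (h32_slope_chord A.subtype WA (⟨x₁, hP⟩ : ↥A) (⟨y₁, hy₁⟩ : ↥A) (⟨x₂, hQ⟩ : ↥A)
      (⟨y₂, hy₂⟩ : ↥A) u hu)
    (h32_slope_chord (IsLocalRing.residue ↥A) WA (⟨x₁, hP⟩ : ↥A) (⟨y₁, hy₁⟩ : ↥A)
      (⟨x₂, hQ⟩ : ↥A) (⟨y₂, hy₂⟩ : ↥A) u hu) (fun h => hxne h.1)

/-- (hdbl) the generic tangent. -/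
theorem h32_red_dbl [DecidableEq K] [DecidableEq (IsLocalRing.ResidueField ↥A)]
    (hΔ : IsUnit WA.Δ) (P : (WA.map A.subtype).toAffine.Point)
    (hP : P ∉ h86_E1 A (WA.map A.subtype) (h32_map_integral86 A WA))
    (h1 : h32_red A WA hΔ P + h32_red A WA hΔ P ≠ 0) :
    h32_red A WA hΔ (P + P) = h32_red A WA hΔ P + h32_red A WA hΔ P := by
  rcases P with _ | ⟨x, y, h⟩
  · exact absurd (h86_E1 A (WA.map A.subtype) (h32_map_integral86 A WA)).zero_mem hP
  rw [h86_some_mem_E1_iff, not_not] at hP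
  have hy : y ∈ A := h32_y_mem A WA h hP
  rw [h32_red_some A WA hΔ h hP hy] at h1
  have hyne : IsLocalRing.residue ↥A ⟨y, hy⟩ ≠
      (WA.map (IsLocalRing.residue ↥A)).toAffine.negY
        (IsLocalRing.residue ↥A ⟨x, hP⟩) (IsLocalRing.residue ↥A ⟨y, hy⟩) := by
    intro e
    exact h1 (Point.add_self_of_Y_eq e)
  obtain ⟨u, hu⟩ : IsUnit ((⟨y, hy⟩ : ↥A) - WA.toAffine.negY ⟨x, hP⟩ ⟨y, hy⟩) := by
    rw [← IsLocalRing.residue_ne_zero_iff_isUnit, map_sub, ← Affine.map_negY]
    exact sub_ne_zero.mpr hyne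
  have hK := h32_slope_tangent A.subtype WA (⟨x, hP⟩ : ↥A) (⟨y, hy⟩ : ↥A) u hu
  have hk := h32_slope_tangent (IsLocalRing.residue ↥A) WA (⟨x, hP⟩ : ↥A) (⟨y, hy⟩ : ↥A) u hu
  generalize (3 * (⟨x, hP⟩ : ↥A) ^ 2 + 2 * WA.a₂ * (⟨x, hP⟩ : ↥A) + WA.a₄ -
    WA.a₁ * (⟨y, hy⟩ : ↥A)) * ((u⁻¹ : (↥A)ˣ) : ↥A) = L at hK hk
  exact h32_red_add_of_slope A WA hΔ (X₁ := ⟨x, hP⟩) (Y₁ := ⟨y, hy⟩) (X₂ := ⟨x, hP⟩)
    (Y₂ := ⟨y, hy⟩) (L := L) h h hK hk (fun h => hyne h.2)

/-- the reduction map is additive. -/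
theorem h32_red_additive [DecidableEq K] [DecidableEq (IsLocalRing.ResidueField ↥A)]
    (hΔ : IsUnit WA.Δ) (P Q : (WA.map A.subtype).toAffine.Point) :
    h32_red A WA hΔ (P + Q) = h32_red A WA hΔ P + h32_red A WA hΔ Q :=
  h61_red_additive (h86_E1 A (WA.map A.subtype) (h32_map_integral86 A WA)) (h32_red A WA hΔ)
    (h32_red_eq_zero_iff A WA hΔ) (h32_red_neg A WA hΔ) (h32_red_inj A WA hΔ)
    (h32_red_add A WA hΔ) (h32_red_dbl A WA hΔ) P Q

/-- **the reduction homomorphism** of a Weierstrass curve over `A` with unit discriminant: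
from the points of the generic fibre to the points of the special fibre. -/
noncomputable def h32_redHom [DecidableEq K] [DecidableEq (IsLocalRing.ResidueField ↥A)]
    (hΔ : IsUnit WA.Δ) :
    (WA.map A.subtype).toAffine.Point →+
      (WA.map (IsLocalRing.residue ↥A)).toAffine.Point :=
  AddMonoidHom.mk' (h32_red A WA hΔ) (h32_red_additive A WA hΔ)

theorem h32_redHom_apply [DecidableEq K] [DecidableEq (IsLocalRing.ResidueField ↥A)]
    (hΔ : IsUnit WA.Δ) (P : (WA.map A.subtype).toAffine.Point) :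
    h32_redHom A WA hΔ P = h32_red A WA hΔ P := rfl

/-- the kernel of the reduction homomorphism is `E₁`. -/
theorem h32_redHom_eq_zero_iff [DecidableEq K] [DecidableEq (IsLocalRing.ResidueField ↥A)]
    (hΔ : IsUnit WA.Δ) (P : (WA.map A.subtype).toAffine.Point) :
    h32_redHom A WA hΔ P = 0 ↔
      P ∈ h86_E1 A (WA.map A.subtype) (h32_map_integral86 A WA) :=
  h32_red_eq_zero_iff A WA hΔ P

/-- the reduction homomorphism on an integral point: reduce the coordinates. -/
theorem h32_redHom_some [DecidableEq K] [DecidableEq (IsLocalRing.ResidueField ↥A)]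
    (hΔ : IsUnit WA.Δ) {x y : K} (h : (WA.map A.subtype).toAffine.Nonsingular x y)
    (hx : x ∈ A) (hy : y ∈ A) :
    h32_redHom A WA hΔ (Point.some x y h) =
      Point.some (IsLocalRing.residue ↥A ⟨x, hx⟩) (IsLocalRing.residue ↥A ⟨y, hy⟩)
        (h32_nonsingular_red A WA hΔ hx hy h.left) :=
  h32_red_some A WA hΔ h hx hy

/-- the reduction homomorphism kills the non-integral points. -/
theorem h32_redHom_some_of_notMem [DecidableEq K]
    [DecidableEq (IsLocalRing.ResidueField ↥A)]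
    (hΔ : IsUnit WA.Δ) {x y : K} (h : (WA.map A.subtype).toAffine.Nonsingular x y)
    (hx : x ∉ A) :
    h32_redHom A WA hΔ (Point.some x y h) = 0 :=
  h32_red_some_of_notMem A WA hΔ h hx

/-- **C-RED1, flexible form.** `WA` a Weierstrass curve over `A`, `W` its generic fibre and `Wk`
its special fibre (given up to equality), `W.Δ` a unit of `A`: there is a reduction homomorphism
`r : W(K) →+ Wk(k)` with kernel `E₁` which reduces the coordinates of integral points. -/
theorem h32_exists_red_of_eq [DecidableEq K] [DecidableEq (IsLocalRing.ResidueField ↥A)]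
    (W : WeierstrassCurve K) (Wk : WeierstrassCurve (IsLocalRing.ResidueField ↥A))
    (hWA : WA.map A.subtype = W) (hWk : WA.map (IsLocalRing.residue ↥A) = Wk)
    (hW : h86_Integral A W) (hΔ : W.Δ ∉ A.nonunits) :
    ∃ r : W.toAffine.Point →+ Wk.toAffine.Point,
      (∀ P, r P = 0 ↔ P ∈ h86_E1 A W hW) ∧
      ∀ (x y : K) (h : W.toAffine.Nonsingular x y) (hx : x ∈ A) (hy : y ∈ A),
        ∃ h' : Wk.toAffine.Nonsingular (IsLocalRing.residue ↥A ⟨x, hx⟩)
            (IsLocalRing.residue ↥A ⟨y, hy⟩),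
          r (Point.some x y h) = Point.some _ _ h' := by
  subst hWA hWk
  have hΔ' : IsUnit WA.Δ := (h32_map_Δ_notMem_iff A WA).1 hΔ
  exact ⟨h32_redHom A WA hΔ', h32_redHom_eq_zero_iff A WA hΔ',
    fun x y h hx hy => ⟨_, h32_redHom_some A WA hΔ' h hx hy⟩⟩

end Model

section Curve

variable {K : Type*} [Field K] (A : ValuationSubring K)
  (W : WeierstrassCurve K) (hW : h86_Integral A W)

/-- the curve over `A` with the coefficients of an integral curve `W` over `K`. -/
def h32_model : WeierstrassCurve ↥A :=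
  ⟨⟨W.a₁, hW.1⟩, ⟨W.a₂, hW.2.1⟩, ⟨W.a₃, hW.2.2.1⟩, ⟨W.a₄, hW.2.2.2.1⟩, ⟨W.a₆, hW.2.2.2.2⟩⟩

theorem h32_model_map : (h32_model A W hW).map A.subtype = W := by
  ext <;> rfl

/-- the reduction of an integral curve `W` modulo the maximal ideal of `A`. -/
noncomputable def h32_redCurve : WeierstrassCurve (IsLocalRing.ResidueField ↥A) :=
  (h32_model A W hW).map (IsLocalRing.residue ↥A)

theorem h32_redCurve_a₁ :
    (h32_redCurve A W hW).a₁ = IsLocalRing.residue ↥A ⟨W.a₁, hW.1⟩ := rfl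

theorem h32_redCurve_a₂ :
    (h32_redCurve A W hW).a₂ = IsLocalRing.residue ↥A ⟨W.a₂, hW.2.1⟩ := rfl

theorem h32_redCurve_a₃ :
    (h32_redCurve A W hW).a₃ = IsLocalRing.residue ↥A ⟨W.a₃, hW.2.2.1⟩ := rfl

theorem h32_redCurve_a₄ :
    (h32_redCurve A W hW).a₄ = IsLocalRing.residue ↥A ⟨W.a₄, hW.2.2.2.1⟩ := rfl

theorem h32_redCurve_a₆ :
    (h32_redCurve A W hW).a₆ = IsLocalRing.residue ↥A ⟨W.a₆, hW.2.2.2.2⟩ := rfl

theorem h32_model_Δ : ((h32_model A W hW).Δ : K) = W.Δ := by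
  have h := WeierstrassCurve.map_Δ (h32_model A W hW) A.subtype
  rw [h32_model_map] at h
  exact h.symm

/-- the reduced curve has nonzero discriminant when `W.Δ` is a unit of `A`. -/
theorem h32_redCurve_Δ_ne_zero (hΔ : W.Δ ∉ A.nonunits) : (h32_redCurve A W hW).Δ ≠ 0 := by
  apply h32_red_Δ_ne_zero
  rw [← h32_map_Δ_notMem_iff, h32_model_map]
  exact hΔ

/-- **C-RED1.** `K` a field, `A` a valuation subring, `W` a Weierstrass curve over `K` with
coefficients in `A` and discriminant a unit of `A`.  There is a group homomorphism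
`r : W(K) →+ W̄(k)` to the points of the reduced curve over the residue field `k` of `A` such that
(i) `r P = 0 ↔ P ∈ E₁` (the kernel of reduction `h86_E1`), and
(ii) `r (x, y) = (x mod 𝔪, y mod 𝔪)` for integral `x, y`. -/
theorem h32_exists_red [DecidableEq K] [DecidableEq (IsLocalRing.ResidueField ↥A)]
    (hΔ : W.Δ ∉ A.nonunits) :
    ∃ r : W.toAffine.Point →+ (h32_redCurve A W hW).toAffine.Point,
      (∀ P, r P = 0 ↔ P ∈ h86_E1 A W hW) ∧
      ∀ (x y : K) (h : W.toAffine.Nonsingular x y) (hx : x ∈ A) (hy : y ∈ A),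
        ∃ h' : (h32_redCurve A W hW).toAffine.Nonsingular (IsLocalRing.residue ↥A ⟨x, hx⟩)
            (IsLocalRing.residue ↥A ⟨y, hy⟩),
          r (Point.some x y h) = Point.some _ _ h' :=
  h32_exists_red_of_eq A (h32_model A W hW) W (h32_redCurve A W hW) (h32_model_map A W hW) rfl
    hW hΔ

end Curve

end Fermat.Agent.S41
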