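import Mathlib
import Fermat.Prelude.Def_ModularCurve_PeriodMap
import Fermat.Agent.S41.h42_Cusp
import Fermat.Agent.S41.h84_BTransport2

/-!
# S41 (B-CUSP, row 474): COUNT and EXISTS-R for `h84_IsCuspSystem`

The statements of `h42_Cusp` restated verbatim for helper84's `h84_IsCuspSystem`
(the two notions of cusp system agree by `h84_isCuspSystem42_iff`).
-/

set_option autoImplicit false

namespace Fermat.Agent.S41

open scoped MatrixGroups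
open ModularGroup ModularCurve.Period

variable (Γ : Subgroup SL(2, ℤ))

theorem h42_count84 [Fintype (SL(2, ℤ) ⧸ Γ)] (hneg : (-1 : SL(2, ℤ)) ∈ Γ)
    (φ ψ : Additive Γ →+ ℤ) (hφ : IsParabolicHom Γ φ) (hψ : IsParabolicHom Γ ψ) (e : Γ → ℤ)
    (he : ∀ g h : Γ, e (g * h) = e g + e h + φ (Additive.ofMul g) * ψ (Additive.ofMul h))
    (R : Finset Γ) (hR : h84_IsCuspSystem Γ R) (m : ℕ) (hm0 : 0 < m)
    (hm : ∀ g : SL(2, ℤ), g⁻¹ * T ^ m * g ∈ Γ) (r : SL(2, ℤ) ⧸ Γ → SL(2, ℤ))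
    (hr : ∀ x, (QuotientGroup.mk (r x) : SL(2, ℤ) ⧸ Γ) = x) :
    ∑ x : SL(2, ℤ) ⧸ Γ, e ⟨(r x)⁻¹ * T ^ m * r x, hm (r x)⟩ = (m : ℤ) * ∑ ρ ∈ R, e ρ :=
  h42_count_heis Γ hneg φ ψ hφ hψ e he R ((h84_isCuspSystem42_iff Γ R).mpr hR) m hm0 hm r hr

theorem h42_exists_cuspSystem84 [Γ.FiniteIndex] (hneg : (-1 : SL(2, ℤ)) ∈ Γ) :
    ∃ R : Finset Γ, h84_IsCuspSystem Γ R := by
  obtain ⟨R, hR⟩ := h42_exists_cuspSystem Γ hneg
  exact ⟨R, (h84_isCuspSystem42_iff Γ R).mp hR⟩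

theorem h42_exists_m84 [Γ.FiniteIndex] :
    ∃ m : ℕ, 0 < m ∧ ∀ g : SL(2, ℤ), g⁻¹ * T ^ m * g ∈ Γ :=
  h42_exists_m Γ

end Fermat.Agent.S41
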