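import Mathlib
import Fermat.Prelude.Def_FLTPrelim_Modularity
import Fermat.Agent.GAL.h42_Coh
import Fermat.Agent.GAL.h42_Zbar
import Fermat.Agent.S41.h45_IharaOut

/-!
# S41 (EIG, lattice form)

For a normalised eigenform `f` of weight 2 on `Γ₀(N)` and a maximal ideal `𝔪` of `ℤ̄` over `p`
there is an *integral* parabolic homomorphism `w : Γ₀(N) → ℤ`, not divisible by `p`, which is an
eigenvector modulo `p` of every `T_ℓ` (`ℓ ∤ N`): `T_ℓ w - c • w ∈ p · Hom_par(Γ₀(N), ℤ)` for every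
integer `c` congruent to `a_ℓ(f)` modulo `𝔪`.

The homomorphism `ψ : Γ₀(N) → ℤ̄/𝔪` of `h42_coh` vanishes wherever the period homomorphism of `f`
vanishes, hence factors through the period lattice `Λ` of `f`, a finitely generated torsion-free
(so free) abelian group; an `𝔽_p`-functional not killing it gives `χ : Λ → 𝔽_p`, which lifts to
`Λ → ℤ` on a basis.
-/

set_option autoImplicit false

namespace Fermat.Agent.S41

open CongruenceSubgroup ModularCurve ModularCurve.Period ModularFormClass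
open scoped MatrixGroups
open Fermat.Agent.S16 Fermat.Agent.S21 Fermat.Agent.GAL

/-- A homomorphism to `ℤ` with `p • u` parabolic is parabolic (`p ≠ 0`). -/
theorem h42_parabolic_of_nsmul {N : ℕ} {p : ℕ} (hp : p ≠ 0) {u v : Additive (Gamma0 N) →+ ℤ}
    (h : v = p • u) (hv : IsParabolicHom (Gamma0 N) v) : IsParabolicHom (Gamma0 N) u := by
  intro γ hγ
  have h1 := hv γ hγ
  rw [h] at h1
  have h2 : (p : ℤ) * u (Additive.ofMul γ) = 0 := by simpa using h1
  rcases mul_eq_zero.mp h2 with h3 | h3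
  · exact absurd (by exact_mod_cast h3) hp
  · exact h3

/-- **EIG, lattice form.** -/
theorem h42_eig {N : ℕ} [NeZero N] {f : CuspForm (Gamma0 N) 2} (hf : f.IsNormalizedEigenform)
    {p : ℕ} (hp : p.Prime) (𝔪 : Ideal (integralClosure ℤ ℂ)) (hmax : 𝔪.IsMaximal)
    (hpm : (p : integralClosure ℤ ℂ) ∈ 𝔪) :
    ∃ w : Additive (Gamma0 N) →+ ℤ, IsParabolicHom (Gamma0 N) w ∧
      (¬ ∃ w' : Additive (Gamma0 N) →+ ℤ, w = p • w') ∧
      ∀ (ℓ : ℕ) [Fact ℓ.Prime] (hℓN : ¬ ℓ ∣ N) (c : ℤ) (a : integralClosure ℤ ℂ),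
        (a : ℂ) = qCoeff f ℓ → a - (c : integralClosure ℤ ℂ) ∈ 𝔪 →
        ∃ u : Additive (Gamma0 N) →+ ℤ, IsParabolicHom (Gamma0 N) u ∧
          h30_heckeT N ℓ hℓN w - c • w = p • u := by
  classical
  have hpF : Fact p.Prime := ⟨hp⟩
  let k := integralClosure ℤ ℂ ⧸ 𝔪
  let _ : Field k := Ideal.Quotient.field 𝔪
  have hchar : CharP k p := h42_quot_charP 𝔪 hp hpm
  let φ : integralClosure ℤ ℂ →+* k := Ideal.Quotient.mk 𝔪
  have hker : RingHom.ker φ = 𝔪 := Ideal.mk_ker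
  obtain ⟨a, ψ, ha, hψ0, hzero, -, -, hT⟩ := h42_coh hf φ (by rw [hker]; exact hmax)
  -- the period lattice
  let P : Additive (Gamma0 N) →+ ℂ := periodMap N f
  let Λ : AddSubgroup ℂ := AddMonoidHom.range P
  let π : Additive (Gamma0 N) →+ Λ := P.rangeRestrict
  have hπ : Function.Surjective π := P.rangeRestrict_surjective
  have hπval : ∀ γ, (π γ : ℂ) = P γ := fun γ => rfl
  have hfin : Module.Finite ℤ Λ := by
    have h1 := h42_range_fg P
    exact Module.Finite.iff_fg.mpr h1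
  have hfree : Module.Free ℤ Λ := Module.free_of_finite_type_torsion_free'
  let b := Module.Free.chooseBasis ℤ Λ
  -- `ψ` factors through `π`
  have hkerle : ∀ γ : Additive (Gamma0 N), π γ = 0 → ψ γ = 0 := by
    intro γ h
    have h1 : P γ = 0 := by rw [← hπval, h]; rfl
    exact hzero (Additive.toMul γ) h1
  have hfac : ∀ γ γ' : Additive (Gamma0 N), π γ = π γ' → ψ γ = ψ γ' := by
    intro γ γ' h
    have h1 : π (γ - γ') = 0 := by rw [map_sub, h, sub_self]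
    have h2 := hkerle _ h1
    rw [map_sub, sub_eq_zero] at h2
    exact h2
  -- an element of `Γ` on which `ψ` does not vanish, and a functional
  obtain ⟨γ₀, hγ₀⟩ : ∃ γ, ψ γ ≠ 0 := by
    by_contra hall
    push Not at hall
    exact hψ0 (AddMonoidHom.ext hall)
  obtain ⟨lam, hlam⟩ : ∃ l : k →+ ZMod p, l (ψ γ₀) ≠ 0 := by
    let _ := ZMod.algebra k p
    obtain ⟨g, hg⟩ := Module.Projective.exists_dual_ne_zero (ZMod p) hγ₀
    exact ⟨g.toAddMonoidHom, hg⟩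
  -- sections of `π`
  choose s hs using hπ
  -- the integral lift on the basis
  let χt : Λ →ₗ[ℤ] ℤ := b.constr ℤ fun i => ((lam (ψ (s (b i)))).val : ℤ)
  have hχt : ∀ γ : Additive (Gamma0 N), ((χt (π γ) : ℤ) : ZMod p) = lam (ψ γ) := by
    -- the map `Λ → 𝔽_p` induced by `lam ∘ ψ`
    let χ : Λ →+ ZMod p :=
      { toFun := fun x => lam (ψ (s x))
        map_zero' := by
          have h1 : ψ (s 0) = ψ 0 := hfac _ _ (by rw [hs, map_zero])
          rw [h1, map_zero, map_zero]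
        map_add' := by
          intro x y
          have h1 : ψ (s (x + y)) = ψ (s x + s y) := hfac _ _ (by rw [hs, map_add, hs, hs])
          rw [h1, map_add, map_add] }
    have h1 : (Int.castAddHom (ZMod p)).toIntLinearMap ∘ₗ χt = χ.toIntLinearMap := by
      refine b.ext fun i => ?_
      show ((χt (b i) : ℤ) : ZMod p) = lam (ψ (s (b i)))
      rw [Module.Basis.constr_basis]
      simp
    intro γ
    have h2 := LinearMap.congr_fun h1 (π γ)
    have h3 : ψ (s (π γ)) = ψ γ := hfac _ _ (hs _)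
    have h4 : χ (π γ) = lam (ψ γ) := by show lam (ψ (s (π γ))) = _; rw [h3]
    rw [← h4]
    exact h2
  let w : Additive (Gamma0 N) →+ ℤ := χt.toAddMonoidHom.comp π
  have hwred : h45_red p w = lam.comp ψ := AddMonoidHom.ext fun γ => hχt γ
  have hπpar : ∀ γ : Gamma0 N,
      ((γ : SL(2, ℤ)) : Matrix (Fin 2) (Fin 2) ℤ).trace ^ 2 = 4 → π (Additive.ofMul γ) = 0 := by
    intro γ hγ
    exact Subtype.ext (h58_periodMap_mem_parabolicHoms f γ hγ)
  have hwpar : IsParabolicHom (Gamma0 N) w := by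
    intro γ hγ
    show χt (π (Additive.ofMul γ)) = 0
    rw [hπpar γ hγ, map_zero]
  refine ⟨w, hwpar, ?_, ?_⟩
  · rintro ⟨w', hw'⟩
    have h1 : h45_red p w = 0 := (h45_red_eq_zero_iff p hp.ne_zero w).mpr ⟨w', hw'⟩
    rw [hwred] at h1
    exact hlam (by simpa using DFunLike.congr_fun h1 γ₀)
  · intro ℓ _ hℓN c a' ha' hc
    have hℓ : ℓ.Prime := Fact.out
    have haa : a' = a ℓ := Subtype.ext (by rw [ha', ha ℓ hℓ hℓN])
    have hφ : φ (a ℓ) = (c : k) := by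
      rw [← haa]
      have h1 : φ (a' - (c : integralClosure ℤ ℂ)) = 0 :=
        Ideal.Quotient.eq_zero_iff_mem.mpr hc
      rw [map_sub, sub_eq_zero] at h1
      rw [h1]
      simp
    have hTψ : h30_heckeT N ℓ hℓN ψ = c • ψ := by
      rw [hT ℓ hℓN, hφ]
      ext γ
      simp
    -- the reduction of `T_ℓ w - c w` vanishes
    have hred : h45_red p (h30_heckeT N ℓ hℓN w - c • w) = 0 := by
      rw [h45_red_sub, h45_red_zsmul, ← h45_red_heckeT, hwred, h30_heckeT_comp, hTψ]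
      refine AddMonoidHom.ext fun γ => ?_
      show lam (c • ψ γ) - c • lam (ψ γ) = 0
      rw [map_zsmul, sub_self]
    obtain ⟨u, hu⟩ := (h45_red_eq_zero_iff p hp.ne_zero _).mp hred
    refine ⟨u, h42_parabolic_of_nsmul hp.ne_zero hu ?_, hu⟩
    -- parabolicity of `T_ℓ w - c w`
    intro γ hγ
    have h1 : h30_heckeT N ℓ hℓN w = χt.toAddMonoidHom.comp (h30_heckeT N ℓ hℓN π) :=
      h30_heckeT_comp ℓ hℓN χt.toAddMonoidHom π
    have h2 : h30_heckeT N ℓ hℓN π (Additive.ofMul γ) = 0 := by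
      apply Subtype.ext
      have h3 := h30_heckeT_comp ℓ hℓN Λ.subtype π
      have h4 : Λ.subtype.comp π = P := rfl
      rw [h4, h42_period_eigen hf ℓ hℓN] at h3
      have h5 := DFunLike.congr_fun h3 (Additive.ofMul γ)
      have h6 : P (Additive.ofMul γ) = 0 := h58_periodMap_mem_parabolicHoms f γ hγ
      have h7 : ((h30_heckeT N ℓ hℓN π (Additive.ofMul γ) : Λ) : ℂ) =
          qCoeff f ℓ * P (Additive.ofMul γ) := h5.symm
      rw [h7, h6, mul_zero]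
      rfl
    show (h30_heckeT N ℓ hℓN w) (Additive.ofMul γ) - c • w (Additive.ofMul γ) = 0
    rw [h1, hwpar γ hγ]
    show χt (h30_heckeT N ℓ hℓN π (Additive.ofMul γ)) - c • (0 : ℤ) = 0
    rw [h2, map_zero, smul_zero, sub_zero]

/-- **EIG for level raising**: with the hypotheses `hcong`, `hLR` of the frozen S41 verbatim, an
integral parabolic homomorphism `w ∉ p·Hom`, with `T_ℓ w ≡ a_ℓ(W) w` for the good primes and
`T_{q'} w ≡ ε (q' + 1) w` modulo `p · Hom_par(Γ₀(N), ℤ)`, `ε = ± 1`. -/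
theorem h42_eig_LR {W : WeierstrassCurve ℤ} {p N q' : ℕ} [NeZero N] (hp : p.Prime)
    [Fact q'.Prime] (hq'N : ¬ q' ∣ N)
    (f : CuspForm (Gamma0 N) 2) (𝔪 : Ideal (integralClosure ℤ ℂ))
    (hf : f.IsNormalizedEigenform) (hmax : 𝔪.IsMaximal) (hpm : (p : integralClosure ℤ ℂ) ∈ 𝔪)
    (hcong : ∀ ℓ : ℕ, ℓ.Prime → W.IsGoodPrimeFor ℓ → ¬ ℓ ∣ N → ℓ ≠ p →
      ∃ a : integralClosure ℤ ℂ, (a : ℂ) = ModularFormClass.qCoeff f ℓ ∧
        a - ((W.apOfModel ℓ : ℤ) : integralClosure ℤ ℂ) ∈ 𝔪)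
    (hLR : ∃ a : integralClosure ℤ ℂ, (a : ℂ) = ModularFormClass.qCoeff f q' ∧
      a ^ 2 - ((q' : integralClosure ℤ ℂ) + 1) ^ 2 ∈ 𝔪) :
    ∃ (w : Additive (Gamma0 N) →+ ℤ) (ε : ℤ), IsParabolicHom (Gamma0 N) w ∧
      (¬ ∃ w' : Additive (Gamma0 N) →+ ℤ, w = p • w') ∧ (ε = 1 ∨ ε = -1) ∧
      (∀ (ℓ : ℕ) [Fact ℓ.Prime] (hℓN : ¬ ℓ ∣ N), W.IsGoodPrimeFor ℓ → ℓ ≠ p →
        ∃ u : Additive (Gamma0 N) →+ ℤ, IsParabolicHom (Gamma0 N) u ∧
          h30_heckeT N ℓ hℓN w - (W.apOfModel ℓ) • w = p • u) ∧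
      ∃ u : Additive (Gamma0 N) →+ ℤ, IsParabolicHom (Gamma0 N) u ∧
        h30_heckeT N q' hq'N w - (ε * ((q' : ℤ) + 1)) • w = p • u := by
  obtain ⟨w, hwpar, hwnd, hw⟩ := h42_eig hf hp 𝔪 hmax hpm
  obtain ⟨a, ha, haLR⟩ := hLR
  have hprime : 𝔪.IsPrime := hmax.isPrime
  have hfac : (a - (q' : integralClosure ℤ ℂ) - 1) * (a + (q' : integralClosure ℤ ℂ) + 1) ∈ 𝔪 := by
    have h1 : (a - (q' : integralClosure ℤ ℂ) - 1) * (a + (q' : integralClosure ℤ ℂ) + 1) =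
        a ^ 2 - ((q' : integralClosure ℤ ℂ) + 1) ^ 2 := by ring
    rw [h1]
    exact haLR
  have hε : ∃ ε : ℤ, (ε = 1 ∨ ε = -1) ∧
      a - ((ε * ((q' : ℤ) + 1) : ℤ) : integralClosure ℤ ℂ) ∈ 𝔪 := by
    rcases hprime.mem_or_mem hfac with h | h
    · refine ⟨1, Or.inl rfl, ?_⟩
      have h1 : a - (((1 : ℤ) * ((q' : ℤ) + 1) : ℤ) : integralClosure ℤ ℂ) =
          a - (q' : integralClosure ℤ ℂ) - 1 := by push_cast; ring
      rw [h1]
      exact h
    · refine ⟨-1, Or.inr rfl, ?_⟩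
      have h1 : a - (((-1 : ℤ) * ((q' : ℤ) + 1) : ℤ) : integralClosure ℤ ℂ) =
          a + (q' : integralClosure ℤ ℂ) + 1 := by push_cast; ring
      rw [h1]
      exact h
  obtain ⟨ε, hε1, hε2⟩ := hε
  refine ⟨w, ε, hwpar, hwnd, hε1, ?_, ?_⟩
  · intro ℓ _ hℓN hgood hℓp
    obtain ⟨a', ha', hc'⟩ := hcong ℓ Fact.out hgood hℓN hℓp
    exact hw ℓ hℓN (W.apOfModel ℓ) a' ha' hc'
  · exact hw q' hq'N (ε * ((q' : ℤ) + 1)) a ha hε2

end Fermat.Agent.S41
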