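import Mathlib
import Fermat.Agent.S41.h8_BDefs
import Fermat.Agent.S41.h42_Cusp
import Fermat.Agent.S41.h44_Heis
import Fermat.Agent.S41.h84_BTransport2
import Fermat.Agent.S41.h49_BHecke2

/-!
# S41 block (B): the cusp formula and conjugation invariance (CI) of the pairing `h8_B`

Everything is derived from the interior formula (INTR, `h84_Intr Γ`)
`2 * ∑_{x ∈ G ⧸ Γ} e (g_x⁻¹ T^m g_x) = - m * B_Γ(φ, ψ)`
together with the landed COUNT (`h42_count_heis`), EXISTS-R (`h42_exists_cuspSystem`),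
`h42_exists_m`, EXIST (`h44_exists_heis`) and TRANSPORT (`h84_ci_of_cusp_formula42`).
-/

set_option autoImplicit false

namespace Fermat.Agent.S41

open scoped MatrixGroups
open ModularGroup ModularCurve.Period CongruenceSubgroup

/-- The statement of INTR (the interior cusp formula, `m`-form) for the group `Γ`. -/
def h84_Intr (Γ : Subgroup SL(2, ℤ)) : Prop :=
  ∀ [Fintype (SL(2, ℤ) ⧸ Γ)] (φ ψ : Additive Γ →+ ℤ), IsParabolicHom Γ φ → IsParabolicHom Γ ψ →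
    ∀ (e : Γ → ℤ),
      (∀ g h : Γ, e (g * h) = e g + e h + φ (Additive.ofMul g) * ψ (Additive.ofMul h)) →
        ∀ (m : ℕ) (hm : ∀ g : SL(2, ℤ), g⁻¹ * T ^ m * g ∈ Γ) (r : SL(2, ℤ) ⧸ Γ → SL(2, ℤ)),
          (∀ x, (QuotientGroup.mk (r x) : SL(2, ℤ) ⧸ Γ) = x) →
            2 * ∑ x : SL(2, ℤ) ⧸ Γ, e ⟨(r x)⁻¹ * T ^ m * r x, hm (r x)⟩
              = -(m : ℤ) * h8_B Γ φ ψ

/-- **The cusp formula** `B_Γ(φ, ψ) = -2 ∑_{ρ ∈ R} e ρ` for every Heisenberg lift `e` of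
`(φ, ψ)` and every cusp system `R` (from INTR + COUNT). -/
theorem h84_cusp_formula_of_intr (Γ : Subgroup SL(2, ℤ)) [Γ.FiniteIndex]
    (hneg : (-1 : SL(2, ℤ)) ∈ Γ) (hintr : h84_Intr Γ) (φ ψ : Additive Γ →+ ℤ)
    (hφ : IsParabolicHom Γ φ) (hψ : IsParabolicHom Γ ψ) (e : Γ → ℤ)
    (he : ∀ g h : Γ, e (g * h) = e g + e h + φ (Additive.ofMul g) * ψ (Additive.ofMul h))
    (R : Finset Γ) (hR : h42_IsCuspSystem Γ R) :
    1 * h8_B Γ φ ψ = -2 * ∑ ρ ∈ R, e ρ := by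
  classical
  let _ : Fintype (SL(2, ℤ) ⧸ Γ) := Fintype.ofFinite _
  obtain ⟨m, hm0, hm⟩ := h42_exists_m Γ
  have h1 := hintr φ ψ hφ hψ e he m hm (fun x => Quotient.out x)
    (fun x => QuotientGroup.out_eq' x)
  have h2 := h42_count_heis Γ hneg φ ψ hφ hψ e he R hR m hm0 hm (fun x => Quotient.out x)
    (fun x => QuotientGroup.out_eq' x)
  rw [h2] at h1
  have hm' : (m : ℤ) ≠ 0 := by exact_mod_cast hm0.ne'
  have h3 : (m : ℤ) * (1 * h8_B Γ φ ψ) = (m : ℤ) * (-2 * ∑ ρ ∈ R, e ρ) := by linarith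
  exact mul_left_cancel₀ hm' h3

/-- **(CI)** conjugation invariance of the pairing, from INTR at both groups. -/
theorem h84_B_conj_of_intr (Γ Γ' : Subgroup SL(2, ℤ)) [Γ.FiniteIndex] [Γ'.FiniteIndex]
    (hneg : (-1 : SL(2, ℤ)) ∈ Γ) (hneg' : (-1 : SL(2, ℤ)) ∈ Γ')
    (hintr : h84_Intr Γ) (hintr' : h84_Intr Γ')
    (δ : Matrix (Fin 2) (Fin 2) ℤ) (hδ : 0 < δ.det) (κ : Γ' ≃* Γ)
    (hκ : ∀ g' : Γ', δ * ((g' : SL(2, ℤ)) : Matrix (Fin 2) (Fin 2) ℤ)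
      = ((κ g' : SL(2, ℤ)) : Matrix (Fin 2) (Fin 2) ℤ) * δ)
    (φ ψ : Additive Γ →+ ℤ) (hφ : IsParabolicHom Γ φ) (hψ : IsParabolicHom Γ ψ)
    (φ' ψ' : Additive Γ' →+ ℤ) (hφ' : IsParabolicHom Γ' φ') (hψ' : IsParabolicHom Γ' ψ')
    (h1 : ∀ g' : Γ', φ' (Additive.ofMul g') = φ (Additive.ofMul (κ g')))
    (h2 : ∀ g' : Γ', ψ' (Additive.ofMul g') = ψ (Additive.ofMul (κ g'))) :
    h8_B Γ' φ' ψ' = h8_B Γ φ ψ :=
  h84_ci_of_cusp_formula42 δ hδ κ hκ φ ψ φ' ψ' h1 h2 (h8_B Γ φ ψ) (h8_B Γ' φ' ψ') 1 (-2)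
    one_ne_zero (h44_exists_heis Γ hneg φ ψ) (h42_exists_cuspSystem Γ' hneg')
    (fun e R he hR => h84_cusp_formula_of_intr Γ hneg hintr φ ψ hφ hψ e he R hR)
    (fun e' R' he' hR' => h84_cusp_formula_of_intr Γ' hneg' hintr' φ' ψ' hφ' hψ' e' he' R' hR')

/-- The cusp formula in helper49's packaged shape, at every level `M`, with `c = 1`, `d = -2`. -/
theorem h84_cuspFormula49_of_intr (M : ℕ) [NeZero M] (hintr : h84_Intr (Gamma0 M)) :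
    h49_CuspFormula M 1 (-2) := fun φ ψ hφ hψ e R he hR =>
  h84_cusp_formula_of_intr (Gamma0 M) (h49_neg_one_mem M) hintr φ ψ hφ hψ e he R hR

/-- EXISTS-R at every level, in the shape of the hypothesis `hexR` of `h49_B3_of_cuspFormula`. -/
theorem h84_exists_cuspSystem_Gamma0 (M : ℕ) [NeZero M] :
    ∃ R : Finset (Gamma0 M), h42_IsCuspSystem (Gamma0 M) R :=
  h42_exists_cuspSystem (Gamma0 M) (h49_neg_one_mem M)

end Fermat.Agent.S41
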