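import Mathlib
import Fermat.Prelude.Def_ModularCurve_PeriodMap
import Fermat.Agent.S41.h8_BDefs
import Fermat.Agent.S41.h92_BPrim
import Fermat.Agent.S41.h19_HeisPrim
import Fermat.Agent.S41.h42_Cusp
import Fermat.Agent.S41.h84_BConj

/-!
# S41 (B-INTR): the interior cusp formula, `m`-form

`2 * ∑_{x ∈ G ⧸ Γ} e (g_x⁻¹ T^m g_x) = - m * B_Γ(φ, ψ)` for every Heisenberg lift `e` of two
parabolic homomorphisms `φ, ψ` and every `m` with `g⁻¹ T^m g ∈ Γ` for all `g`.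
-/

set_option autoImplicit false

namespace Fermat.Agent.S41

open scoped MatrixGroups
open ModularGroup ModularCurve.Period

/-- **INTR.** -/
theorem h42_intr_core (Γ : Subgroup SL(2, ℤ)) [Fintype (SL(2, ℤ) ⧸ Γ)]
    (hneg : (-1 : SL(2, ℤ)) ∈ Γ) (φ ψ : Additive Γ →+ ℤ) (hφ : IsParabolicHom Γ φ)
    (hψ : IsParabolicHom Γ ψ) (e : Γ → ℤ)
    (he : ∀ g h : Γ, e (g * h) = e g + e h + φ (Additive.ofMul g) * ψ (Additive.ofMul h))
    (m : ℕ) (hm : ∀ g : SL(2, ℤ), g⁻¹ * T ^ m * g ∈ Γ) (r : SL(2, ℤ) ⧸ Γ → SL(2, ℤ))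
    (hr : ∀ x, (QuotientGroup.mk (r x) : SL(2, ℤ) ⧸ Γ) = x) :
    2 * ∑ x : SL(2, ℤ) ⧸ Γ, e ⟨(r x)⁻¹ * T ^ m * r x, hm (r x)⟩ = -(m : ℤ) * h8_B Γ φ ψ := by
  classical
  obtain ⟨v, hvpot⟩ := h92_exists_isPot Γ hneg φ hφ
  obtain ⟨v', hv'pot⟩ := h92_exists_isPot Γ hneg ψ hψ
  rw [h92_B_eq' Γ hneg φ ψ v v' hvpot hv'pot]
  obtain ⟨F, P, hF, hP, hFU, hPT, hv⟩ := hvpot
  obtain ⟨F', P', hF', hP', hF'U, hP'T, hv'⟩ := hv'pot
  obtain ⟨H, hH, hHU⟩ := h19_exists_heis_prim Γ hneg φ ψ e he F hF hFU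
  -- the element `-1` of `Γ`
  let neg1 : Γ := ⟨-1, hneg⟩
  have hneg1sq : neg1 ^ 2 = 1 := by
    apply Subtype.ext
    show (-1 : SL(2, ℤ)) ^ 2 = 1
    simp
  have heneg : e neg1 = 0 := h19_heis_torsion φ ψ e he neg1 2 (by norm_num) hneg1sq
  have hφneg : φ (Additive.ofMul neg1) = 0 := h19_hom_torsion φ neg1 2 (by norm_num) hneg1sq
  have hψneg : ψ (Additive.ofMul neg1) = 0 := h19_hom_torsion ψ neg1 2 (by norm_num) hneg1sq
  have hmulneg : ∀ g : SL(2, ℤ), -g = g * (neg1 : SL(2, ℤ)) := fun g => by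
    show -g = g * (-1 : SL(2, ℤ))
    simp
  have hFneg : ∀ g, F (-g) = F g := fun g => by rw [hmulneg, hF, hφneg, add_zero]
  have hF'neg : ∀ g, F' (-g) = F' g := fun g => by rw [hmulneg, hF', hψneg, add_zero]
  have hHneg : ∀ g, H (-g) = H g := fun g => by
    rw [hmulneg, hH, heneg, hψneg, mul_zero, add_zero, add_zero]
  -- `T = (T S) S⁻¹`
  have hTσ : ∀ g : SL(2, ℤ), T * g = (T * S) * (S⁻¹ * g) := fun g => by group
  have hSS : (S⁻¹ * S⁻¹ : SL(2, ℤ)) = -1 := by decide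
  have hσσ : ∀ g : SL(2, ℤ), S⁻¹ * (S⁻¹ * g) = -g := fun g => by
    rw [← mul_assoc, hSS]
    simp
  have FT : ∀ g, F (T * g) = F (S⁻¹ * g) := fun g => by rw [hTσ, hFU]
  have F'T : ∀ g, F' (T * g) = F' (S⁻¹ * g) := fun g => by rw [hTσ, hF'U]
  have HT : ∀ g, H (T * g) = H (S⁻¹ * g) := fun g => by rw [hTσ, hHU]
  -- the functions `s`, `s'`, `k`
  let s : SL(2, ℤ) → ℤ := fun g => F (T * g) - F g
  let s' : SL(2, ℤ) → ℤ := fun g => F' (T * g) - F' g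
  let k : SL(2, ℤ) → ℤ := fun g => H (T * g) - H g - s g * F' g
  have hs_inv : ∀ (g : SL(2, ℤ)) (γ : Γ), s (g * γ) = s g := by
    intro g γ
    show F (T * (g * γ)) - F (g * γ) = F (T * g) - F g
    rw [← mul_assoc, hF, hF]
    ring
  have hk_inv : ∀ (g : SL(2, ℤ)) (γ : Γ), k (g * γ) = k g := by
    intro g γ
    show H (T * (g * γ)) - H (g * γ) - (F (T * (g * γ)) - F (g * γ)) * F' (g * γ) =
      H (T * g) - H g - (F (T * g) - F g) * F' g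
    rw [← mul_assoc, hH, hH, hF, hF, hF']
    ring
  have hkS : ∀ g, k (S⁻¹ * g) + k g = s g * s' g := by
    intro g
    show (H (T * (S⁻¹ * g)) - H (S⁻¹ * g) - (F (T * (S⁻¹ * g)) - F (S⁻¹ * g)) * F' (S⁻¹ * g)) +
      (H (T * g) - H g - (F (T * g) - F g) * F' g) = (F (T * g) - F g) * (F' (T * g) - F' g)
    rw [HT (S⁻¹ * g), FT (S⁻¹ * g), hσσ, hHneg, hFneg, HT g, FT g, F'T g]
    ring
  have hsmul : ∀ a g : SL(2, ℤ), a • (g : SL(2, ℤ) ⧸ Γ) = ((a * g : SL(2, ℤ)) : SL(2, ℤ) ⧸ Γ) :=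
    fun a g => rfl
  have hs_v : ∀ g : SL(2, ℤ), s g = v (T • (g : SL(2, ℤ) ⧸ Γ)) - v (g : SL(2, ℤ) ⧸ Γ) := by
    intro g
    rw [hsmul, hv, hv, hPT]
    show F (T * g) - F g = _
    ring
  have hs'_v : ∀ g : SL(2, ℤ), s' g = v' (T • (g : SL(2, ℤ) ⧸ Γ)) - v' (g : SL(2, ℤ) ⧸ Γ) := by
    intro g
    rw [hsmul, hv', hv', hP'T]
    show F' (T * g) - F' g = _
    ring
  -- right-invariant functions descend to the quotient
  have hdesc : ∀ f : SL(2, ℤ) → ℤ, (∀ (g : SL(2, ℤ)) (γ : Γ), f (g * γ) = f g) →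
      ∀ g : SL(2, ℤ), f (r (g : SL(2, ℤ) ⧸ Γ)) = f g := by
    intro f hf g
    have h1 : g⁻¹ * r (g : SL(2, ℤ) ⧸ Γ) ∈ Γ := QuotientGroup.eq.mp (hr _).symm
    have h2 : r (g : SL(2, ℤ) ⧸ Γ) = g * ((⟨_, h1⟩ : Γ) : SL(2, ℤ)) := by
      show r (g : SL(2, ℤ) ⧸ Γ) = g * (g⁻¹ * r (g : SL(2, ℤ) ⧸ Γ))
      group
    rw [h2, hf]
  -- the function `w = k + s v'` on the quotient
  let w : SL(2, ℤ) ⧸ Γ → ℤ := fun x => k (r x) + s (r x) * v' x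
  have hw : ∀ g : SL(2, ℤ), k g + s g * v' (g : SL(2, ℤ) ⧸ Γ) = w (g : SL(2, ℤ) ⧸ Γ) := by
    intro g
    show _ = k (r (g : SL(2, ℤ) ⧸ Γ)) + s (r (g : SL(2, ℤ) ⧸ Γ)) * v' (g : SL(2, ℤ) ⧸ Γ)
    rw [hdesc k hk_inv, hdesc s hs_inv]
  -- `P'` is invariant under the powers of `T`
  have hP'Tpow : ∀ (i : ℕ) (g : SL(2, ℤ)), P' (T ^ i * g) = P' g := by
    intro i g
    induction i with
    | zero => simp
    | succ n ih => rw [pow_succ', mul_assoc, hP'T, ih]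
  -- the key formula
  have hkey : ∀ g : SL(2, ℤ), e ⟨g⁻¹ * T ^ m * g, hm g⟩ =
      ∑ i ∈ Finset.range m, w (T ^ i • (g : SL(2, ℤ) ⧸ Γ)) := by
    intro g
    set γ : Γ := ⟨g⁻¹ * T ^ m * g, hm g⟩ with hγdef
    have hγ : T ^ m * g = g * (γ : SL(2, ℤ)) := by
      show T ^ m * g = g * (g⁻¹ * T ^ m * g)
      group
    have htr : (((γ : SL(2, ℤ)) : Matrix (Fin 2) (Fin 2) ℤ)).trace = 2 := by
      have h1 : (γ : SL(2, ℤ)) = h42_cj g m := by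
        show g⁻¹ * T ^ m * g = g⁻¹ * T ^ (m : ℤ) * g
        rw [zpow_natCast]
      rw [h1]
      exact h42_cj_trace g m
    have hφγ : φ (Additive.ofMul γ) = 0 := h42_parabolic_of_trace hφ γ htr
    have hψγ : ψ (Additive.ofMul γ) = 0 := h42_parabolic_of_trace hψ γ htr
    have h1 : e γ = H (T ^ m * g) - H g := by
      rw [hγ, hH, hψγ]
      ring
    have h2 : H (T ^ m * g) - H g =
        ∑ i ∈ Finset.range m, (H (T ^ (i + 1) * g) - H (T ^ i * g)) := by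
      rw [Finset.sum_range_sub (fun i => H (T ^ i * g)) m]
      simp
    have h3 : F (T ^ m * g) - F g =
        ∑ i ∈ Finset.range m, s (T ^ i * g) := by
      have : ∑ i ∈ Finset.range m, s (T ^ i * g) =
          ∑ i ∈ Finset.range m, (F (T ^ (i + 1) * g) - F (T ^ i * g)) := by
        refine Finset.sum_congr rfl fun i _ => ?_
        show F (T * (T ^ i * g)) - F (T ^ i * g) = _
        rw [pow_succ', mul_assoc]
      rw [this, Finset.sum_range_sub (fun i => F (T ^ i * g)) m]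
      simp
    have h4 : ∑ i ∈ Finset.range m, s (T ^ i * g) = 0 := by
      rw [← h3, hγ, hF, hφγ]
      ring
    rw [h1, h2]
    have h5 : ∀ i ∈ Finset.range m, H (T ^ (i + 1) * g) - H (T ^ i * g) =
        w (T ^ i • (g : SL(2, ℤ) ⧸ Γ)) + P' g * s (T ^ i * g) := by
      intro i _
      rw [hsmul, ← hw]
      have h6 : F' (T ^ i * g) = v' ((T ^ i * g : SL(2, ℤ)) : SL(2, ℤ) ⧸ Γ) + P' g := by
        rw [hv', hP'Tpow]
        ring
      show _ = (H (T * (T ^ i * g)) - H (T ^ i * g) - s (T ^ i * g) * F' (T ^ i * g)) +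
        s (T ^ i * g) * v' ((T ^ i * g : SL(2, ℤ)) : SL(2, ℤ) ⧸ Γ) + P' g * s (T ^ i * g)
      rw [h6, pow_succ', mul_assoc]
      ring
    rw [Finset.sum_congr rfl h5, Finset.sum_add_distrib, ← Finset.mul_sum, h4, mul_zero,
      add_zero]
  -- sum over the quotient
  have hsum : ∑ x : SL(2, ℤ) ⧸ Γ, e ⟨(r x)⁻¹ * T ^ m * r x, hm (r x)⟩ = m * ∑ x, w x := by
    have h1 : ∀ x : SL(2, ℤ) ⧸ Γ, e ⟨(r x)⁻¹ * T ^ m * r x, hm (r x)⟩ =
        ∑ i ∈ Finset.range m, w (T ^ i • x) := by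
      intro x
      rw [hkey (r x), hr x]
    rw [Finset.sum_congr rfl fun x _ => h1 x, Finset.sum_comm]
    have h2 : ∀ i ∈ Finset.range m, ∑ x : SL(2, ℤ) ⧸ Γ, w (T ^ i • x) = ∑ x, w x := by
      intro i _
      exact Equiv.sum_comp (MulAction.toPerm (T ^ i)) w
    rw [Finset.sum_congr rfl h2, Finset.sum_const, Finset.card_range, nsmul_eq_mul]
  -- `2 ∑ k = ∑ s s'`
  have hA : 2 * ∑ x : SL(2, ℤ) ⧸ Γ, k (r x) = ∑ x : SL(2, ℤ) ⧸ Γ, s (r x) * s' (r x) := by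
    have h1 : ∑ x : SL(2, ℤ) ⧸ Γ, k (r (S⁻¹ • x)) = ∑ x : SL(2, ℤ) ⧸ Γ, k (r x) :=
      Equiv.sum_comp (MulAction.toPerm (S⁻¹ : SL(2, ℤ))) (fun x => k (r x))
    have h2 : ∀ x : SL(2, ℤ) ⧸ Γ, k (r (S⁻¹ • x)) = s (r x) * s' (r x) - k (r x) := by
      intro x
      have h3 : S⁻¹ • x = ((S⁻¹ * r x : SL(2, ℤ)) : SL(2, ℤ) ⧸ Γ) := by
        rw [← hsmul, hr x]
      rw [h3, hdesc k hk_inv]
      have := hkS (r x)
      linarith
    rw [Finset.sum_congr rfl fun x _ => h2 x, Finset.sum_sub_distrib] at h1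
    linarith
  have hsr : ∀ x : SL(2, ℤ) ⧸ Γ, s (r x) = v (T • x) - v x := by
    intro x
    have := hs_v (r x)
    rwa [hr x] at this
  have hs'r : ∀ x : SL(2, ℤ) ⧸ Γ, s' (r x) = v' (T • x) - v' x := by
    intro x
    have := hs'_v (r x)
    rwa [hr x] at this
  have hperm : ∑ x : SL(2, ℤ) ⧸ Γ, v (T • x) * v' (T • x) = ∑ x : SL(2, ℤ) ⧸ Γ, v x * v' x :=
    Equiv.sum_comp (MulAction.toPerm (T : SL(2, ℤ))) (fun x => v x * v' x)
  have hW : 2 * ∑ x : SL(2, ℤ) ⧸ Γ, w x =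
      -h8_B2 (fun x : SL(2, ℤ) ⧸ Γ => T • x) v v' := by
    have h1 : ∑ x : SL(2, ℤ) ⧸ Γ, w x =
        ∑ x : SL(2, ℤ) ⧸ Γ, k (r x) + ∑ x : SL(2, ℤ) ⧸ Γ, s (r x) * v' x := by
      rw [← Finset.sum_add_distrib]
    have h2 : ∑ x : SL(2, ℤ) ⧸ Γ, s (r x) * s' (r x) +
        2 * ∑ x : SL(2, ℤ) ⧸ Γ, s (r x) * v' x =
        -h8_B2 (fun x : SL(2, ℤ) ⧸ Γ => T • x) v v' := by
      unfold h8_B2
      rw [Finset.mul_sum, ← Finset.sum_add_distrib, ← Finset.sum_neg_distrib]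
      have h3 : ∑ x : SL(2, ℤ) ⧸ Γ, (s (r x) * s' (r x) + 2 * (s (r x) * v' x)) =
          ∑ x : SL(2, ℤ) ⧸ Γ, (-(v x * v' (T • x) - v (T • x) * v' x) +
            (v (T • x) * v' (T • x) - v x * v' x)) := by
        refine Finset.sum_congr rfl fun x _ => ?_
        rw [hsr, hs'r]
        ring
      rw [h3, Finset.sum_add_distrib, Finset.sum_sub_distrib, hperm, sub_self, add_zero]
    rw [h1, mul_add, hA, h2]
  rw [hsum]
  linear_combination (m : ℤ) * hW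

/-- **INTR** in the form consumed by `h84_BConj`. -/
theorem h42_intr (Γ : Subgroup SL(2, ℤ)) (hneg : (-1 : SL(2, ℤ)) ∈ Γ) : h84_Intr Γ :=
  fun φ ψ hφ hψ e he m hm r hr => h42_intr_core Γ hneg φ ψ hφ hψ e he m hm r hr

end Fermat.Agent.S41
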