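/-
S41 (level raising), block (4) of the architecture board #1684: the abstract Ribet deduction.
Mathlib only.  helper43.

Main exports (namespace `Fermat.Agent.S41`):
* `h43_exists_kill`      (SUPP)  finite `P`-module without `𝔫`-torsion is killed by some `s ≡ 1 mod 𝔫`
* `h43_exists_torsion`   contrapositive: `y ∉ 𝔫 Y` gives a nonzero element killed by `𝔫`
* `h43_dual_lattice`     (DUAL)  orthogonal of `ker (α mod p)` is `im β + p X`
* `h43_ribet_alg_gen`    abstract level raising for a commutative ring `P` acting on `X`, `L'`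
* `h43_ribet_alg`        (ALG)   operator-family form, no polynomial ring at the surface
-/
import Mathlib

set_option autoImplicit false

namespace Fermat.Agent.S41

section Supp

variable {P : Type*} [CommRing P] {Y : Type*} [AddCommGroup Y] [Module P Y]

/-- (SUPP) A finite module without nonzero `𝔫`-torsion is killed by an element `s ≡ 1 mod 𝔫`. -/
theorem h43_exists_kill [Finite Y] (𝔫 : Ideal P)
    (h : ∀ w : Y, (∀ t ∈ 𝔫, t • w = 0) → w = 0) :
    ∃ s : P, s - 1 ∈ 𝔫 ∧ ∀ w : Y, s • w = 0 := by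
  have : IsArtinian P Y := isArtinian_of_finite
  -- the descending chain `𝔫 ^ k • ⊤`
  let f : ℕ →o (Submodule P Y)ᵒᵈ :=
    ⟨fun k => OrderDual.toDual (𝔫 ^ k • (⊤ : Submodule P Y)), by
      intro a b hab
      show 𝔫 ^ b • (⊤ : Submodule P Y) ≤ 𝔫 ^ a • (⊤ : Submodule P Y)
      exact Submodule.smul_mono_left (Ideal.pow_le_pow_right hab)⟩
  obtain ⟨n, hn⟩ := IsArtinian.monotone_stabilizes f
  have hstab : 𝔫 ^ n • (⊤ : Submodule P Y) = 𝔫 ^ (n + 1) • (⊤ : Submodule P Y) :=
    congrArg OrderDual.ofDual (hn (n + 1) (Nat.le_succ n))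
  have hle : 𝔫 ^ n • (⊤ : Submodule P Y) ≤ 𝔫 • (𝔫 ^ n • (⊤ : Submodule P Y)) := by
    rw [← mul_smul, ← pow_succ', ← hstab]
  obtain ⟨s, hs1, hs⟩ := Submodule.exists_sub_one_mem_and_smul_eq_zero_of_fg_of_le_smul 𝔫
    (𝔫 ^ n • (⊤ : Submodule P Y)) (IsNoetherian.noetherian _) hle
  refine ⟨s, hs1, ?_⟩
  -- downward induction
  have key : ∀ k : ℕ, k ≤ n → ∀ w ∈ 𝔫 ^ (n - k) • (⊤ : Submodule P Y), s • w = 0 := by
    intro k
    induction k with
    | zero => intro _ w hw; exact hs w (by simpa using hw)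
    | succ k ih =>
      intro hk w hw
      apply h
      intro t ht
      rw [smul_comm]
      apply ih (by omega)
      have h1 : n - k = (n - (k + 1)) + 1 := by omega
      rw [h1, pow_succ', mul_smul]
      exact Submodule.smul_mem_smul ht hw
  intro w
  exact key n le_rfl w (by simp)

/-- Contrapositive form: a finite module `Y` with `𝔫 Y ≠ Y` has a nonzero element killed by
`𝔫`. -/
theorem h43_exists_torsion [Finite Y] (𝔫 : Ideal P) (y : Y)
    (hy : y ∉ 𝔫 • (⊤ : Submodule P Y)) :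
    ∃ w : Y, w ≠ 0 ∧ ∀ t ∈ 𝔫, t • w = 0 := by
  by_contra hcon
  push Not at hcon
  obtain ⟨s, hs1, hs⟩ := h43_exists_kill 𝔫 (fun w hw => by
    by_contra hw0
    obtain ⟨t, ht, ht'⟩ := hcon w hw0
    exact ht' (hw t ht))
  apply hy
  have h1 : y = -((s - 1) • y) := by
    rw [sub_smul, hs y, one_smul, zero_sub, neg_neg]
  rw [h1]
  exact Submodule.neg_mem _ (Submodule.smul_mem_smul hs1 Submodule.mem_top)

end Supp

section Gen

variable {P : Type*} [CommRing P] (p : ℕ) [Fact p.Prime] (χ : P →+* ZMod p)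
variable {X L' : Type*} [AddCommGroup X] [Module P X] [AddCommGroup L'] [Module P L']

/-- A finitely generated abelian group killed by `p` is finite. -/
theorem h43_finite_of_fg_of_torsion {M : Type*} [AddCommGroup M] [Module.Finite ℤ M]
    (h : ∀ x : M, p • x = 0) : Finite M := by
  let _ : Module (ZMod p) M := AddCommGroup.zmodModule h
  have hfin : Module.Finite (ZMod p) M := Module.Finite.of_restrictScalars_finite ℤ (ZMod p) M
  exact @Module.finite_of_finite (ZMod p) M _ _ _ _ hfin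

omit [Fact p.Prime] in
theorem h43_natCast_smul (x : X) : (p : P) • x = p • x := Nat.cast_smul_eq_nsmul P p x

/-- Application of (SUPP): if no `χ`-eigenvector mod `p` lies in `ker (α mod p)`, some
`s` with `χ s = 1` kills `ker (α mod p)`. -/
theorem h43_supp_apply [Module.Finite ℤ X] (α : X →ₗ[P] L')
    (Ih : ∀ w : X, (∀ t ∈ RingHom.ker χ, ∃ v, t • w = p • v) → (∃ v' : L', α w = p • v') →
      ∃ v, w = p • v) :
    ∃ s : P, χ s = 1 ∧ ∀ w : X, (∃ v' : L', α w = p • v') → ∃ v, s • w = p • v := by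
  let pX : Submodule P X := LinearMap.range ((p : P) • (LinearMap.id : X →ₗ[P] X))
  have hpX : ∀ x : X, x ∈ pX ↔ ∃ v, x = p • v := by
    intro x
    constructor
    · rintro ⟨v, rfl⟩
      exact ⟨v, by simp [Nat.cast_smul_eq_nsmul]⟩
    · rintro ⟨v, rfl⟩
      exact ⟨v, by simp [Nat.cast_smul_eq_nsmul]⟩
  have hfin0 : Module.Finite ℤ (X ⧸ pX) :=
    Module.Finite.of_surjective (pX.mkQ.toAddMonoidHom.toIntLinearMap) pX.mkQ_surjective
  have hfin : Finite (X ⧸ pX) := by
    apply h43_finite_of_fg_of_torsion p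
    intro x
    obtain ⟨x, rfl⟩ := pX.mkQ_surjective x
    rw [← map_nsmul, Submodule.mkQ_apply, Submodule.Quotient.mk_eq_zero, hpX]
    exact ⟨x, rfl⟩
  let K : Submodule P X :=
    { carrier := {w | ∃ v' : L', α w = p • v'}
      add_mem' := by
        rintro a b ⟨va, ha⟩ ⟨vb, hb⟩
        exact ⟨va + vb, by rw [map_add, ha, hb, smul_add]⟩
      zero_mem' := ⟨0, by simp⟩
      smul_mem' := by
        rintro c a ⟨va, ha⟩
        exact ⟨c • va, by rw [map_smul, ha, smul_comm]⟩ }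
  let Y : Submodule P (X ⧸ pX) := K.map pX.mkQ
  have hY : ∀ y : Y, (∀ t ∈ RingHom.ker χ, t • y = 0) → y = 0 := by
    rintro ⟨y, w, hw, rfl⟩ hy
    have hw' : ∃ v, w = p • v := by
      apply Ih w _ hw
      intro t ht
      have h1 := hy t ht
      have h2 : t • pX.mkQ w = 0 := congrArg Subtype.val h1
      rw [← map_smul, Submodule.mkQ_apply, Submodule.Quotient.mk_eq_zero, hpX] at h2
      exact h2
    apply Subtype.ext
    show pX.mkQ w = 0
    rw [Submodule.mkQ_apply, Submodule.Quotient.mk_eq_zero, hpX]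
    exact hw'
  obtain ⟨s, hs1, hs⟩ := h43_exists_kill (Y := Y) (RingHom.ker χ) hY
  refine ⟨s, ?_, ?_⟩
  · rw [RingHom.mem_ker, map_sub, map_one, sub_eq_zero] at hs1
    exact hs1
  · intro w hw
    have h1 := hs ⟨pX.mkQ w, Submodule.mem_map_of_mem hw⟩
    have h2 : s • pX.mkQ w = 0 := congrArg Subtype.val h1
    rw [← map_smul, Submodule.mkQ_apply, Submodule.Quotient.mk_eq_zero, hpX] at h2
    exact h2

/-- Cayley–Hamilton upgrade: from `s X ⊆ β L' + p X` to `s' X ⊆ β L'`, keeping `χ s' = 1`. -/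
theorem h43_ch_upgrade [Module.Finite ℤ X] (β : L' →ₗ[P] X) (s : P) (hs : χ s = 1)
    (h : ∀ x : X, ∃ (y : L') (v : X), s • x = β y + p • v) :
    ∃ s' : P, χ s' = 1 ∧ ∀ x : X, ∃ y : L', s' • x = β y := by
  have hfinP : Module.Finite P X := Module.Finite.of_restrictScalars_finite ℤ P X
  let R : Submodule P X := LinearMap.range β
  let I : Ideal P := Ideal.span {(p : P)}
  have hI : LinearMap.range (algebraMap P (Module.End P (X ⧸ R)) s) ≤ I • ⊤ := by
    rintro _ ⟨m, rfl⟩
    obtain ⟨x, rfl⟩ := R.mkQ_surjective m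
    obtain ⟨y, v, hyv⟩ := h x
    have h1 : algebraMap P (Module.End P (X ⧸ R)) s (R.mkQ x) = (p : P) • R.mkQ v := by
      rw [Module.algebraMap_end_apply, ← map_smul, hyv, map_add]
      have h2 : R.mkQ (β y) = 0 := by
        rw [Submodule.mkQ_apply, Submodule.Quotient.mk_eq_zero]
        exact ⟨y, rfl⟩
      rw [h2, zero_add, ← Nat.cast_smul_eq_nsmul P p v, map_smul]
    rw [h1]
    exact Submodule.smul_mem_smul (Ideal.mem_span_singleton_self _) Submodule.mem_top
  obtain ⟨g, hg1, -, hg2, hg3⟩ :=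
    LinearMap.exists_monic_and_natDegree_eq_and_coeff_mem_pow_and_aeval_eq_zero P _ I hI
  have hIχ : ∀ c ∈ I, χ c = 0 := by
    intro c hc
    obtain ⟨d, rfl⟩ := Ideal.mem_span_singleton.mp hc
    rw [map_mul, map_natCast, ZMod.natCast_self, zero_mul]
  refine ⟨g.eval s, ?_, ?_⟩
  · rw [Polynomial.eval_eq_sum_range, map_sum, Finset.sum_range_succ]
    have h0 : ∑ k ∈ Finset.range g.natDegree, χ (g.coeff k * s ^ k) = 0 := by
      apply Finset.sum_eq_zero
      intro k hk
      have hk' : k < g.natDegree := Finset.mem_range.mp hk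
      have h1 : g.coeff k ∈ I :=
        Ideal.pow_le_self (by omega) (hg2 k)
      rw [map_mul, hIχ _ h1, zero_mul]
    rw [h0, zero_add, map_mul, map_pow, hs, one_pow, mul_one, hg1.coeff_natDegree, map_one]
  · intro x
    rw [Polynomial.aeval_algebraMap_apply_eq_algebraMap_eval] at hg3
    have h1 : algebraMap P (Module.End P (X ⧸ R)) (g.eval s) (R.mkQ x) = 0 := by
      rw [hg3]; rfl
    rw [Module.algebraMap_end_apply, ← map_smul, Submodule.mkQ_apply,
      Submodule.Quotient.mk_eq_zero] at h1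
    obtain ⟨y, hy⟩ := h1
    exact ⟨y, hy.symm⟩

/-- **Abstract level raising, general ring form.**  `P` acts on `X` (= `L × L`) and `L'`,
`α : X → L'`, `β : L' → X` are `P`-linear, `χ : P → 𝔽_p`. -/
theorem h43_ribet_alg_gen [Module.Finite ℤ X] (hX : ∀ x : X, p • x = 0 → x = 0)
    (α : X →ₗ[P] L') (β : L' →ₗ[P] X)
    (Ih : ∀ w : X, (∀ t ∈ RingHom.ker χ, ∃ v, t • w = p • v) → (∃ v' : L', α w = p • v') →
      ∃ v, w = p • v)
    (pair : X → X → ZMod p)
    (hadd : ∀ w w' x', pair (w + w') x' = pair w x' + pair w' x')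
    (hsa : ∀ (s : P) (w x' : X), pair (s • w) x' = pair w (s • x'))
    (hdual : ∀ x' : X, (∀ w : X, (∃ v' : L', α w = p • v') → pair w x' = 0) →
      ∃ (y : L') (v : X), x' = β y + p • v)
    (u : X) (hu : ∀ t ∈ RingHom.ker χ, ∃ v, t • u = p • v) (hu0 : ¬ ∃ v, u = p • v)
    (hβα : ∃ v, β (α u) = p • v) :
    ∃ z : L', β z = 0 ∧ (¬ ∃ z₀, z = p • z₀) ∧
      ∀ t ∈ RingHom.ker χ, ∃ w, t • z = p • w ∧ β w = 0 := by
  -- additive map `pair · x'`
  have hpair_nsmul : ∀ (w x' : X), pair (p • w) x' = 0 := by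
    intro w x'
    let φ : X →+ ZMod p := AddMonoidHom.mk' (fun w => pair w x') (fun a b => hadd a b x')
    have h1 : φ (p • w) = p • φ w := map_nsmul φ p w
    have h2 : (p • φ w : ZMod p) = 0 := by
      rw [nsmul_eq_mul, ZMod.natCast_self, zero_mul]
    exact h1.trans h2
  obtain ⟨s₁, hs₁, hs₁K⟩ := h43_supp_apply p χ α Ih
  have hD : ∀ x : X, ∃ (y : L') (v : X), s₁ • x = β y + p • v := by
    intro x
    apply hdual
    intro w hw
    obtain ⟨v, hv⟩ := hs₁K w hw
    rw [← hsa, hv, hpair_nsmul]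
  obtain ⟨s', hs', hs'β⟩ := h43_ch_upgrade p χ β s₁ hs₁ hD
  -- the element
  set w := α u with hw
  have hwe : ∀ t ∈ RingHom.ker χ, ∃ v : L', t • w = p • v := by
    intro t ht
    obtain ⟨v, hv⟩ := hu t ht
    exact ⟨α v, by rw [hw, ← map_smul, hv, map_nsmul]⟩
  have hw0 : ¬ ∃ v' : L', w = p • v' := fun h => hu0 (Ih u hu h)
  obtain ⟨y, hy⟩ := hβα
  obtain ⟨z₁, hz₁⟩ := hs'β y
  refine ⟨s' • w - p • z₁, ?_, ?_, ?_⟩
  · rw [map_sub, map_smul, map_nsmul, hy, ← hz₁, smul_comm, sub_self]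
  · rintro ⟨z₀, hz₀⟩
    apply hw0
    -- s' • w = p • (z₀ + z₁), and (s' c - 1) • w ∈ p L'
    have h1 : s' • w = p • (z₀ + z₁) := by
      rw [smul_add, ← hz₀, sub_add_cancel]
    have h2 : s' - 1 ∈ RingHom.ker χ := by
      rw [RingHom.mem_ker, map_sub, hs', map_one, sub_self]
    obtain ⟨v, hv⟩ := hwe _ h2
    refine ⟨z₀ + z₁ - v, ?_⟩
    rw [smul_sub, ← h1, ← hv, sub_smul, one_smul, sub_sub_cancel]
  · intro t ht
    obtain ⟨w₁, hw₁⟩ := hwe t ht
    have h1 : t • (s' • w - p • z₁) = p • (s' • w₁ - t • z₁) := by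
      rw [smul_sub, smul_sub, smul_comm t s' w, hw₁, smul_comm s' p w₁, smul_comm t p z₁]
    refine ⟨s' • w₁ - t • z₁, h1, ?_⟩
    apply hX
    rw [← map_nsmul, ← h1, map_smul, map_sub, map_smul, map_nsmul, hy, ← hz₁, smul_comm s' p y,
      sub_self, smul_zero]

end Gen

section Dual

variable (p : ℕ) [Fact p.Prime] (X : Type*) [AddCommGroup X]

/-- `p X` as a `ℤ`-submodule. -/
def h43_pSub : Submodule ℤ X := LinearMap.range ((p : ℤ) • (LinearMap.id : X →ₗ[ℤ] X))

variable {X}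

omit [Fact p.Prime] in
theorem h43_mem_pSub (x : X) : x ∈ h43_pSub p X ↔ ∃ v, x = p • v := by
  constructor
  · rintro ⟨v, rfl⟩
    exact ⟨v, by simp⟩
  · rintro ⟨v, rfl⟩
    exact ⟨v, by simp⟩

omit [Fact p.Prime] in
theorem h43_mk_eq_zero (a : X) : (h43_pSub p X).mkQ a = 0 ↔ ∃ v, a = p • v := by
  rw [Submodule.mkQ_apply, Submodule.Quotient.mk_eq_zero, h43_mem_pSub]

omit [Fact p.Prime] in
theorem h43_red_nsmul (v : X ⧸ h43_pSub p X) : p • v = 0 := by
  obtain ⟨x, rfl⟩ := (h43_pSub p X).mkQ_surjective v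
  rw [← map_nsmul, h43_mk_eq_zero]
  exact ⟨x, rfl⟩

/-- The `𝔽_p`-vector space structure on `X / p X`. -/
@[reducible] noncomputable def h43_redModule : Module (ZMod p) (X ⧸ h43_pSub p X) :=
  AddCommGroup.zmodModule (h43_red_nsmul p)

attribute [local instance] h43_redModule

theorem h43_red_smul (c : ZMod p) (a : X) :
    c • (h43_pSub p X).mkQ a = (h43_pSub p X).mkQ (c.val • a) := by
  rw [map_nsmul, ← Nat.cast_smul_eq_nsmul (ZMod p), ZMod.natCast_zmod_val]

theorem h43_red_finite [Module.Finite ℤ X] : Module.Finite (ZMod p) (X ⧸ h43_pSub p X) :=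
  Module.Finite.of_restrictScalars_finite ℤ (ZMod p) (X ⧸ h43_pSub p X)

/-- Data of a biadditive `𝔽_p`-valued pairing on `X`. -/
structure h43_Biadd (BX : X → X → ZMod p) : Prop where
  add_left : ∀ a b c, BX (a + b) c = BX a c + BX b c
  add_right : ∀ a b c, BX a (b + c) = BX a b + BX a c

variable {p}

theorem h43_Biadd.nsmul_left {BX : X → X → ZMod p} (hB : h43_Biadd p BX) (n : ℕ) (a c : X) :
    BX (n • a) c = n • BX a c :=
  map_nsmul (AddMonoidHom.mk' (fun a => BX a c) (fun a b => hB.add_left a b c)) n a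

theorem h43_Biadd.nsmul_right {BX : X → X → ZMod p} (hB : h43_Biadd p BX) (n : ℕ) (a c : X) :
    BX a (n • c) = n • BX a c :=
  map_nsmul (AddMonoidHom.mk' (fun c => BX a c) (fun b c => hB.add_right a b c)) n c

theorem h43_Biadd.sub_left {BX : X → X → ZMod p} (hB : h43_Biadd p BX) (a b c : X) :
    BX (a - b) c = BX a c - BX b c :=
  map_sub (AddMonoidHom.mk' (fun a => BX a c) (fun a b => hB.add_left a b c)) a b

theorem h43_Biadd.sub_right {BX : X → X → ZMod p} (hB : h43_Biadd p BX) (a b c : X) :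
    BX a (b - c) = BX a b - BX a c :=
  map_sub (AddMonoidHom.mk' (fun c => BX a c) (fun b c => hB.add_right a b c)) b c

theorem h43_zmod_nsmul (z : ZMod p) : p • z = 0 := by
  rw [nsmul_eq_mul, ZMod.natCast_self, zero_mul]

theorem h43_Biadd.wd {BX : X → X → ZMod p} (hB : h43_Biadd p BX) (a₁ a₂ b₁ b₂ : X)
    (h1 : a₁ - b₁ ∈ h43_pSub p X) (h2 : a₂ - b₂ ∈ h43_pSub p X) : BX a₁ a₂ = BX b₁ b₂ := by
  obtain ⟨v1, hv1⟩ := (h43_mem_pSub p _).mp h1
  obtain ⟨v2, hv2⟩ := (h43_mem_pSub p _).mp h2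
  have e1 : BX a₁ a₂ - BX b₁ a₂ = 0 := by
    rw [← hB.sub_left, hv1, hB.nsmul_left, h43_zmod_nsmul]
  have e2 : BX b₁ a₂ - BX b₁ b₂ = 0 := by
    rw [← hB.sub_right, hv2, hB.nsmul_right, h43_zmod_nsmul]
  rw [sub_eq_zero] at e1 e2
  rw [e1, e2]

/-- The induced function on the quotient. -/
noncomputable def h43_redFun {BX : X → X → ZMod p} (hB : h43_Biadd p BX) :
    X ⧸ h43_pSub p X → X ⧸ h43_pSub p X → ZMod p := fun v w =>
  Quotient.liftOn₂' v w BX (fun a₁ a₂ b₁ b₂ h1 h2 =>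
    hB.wd a₁ a₂ b₁ b₂ ((Submodule.quotientRel_def _).mp h1) ((Submodule.quotientRel_def _).mp h2))

theorem h43_redFun_mk {BX : X → X → ZMod p} (hB : h43_Biadd p BX) (a c : X) :
    h43_redFun hB ((h43_pSub p X).mkQ a) ((h43_pSub p X).mkQ c) = BX a c := rfl

/-- The induced bilinear form on `X / p X`. -/
noncomputable def h43_redForm {BX : X → X → ZMod p} (hB : h43_Biadd p BX) :
    LinearMap.BilinForm (ZMod p) (X ⧸ h43_pSub p X) :=
  LinearMap.mk₂ (ZMod p) (h43_redFun hB)
    (by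
      intro m₁ m₂ n
      obtain ⟨a, rfl⟩ := (h43_pSub p X).mkQ_surjective m₁
      obtain ⟨b, rfl⟩ := (h43_pSub p X).mkQ_surjective m₂
      obtain ⟨c, rfl⟩ := (h43_pSub p X).mkQ_surjective n
      rw [← map_add, h43_redFun_mk, h43_redFun_mk, h43_redFun_mk, hB.add_left])
    (by
      intro c m n
      obtain ⟨a, rfl⟩ := (h43_pSub p X).mkQ_surjective m
      obtain ⟨b, rfl⟩ := (h43_pSub p X).mkQ_surjective n
      rw [h43_red_smul, h43_redFun_mk, h43_redFun_mk, hB.nsmul_left, nsmul_eq_mul,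
        ZMod.natCast_zmod_val, smul_eq_mul])
    (by
      intro m n₁ n₂
      obtain ⟨a, rfl⟩ := (h43_pSub p X).mkQ_surjective m
      obtain ⟨b, rfl⟩ := (h43_pSub p X).mkQ_surjective n₁
      obtain ⟨c, rfl⟩ := (h43_pSub p X).mkQ_surjective n₂
      rw [← map_add, h43_redFun_mk, h43_redFun_mk, h43_redFun_mk, hB.add_right])
    (by
      intro c m n
      obtain ⟨a, rfl⟩ := (h43_pSub p X).mkQ_surjective m
      obtain ⟨b, rfl⟩ := (h43_pSub p X).mkQ_surjective n
      rw [h43_red_smul, h43_redFun_mk, h43_redFun_mk, hB.nsmul_right, nsmul_eq_mul,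
        ZMod.natCast_zmod_val, smul_eq_mul])

theorem h43_redForm_mk {BX : X → X → ZMod p} (hB : h43_Biadd p BX) (a c : X) :
    h43_redForm hB ((h43_pSub p X).mkQ a) ((h43_pSub p X).mkQ c) = BX a c := rfl

variable (p)
variable {Y : Type*} [AddCommGroup Y]

/-- (DUAL), lattice form: for pairings with values in `𝔽_p` that are nondegenerate mod `p`,
with `β` adjoint to `α`, the orthogonal of `ker (α mod p)` is `im β + p X`. -/
theorem h43_dual_lattice [Module.Finite ℤ X]
    (α : X → Y) (β : Y →+ X) (BX : X → X → ZMod p) (BY : Y → Y → ZMod p)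
    (hBX_add_left : ∀ a b c, BX (a + b) c = BX a c + BX b c)
    (hBX_add_right : ∀ a b c, BX a (b + c) = BX a b + BX a c)
    (hBX_nd : ∀ x, (∀ x', BX x x' = 0) → ∃ v, x = p • v)
    (hBX_refl : ∀ x x', BX x x' = 0 → BX x' x = 0)
    (hBY_nd : ∀ y, (∀ y', BY y y' = 0) → ∃ v, y = p • v)
    (hadj : ∀ x y, BY (α x) y = BX x (β y))
    (x' : X) (h : ∀ w, (∃ v, α w = p • v) → BX w x' = 0) :
    ∃ (y : Y) (v : X), x' = β y + p • v := by
  classical
  have hB : h43_Biadd p BX := ⟨hBX_add_left, hBX_add_right⟩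
  have hfin : Module.Finite (ZMod p) (X ⧸ h43_pSub p X) := h43_red_finite p
  have hrefl : (h43_redForm hB).IsRefl := by
    intro m n hmn
    obtain ⟨a, rfl⟩ := (h43_pSub p X).mkQ_surjective m
    obtain ⟨b, rfl⟩ := (h43_pSub p X).mkQ_surjective n
    rw [h43_redForm_mk] at hmn ⊢
    exact hBX_refl _ _ hmn
  have hnd : (h43_redForm hB).Nondegenerate := by
    constructor
    · intro m hm
      obtain ⟨a, rfl⟩ := (h43_pSub p X).mkQ_surjective m
      rw [h43_mk_eq_zero]
      apply hBX_nd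
      intro c
      have := hm ((h43_pSub p X).mkQ c)
      rwa [h43_redForm_mk] at this
    · intro n hn
      obtain ⟨b, rfl⟩ := (h43_pSub p X).mkQ_surjective n
      rw [h43_mk_eq_zero]
      apply hBX_nd
      intro c
      apply hBX_refl
      have := hn ((h43_pSub p X).mkQ c)
      rwa [h43_redForm_mk] at this
  let R : Submodule (ZMod p) (X ⧸ h43_pSub p X) :=
    { carrier := Set.range (fun y : Y => (h43_pSub p X).mkQ (β y))
      add_mem' := by
        rintro _ _ ⟨a, rfl⟩ ⟨b, rfl⟩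
        exact ⟨a + b, by simp only [map_add]⟩
      zero_mem' := ⟨0, by simp only [map_zero]⟩
      smul_mem' := by
        rintro c _ ⟨a, rfl⟩
        refine ⟨c.val • a, ?_⟩
        show (h43_pSub p X).mkQ (β (c.val • a)) = c • (h43_pSub p X).mkQ (β a)
        rw [h43_red_smul, map_nsmul] }
  have hmem : (h43_pSub p X).mkQ x' ∈ (h43_redForm hB).orthogonal ((h43_redForm hB).orthogonal R) := by
    rw [LinearMap.BilinForm.mem_orthogonal_iff]
    intro n hn
    obtain ⟨w, rfl⟩ := (h43_pSub p X).mkQ_surjective n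
    show h43_redForm hB ((h43_pSub p X).mkQ w) ((h43_pSub p X).mkQ x') = 0
    rw [h43_redForm_mk]
    apply h
    apply hBY_nd
    intro y
    rw [hadj]
    apply hBX_refl
    rw [LinearMap.BilinForm.mem_orthogonal_iff] at hn
    exact hn ((h43_pSub p X).mkQ (β y)) ⟨y, rfl⟩
  rw [LinearMap.BilinForm.orthogonal_orthogonal hnd hrefl] at hmem
  obtain ⟨y, hy⟩ := hmem
  have h1 : (h43_pSub p X).mkQ (x' - β y) = 0 := by
    rw [map_sub, ← hy, sub_self]
  obtain ⟨v, hv⟩ := (h43_mk_eq_zero p _).mp h1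
  exact ⟨y, v, by rw [← hv]; abel⟩

end Dual

section Wiring

variable {σ E : Type*} [Ring E]

set_option linter.deprecated false in
/-- The ring hom `ℤ[X_i] → E` attached to a commuting family. -/
noncomputable def h43_rho (g : σ → E) (hg : ∀ i j, g i * g j = g j * g i) :
    MvPolynomial σ ℤ →+* E :=
  letI : CommRing (Algebra.adjoin ℤ (Set.range g)) :=
    Algebra.adjoinCommRingOfComm ℤ (by rintro _ ⟨i, rfl⟩ _ ⟨j, rfl⟩; exact hg i j)
  (Algebra.adjoin ℤ (Set.range g)).val.toRingHom.comp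
    (MvPolynomial.aeval (R := ℤ)
      (fun i => (⟨g i, Algebra.subset_adjoin ⟨i, rfl⟩⟩ : Algebra.adjoin ℤ (Set.range g)))).toRingHom

theorem h43_rho_X (g : σ → E) (hg : ∀ i j, g i * g j = g j * g i) (i : σ) :
    h43_rho g hg (MvPolynomial.X i) = g i := by
  unfold h43_rho
  simp

theorem h43_rho_C (g : σ → E) (hg : ∀ i j, g i * g j = g j * g i) (n : ℤ) :
    h43_rho g hg (MvPolynomial.C n) = (n : E) := by
  rw [eq_intCast (MvPolynomial.C (σ := σ)) n, map_intCast]

end Wiring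

section Act

variable {σ M : Type*} [AddCommGroup M] (T : σ → M →+ M)
  (hT : ∀ i j x, T i (T j x) = T j (T i x))

/-- The action of `ℤ[X_i]` on `M` through a commuting family of endomorphisms. -/
noncomputable def h43_act : MvPolynomial σ ℤ →+* Module.End ℤ M :=
  h43_rho (fun i => (T i).toIntLinearMap) (fun i j => LinearMap.ext fun x => hT i j x)

theorem h43_act_X (i : σ) (x : M) : h43_act T hT (MvPolynomial.X i) x = T i x := by
  unfold h43_act
  rw [h43_rho_X]
  rfl

theorem h43_act_C (n : ℤ) (x : M) : h43_act T hT (MvPolynomial.C n) x = n • x := by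
  unfold h43_act
  rw [h43_rho_C]
  rfl

theorem h43_act_mul (s t : MvPolynomial σ ℤ) (x : M) :
    h43_act T hT (s * t) x = h43_act T hT s (h43_act T hT t x) := by
  rw [map_mul]; rfl

theorem h43_act_add (s t : MvPolynomial σ ℤ) (x : M) :
    h43_act T hT (s + t) x = h43_act T hT s x + h43_act T hT t x := by
  rw [map_add]; rfl

theorem h43_act_equivariant {N : Type*} [AddCommGroup N] (T' : σ → N →+ N)
    (hT' : ∀ i j x, T' i (T' j x) = T' j (T' i x)) (f : M →+ N)
    (hf : ∀ i x, f (T i x) = T' i (f x)) (t : MvPolynomial σ ℤ) (x : M) :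
    f (h43_act T hT t x) = h43_act T' hT' t (f x) := by
  induction t using MvPolynomial.induction_on generalizing x with
  | C n => rw [h43_act_C, h43_act_C, map_zsmul]
  | add s t hs ht => rw [h43_act_add, h43_act_add, map_add, hs, ht]
  | mul_X t i ht => rw [h43_act_mul, h43_act_mul, h43_act_X, h43_act_X, ht, hf]

theorem h43_act_selfadjoint {k : Type*} [AddCommGroup k] (B : M → M → k)
    (hl : ∀ a b c, B (a + b) c = B a c + B b c) (hr : ∀ a b c, B a (b + c) = B a b + B a c)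
    (hsa : ∀ i x y, B (T i x) y = B x (T i y)) (t : MvPolynomial σ ℤ) (x y : M) :
    B (h43_act T hT t x) y = B x (h43_act T hT t y) := by
  induction t using MvPolynomial.induction_on generalizing x y with
  | C n =>
    rw [h43_act_C, h43_act_C]
    have e1 : B (n • x) y = n • B x y :=
      map_zsmul (AddMonoidHom.mk' (fun a => B a y) (fun a b => hl a b y)) n x
    have e2 : B x (n • y) = n • B x y :=
      map_zsmul (AddMonoidHom.mk' (fun c => B x c) (fun b c => hr x b c)) n y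
    rw [e1, e2]
  | add s t hs ht => rw [h43_act_add, h43_act_add, hl, hr, hs, ht]
  | mul_X t i ht =>
    rw [h43_act_mul, h43_act_X, ht, hsa, mul_comm, h43_act_mul, h43_act_X]

theorem h43_act_eigen (p : ℕ) (a : σ → ℤ) (x : M)
    (hx : ∀ i, ∃ z, T i x - a i • x = p • z) (t : MvPolynomial σ ℤ) :
    ∃ v, h43_act T hT t x - (MvPolynomial.eval a t) • x = p • v := by
  induction t using MvPolynomial.induction_on with
  | C n => exact ⟨0, by rw [h43_act_C, MvPolynomial.eval_C, sub_self, smul_zero]⟩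
  | add s t hs ht =>
    obtain ⟨v, hv⟩ := hs
    obtain ⟨w, hw⟩ := ht
    exact ⟨v + w, by rw [h43_act_add, map_add, add_smul, smul_add, ← hv, ← hw]; abel⟩
  | mul_X t i ht =>
    obtain ⟨v, hv⟩ := ht
    obtain ⟨z, hz⟩ := hx i
    refine ⟨a i • v + h43_act T hT t z, ?_⟩
    have e1 : T i x = a i • x + p • z := by rw [← hz]; abel
    have e2 : h43_act T hT t x = MvPolynomial.eval a t • x + p • v := by rw [← hv]; abel
    rw [h43_act_mul, h43_act_X, e1, map_add, map_zsmul, map_nsmul, e2, map_mul,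
      MvPolynomial.eval_X, smul_add, smul_add, mul_smul, smul_comm (a i) (MvPolynomial.eval a t) x,
      smul_comm (a i) p v]
    abel

end Act

section Main

variable {σ : Type*} {p : ℕ} [Fact p.Prime] {L L' : Type*} [AddCommGroup L] [AddCommGroup L']

/-- **Abstract level raising (Ribet), operator-family form.**

`L`, `L'` lattices (`L` finitely generated without `p`-torsion), commuting families `T i` on `L`
and `T' i` on `L'`, integers `a i`; `α (x, y) = α₁ x + α₂ y`, `β z = (β₁ z, β₂ z)` equivariant;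
`B`, `B'` pairings with values in `𝔽_p`, nondegenerate mod `p`, `B` `ε`-symmetric, `β_j` adjoint
to `α_j`, `T i` self-adjoint for `B`.

If no eigenvector mod `p` lies in `ker (α mod p)` (Ihara) and `(x, y)` is an eigenvector mod `p`
with `β (α (x, y)) ∈ p (L × L)`, then `ker β` contains an eigenvector mod `p`. -/
theorem h43_ribet_alg [Module.Finite ℤ L]
    (hL : ∀ x : L, p • x = 0 → x = 0)
    (T : σ → L →+ L) (T' : σ → L' →+ L')
    (hTc : ∀ i j x, T i (T j x) = T j (T i x)) (hT'c : ∀ i j x, T' i (T' j x) = T' j (T' i x))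
    (a : σ → ℤ)
    (α₁ α₂ : L →+ L') (β₁ β₂ : L' →+ L)
    (hα₁ : ∀ i x, α₁ (T i x) = T' i (α₁ x)) (hα₂ : ∀ i x, α₂ (T i x) = T' i (α₂ x))
    (hβ₁ : ∀ i y, β₁ (T' i y) = T i (β₁ y)) (hβ₂ : ∀ i y, β₂ (T' i y) = T i (β₂ y))
    (B : L → L → ZMod p) (B' : L' → L' → ZMod p)
    (hB_add_left : ∀ a b c, B (a + b) c = B a c + B b c)
    (hB_add_right : ∀ a b c, B a (b + c) = B a b + B a c)
    (hB_nd : ∀ x, (∀ y, B x y = 0) → ∃ v, x = p • v)
    (ε : ZMod p) (hB_symm : ∀ x y, B y x = ε * B x y)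
    (hB'_add_left : ∀ a b c, B' (a + b) c = B' a c + B' b c)
    (hB'_nd : ∀ x, (∀ y, B' x y = 0) → ∃ v, x = p • v)
    (hadj₁ : ∀ x y, B' (α₁ x) y = B x (β₁ y)) (hadj₂ : ∀ x y, B' (α₂ x) y = B x (β₂ y))
    (hsa : ∀ i x y, B (T i x) y = B x (T i y))
    (Ih : ∀ x y : L, (∀ i, ∃ z, T i x - a i • x = p • z) → (∀ i, ∃ z, T i y - a i • y = p • z) →
      (∃ z', α₁ x + α₂ y = p • z') → (∃ x₀, x = p • x₀) ∧ (∃ y₀, y = p • y₀))
    (x y : L) (hx : ∀ i, ∃ z, T i x - a i • x = p • z) (hy : ∀ i, ∃ z, T i y - a i • y = p • z)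
    (hxy : ¬ ((∃ x₀, x = p • x₀) ∧ (∃ y₀, y = p • y₀)))
    (h1 : ∃ z, β₁ (α₁ x + α₂ y) = p • z) (h2 : ∃ z, β₂ (α₁ x + α₂ y) = p • z) :
    ∃ z : L', β₁ z = 0 ∧ β₂ z = 0 ∧ (¬ ∃ z₀, z = p • z₀) ∧
      ∀ i, ∃ w, T' i z - a i • z = p • w ∧ β₁ w = 0 ∧ β₂ w = 0 := by
  classical
  let _ : Module (MvPolynomial σ ℤ) L := Module.compHom L (h43_act T hTc)
  let _ : Module (MvPolynomial σ ℤ) L' := Module.compHom L' (h43_act T' hT'c)
  have hsm : ∀ (t : MvPolynomial σ ℤ) (v : L), t • v = h43_act T hTc t v := fun _ _ => rfl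
  have hsm' : ∀ (t : MvPolynomial σ ℤ) (v : L'), t • v = h43_act T' hT'c t v := fun _ _ => rfl
  let χ : MvPolynomial σ ℤ →+* ZMod p := (Int.castRingHom (ZMod p)).comp (MvPolynomial.eval a)
  have hχ : ∀ t, t ∈ RingHom.ker χ ↔ (p : ℤ) ∣ MvPolynomial.eval a t := by
    intro t
    rw [RingHom.mem_ker]
    show ((MvPolynomial.eval a t : ℤ) : ZMod p) = 0 ↔ _
    exact ZMod.intCast_zmod_eq_zero_iff_dvd _ p
  have hgen : ∀ i, (MvPolynomial.X i - MvPolynomial.C (a i) : MvPolynomial σ ℤ) ∈ RingHom.ker χ := by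
    intro i
    rw [hχ, map_sub, MvPolynomial.eval_X, MvPolynomial.eval_C, sub_self]
    exact dvd_zero _
  have hgen_smul : ∀ (i : σ) (v : L),
      (MvPolynomial.X i - MvPolynomial.C (a i) : MvPolynomial σ ℤ) • v = T i v - a i • v := by
    intro i v
    rw [hsm, map_sub, LinearMap.sub_apply, h43_act_X, h43_act_C]
  have hgen_smul' : ∀ (i : σ) (v : L'),
      (MvPolynomial.X i - MvPolynomial.C (a i) : MvPolynomial σ ℤ) • v = T' i v - a i • v := by
    intro i v
    rw [hsm', map_sub, LinearMap.sub_apply, h43_act_X, h43_act_C]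
  -- eigenvectors for the family are killed mod `p` by `ker χ`
  have heig : ∀ v : L, (∀ i, ∃ z, T i v - a i • v = p • z) →
      ∀ t ∈ RingHom.ker χ, ∃ w, t • v = p • w := by
    intro v hv t ht
    obtain ⟨w, hw⟩ := h43_act_eigen T hTc p a v hv t
    obtain ⟨m, hm⟩ := (hχ t).mp ht
    refine ⟨w + m • v, ?_⟩
    rw [hsm, smul_add, ← hw, hm, mul_smul, natCast_zsmul]
    abel
  -- the maps
  let α : (L × L) →ₗ[MvPolynomial σ ℤ] L' :=
    { toFun := fun w => α₁ w.1 + α₂ w.2
      map_add' := by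
        intro u v
        simp only [Prod.fst_add, Prod.snd_add, map_add]
        abel
      map_smul' := by
        intro t u
        simp only [Prod.smul_fst, Prod.smul_snd, RingHom.id_apply, smul_add]
        rw [hsm, hsm, hsm', hsm', h43_act_equivariant T hTc T' hT'c α₁ hα₁,
          h43_act_equivariant T hTc T' hT'c α₂ hα₂] }
  let β : L' →ₗ[MvPolynomial σ ℤ] (L × L) :=
    { toFun := fun z => (β₁ z, β₂ z)
      map_add' := by
        intro u v
        simp only [map_add, Prod.mk_add_mk]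
      map_smul' := by
        intro t u
        simp only [RingHom.id_apply, Prod.smul_mk]
        rw [hsm, hsm, hsm', h43_act_equivariant T' hT'c T hTc β₁ hβ₁,
          h43_act_equivariant T' hT'c T hTc β₂ hβ₂] }
  have hα : ∀ w : L × L, α w = α₁ w.1 + α₂ w.2 := fun _ => rfl
  have hβ : ∀ z : L', β z = (β₁ z, β₂ z) := fun _ => rfl
  have hprod : ∀ (w : L × L), (∃ v : L × L, w = p • v) ↔
      ((∃ x₀, w.1 = p • x₀) ∧ (∃ y₀, w.2 = p • y₀)) := by
    intro w
    constructor
    · rintro ⟨v, rfl⟩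
      exact ⟨⟨v.1, rfl⟩, ⟨v.2, rfl⟩⟩
    · rintro ⟨⟨x₀, hx₀⟩, ⟨y₀, hy₀⟩⟩
      exact ⟨(x₀, y₀), Prod.ext hx₀ hy₀⟩
  have hX : ∀ w : L × L, p • w = 0 → w = 0 := by
    intro w hw
    exact Prod.ext (hL _ (congrArg Prod.fst hw)) (hL _ (congrArg Prod.snd hw))
  -- eigen-hypothesis on a pair, from the general form
  have hcomp : ∀ w : L × L, (∀ t ∈ RingHom.ker χ, ∃ v, t • w = p • v) →
      (∀ i, ∃ z, T i w.1 - a i • w.1 = p • z) ∧ (∀ i, ∃ z, T i w.2 - a i • w.2 = p • z) := by
    intro w hw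
    constructor
    · intro i
      obtain ⟨v, hv⟩ := hw _ (hgen i)
      exact ⟨v.1, by rw [← hgen_smul]; exact congrArg Prod.fst hv⟩
    · intro i
      obtain ⟨v, hv⟩ := hw _ (hgen i)
      exact ⟨v.2, by rw [← hgen_smul]; exact congrArg Prod.snd hv⟩
  have Ih' : ∀ w : L × L, (∀ t ∈ RingHom.ker χ, ∃ v, t • w = p • v) →
      (∃ v' : L', α w = p • v') → ∃ v, w = p • v := by
    intro w hw hαw
    rw [hprod]
    exact Ih w.1 w.2 (hcomp w hw).1 (hcomp w hw).2 hαw
  -- the pairing on `L × L`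
  let pair : L × L → L × L → ZMod p := fun u v => B u.1 v.1 + B u.2 v.2
  have hpair : ∀ u v : L × L, pair u v = B u.1 v.1 + B u.2 v.2 := fun _ _ => rfl
  have hB0r : ∀ c : L, B c 0 = 0 := by
    intro c
    have := hB_add_right c 0 0
    rw [add_zero] at this
    exact left_eq_add.mp this
  have hpair_add_left : ∀ u v w, pair (u + v) w = pair u w + pair v w := by
    intro u v w
    simp only [hpair, Prod.fst_add, Prod.snd_add, hB_add_left]
    ring
  have hpair_add_right : ∀ u v w, pair u (v + w) = pair u v + pair u w := by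
    intro u v w
    simp only [hpair, Prod.fst_add, Prod.snd_add, hB_add_right]
    ring
  have hpair_sa : ∀ (s : MvPolynomial σ ℤ) (u v : L × L), pair (s • u) v = pair u (s • v) := by
    intro s u v
    simp only [hpair, Prod.smul_fst, Prod.smul_snd, hsm]
    rw [h43_act_selfadjoint T hTc B hB_add_left hB_add_right hsa,
      h43_act_selfadjoint T hTc B hB_add_left hB_add_right hsa]
  have hdual : ∀ x' : L × L, (∀ w : L × L, (∃ v' : L', α w = p • v') → pair w x' = 0) →
      ∃ (z : L') (v : L × L), x' = β z + p • v := by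
    intro x' hx'
    have := h43_dual_lattice p (X := L × L) (Y := L') (fun w => α w) (β₁.prod β₂) pair B'
      hpair_add_left hpair_add_right
      (by
        intro u hu
        rw [hprod]
        constructor
        · apply hB_nd
          intro c
          have := hu (c, 0)
          rw [hpair] at this
          simpa [hB0r] using this
        · apply hB_nd
          intro c
          have := hu (0, c)
          rw [hpair] at this
          simpa [hB0r] using this)
      (by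
        intro u v huv
        rw [hpair] at huv ⊢
        rw [hB_symm u.1 v.1, hB_symm u.2 v.2, ← mul_add, huv, mul_zero])
      hB'_nd
      (by
        intro u z
        rw [hα, hB'_add_left, hadj₁, hadj₂, hpair]
        rfl)
      x' hx'
    exact this
  obtain ⟨z, hz1, hz2, hz3⟩ := h43_ribet_alg_gen p χ hX α β Ih' pair hpair_add_left hpair_sa hdual
    (x, y)
    (by
      intro t ht
      obtain ⟨v1, hv1⟩ := heig x hx t ht
      obtain ⟨v2, hv2⟩ := heig y hy t ht
      exact ⟨(v1, v2), Prod.ext hv1 hv2⟩)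
    (by rw [hprod]; exact hxy)
    (by
      obtain ⟨z1, hz1⟩ := h1
      obtain ⟨z2, hz2⟩ := h2
      exact ⟨(z1, z2), Prod.ext hz1 hz2⟩)
  refine ⟨z, congrArg Prod.fst hz1, congrArg Prod.snd hz1, hz2, ?_⟩
  intro i
  obtain ⟨w, hw, hw0⟩ := hz3 _ (hgen i)
  exact ⟨w, by rw [← hgen_smul']; exact hw, congrArg Prod.fst hw0, congrArg Prod.snd hw0⟩

end Main

end Fermat.Agent.S41
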