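import Fermat.Agent.S41.h30_LRDefs

/-!
# S41, block (D), row D-I3 (helper62): `res ∘ tr = 1 + U_q ∘ W`, and `U_q U_q = 1` on `ker β`

For `γ ∈ Γ₀(N q)` take the decomposition `u_j γ = γ'_j u_{σ j}` of the operator `U_q`
(`u_j = [1 j; 0 q]`).  Multiplying by the Atkin-Lehner element `w` and using
`w u_j = q r_j` (F2) and `w γ'_j = (wc γ'_j) w` gives `r_j γ = (wc γ'_j) r_{σ j}`, which together
with `r_∞ γ = γ r_∞` is a decomposition for the transfer.
-/

set_option autoImplicit false

namespace Fermat.Agent.S41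

open CongruenceSubgroup Matrix.SpecialLinearGroup ModularCurve.Period
open scoped MatrixGroups
open Fermat.Agent.S16
open P2MW.S_ModularForm_heckeT_slash_eq_self_of_mem_Gamma0.ModularForm.HeckeSlashInvariance

variable {N q : ℕ} [Fact q.Prime] (hqN : ¬ q ∣ N) {A : Type*} [AddCommGroup A]

/-- (I3) `res ∘ tr = 1 + U_q ∘ W`. -/
theorem h62_res_tr (ψ : Additive (Gamma0 (N * q)) →+ A) :
    h30_res N q (h30_tr N q hqN ψ) =
      ψ + h30_heckeU (N * q) q (Dvd.intro_left N rfl) (h30_W N q hqN ψ) := by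
  refine AddMonoidHom.ext fun γa => ?_
  obtain ⟨γ, rfl⟩ : ∃ γ : Gamma0 (N * q), Additive.ofMul γ = γa := ⟨Additive.toMul γa, rfl⟩
  obtain ⟨γ', σ, hdec, hU⟩ := h30_heckeU_exists q (Dvd.intro_left N rfl) γ
  rw [AddMonoidHom.add_apply, hU A (h30_W N q hqN ψ), h30_res_apply]
  have key : ∀ x : OnePoint (ZMod q),
      h30_repGL N q hqN x * mapGL ℝ ((h30_incl N q γ : Gamma0 N) : SL(2, ℤ)) =
        mapGL ℝ ((OnePoint.elim x γ
            (fun j => h30_wc N q (h30_coprime hqN) (γ' j)) : Gamma0 (N * q)) : SL(2, ℤ)) *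
          h30_repGL N q hqN (OnePoint.elim x OnePoint.infty
            (fun j => ((σ j : ZMod q) : OnePoint (ZMod q)))) := by
    intro x
    induction x using OnePoint.rec with
    | infty =>
      simp only [OnePoint.elim_infty]
      rw [h30_repGL, h30_rep_infty, OneMemClass.coe_one, map_one, one_mul, mul_one, h30_incl_coe]
    | coe j =>
      simp only [OnePoint.elim_some]
      rw [h30_incl_coe]
      have hF2 := h30_w_mul_heckeMatrix N q hqN j
      have hF2' := h30_w_mul_heckeMatrix N q hqN (σ j)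
      have hwc := h30_wc_spec (h30_coprime hqN) (γ' j)
      have e : h30_sc q * (h30_repGL N q hqN (j : OnePoint (ZMod q)) * mapGL ℝ (γ : SL(2, ℤ))) =
          h30_sc q * (mapGL ℝ (h30_wc N q (h30_coprime hqN) (γ' j) : SL(2, ℤ)) *
            h30_repGL N q hqN ((σ j : ZMod q) : OnePoint (ZMod q))) := by
        calc h30_sc q * (h30_repGL N q hqN (j : OnePoint (ZMod q)) * mapGL ℝ (γ : SL(2, ℤ)))
            = h30_w N q (h30_coprime hqN) *
                (ModularForm.heckeMatrix q j.val * mapGL ℝ (γ : SL(2, ℤ))) := by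
              rw [← mul_assoc, ← hF2, mul_assoc]
          _ = h30_w N q (h30_coprime hqN) * mapGL ℝ (γ' j : SL(2, ℤ)) *
                ModularForm.heckeMatrix q (σ j).val := by
              rw [hdec j, mul_assoc]
          _ = mapGL ℝ (h30_wc N q (h30_coprime hqN) (γ' j) : SL(2, ℤ)) *
                (h30_w N q (h30_coprime hqN) * ModularForm.heckeMatrix q (σ j).val) := by
              rw [hwc, mul_assoc]
          _ = h30_sc q * (mapGL ℝ (h30_wc N q (h30_coprime hqN) (γ' j) : SL(2, ℤ)) *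
                h30_repGL N q hqN ((σ j : ZMod q) : OnePoint (ZMod q))) := by
              rw [hF2', ← mul_assoc, ← h30_sc_comm, mul_assoc]
      exact mul_left_cancel e
  rw [h30_tr_apply_of N q hqN ψ (h30_incl N q γ) _ _ key]
  rw [show (∑ x : OnePoint (ZMod q), ψ (Additive.ofMul
        (OnePoint.elim x γ (fun j => h30_wc N q (h30_coprime hqN) (γ' j))))) =
      ∑ x : Option (ZMod q), ψ (Additive.ofMul
        (Option.elim x γ (fun j => h30_wc N q (h30_coprime hqN) (γ' j)))) from rfl,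
    Fintype.sum_option]
  simp only [Option.elim_none, Option.elim_some]
  congr 1
  refine Finset.sum_congr rfl fun j _ => ?_
  rw [h30_W_apply]

/-- `U_q U_q = 1` on `ker β`, `β ψ = (tr ψ, tr (W ψ))`. -/
theorem h62_U_U_of_ker (ψ : Additive (Gamma0 (N * q)) →+ A)
    (h1 : h30_tr N q hqN ψ = 0) (h2 : h30_tr N q hqN (h30_W N q hqN ψ) = 0) :
    h30_heckeU (N * q) q (Dvd.intro_left N rfl) (h30_heckeU (N * q) q (Dvd.intro_left N rfl) ψ) = ψ := by
  have e1 := h62_res_tr hqN ψ
  have e2 := h62_res_tr hqN (h30_W N q hqN ψ)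
  rw [h1, map_zero] at e1
  rw [h2, map_zero, h30_W_W] at e2
  -- `U (W ψ) = -ψ`, `U ψ = -(W ψ)`
  have e1' : h30_heckeU (N * q) q (Dvd.intro_left N rfl) (h30_W N q hqN ψ) = -ψ :=
    (neg_eq_of_add_eq_zero_right e1.symm).symm ▸ rfl
  have e2' : h30_heckeU (N * q) q (Dvd.intro_left N rfl) ψ = -(h30_W N q hqN ψ) :=
    (neg_eq_of_add_eq_zero_right e2.symm).symm ▸ rfl
  rw [e2', map_neg, e1', neg_neg]

end Fermat.Agent.S41
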