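import Fermat.Agent.S41.h30_LRDefs

/-!
# S41, block (D), identity (I2): `tr ∘ W ∘ res = T_q`  (helper66, row 453)

For `φ : Γ₀(N) → A`, the transfer from `Γ₀(N q)` to `Γ₀(N)` of the Atkin-Lehner conjugate of the
restriction of `φ` is the Hecke operator `T_q φ`.
-/

set_option autoImplicit false

namespace Fermat.Agent.S41

open CongruenceSubgroup Matrix.SpecialLinearGroup ModularCurve.Period
open scoped MatrixGroups
open Fermat.Agent.S16
open P2MW.S_ModularForm_heckeT_slash_eq_self_of_mem_Gamma0.ModularForm.HeckeSlashInvariance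

variable {N q : ℕ} [Fact q.Prime] (hqN : ¬ q ∣ N) {A : Type*} [AddCommGroup A]

/-- The transition of the Hecke representatives obtained from a transition of the transfer
representatives: if `r_x γ = s r_y` with `s ∈ Γ₀(N q)`, then
`heckeRep q x * γ = (τ_x⁻¹ * (w s w⁻¹) * τ_y) * heckeRep q y`. -/
theorem h66_heckeRep_step (γ : Gamma0 N) (x y : OnePoint (ZMod q)) (s : Gamma0 (N * q))
    (hs : h30_repGL N q hqN x * mapGL ℝ (γ : SL(2, ℤ)) =
      mapGL ℝ (s : SL(2, ℤ)) * h30_repGL N q hqN y) :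
    heckeRep q x * mapGL ℝ (γ : SL(2, ℤ)) =
      mapGL ℝ (((h30_tau N q hqN x)⁻¹ * h30_incl N q (h30_wc N q (h30_coprime hqN) s) *
        h30_tau N q hqN y : Gamma0 N) : SL(2, ℤ)) * heckeRep q y := by
  have hF1x := h30_w_mul_repGL N q hqN x
  have hF1y := h30_w_mul_repGL N q hqN y
  have hwc := h30_wc_spec (h30_coprime hqN) s
  have hx : heckeRep q x = (mapGL ℝ (h30_tau N q hqN x : SL(2, ℤ)))⁻¹ *
      (h30_w N q (h30_coprime hqN) * h30_repGL N q hqN x) := by
    rw [hF1x, inv_mul_cancel_left]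
  rw [Subgroup.coe_mul, Subgroup.coe_mul, Subgroup.coe_inv, h30_incl_coe, map_mul, map_mul,
    map_inv, hx]
  calc (mapGL ℝ (h30_tau N q hqN x : SL(2, ℤ)))⁻¹ *
        (h30_w N q (h30_coprime hqN) * h30_repGL N q hqN x) * mapGL ℝ (γ : SL(2, ℤ))
      = (mapGL ℝ (h30_tau N q hqN x : SL(2, ℤ)))⁻¹ *
        (h30_w N q (h30_coprime hqN) * (h30_repGL N q hqN x * mapGL ℝ (γ : SL(2, ℤ)))) := by
        group
    _ = (mapGL ℝ (h30_tau N q hqN x : SL(2, ℤ)))⁻¹ *
        ((h30_w N q (h30_coprime hqN) * mapGL ℝ (s : SL(2, ℤ))) * h30_repGL N q hqN y) := by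
        rw [hs]; group
    _ = (mapGL ℝ (h30_tau N q hqN x : SL(2, ℤ)))⁻¹ *
        (mapGL ℝ (h30_wc N q (h30_coprime hqN) s : SL(2, ℤ)) *
          (h30_w N q (h30_coprime hqN) * h30_repGL N q hqN y)) := by
        rw [hwc]; group
    _ = (mapGL ℝ (h30_tau N q hqN x : SL(2, ℤ)))⁻¹ *
          mapGL ℝ (h30_wc N q (h30_coprime hqN) s : SL(2, ℤ)) *
          mapGL ℝ (h30_tau N q hqN y : SL(2, ℤ)) * heckeRep q y := by
        rw [hF1y]; group

/-- **(I2)** `tr ∘ W ∘ res = T_q`. -/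
theorem h66_tr_W_res (φ : Additive (Gamma0 N) →+ A) :
    h30_tr N q hqN (h30_W N q hqN (h30_res N q φ)) = h30_heckeT N q hqN φ := by
  refine AddMonoidHom.ext fun γa => ?_
  obtain ⟨γ, rfl⟩ : ∃ γ : Gamma0 N, Additive.ofMul γ = γa := ⟨Additive.toMul γa, rfl⟩
  obtain ⟨s, y, hs, hval⟩ := h30_tr_exists N q hqN γ
  rw [hval A (h30_W N q hqN (h30_res N q φ))]
  rw [h30_heckeT_apply_of q hqN φ γ
    (fun x => (h30_tau N q hqN x)⁻¹ * h30_incl N q (h30_wc N q (h30_coprime hqN) (s x)) *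
      h30_tau N q hqN (y x)) (fun x => y x)
    (fun x => h66_heckeRep_step hqN γ x (y x) (s x) (hs x))]
  rw [h30_sum_twist φ (h30_tau N q hqN)
    (fun x => h30_incl N q (h30_wc N q (h30_coprime hqN) (s x))) y]
  refine Finset.sum_congr rfl fun x _ => ?_
  rw [h30_W_apply, h30_res_apply]

end Fermat.Agent.S41
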