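import Fermat.Agent.S41.h30_LRDefs
import Fermat.Agent.S21
import Fermat.Agent.S16.h30_PerHecke

/-!
# S41, block (D-COMM): the algebraic Hecke operators commute on integral parabolic classes

For `φ : Γ₀(M) → ℤ` parabolic, `T_l T_l' φ = T_l' T_l φ` (`l, l' ∤ M`) and
`T_l U_q φ = U_q T_l φ` (`l ∤ M`, `q ∣ M`), and `U_q U_q' φ = U_q' U_q φ`.

Proof: after extending scalars to `ℂ` the class `φ` is a period pairing
`periodHomPair M (f, g)` (Eichler-Shimura, S21); the period pairing is Hecke-equivariant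
(`h30_periodHomPair_heckeT`, `h30_periodHomPair_heckeU`), and the Hecke operators on cusp
forms commute (prelude).  Finally `ℤ → ℂ` is injective.
-/

set_option autoImplicit false

namespace Fermat.Agent.S41

open CongruenceSubgroup Matrix.SpecialLinearGroup ModularCurve.Period
open scoped MatrixGroups
open Fermat.Agent.S16
open P2MW.S_ModularForm_heckeT_slash_eq_self_of_mem_Gamma0.ModularForm.HeckeSlashInvariance

/-- An integral parabolic class, viewed with complex coefficients, is a period pairing. -/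
theorem h82_exists_periodHomPair {M : ℕ} [NeZero M] (φ : Additive (Gamma0 M) →+ ℤ)
    (hφ : IsParabolicHom (Gamma0 M) φ) :
    ∃ f g : CuspForm (Gamma0 M) 2,
      ModularCurve.periodHomPair M (f, g) = (Int.castAddHom ℂ).comp φ := by
  have hΨC : (Int.castAddHom ℂ).comp φ ∈ parabolicHoms ℂ (Gamma0 M) ℂ := by
    intro γ hγ
    show ((φ (Additive.ofMul γ) : ℤ) : ℂ) = 0
    rw [hφ γ hγ, Int.cast_zero]
  rw [← (Fermat.Agent.S21.result M).2] at hΨC
  obtain ⟨⟨f, g⟩, hfg⟩ := hΨC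
  exact ⟨f, g, hfg⟩

/-- Extension of scalars `ℤ → ℂ` is injective on homomorphisms. -/
theorem h82_castAddHom_comp_injective {G : Type*} [AddZeroClass G] (φ ψ : G →+ ℤ)
    (h : (Int.castAddHom ℂ).comp φ = (Int.castAddHom ℂ).comp ψ) : φ = ψ := by
  refine AddMonoidHom.ext fun γ => ?_
  have h1 : ((φ γ : ℤ) : ℂ) = ((ψ γ : ℤ) : ℂ) := DFunLike.congr_fun h γ
  exact Int.cast_injective h1

/-- **`T_l` and `T_l'` commute on integral parabolic classes.** -/
theorem h82_heckeT_comm {M : ℕ} [NeZero M] (l l' : ℕ) [Fact l.Prime] [Fact l'.Prime]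
    (hl : ¬ l ∣ M) (hl' : ¬ l' ∣ M) (φ : Additive (Gamma0 M) →+ ℤ)
    (hφ : IsParabolicHom (Gamma0 M) φ) :
    h30_heckeT M l hl (h30_heckeT M l' hl' φ) = h30_heckeT M l' hl' (h30_heckeT M l hl φ) := by
  obtain ⟨f, g, hfg⟩ := h82_exists_periodHomPair φ hφ
  apply h82_castAddHom_comp_injective
  rw [← h30_heckeT_comp, ← h30_heckeT_comp, ← h30_heckeT_comp, ← h30_heckeT_comp, ← hfg,
    ← h30_periodHomPair_heckeT, ← h30_periodHomPair_heckeT, ← h30_periodHomPair_heckeT,
    ← h30_periodHomPair_heckeT]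
  have hc := CuspForm.heckeTLin_comm (N := M) 2 (Fact.out : l.Prime) hl (Fact.out : l'.Prime) hl'
  have h1 : ∀ f : CuspForm (Gamma0 M) 2,
      CuspForm.heckeTLin 2 (Fact.out : l.Prime) hl (CuspForm.heckeTLin 2 (Fact.out : l'.Prime) hl' f) =
        CuspForm.heckeTLin 2 (Fact.out : l'.Prime) hl' (CuspForm.heckeTLin 2 (Fact.out : l.Prime) hl f) :=
    fun f => DFunLike.congr_fun hc.eq f
  rw [h1 f, h1 g]

/-- **`T_l` and `U_q` commute on integral parabolic classes.** -/
theorem h82_heckeT_heckeU_comm {M : ℕ} [NeZero M] (l q : ℕ) [Fact l.Prime] [NeZero q]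
    (hl : ¬ l ∣ M) (hq : q ∣ M) (φ : Additive (Gamma0 M) →+ ℤ)
    (hφ : IsParabolicHom (Gamma0 M) φ) :
    h30_heckeT M l hl (h30_heckeU M q hq φ) = h30_heckeU M q hq (h30_heckeT M l hl φ) := by
  obtain ⟨f, g, hfg⟩ := h82_exists_periodHomPair φ hφ
  apply h82_castAddHom_comp_injective
  rw [← h30_heckeT_comp, ← h30_heckeU_comp, ← h30_heckeU_comp, ← h30_heckeT_comp, ← hfg,
    ← h30_periodHomPair_heckeU, ← h30_periodHomPair_heckeT, ← h30_periodHomPair_heckeT,
    ← h30_periodHomPair_heckeU]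
  have hc := CuspForm.heckeTLin_heckeULin_comm (N := M) 2 (Fact.out : l.Prime) hl hq
  have h1 : ∀ f : CuspForm (Gamma0 M) 2,
      CuspForm.heckeTLin 2 (Fact.out : l.Prime) hl (CuspForm.heckeULin 2 hq f) =
        CuspForm.heckeULin 2 hq (CuspForm.heckeTLin 2 (Fact.out : l.Prime) hl f) :=
    fun f => DFunLike.congr_fun hc.eq f
  rw [h1 f, h1 g]

/-- **`U_q` and `U_q'` commute on integral parabolic classes.** -/
theorem h82_heckeU_comm {M : ℕ} [NeZero M] (q q' : ℕ) [NeZero q] [NeZero q']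
    (hq : q ∣ M) (hq' : q' ∣ M) (φ : Additive (Gamma0 M) →+ ℤ)
    (hφ : IsParabolicHom (Gamma0 M) φ) :
    h30_heckeU M q hq (h30_heckeU M q' hq' φ) = h30_heckeU M q' hq' (h30_heckeU M q hq φ) := by
  obtain ⟨f, g, hfg⟩ := h82_exists_periodHomPair φ hφ
  apply h82_castAddHom_comp_injective
  rw [← h30_heckeU_comp, ← h30_heckeU_comp, ← h30_heckeU_comp, ← h30_heckeU_comp, ← hfg,
    ← h30_periodHomPair_heckeU, ← h30_periodHomPair_heckeU, ← h30_periodHomPair_heckeU,
    ← h30_periodHomPair_heckeU]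
  have hc := CuspForm.heckeULin_comm (N := M) 2 hq hq'
  have h1 : ∀ f : CuspForm (Gamma0 M) 2,
      CuspForm.heckeULin 2 hq (CuspForm.heckeULin 2 hq' f) =
        CuspForm.heckeULin 2 hq' (CuspForm.heckeULin 2 hq f) :=
    fun f => DFunLike.congr_fun hc.eq f
  rw [h1 f, h1 g]

end Fermat.Agent.S41
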