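/-
S41 (level raising): ASM core.  helper43.

* concrete lattices / operators for `h43_ribet_alg`:
  `h43_Lat M`, `h43_T M l hl hlM`, `h43_al1`, `h43_al2`, `h43_be1`, `h43_be2`, `h43_Idx`;
* `h43_S41_of`: the frozen S41 conclusion from the frozen hypotheses and one named
  hypothesis per block that is not on main yet:
  `hI1` (tr ∘ res = q + 1), `hI5b` (T_l W = W T_l), `hFIN` (eigenform from a primitive
  mod-`p` eigenclass with `U_q U_q = 1`), and the duality package `(B)` in the shape of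
  the hypotheses of `h43_ribet_alg`.
-/
import Fermat.Agent.S41.h43_RibetAlg
import Fermat.Agent.S41.h42_Eig
import Fermat.Agent.S41.h45_IharaOut
import Fermat.Agent.S41.h30_LRKer
import Fermat.Agent.S41.h48_NotEis
import Fermat.Agent.S41.h62_LRI3
import Fermat.Agent.S41.h21_LRI5a
import Fermat.Agent.S41.h24_LRI5c
import Fermat.Agent.S41.h66_LRI2
import Fermat.Agent.S41.h82_LRComm
import Fermat.Agent.GAL.h65_Lattice
import Fermat.Prelude.Def_FreyPackage_LevelRaising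

set_option autoImplicit false

open CongruenceSubgroup Matrix.SpecialLinearGroup ModularCurve.Period
open scoped MatrixGroups
open Fermat.Agent.S16
open WeierstrassCurve WeierstrassCurve.Affine WeierstrassCurve.Affine.Point

namespace Fermat.Agent.S41

/-- The lattice of integral parabolic homomorphisms of `Γ₀(M)`. -/
abbrev h43_Lat (M : ℕ) : Type := ↥(parabolicHoms ℤ (Gamma0 M) ℤ)

/-- Restriction to parabolic classes of an additive operator preserving them. -/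
def h43_restr {M M' : ℕ}
    (f : (Additive (Gamma0 M) →+ ℤ) →+ (Additive (Gamma0 M') →+ ℤ))
    (hf : ∀ φ, IsParabolicHom (Gamma0 M) φ → IsParabolicHom (Gamma0 M') (f φ)) :
    h43_Lat M →+ h43_Lat M' where
  toFun φ := ⟨f φ.1, hf φ.1 φ.2⟩
  map_zero' := Subtype.ext (map_zero f)
  map_add' a b := Subtype.ext (map_add f a.1 b.1)

theorem h43_restr_coe {M M' : ℕ}
    (f : (Additive (Gamma0 M) →+ ℤ) →+ (Additive (Gamma0 M') →+ ℤ))
    (hf : ∀ φ, IsParabolicHom (Gamma0 M) φ → IsParabolicHom (Gamma0 M') (f φ))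
    (φ : h43_Lat M) :
    ((h43_restr f hf φ : h43_Lat M') : Additive (Gamma0 M') →+ ℤ) = f φ.1 := rfl

/-- `T_l` on the lattice of level `M` (`l ∤ M` prime). -/
noncomputable def h43_T (M l : ℕ) (hl : l.Prime) (hlM : ¬ l ∣ M) : h43_Lat M →+ h43_Lat M :=
  have : Fact l.Prime := ⟨hl⟩
  h43_restr (h30_heckeT M l hlM) (fun φ hφ => h30_heckeT_parabolic l hlM φ hφ)

theorem h43_T_coe (M l : ℕ) [hl : Fact l.Prime] (hlM : ¬ l ∣ M) (φ : h43_Lat M) :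
    ((h43_T M l hl.out hlM φ : h43_Lat M) : Additive (Gamma0 M) →+ ℤ) =
      h30_heckeT M l hlM φ.1 := rfl

section Maps

/-- `α₁ = res`. -/
def h43_al1 (N q : ℕ) : h43_Lat N →+ h43_Lat (N * q) :=
  h43_restr (h30_res N q) (fun φ hφ => h30_res_parabolic q φ hφ)

theorem h43_al1_coe (N q : ℕ) (φ : h43_Lat N) :
    ((h43_al1 N q φ : h43_Lat (N * q)) : Additive (Gamma0 (N * q)) →+ ℤ) = h30_res N q φ.1 := rfl

variable (N q : ℕ) [Fact q.Prime] (hqN : ¬ q ∣ N)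

/-- `α₂ = W ∘ res`. -/
noncomputable def h43_al2 : h43_Lat N →+ h43_Lat (N * q) :=
  h43_restr ((h30_W N q hqN).comp (h30_res N q))
    (fun φ hφ => h30_W_parabolic N q hqN _ (h30_res_parabolic q φ hφ))

/-- `β₁ = tr`. -/
noncomputable def h43_be1 : h43_Lat (N * q) →+ h43_Lat N :=
  h43_restr (h30_tr N q hqN) (fun ψ hψ => h30_tr_parabolic N q hqN ψ hψ)

/-- `β₂ = tr ∘ W`. -/
noncomputable def h43_be2 : h43_Lat (N * q) →+ h43_Lat N :=
  h43_restr ((h30_tr N q hqN).comp (h30_W N q hqN))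
    (fun ψ hψ => h30_tr_parabolic N q hqN _ (h30_W_parabolic N q hqN ψ hψ))

theorem h43_al2_coe (φ : h43_Lat N) :
    ((h43_al2 N q hqN φ : h43_Lat (N * q)) : Additive (Gamma0 (N * q)) →+ ℤ) =
      h30_W N q hqN (h30_res N q φ.1) := rfl

theorem h43_be1_coe (ψ : h43_Lat (N * q)) :
    ((h43_be1 N q hqN ψ : h43_Lat N) : Additive (Gamma0 N) →+ ℤ) = h30_tr N q hqN ψ.1 := rfl

theorem h43_be2_coe (ψ : h43_Lat (N * q)) :
    ((h43_be2 N q hqN ψ : h43_Lat N) : Additive (Gamma0 N) →+ ℤ) =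
      h30_tr N q hqN (h30_W N q hqN ψ.1) := rfl

end Maps

/-- The index set of the Hecke operators used in the deduction. -/
def h43_Idx (W : WeierstrassCurve ℤ) (M p : ℕ) : Type :=
  {l : ℕ // l.Prime ∧ W.IsGoodPrimeFor l ∧ ¬ l ∣ M ∧ l ≠ p}

theorem h43_mem_nsmul_iff {M : ℕ} (p : ℕ) (hp : p ≠ 0) (x : h43_Lat M) :
    (∃ v : h43_Lat M, x = p • v) ↔ ∃ ψ : Additive (Gamma0 M) →+ ℤ, x.1 = p • ψ := by
  constructor
  · rintro ⟨v, rfl⟩
    exact ⟨v.1, rfl⟩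
  · rintro ⟨ψ, hψ⟩
    exact ⟨⟨ψ, h30_parabolic_of_nsmul hp ψ (hψ ▸ x.2)⟩, Subtype.ext hψ⟩

theorem h43_eigen_zsmul {L : Type*} [AddCommGroup L] (T : L →+ L) (a e : ℤ) (p : ℕ) (x z : L)
    (h : T x - a • x = p • z) : T (e • x) - a • (e • x) = p • (e • z) := by
  rw [map_zsmul, smul_comm a e x, ← smul_sub, h, smul_comm]

/-- **S41 from named hypotheses.** -/
theorem h43_S41_of
    (E : WeierstrassCurve ℚ) [E.IsElliptic] {W : WeierstrassCurve ℤ} (hW : W.IsIntegralModelOf E)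
    {p N q' : ℕ} (hp : p.Prime) (hp2 : p ≠ 2) (hN : 0 < N) [hq' : Fact q'.Prime]
    (hq'N : ¬ q' ∣ N)
    (hirr : GaloisRepIsIrreducible (K := AlgebraicClosure ℚ) ℚ E p)
    (f : CuspForm (CongruenceSubgroup.Gamma0 N) 2) (𝔪 : Ideal (integralClosure ℤ ℂ))
    (hf : f.IsNormalizedEigenform) (hmax : 𝔪.IsMaximal) (hpm : (p : integralClosure ℤ ℂ) ∈ 𝔪)
    (hcong : ∀ ℓ : ℕ, ℓ.Prime → W.IsGoodPrimeFor ℓ → ¬ ℓ ∣ N → ℓ ≠ p →
      ∃ a : integralClosure ℤ ℂ, (a : ℂ) = ModularFormClass.qCoeff f ℓ ∧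
        a - ((W.apOfModel ℓ : ℤ) : integralClosure ℤ ℂ) ∈ 𝔪)
    (hLR : ∃ a : integralClosure ℤ ℂ, (a : ℂ) = ModularFormClass.qCoeff f q' ∧
      a ^ 2 - ((q' : integralClosure ℤ ℂ) + 1) ^ 2 ∈ 𝔪)
    -- (D) rows not yet on main
    (hI1 : ∀ φ : Additive (Gamma0 N) →+ ℤ, h30_tr N q' hq'N (h30_res N q' φ) = (q' + 1) • φ)
    (hI5b : ∀ (l : ℕ) [Fact l.Prime] (hl : ¬ l ∣ N * q') (ψ : Additive (Gamma0 (N * q')) →+ ℤ),
      h30_heckeT (N * q') l hl (h30_W N q' hq'N ψ) = h30_W N q' hq'N (h30_heckeT (N * q') l hl ψ))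
    -- FIN
    (hFIN : ∀ (Ψ : Additive (Gamma0 (N * q')) →+ ℤ), IsParabolicHom (Gamma0 (N * q')) Ψ →
      (¬ ∃ Ψ', Ψ = p • Ψ') →
      h30_heckeU (N * q') q' (Dvd.intro_left N rfl)
        (h30_heckeU (N * q') q' (Dvd.intro_left N rfl) Ψ) = Ψ →
      (∀ (l : ℕ) [Fact l.Prime] (hl : ¬ l ∣ N * q'), (W.IsGoodPrimeFor l ∧ l ≠ p) →
        ∃ u : Additive (Gamma0 (N * q')) →+ ℤ,
          h30_heckeT (N * q') l hl Ψ - W.apOfModel l • Ψ = p • u) →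
      ∃ (g : CuspForm (CongruenceSubgroup.Gamma0 (N * q')) 2)
        (𝔪' : Ideal (integralClosure ℤ ℂ)),
        g.IsNormalizedEigenform ∧ 𝔪'.IsMaximal ∧ (p : integralClosure ℤ ℂ) ∈ 𝔪' ∧
        (∀ l : ℕ, l.Prime → ¬ l ∣ N * q' → (W.IsGoodPrimeFor l ∧ l ≠ p) →
          ∃ c : integralClosure ℤ ℂ, (c : ℂ) = ModularFormClass.qCoeff g l ∧
            c - ((W.apOfModel l : ℤ) : integralClosure ℤ ℂ) ∈ 𝔪') ∧
        g.IsNewAt q')
    -- (B) duality package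
    (B : h43_Lat N → h43_Lat N → ZMod p) (B' : h43_Lat (N * q') → h43_Lat (N * q') → ZMod p)
    (hB_add_left : ∀ a b c, B (a + b) c = B a c + B b c)
    (hB_add_right : ∀ a b c, B a (b + c) = B a b + B a c)
    (hB_nd : ∀ x, (∀ y, B x y = 0) → ∃ v, x = p • v)
    (ε : ZMod p) (hB_symm : ∀ x y, B y x = ε * B x y)
    (hB'_add_left : ∀ a b c, B' (a + b) c = B' a c + B' b c)
    (hB'_nd : ∀ x, (∀ y, B' x y = 0) → ∃ v, x = p • v)
    (hadj₁ : ∀ x y, B' (h43_al1 N q' x) y = B x (h43_be1 N q' hq'N y))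
    (hadj₂ : ∀ x y, B' (h43_al2 N q' hq'N x) y = B x (h43_be2 N q' hq'N y))
    (hsa : ∀ (l : ℕ) (hl : l.Prime) (hlN : ¬ l ∣ N) (x y : h43_Lat N),
      B (h43_T N l hl hlN x) y = B x (h43_T N l hl hlN y)) :
    ∃ (g : CuspForm (CongruenceSubgroup.Gamma0 (N * q')) 2) (𝔪' : Ideal (integralClosure ℤ ℂ)),
      g.IsNormalizedEigenform ∧ 𝔪'.IsMaximal ∧ (p : integralClosure ℤ ℂ) ∈ 𝔪' ∧
      (∀ ℓ : ℕ, ℓ.Prime → W.IsGoodPrimeFor ℓ → ¬ ℓ ∣ N * q' → ℓ ≠ p →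
        ∃ a : integralClosure ℤ ℂ, (a : ℂ) = ModularFormClass.qCoeff g ℓ ∧
          a - ((W.apOfModel ℓ : ℤ) : integralClosure ℤ ℂ) ∈ 𝔪') ∧
      g.IsNewAt q' := by
  classical
  have : NeZero N := ⟨hN.ne'⟩
  have : Fact p.Prime := ⟨hp⟩
  have hp0 : p ≠ 0 := hp.ne_zero
  have hNq0 : N * q' ≠ 0 := Nat.mul_ne_zero hN.ne' hq'.out.ne_zero
  -- EIG
  obtain ⟨w, ε₀, hwpar, hwprim, hε₀, hweig, u_q, hu_qpar, hu_q⟩ :=
    h42_eig_LR hp hq'N f 𝔪 hf hmax hpm hcong hLR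
  -- operators
  let T : h43_Idx W (N * q') p → h43_Lat N →+ h43_Lat N := fun i =>
    h43_T N i.1 i.2.1 (fun h => i.2.2.2.1 (Dvd.dvd.mul_right h q'))
  let T' : h43_Idx W (N * q') p → h43_Lat (N * q') →+ h43_Lat (N * q') := fun i =>
    h43_T (N * q') i.1 i.2.1 i.2.2.2.1
  let a : h43_Idx W (N * q') p → ℤ := fun i => W.apOfModel i.1
  have hTcoe : ∀ (i : h43_Idx W (N * q') p) (x : h43_Lat N),
      ((T i x : h43_Lat N) : Additive (Gamma0 N) →+ ℤ) =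
        @h30_heckeT N i.1 ⟨i.2.1⟩ (fun h => i.2.2.2.1 (Dvd.dvd.mul_right h q')) ℤ _ x.1 :=
    fun _ _ => rfl
  have hT'coe : ∀ (i : h43_Idx W (N * q') p) (x : h43_Lat (N * q')),
      ((T' i x : h43_Lat (N * q')) : Additive (Gamma0 (N * q')) →+ ℤ) =
        @h30_heckeT (N * q') i.1 ⟨i.2.1⟩ i.2.2.2.1 ℤ _ x.1 :=
    fun _ _ => rfl
  have hfin : Module.Finite ℤ (h43_Lat N) := Fermat.Agent.GAL.h65_Lam_finite N
  have hL : ∀ x : h43_Lat N, p • x = 0 → x = 0 := by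
    intro x hx
    apply Subtype.ext
    refine AddMonoidHom.ext fun γ => ?_
    have h1 : (p • (x : Additive (Gamma0 N) →+ ℤ)) γ = 0 := by
      have := congrArg (fun y : h43_Lat N => (y : Additive (Gamma0 N) →+ ℤ) γ) hx
      exact this
    rw [AddMonoidHom.smul_apply, smul_eq_zero] at h1
    exact h1.resolve_left hp0
  -- commutativity
  have hTc : ∀ i j x, T i (T j x) = T j (T i x) := by
    intro i j x
    apply Subtype.ext
    have : Fact i.1.Prime := ⟨i.2.1⟩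
    have : Fact j.1.Prime := ⟨j.2.1⟩
    exact h82_heckeT_comm i.1 j.1 _ _ x.1 x.2
  have hT'c : ∀ i j x, T' i (T' j x) = T' j (T' i x) := by
    intro i j x
    apply Subtype.ext
    have : Fact i.1.Prime := ⟨i.2.1⟩
    have : Fact j.1.Prime := ⟨j.2.1⟩
    have : NeZero (N * q') := ⟨hNq0⟩
    exact h82_heckeT_comm i.1 j.1 _ _ x.1 x.2
  -- equivariance
  have hα₁ : ∀ i x, h43_al1 N q' (T i x) = T' i (h43_al1 N q' x) := by
    intro i x
    apply Subtype.ext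
    have : Fact i.1.Prime := ⟨i.2.1⟩
    exact (h21_heckeT_res i.1 i.2.2.2.1 x.1).symm
  have hα₂ : ∀ i x, h43_al2 N q' hq'N (T i x) = T' i (h43_al2 N q' hq'N x) := by
    intro i x
    apply Subtype.ext
    have : Fact i.1.Prime := ⟨i.2.1⟩
    have e1 := h21_heckeT_res (q := q') i.1 i.2.2.2.1 x.1
    have e2 := hI5b i.1 i.2.2.2.1 (h30_res N q' x.1)
    show h30_W N q' hq'N (h30_res N q' (h30_heckeT N i.1 _ x.1)) =
      h30_heckeT (N * q') i.1 i.2.2.2.1 (h30_W N q' hq'N (h30_res N q' x.1))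
    rw [e2, e1]
  have hβ₁ : ∀ i y, h43_be1 N q' hq'N (T' i y) = T i (h43_be1 N q' hq'N y) := by
    intro i y
    apply Subtype.ext
    have : Fact i.1.Prime := ⟨i.2.1⟩
    exact (h24_heckeT_tr hq'N i.1 i.2.2.2.1 y.1).symm
  have hβ₂ : ∀ i y, h43_be2 N q' hq'N (T' i y) = T i (h43_be2 N q' hq'N y) := by
    intro i y
    apply Subtype.ext
    have : Fact i.1.Prime := ⟨i.2.1⟩
    have e1 := h24_heckeT_tr hq'N i.1 i.2.2.2.1 (h30_W N q' hq'N y.1)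
    have e2 := hI5b i.1 i.2.2.2.1 y.1
    show h30_tr N q' hq'N (h30_W N q' hq'N (h30_heckeT (N * q') i.1 i.2.2.2.1 y.1)) =
      h30_heckeT N i.1 _ (h30_tr N q' hq'N (h30_W N q' hq'N y.1))
    rw [← e2, e1]
  -- Ihara
  have Ih : ∀ x y : h43_Lat N, (∀ i, ∃ z, T i x - a i • x = p • z) →
      (∀ i, ∃ z, T i y - a i • y = p • z) →
      (∃ z', h43_al1 N q' x + h43_al2 N q' hq'N y = p • z') →
      (∃ x₀, x = p • x₀) ∧ (∃ y₀, y = p • y₀) := by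
    intro x y hx _ hxy
    obtain ⟨z', hz'⟩ := hxy
    have hK : h45_K N q' (h45_red p x.1) (h45_red p y.1) :=
      h30_K_red_of_ker hq'N p x.1 y.1 ⟨z'.1, congrArg Subtype.val hz'⟩
    have hNE : ∀ M : ℕ, 0 < M → ∃ l : ℕ, l.Prime ∧ ¬ l ∣ N ∧
        (l.Prime ∧ W.IsGoodPrimeFor l ∧ ¬ l ∣ N * q' ∧ l ≠ p) ∧ M ∣ l - 1 ∧
        (∀ x : ZMod l, x ^ p ≠ (q' : ZMod l)) ∧ ¬ (p : ℤ) ∣ W.apOfModel l - 2 := by
      intro M hM
      obtain ⟨l, hl, hgood, hMl, hpow, hnd⟩ := h45_exists_of_notEis (q := q') (p := p)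
        (fun l => l.Prime ∧ W.IsGoodPrimeFor l ∧ ¬ l ∣ N * q' ∧ l ≠ p)
        (fun l => W.apOfModel l)
        (fun M hM h => h48_not_eisenstein E hW hp hp2 hq'.out hM hirr
          ((N * q').primeFactors ∪ {p})
          (fun ℓ hℓ hℓS hgood hMℓ hpow => h ℓ hℓ
            ⟨hℓ, hgood, fun hd => hℓS (Finset.mem_union_left _
              (Nat.mem_primeFactors.mpr ⟨hℓ, hd, hNq0⟩)),
              fun he => hℓS (Finset.mem_union_right _ (Finset.mem_singleton.mpr he))⟩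
            hMℓ hpow))
        M hM
      exact ⟨l, hl, fun h => hgood.2.2.1 (Dvd.dvd.mul_right h q'), hgood, hMl, hpow, hnd⟩
    have key := h45_ihara_out_int (p := p) hq'.out hq'N (h45_parabolic_upper x.2 1)
      (h45_parabolic_upper y.2 1) hK
      (fun l => l.Prime ∧ W.IsGoodPrimeFor l ∧ ¬ l ∣ N * q' ∧ l ≠ p)
      (fun l => W.apOfModel l)
      (by
        intro l _ hlN hgood
        obtain ⟨z, hz⟩ := hx ⟨l, hgood⟩
        exact ⟨z.1, congrArg Subtype.val hz⟩)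
      hNE
    exact ⟨(h43_mem_nsmul_iff p hp0 x).mpr key.1, (h43_mem_nsmul_iff p hp0 y).mpr key.2⟩
  -- the eigenvector pair
  let x : h43_Lat N := ⟨w, hwpar⟩
  let y : h43_Lat N := (-ε₀) • x
  have hx : ∀ i, ∃ z, T i x - a i • x = p • z := by
    intro i
    have : Fact i.1.Prime := ⟨i.2.1⟩
    obtain ⟨u, hupar, hu⟩ := hweig i.1 (fun h => i.2.2.2.1 (Dvd.dvd.mul_right h q')) i.2.2.1
      i.2.2.2.2
    exact ⟨⟨u, hupar⟩, Subtype.ext hu⟩
  have hy : ∀ i, ∃ z, T i y - a i • y = p • z := by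
    intro i
    obtain ⟨z, hz⟩ := hx i
    exact ⟨(-ε₀) • z, h43_eigen_zsmul (T i) (a i) (-ε₀) p x z hz⟩
  have hxy : ¬ ((∃ x₀, x = p • x₀) ∧ (∃ y₀, y = p • y₀)) := by
    rintro ⟨⟨x₀, hx₀⟩, -⟩
    exact hwprim ⟨x₀.1, congrArg Subtype.val hx₀⟩
  have hTq : h30_heckeT N q' hq'N w = (ε₀ * ((q' : ℤ) + 1)) • w + p • u_q := by
    rw [← hu_q]; abel
  have hε₀2 : ε₀ * ε₀ = 1 := by rcases hε₀ with h | h <;> rw [h] <;> norm_num
  have h1 : ∃ z, h43_be1 N q' hq'N (h43_al1 N q' x + h43_al2 N q' hq'N y) = p • z := by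
    refine ⟨(-ε₀) • (⟨u_q, hu_qpar⟩ : h43_Lat N), ?_⟩
    apply Subtype.ext
    show h30_tr N q' hq'N (h30_res N q' w + h30_W N q' hq'N (h30_res N q' ((-ε₀) • w))) =
      p • ((-ε₀) • u_q)
    rw [map_add, map_zsmul (h30_res N q'), map_zsmul (h30_W N q' hq'N),
      map_zsmul (h30_tr N q' hq'N), hI1, h66_tr_W_res, hTq]
    refine AddMonoidHom.ext fun γ => ?_
    simp only [AddMonoidHom.add_apply, AddMonoidHom.smul_apply, smul_eq_mul, nsmul_eq_mul,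
      Nat.cast_add, Nat.cast_one]
    linear_combination (-((q' : ℤ) + 1) * (w γ)) * hε₀2
  have h2 : ∃ z, h43_be2 N q' hq'N (h43_al1 N q' x + h43_al2 N q' hq'N y) = p • z := by
    refine ⟨(⟨u_q, hu_qpar⟩ : h43_Lat N), ?_⟩
    apply Subtype.ext
    show h30_tr N q' hq'N (h30_W N q' hq'N
      (h30_res N q' w + h30_W N q' hq'N (h30_res N q' ((-ε₀) • w)))) = p • u_q
    rw [map_add, map_add, h30_W_W, map_zsmul (h30_res N q'), map_zsmul (h30_tr N q' hq'N), hI1,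
      h66_tr_W_res, ← hu_q]
    refine AddMonoidHom.ext fun γ => ?_
    simp only [AddMonoidHom.add_apply, AddMonoidHom.sub_apply, AddMonoidHom.smul_apply,
      smul_eq_mul, nsmul_eq_mul, Nat.cast_add, Nat.cast_one]
    ring
  -- ALG
  obtain ⟨z, hz1, hz2, hz3, hz4⟩ := h43_ribet_alg hL T T' hTc hT'c a
    (h43_al1 N q') (h43_al2 N q' hq'N) (h43_be1 N q' hq'N) (h43_be2 N q' hq'N)
    hα₁ hα₂ hβ₁ hβ₂ B B' hB_add_left hB_add_right hB_nd ε hB_symm hB'_add_left hB'_nd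
    hadj₁ hadj₂ (fun i x y => hsa i.1 i.2.1 _ x y) Ih x y hx hy hxy h1 h2
  -- FIN
  obtain ⟨g, 𝔪', hg1, hg2, hg3, hg4, hg5⟩ := hFIN z.1 z.2
    (fun h => hz3 ((h43_mem_nsmul_iff p hp0 z).mpr h))
    (h62_U_U_of_ker hq'N z.1 (congrArg Subtype.val hz1) (congrArg Subtype.val hz2))
    (by
      intro l _ hl hgood
      obtain ⟨v, hv, -, -⟩ := hz4 ⟨l, Fact.out, hgood.1, hl, hgood.2⟩
      exact ⟨v.1, congrArg Subtype.val hv⟩)
  exact ⟨g, 𝔪', hg1, hg2, hg3, fun ℓ hℓ hgood hℓNq hℓp => hg4 ℓ hℓ hℓNq ⟨hgood, hℓp⟩, hg5⟩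

end Fermat.Agent.S41
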