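/-
S41 (level raising): ASM, second stage.  helper43.

`h43_S41_of_B`: the frozen S41 conclusion from the frozen hypotheses and the three remaining
inputs of block (B), stated for helper8's pairing `h8_B`:
* `hB2`  : `res`/`tr` adjointness for all pairs of levels `(N, N * l)`, `l ∤ N` prime;
* `hcf`  : the cusp formula `h49_CuspFormula M c d` at every level `M ≠ 0` (some `c ≠ 0`);
* `hexR` : existence of a cusp system at every level `M ≠ 0`.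
Everything else is plugged in from main.
-/
import Fermat.Agent.S41.h43_Asm
import Fermat.Agent.S41.h92_BPrim
import Fermat.Agent.S41.h49_BHecke2
import Fermat.Agent.S41.h23_LRI1
import Fermat.Agent.S41.h7_LRI5b
import Fermat.Agent.S41.h30_LRFin

set_option autoImplicit false

open CongruenceSubgroup Matrix.SpecialLinearGroup ModularCurve.Period
open scoped MatrixGroups
open Fermat.Agent.S16
open WeierstrassCurve WeierstrassCurve.Affine WeierstrassCurve.Affine.Point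

namespace Fermat.Agent.S41

/-- The pairing `h8_B` on the lattice of level `M`, reduced mod `p`. -/
noncomputable def h43_Bp (p M : ℕ) (x y : h43_Lat M) : ZMod p :=
  ((h8_B (Gamma0 M) x.1 y.1 : ℤ) : ZMod p)

theorem h43_Bp_add_left (p M : ℕ) [NeZero M] (a b c : h43_Lat M) :
    h43_Bp p M (a + b) c = h43_Bp p M a c + h43_Bp p M b c := by
  unfold h43_Bp
  rw [← Int.cast_add]
  exact congrArg Int.cast
    (h92_B_add_left (Gamma0 M) (h49_neg_one_mem M) a.1 b.1 c.1 a.2 b.2 c.2)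

theorem h43_Bp_add_right (p M : ℕ) [NeZero M] (a b c : h43_Lat M) :
    h43_Bp p M a (b + c) = h43_Bp p M a b + h43_Bp p M a c := by
  unfold h43_Bp
  rw [← Int.cast_add]
  exact congrArg Int.cast
    (h92_B_add_right (Gamma0 M) (h49_neg_one_mem M) a.1 b.1 c.1 a.2 b.2 c.2)

theorem h43_Bp_symm (p M : ℕ) (x y : h43_Lat M) :
    h43_Bp p M y x = (-1 : ZMod p) * h43_Bp p M x y := by
  unfold h43_Bp
  rw [h49_B_antisymm (Gamma0 M) x.1 y.1, Int.cast_neg, neg_one_mul]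

theorem h43_Bp_nd (p M : ℕ) [NeZero M] [Fact p.Prime] (hp2 : p ≠ 2) (x : h43_Lat M)
    (h : ∀ y, h43_Bp p M x y = 0) : ∃ v : h43_Lat M, x = p • v := by
  obtain ⟨φ', hpar, hx⟩ := h92_B_nondeg (Gamma0 M) (h49_neg_one_mem M) p hp2 x.1 x.2
    (fun ψ hψ => (ZMod.intCast_zmod_eq_zero_iff_dvd _ p).mp (h ⟨ψ, hψ⟩))
  exact ⟨⟨φ', hpar⟩, Subtype.ext hx⟩

/-- **S41 from the three remaining inputs of block (B).** -/
theorem h43_S41_of_B
    (E : WeierstrassCurve ℚ) [E.IsElliptic] {W : WeierstrassCurve ℤ} (hW : W.IsIntegralModelOf E)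
    {p N q' : ℕ} (hp : p.Prime) (hp2 : p ≠ 2) (hN : 0 < N) [hq' : Fact q'.Prime]
    (hq'N : ¬ q' ∣ N)
    (hirr : GaloisRepIsIrreducible (K := AlgebraicClosure ℚ) ℚ E p)
    (f : CuspForm (CongruenceSubgroup.Gamma0 N) 2) (𝔪 : Ideal (integralClosure ℤ ℂ))
    (hf : f.IsNormalizedEigenform) (hmax : 𝔪.IsMaximal) (hpm : (p : integralClosure ℤ ℂ) ∈ 𝔪)
    (hcong : ∀ ℓ : ℕ, ℓ.Prime → W.IsGoodPrimeFor ℓ → ¬ ℓ ∣ N → ℓ ≠ p →
      ∃ a : integralClosure ℤ ℂ, (a : ℂ) = ModularFormClass.qCoeff f ℓ ∧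
        a - ((W.apOfModel ℓ : ℤ) : integralClosure ℤ ℂ) ∈ 𝔪)
    (hLR : ∃ a : integralClosure ℤ ℂ, (a : ℂ) = ModularFormClass.qCoeff f q' ∧
      a ^ 2 - ((q' : integralClosure ℤ ℂ) + 1) ^ 2 ∈ 𝔪)
    -- (B2): res / tr adjointness at the pairs of levels (N, N * l)
    (hB2 : ∀ (l : ℕ) [Fact l.Prime] (hlN : ¬ l ∣ N) (φ : Additive (Gamma0 N) →+ ℤ)
      (ψ : Additive (Gamma0 (N * l)) →+ ℤ), IsParabolicHom (Gamma0 N) φ →
      IsParabolicHom (Gamma0 (N * l)) ψ →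
      h8_B (Gamma0 (N * l)) (h30_res N l φ) ψ = h8_B (Gamma0 N) φ (h30_tr N l hlN ψ))
    -- the cusp formula (INTR + COUNT) and existence of cusp systems, at every level
    (hcf : ∀ M : ℕ, M ≠ 0 → ∃ c d : ℤ, c ≠ 0 ∧ h49_CuspFormula M c d)
    (hexR : ∀ M : ℕ, M ≠ 0 → ∃ R : Finset (Gamma0 M), h42_IsCuspSystem (Gamma0 M) R) :
    ∃ (g : CuspForm (CongruenceSubgroup.Gamma0 (N * q')) 2) (𝔪' : Ideal (integralClosure ℤ ℂ)),
      g.IsNormalizedEigenform ∧ 𝔪'.IsMaximal ∧ (p : integralClosure ℤ ℂ) ∈ 𝔪' ∧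
      (∀ ℓ : ℕ, ℓ.Prime → W.IsGoodPrimeFor ℓ → ¬ ℓ ∣ N * q' → ℓ ≠ p →
        ∃ a : integralClosure ℤ ℂ, (a : ℂ) = ModularFormClass.qCoeff g ℓ ∧
          a - ((W.apOfModel ℓ : ℤ) : integralClosure ℤ ℂ) ∈ 𝔪') ∧
      g.IsNewAt q' := by
  have : NeZero N := ⟨hN.ne'⟩
  have : Fact p.Prime := ⟨hp⟩
  have hNq0 : N * q' ≠ 0 := Nat.mul_ne_zero hN.ne' hq'.out.ne_zero
  have : NeZero (N * q') := ⟨hNq0⟩
  obtain ⟨c, d, hc, hcf'⟩ := hcf (N * q') hNq0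
  refine h43_S41_of E hW hp hp2 hN hq'N hirr f 𝔪 hf hmax hpm hcong hLR
    (fun φ => h23_tr_res hq'N φ)
    (fun l _ hl ψ => h7_heckeT_W hq'N l hl ψ)
    (fun Ψ hpar hprim hUU hT => h30_fin (Dvd.intro_left N rfl)
      (fun l => W.IsGoodPrimeFor l ∧ l ≠ p) (fun l => W.apOfModel l) Ψ hpar hprim hUU hT)
    (h43_Bp p N) (h43_Bp p (N * q'))
    (h43_Bp_add_left p N) (h43_Bp_add_right p N) (h43_Bp_nd p N hp2)
    (-1) (h43_Bp_symm p N)
    (h43_Bp_add_left p (N * q')) (h43_Bp_nd p (N * q') hp2)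
    (fun x y => congrArg Int.cast (hB2 q' hq'N x.1 y.1 x.2 y.2))
    (fun x y => congrArg Int.cast
      (h49_B_hadj2 hq'N c d hc (hexR (N * q') hNq0) hcf' (hB2 q' hq'N) x.1 y.1 x.2 y.2))
    ?_
  intro l hl hlN x y
  have : Fact l.Prime := ⟨hl⟩
  have hNl0 : N * l ≠ 0 := Nat.mul_ne_zero hN.ne' hl.ne_zero
  obtain ⟨c', d', hc', hcfl⟩ := hcf (N * l) hNl0
  exact congrArg Int.cast
    (h49_B_hsa hlN c' d' hc' (hexR (N * l) hNl0) hcfl (hB2 l hlN) x.1 y.1 x.2 y.2)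

end Fermat.Agent.S41
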