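import Mathlib
import Fermat.Prelude.Def_ModularCurve_PeriodMap

/-!
# S41 / block (B): elementary properties of Heisenberg lifts (helper44)

Let `φ ψ : G → ℤ` be homomorphisms and `e : G → ℤ` a *Heisenberg lift* of `(φ, ψ)`, i.e.
`e (g * h) = e g + e h + φ g * ψ h`.  Then `e 1 = 0`, `e` vanishes on elements of finite order,
`e` is conjugation invariant on the elements killed by `φ` and `ψ`, and additive on their powers.
For a subgroup of `SL(2, ℤ)` and parabolic `φ`, `ψ` this applies to the elements of trace `2`.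
-/

set_option autoImplicit false

namespace Fermat.Agent.S41

open scoped MatrixGroups
open ModularCurve.Period

section General

variable {G : Type*} [Group G] {φ ψ : Additive G →+ ℤ} {e : G → ℤ}

theorem h44_heis_one
    (he : ∀ g h : G, e (g * h) = e g + e h + φ (Additive.ofMul g) * ψ (Additive.ofMul h)) :
    e 1 = 0 := by
  have h := he 1 1
  rw [mul_one, ofMul_one, map_zero, zero_mul] at h
  omega

theorem h44_heis_inv
    (he : ∀ g h : G, e (g * h) = e g + e h + φ (Additive.ofMul g) * ψ (Additive.ofMul h))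
    (g : G) : e g⁻¹ = -e g + φ (Additive.ofMul g) * ψ (Additive.ofMul g) := by
  have h := he g g⁻¹
  rw [mul_inv_cancel, h44_heis_one he, ofMul_inv, map_neg] at h
  linear_combination -h

/-- A Heisenberg lift is conjugation invariant on the elements killed by `φ` and `ψ`. -/
theorem h44_heis_conj
    (he : ∀ g h : G, e (g * h) = e g + e h + φ (Additive.ofMul g) * ψ (Additive.ofMul h))
    (t γ : G) (hφ : φ (Additive.ofMul t) = 0) (hψ : ψ (Additive.ofMul t) = 0) :
    e (γ⁻¹ * t * γ) = e t := by
  rw [he, he, h44_heis_inv he, ofMul_mul, map_add, ofMul_inv, map_neg, hφ, hψ]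
  ring

/-- A Heisenberg lift is additive on the powers of an element killed by `φ`. -/
theorem h44_heis_pow
    (he : ∀ g h : G, e (g * h) = e g + e h + φ (Additive.ofMul g) * ψ (Additive.ofMul h))
    (t : G) (hφ : φ (Additive.ofMul t) = 0) (k : ℕ) : e (t ^ k) = k • e t := by
  induction k with
  | zero => simp [h44_heis_one he]
  | succ k ih =>
    rw [pow_succ, he, ih, ofMul_pow, map_nsmul, hφ]
    simp only [nsmul_eq_mul, Nat.cast_add, Nat.cast_one]
    ring

theorem h44_heis_zpow
    (he : ∀ g h : G, e (g * h) = e g + e h + φ (Additive.ofMul g) * ψ (Additive.ofMul h))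
    (t : G) (hφ : φ (Additive.ofMul t) = 0) (k : ℤ) : e (t ^ k) = k * e t := by
  have hinv : e t⁻¹ = -e t := by
    rw [h44_heis_inv he, hφ]
    ring
  have hφ' : φ (Additive.ofMul t⁻¹) = 0 := by
    rw [ofMul_inv, map_neg, hφ, neg_zero]
  obtain ⟨n, rfl | rfl⟩ := Int.eq_nat_or_neg k
  · rw [zpow_natCast, h44_heis_pow he t hφ]
    simp
  · rw [zpow_neg, zpow_natCast, ← inv_pow, h44_heis_pow he _ hφ', hinv]
    simp

theorem h44_hom_finOrder (χ : Additive G →+ ℤ) (t : G) (ht : IsOfFinOrder t) :
    χ (Additive.ofMul t) = 0 := by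
  obtain ⟨n, hn, hpow⟩ := isOfFinOrder_iff_pow_eq_one.mp ht
  have h := congrArg (fun g => χ (Additive.ofMul g)) hpow
  simp only [ofMul_pow, map_nsmul, ofMul_one, map_zero, nsmul_eq_mul] at h
  rcases mul_eq_zero.mp h with h' | h'
  · exact absurd (by exact_mod_cast h') hn.ne'
  · exact h'

/-- A Heisenberg lift vanishes on the elements of finite order. -/
theorem h44_heis_finOrder
    (he : ∀ g h : G, e (g * h) = e g + e h + φ (Additive.ofMul g) * ψ (Additive.ofMul h))
    (t : G) (ht : IsOfFinOrder t) : e t = 0 := by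
  obtain ⟨n, hn, hpow⟩ := isOfFinOrder_iff_pow_eq_one.mp ht
  have h := h44_heis_pow he t (h44_hom_finOrder φ t ht) n
  rw [hpow, h44_heis_one he] at h
  simp only [nsmul_eq_mul] at h
  rcases mul_eq_zero.mp h.symm with h' | h'
  · exact absurd (by exact_mod_cast h') hn.ne'
  · exact h'

end General

section SL2

variable {Γ : Subgroup SL(2, ℤ)} {φ ψ : Additive Γ →+ ℤ} {e : Γ → ℤ}

theorem h44_parabolic_of_trace {A : Type*} [AddCommGroup A] {χ : Additive Γ →+ A}
    (hχ : IsParabolicHom Γ χ) (t : Γ)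
    (ht : ((t : SL(2, ℤ)) : Matrix (Fin 2) (Fin 2) ℤ).trace = 2) :
    χ (Additive.ofMul t) = 0 :=
  hχ t (by rw [ht]; norm_num)

/-- `hconj` of `h42_count`: a Heisenberg lift of parabolic homomorphisms is conjugation
invariant on the elements of trace `2`. -/
theorem h44_heis_conj_trace (hφ : IsParabolicHom Γ φ) (hψ : IsParabolicHom Γ ψ)
    (he : ∀ g h : Γ, e (g * h) = e g + e h + φ (Additive.ofMul g) * ψ (Additive.ofMul h)) :
    ∀ t γ : Γ, ((t : SL(2, ℤ)) : Matrix (Fin 2) (Fin 2) ℤ).trace = 2 →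
      e (γ⁻¹ * t * γ) = e t :=
  fun t γ ht => h44_heis_conj he t γ (h44_parabolic_of_trace hφ t ht)
    (h44_parabolic_of_trace hψ t ht)

/-- `hpow` of `h42_count`: a Heisenberg lift of parabolic homomorphisms is additive on the
powers of an element of trace `2`. -/
theorem h44_heis_pow_trace (hφ : IsParabolicHom Γ φ)
    (he : ∀ g h : Γ, e (g * h) = e g + e h + φ (Additive.ofMul g) * ψ (Additive.ofMul h)) :
    ∀ (t : Γ) (k : ℕ), ((t : SL(2, ℤ)) : Matrix (Fin 2) (Fin 2) ℤ).trace = 2 →
      e (t ^ k) = k • e t :=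
  fun t k ht => h44_heis_pow he t (h44_parabolic_of_trace hφ t ht) k

end SL2

end Fermat.Agent.S41
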