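import Mathlib
import Fermat.Agent.S16.h18_Parab

/-!
# S41 / block (B): parabolic elements of `SL(2, ℤ)` (helper44)

Pure matrix facts about the conjugates of the powers of `T = [1, 1; 0, 1]`:

* entries of `g * T ^ k * g⁻¹` (`h44_conj_T_zpow_apply`), hence trace `2` and the sign of
  `ρ 0 1 - ρ 1 0`;
* elements intertwining two powers of `T` are `± T ^ l` (`h44_intertwine_T_zpow`);
* an element of trace `2` is `g * T ^ k * g⁻¹` with the sign of `k` read off from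
  `ρ 0 1 - ρ 1 0` (`h44_exists_conj_pos`).
-/

set_option autoImplicit false

namespace Fermat.Agent.S41

open scoped MatrixGroups
open ModularGroup

theorem h44_T_zpow_apply (k : ℤ) :
    (T ^ k : SL(2, ℤ)) 0 0 = 1 ∧ (T ^ k : SL(2, ℤ)) 0 1 = k ∧ (T ^ k : SL(2, ℤ)) 1 0 = 0 ∧
      (T ^ k : SL(2, ℤ)) 1 1 = 1 := by
  have h := coe_T_zpow k
  refine ⟨?_, ?_, ?_, ?_⟩
  · have := congrFun (congrFun h 0) 0; simpa using this
  · have := congrFun (congrFun h 0) 1; simpa using this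
  · have := congrFun (congrFun h 1) 0; simpa using this
  · have := congrFun (congrFun h 1) 1; simpa using this

theorem h44_inv_apply (g : SL(2, ℤ)) :
    (g⁻¹ : SL(2, ℤ)) 0 0 = g 1 1 ∧ (g⁻¹ : SL(2, ℤ)) 0 1 = -g 0 1 ∧
      (g⁻¹ : SL(2, ℤ)) 1 0 = -g 1 0 ∧ (g⁻¹ : SL(2, ℤ)) 1 1 = g 0 0 := by
  have h := Matrix.SpecialLinearGroup.SL2_inv_expl g
  refine ⟨?_, ?_, ?_, ?_⟩ <;> rw [h] <;> rfl

theorem h44_det (g : SL(2, ℤ)) : g 0 0 * g 1 1 - g 0 1 * g 1 0 = 1 := by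
  have hdet := Matrix.SpecialLinearGroup.det_coe g
  rw [Matrix.det_fin_two] at hdet
  exact hdet

theorem h44_mul_apply (g h : SL(2, ℤ)) (i j : Fin 2) :
    (g * h) i j = g i 0 * h 0 j + g i 1 * h 1 j := by
  rw [Matrix.SpecialLinearGroup.coe_mul, Matrix.mul_apply, Fin.sum_univ_two]

/-- The entries of `g * T ^ k * g⁻¹`. -/
theorem h44_conj_T_zpow_apply (g : SL(2, ℤ)) (k : ℤ) :
    (g * T ^ k * g⁻¹) 0 0 = 1 - k * (g 0 0 * g 1 0) ∧
      (g * T ^ k * g⁻¹) 0 1 = k * g 0 0 ^ 2 ∧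
      (g * T ^ k * g⁻¹) 1 0 = -(k * g 1 0 ^ 2) ∧
      (g * T ^ k * g⁻¹) 1 1 = 1 + k * (g 0 0 * g 1 0) := by
  obtain ⟨t00, t01, t10, t11⟩ := h44_T_zpow_apply k
  obtain ⟨i00, i01, i10, i11⟩ := h44_inv_apply g
  have hdet := h44_det g
  simp only [h44_mul_apply, t00, t01, t10, t11, i00, i01, i10, i11]
  refine ⟨?_, ?_, ?_, ?_⟩
  · linear_combination hdet
  · ring
  · ring
  · linear_combination hdet

theorem h44_conj_T_zpow_trace (g : SL(2, ℤ)) (k : ℤ) :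
    (g * T ^ k * g⁻¹) 0 0 + (g * T ^ k * g⁻¹) 1 1 = 2 := by
  obtain ⟨h00, -, -, h11⟩ := h44_conj_T_zpow_apply g k
  rw [h00, h11]
  ring

theorem h44_conj_T_zpow_sign (g : SL(2, ℤ)) (k : ℤ) :
    (g * T ^ k * g⁻¹) 0 1 - (g * T ^ k * g⁻¹) 1 0 = k * (g 0 0 ^ 2 + g 1 0 ^ 2) := by
  obtain ⟨-, h01, h10, -⟩ := h44_conj_T_zpow_apply g k
  rw [h01, h10]
  ring

theorem h44_col_pos (g : SL(2, ℤ)) : 0 < g 0 0 ^ 2 + g 1 0 ^ 2 := by
  have hdet := h44_det g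
  by_contra hcon
  have h0 : g 0 0 = 0 := by nlinarith [sq_nonneg (g 0 0), sq_nonneg (g 1 0)]
  have h1 : g 1 0 = 0 := by nlinarith [sq_nonneg (g 0 0), sq_nonneg (g 1 0)]
  rw [h0, h1] at hdet
  simp at hdet

theorem h44_conj_T_zpow_pos_iff (g : SL(2, ℤ)) (k : ℤ) :
    0 < (g * T ^ k * g⁻¹) 0 1 - (g * T ^ k * g⁻¹) 1 0 ↔ 0 < k := by
  rw [h44_conj_T_zpow_sign]
  have := h44_col_pos g
  constructor
  · intro h
    by_contra hk
    have : k * (g 0 0 ^ 2 + g 1 0 ^ 2) ≤ 0 :=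
      mul_nonpos_of_nonpos_of_nonneg (not_lt.mp hk) this.le
    omega
  · intro h
    positivity

/-- An element of trace `2` with `0 < ρ 0 1 - ρ 1 0` is `g * T ^ k * g⁻¹` with `0 < k`. -/
theorem h44_exists_conj_pos (ρ : SL(2, ℤ)) (htr : ρ 0 0 + ρ 1 1 = 2)
    (hpos : 0 < ρ 0 1 - ρ 1 0) : ∃ (g : SL(2, ℤ)) (k : ℤ), 0 < k ∧ ρ = g * T ^ k * g⁻¹ := by
  obtain ⟨g, k, hk⟩ := Fermat.Agent.S16.h18_exists_conj_T_zpow ρ htr
  refine ⟨g, k, ?_, hk⟩
  rw [hk] at hpos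
  exact (h44_conj_T_zpow_pos_iff g k).mp hpos

/-- An element intertwining two powers of `T`, one of them nontrivial, is upper triangular and
the two powers agree. -/
theorem h44_intertwine_T_zpow (h : SL(2, ℤ)) (k k' : ℤ) (hk : k ≠ 0 ∨ k' ≠ 0)
    (hh : T ^ k * h = h * T ^ k') : h 1 0 = 0 ∧ k = k' := by
  obtain ⟨t00, t01, t10, t11⟩ := h44_T_zpow_apply k
  obtain ⟨s00, s01, s10, s11⟩ := h44_T_zpow_apply k'
  have e00 := congrArg (fun m : SL(2, ℤ) => m 0 0) hh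
  have e01 := congrArg (fun m : SL(2, ℤ) => m 0 1) hh
  have e11 := congrArg (fun m : SL(2, ℤ) => m 1 1) hh
  simp only [h44_mul_apply, t00, t01, t10, t11, s00, s01, s10, s11] at e00 e01 e11
  have hdet := h44_det h
  have hc : h 1 0 = 0 := by
    rcases hk with hk | hk
    · have : k * h 1 0 = 0 := by linarith
      rcases mul_eq_zero.mp this with h' | h'
      · exact absurd h' hk
      · exact h'
    · have : h 1 0 * k' = 0 := by linarith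
      rcases mul_eq_zero.mp this with h' | h'
      · exact h'
      · exact absurd h' hk
  refine ⟨hc, ?_⟩
  rw [hc] at hdet
  have had : h 0 0 * h 1 1 = 1 := by linarith
  have hu : h 0 0 = 1 ∧ h 1 1 = 1 ∨ h 0 0 = -1 ∧ h 1 1 = -1 := Int.eq_one_or_neg_one_of_mul_eq_one' had
  rcases hu with ⟨ha, hd⟩ | ⟨ha, hd⟩
  · rw [ha, hd] at e01
    linarith
  · rw [ha, hd] at e01
    linarith

/-- An element of `SL(2, ℤ)` with lower left entry `0` is `± T ^ l`. -/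
theorem h44_eq_pm_T_zpow (h : SL(2, ℤ)) (hc : h 1 0 = 0) :
    ∃ l : ℤ, h = T ^ l ∨ h = -T ^ l := by
  have hdet := h44_det h
  rw [hc] at hdet
  have had : h 0 0 * h 1 1 = 1 := by linarith
  rcases Int.eq_one_or_neg_one_of_mul_eq_one' had with ⟨ha, hd⟩ | ⟨ha, hd⟩
  · refine ⟨h 0 1, Or.inl ?_⟩
    exact Fermat.Agent.S16.h18_eq_T_zpow h hc (by rw [ha, hd]; rfl)
  · refine ⟨-h 0 1, Or.inr ?_⟩
    have h1 : (-h) 1 0 = 0 := by
      simp [hc]
    have h2 : (-h) 0 0 + (-h) 1 1 = 2 := by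
      simp [ha, hd]
    have h3 := Fermat.Agent.S16.h18_eq_T_zpow (-h) h1 h2
    have h4 : (-h) 0 1 = -h 0 1 := by simp
    rw [h4] at h3
    rw [← h3, neg_neg]

end Fermat.Agent.S41
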