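import Mathlib
import Fermat.Agent.S41.h44_ParMat
import Fermat.Agent.S41.h42_CuspDefs

/-!
# S41 / block (B): primitive positive parabolic elements and cosets (helper44)

For a subgroup `Γ ≤ SL(2, ℤ)` containing `-1` the primitive positive parabolic elements of `Γ`
(`h42_IsPosPar`) are exactly the elements `g⁻¹ * T ^ w * g` with `w > 0` the generator of
`{l | g⁻¹ * T ^ l * g ∈ Γ}` (`h44_isPosPar_of_min`, `h44_exists_of_isPosPar`), and two such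
elements are `Γ`-conjugate iff the cosets `g Γ`, `g' Γ` lie in the same `⟨T⟩`-orbit
(`h44_orbit_of_conj`, `h44_conj_of_orbit`).
-/

set_option autoImplicit false

namespace Fermat.Agent.S41

open scoped MatrixGroups
open ModularGroup

theorem h44_T_zpow_injective {a b : ℤ} (h : (T ^ a : SL(2, ℤ)) = T ^ b) : a = b := by
  have h1 := (h44_T_zpow_apply a).2.1
  have h2 := (h44_T_zpow_apply b).2.1
  rw [h] at h1
  rw [← h1, h2]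

section Coset

variable (Γ : Subgroup SL(2, ℤ))

/-- `g⁻¹ * T ^ k * g ∈ Γ` iff `T ^ k` fixes the coset `g Γ`. -/
theorem h44_conj_mem_iff (g : SL(2, ℤ)) (k : ℤ) :
    g⁻¹ * T ^ k * g ∈ Γ ↔ T ^ k • (g : SL(2, ℤ) ⧸ Γ) = (g : SL(2, ℤ) ⧸ Γ) := by
  rw [MulAction.Quotient.smul_mk, eq_comm, QuotientGroup.eq, smul_eq_mul, mul_assoc]

theorem h44_conj_zpow (g : SL(2, ℤ)) (a : SL(2, ℤ)) (n : ℤ) :
    (g⁻¹ * a * g) ^ n = g⁻¹ * a ^ n * g := by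
  have := conj_zpow (a := g⁻¹) (b := a) (i := n)
  rw [inv_inv] at this
  exact this

theorem h44_conj_pow (g : SL(2, ℤ)) (a : SL(2, ℤ)) (n : ℕ) :
    (g⁻¹ * a * g) ^ n = g⁻¹ * a ^ n * g := by
  have := h44_conj_zpow g a n
  simpa using this

/-- The exponents `l` with `g⁻¹ * T ^ l * g ∈ Γ` are closed under integer combinations. -/
theorem h44_conj_mem_comb (g : SL(2, ℤ)) (k l x y : ℤ) (hk : g⁻¹ * T ^ k * g ∈ Γ)
    (hl : g⁻¹ * T ^ l * g ∈ Γ) : g⁻¹ * T ^ (k * x + l * y) * g ∈ Γ := by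
  have h1 : (g⁻¹ * T ^ k * g) ^ x * (g⁻¹ * T ^ l * g) ^ y ∈ Γ :=
    Γ.mul_mem (Γ.zpow_mem hk x) (Γ.zpow_mem hl y)
  have h2 : (g⁻¹ * T ^ k * g) ^ x * (g⁻¹ * T ^ l * g) ^ y = g⁻¹ * T ^ (k * x + l * y) * g := by
    rw [h44_conj_zpow, h44_conj_zpow, ← zpow_mul, ← zpow_mul, zpow_add]
    group
  rw [← h2]
  exact h1

/-- (M3b) For `w > 0` generating the exponents `l` with `g⁻¹ * T ^ l * g ∈ Γ`, the element
`g⁻¹ * T ^ w * g` is a primitive positive parabolic element of `Γ`. -/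
theorem h44_isPosPar_of_min (hneg : (-1 : SL(2, ℤ)) ∈ Γ) (g : SL(2, ℤ)) (w : ℤ) (hw : 0 < w)
    (hmem : g⁻¹ * T ^ w * g ∈ Γ) (hmin : ∀ l : ℤ, g⁻¹ * T ^ l * g ∈ Γ → w ∣ l) :
    h42_IsPosPar Γ ⟨g⁻¹ * T ^ w * g, hmem⟩ := by
  have hform : g⁻¹ * T ^ w * g = g⁻¹ * T ^ w * (g⁻¹)⁻¹ := by rw [inv_inv]
  refine ⟨?_, ?_, ?_⟩
  · show ((g⁻¹ * T ^ w * g : SL(2, ℤ)) : Matrix (Fin 2) (Fin 2) ℤ).trace = 2
    rw [Matrix.trace_fin_two, hform]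
    exact h44_conj_T_zpow_trace g⁻¹ w
  · show 0 < (g⁻¹ * T ^ w * g : SL(2, ℤ)) 0 1 - (g⁻¹ * T ^ w * g : SL(2, ℤ)) 1 0
    rw [hform]
    exact (h44_conj_T_zpow_pos_iff g⁻¹ w).mpr hw
  · intro h k hk
    have hk' : (h : SL(2, ℤ)) ^ k = g⁻¹ * T ^ w * g := by
      have := congrArg (fun z : Γ => (z : SL(2, ℤ))) hk
      simpa using this
    -- `h' = g h g⁻¹` satisfies `h' ^ k = T ^ w`
    have hpow : (g * (h : SL(2, ℤ)) * g⁻¹) ^ k = T ^ w := by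
      rw [conj_pow, hk']
      group
    have hcomm : T ^ w * (g * (h : SL(2, ℤ)) * g⁻¹) = (g * (h : SL(2, ℤ)) * g⁻¹) * T ^ w := by
      rw [← hpow, ← pow_succ, ← pow_succ']
    obtain ⟨hc, -⟩ := h44_intertwine_T_zpow _ w w (Or.inl hw.ne') hcomm
    obtain ⟨l, hl⟩ := h44_eq_pm_T_zpow _ hc
    have hsq : (g * (h : SL(2, ℤ)) * g⁻¹) * (g * (h : SL(2, ℤ)) * g⁻¹) = T ^ (l + l) := by
      rcases hl with hl | hl
      · rw [hl, zpow_add]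
      · rw [hl, neg_mul_neg, zpow_add]
    have h2 : (T ^ (w + w) : SL(2, ℤ)) = T ^ ((l + l) * (k : ℤ)) := by
      rw [zpow_add, ← hpow, ← (Commute.refl (g * (h : SL(2, ℤ)) * g⁻¹)).mul_pow, hsq, zpow_mul,
        zpow_natCast]
    have h3 : w + w = (l + l) * (k : ℤ) := h44_T_zpow_injective h2
    have hlmem : g⁻¹ * T ^ l * g ∈ Γ := by
      rcases hl with hl | hl
      · have : g⁻¹ * T ^ l * g = (h : SL(2, ℤ)) := by
          rw [← hl]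
          group
        rw [this]
        exact h.2
      · have : g⁻¹ * T ^ l * g = -1 * (h : SL(2, ℤ)) := by
          have e : T ^ l = -(g * (h : SL(2, ℤ)) * g⁻¹) := by rw [hl, neg_neg]
          rw [e, mul_neg, neg_mul, neg_one_mul]
          congr 1
          group
        rw [this]
        exact Γ.mul_mem hneg h.2
    obtain ⟨c, hc'⟩ := hmin l hlmem
    have h4 : w * (c * (k : ℤ) - 1) = 0 := by
      rw [hc'] at h3
      have : 2 * (w * (c * (k : ℤ) - 1)) = 0 := by linear_combination -h3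
      omega
    have h5 : c * (k : ℤ) = 1 := by
      rcases mul_eq_zero.mp h4 with h' | h'
      · exact absurd h' hw.ne'
      · linarith
    rcases Int.eq_one_or_neg_one_of_mul_eq_one' h5 with ⟨-, h6⟩ | ⟨-, h6⟩
    · exact_mod_cast h6
    · have : (0 : ℤ) ≤ (k : ℤ) := Int.natCast_nonneg k
      omega

/-- (M3c) Every primitive positive parabolic element of `Γ` is `g⁻¹ * T ^ w * g` with `w > 0`
generating the exponents `l` with `g⁻¹ * T ^ l * g ∈ Γ`. -/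
theorem h44_exists_of_isPosPar (ρ : Γ) (hρ : h42_IsPosPar Γ ρ) :
    ∃ (g : SL(2, ℤ)) (w : ℤ), 0 < w ∧ (ρ : SL(2, ℤ)) = g⁻¹ * T ^ w * g ∧
      ∀ l : ℤ, g⁻¹ * T ^ l * g ∈ Γ → w ∣ l := by
  obtain ⟨htr, hpos, hprim⟩ := hρ
  rw [Matrix.trace_fin_two] at htr
  obtain ⟨g₀, k, hk, hρk⟩ := h44_exists_conj_pos (ρ : SL(2, ℤ)) htr hpos
  have hρk' : (ρ : SL(2, ℤ)) = g₀⁻¹⁻¹ * T ^ k * g₀⁻¹ := by rw [inv_inv]; exact hρk
  refine ⟨g₀⁻¹, k, hk, hρk', fun l hl => ?_⟩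
  have hkmem : g₀⁻¹⁻¹ * T ^ k * g₀⁻¹ ∈ Γ := by rw [← hρk']; exact ρ.2
  -- `d = gcd k l`
  have hdmem : g₀⁻¹⁻¹ * T ^ ((Int.gcd k l : ℕ) : ℤ) * g₀⁻¹ ∈ Γ := by
    rw [Int.gcd_eq_gcd_ab k l]
    exact h44_conj_mem_comb Γ g₀⁻¹ k l _ _ hkmem hl
  have hdpos : 0 < Int.gcd k l := Int.gcd_pos_of_ne_zero_left l hk.ne'
  obtain ⟨n, hn⟩ := Int.gcd_dvd_left k l
  have hnpos : 0 < n := by
    by_contra hcon
    have h1 : (0 : ℤ) < (Int.gcd k l : ℤ) := by exact_mod_cast hdpos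
    have h2 : ((Int.gcd k l : ℕ) : ℤ) * n ≤ 0 :=
      mul_nonpos_of_nonneg_of_nonpos h1.le (not_lt.mp hcon)
    omega
  have hpow : (⟨_, hdmem⟩ : Γ) ^ n.toNat = ρ := by
    apply Subtype.ext
    rw [Subgroup.coe_pow, h44_conj_pow, hρk', ← zpow_natCast, ← zpow_mul, Int.toNat_of_nonneg hnpos.le,
      ← hn]
  have h1 := hprim _ _ hpow
  have h2 : n = 1 := by omega
  rw [h2, mul_one] at hn
  rw [hn]
  exact Int.gcd_dvd_right k l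

/-- (M3d) If `g⁻¹ * T ^ w * g` and `g'⁻¹ * T ^ w' * g'` are `Γ`-conjugate (`w ≠ 0`), then
`w = w'` and `g' Γ` lies in the `⟨T⟩`-orbit of `g Γ`. -/
theorem h44_orbit_of_conj (hneg : (-1 : SL(2, ℤ)) ∈ Γ) (g g' : SL(2, ℤ)) (w w' : ℤ) (hw : w ≠ 0)
    (γ : Γ) (h : g⁻¹ * T ^ w * g = (γ : SL(2, ℤ))⁻¹ * (g'⁻¹ * T ^ w' * g') * γ) :
    w = w' ∧ ∃ l : ℤ, (g' : SL(2, ℤ) ⧸ Γ) = T ^ l • (g : SL(2, ℤ) ⧸ Γ) := by
  have e1 : T ^ w = g * (g⁻¹ * T ^ w * g) * g⁻¹ := by group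
  rw [h] at e1
  have hint : T ^ w' * (g' * (γ : SL(2, ℤ)) * g⁻¹) = (g' * (γ : SL(2, ℤ)) * g⁻¹) * T ^ w := by
    rw [e1]
    group
  obtain ⟨hc, hww⟩ := h44_intertwine_T_zpow _ w' w (Or.inr hw) hint
  refine ⟨hww.symm, ?_⟩
  obtain ⟨l, hl⟩ := h44_eq_pm_T_zpow _ hc
  refine ⟨l, ?_⟩
  rw [MulAction.Quotient.smul_mk, QuotientGroup.eq, smul_eq_mul]
  rcases hl with hl | hl
  · have : g'⁻¹ * (T ^ l * g) = (γ : SL(2, ℤ)) := by
      rw [← hl]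
      group
    rw [this]
    exact γ.2
  · have : g'⁻¹ * (T ^ l * g) = -1 * (γ : SL(2, ℤ)) := by
      have e : T ^ l = -(g' * (γ : SL(2, ℤ)) * g⁻¹) := by rw [hl, neg_neg]
      rw [e, neg_mul, mul_neg, neg_one_mul]
      congr 1
      group
    rw [this]
    exact Γ.mul_mem hneg γ.2

/-- (M3e) If `g' Γ` lies in the `⟨T⟩`-orbit of `g Γ`, then `g'⁻¹ * T ^ w * g'` and
`g⁻¹ * T ^ w * g` are `Γ`-conjugate. -/
theorem h44_conj_of_orbit (g g' : SL(2, ℤ)) (l w : ℤ)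
    (h : (g' : SL(2, ℤ) ⧸ Γ) = T ^ l • (g : SL(2, ℤ) ⧸ Γ)) :
    ∃ γ : Γ, g'⁻¹ * T ^ w * g' = (γ : SL(2, ℤ))⁻¹ * (g⁻¹ * T ^ w * g) * γ := by
  rw [MulAction.Quotient.smul_mk, eq_comm, QuotientGroup.eq, smul_eq_mul] at h
  refine ⟨⟨_, h⟩, ?_⟩
  show g'⁻¹ * T ^ w * g' = ((T ^ l * g)⁻¹ * g')⁻¹ * (g⁻¹ * T ^ w * g) * ((T ^ l * g)⁻¹ * g')
  group

end Coset

end Fermat.Agent.S41
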