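import Fermat.Agent.S41.h30_LRKer
import Fermat.Agent.S41.h48_NotEis

/-!
# S41, row IHARA-OUT, lattice form (helper45)

`h45_ihara_out_LR`: the hypothesis `Ih` of helper43's `h43_ribet_alg` for the level-raising
set-up of the frozen statement: for integral parabolic homomorphisms `φ₁ φ₂` on `Γ₀(N)` such
that `φ₁` is a mod `p` eigenvector of the `T_l` (`l` a good prime of `W`, `l ∤ N q`, `l ≠ p`)
with eigenvalues `a_l(W)` and `res φ₁ + W (res φ₂) ∈ p · Hom(Γ₀(N q), ℤ)`, both `φ₁` and `φ₂`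
are divisible by `p` (with parabolic quotients).

Inputs: the Ihara block `h45_ihara_out_int` (this project), the kernel bridge
`h30_K_red_of_ker` (helper30) and the Galois side `h48_not_eisenstein` (helpers 61, 48, ...).
-/

set_option autoImplicit false

namespace Fermat.Agent.S41

open CongruenceSubgroup Matrix.SpecialLinearGroup ModularCurve.Period
open WeierstrassCurve WeierstrassCurve.Affine WeierstrassCurve.Affine.Point
open scoped MatrixGroups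
open Fermat.Agent.S16

/-- The Galois side in the existential shape used by `h45_ihara_out_int`: for every modulus
`M` there is a good prime `l ∤ N`, `l ≠ q`, `l ≠ p`, `l ≡ 1 (mod M)`, with `q` not a `p`-th
power modulo `l` and `a_l ≢ 2 (mod p)`. -/
theorem h45_exists_notEis (E : WeierstrassCurve ℚ) [E.IsElliptic] {W : WeierstrassCurve ℤ}
    (hW : W.IsIntegralModelOf E) {p q N : ℕ} (hp : p.Prime) (hp2 : p ≠ 2) (hq : q.Prime)
    (hN : 0 < N) (hirr : GaloisRepIsIrreducible (K := AlgebraicClosure ℚ) ℚ E p)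
    (M : ℕ) (hM : 0 < M) :
    ∃ l : ℕ, l.Prime ∧ ¬ l ∣ N ∧ (W.IsGoodPrimeFor l ∧ l ≠ q ∧ l ≠ p) ∧ M ∣ l - 1 ∧
      (∀ x : ZMod l, x ^ p ≠ (q : ZMod l)) ∧ ¬ (p : ℤ) ∣ W.apOfModel l - 2 := by
  by_contra hcon
  apply h48_not_eisenstein E hW hp hp2 hq hM hirr (N.primeFactors ∪ {q, p})
  intro l hl hlS hgood hMl hqp
  by_contra hnd
  apply hcon
  rw [Finset.mem_union, not_or] at hlS
  obtain ⟨hlN, hlqp⟩ := hlS
  rw [Finset.mem_insert, Finset.mem_singleton, not_or] at hlqp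
  refine ⟨l, hl, ?_, ⟨hgood, hlqp.1, hlqp.2⟩, hMl, hqp, hnd⟩
  intro hdvd
  exact hlN (Nat.mem_primeFactors.mpr ⟨hl, hdvd, hN.ne'⟩)

/-- **IHARA-OUT, lattice form** (the hypothesis `Ih` of `h43_ribet_alg` in the level-raising
set-up).  Only the eigenvector property of `φ₁` is used. -/
theorem h45_ihara_out_LR (E : WeierstrassCurve ℚ) [E.IsElliptic] {W : WeierstrassCurve ℤ}
    (hW : W.IsIntegralModelOf E) {p N q : ℕ} (hp : p.Prime) (hp2 : p ≠ 2) (hN : 0 < N)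
    [Fact q.Prime] (hqN : ¬ q ∣ N)
    (hirr : GaloisRepIsIrreducible (K := AlgebraicClosure ℚ) ℚ E p)
    (φ₁ φ₂ : Additive (Gamma0 N) →+ ℤ)
    (hpar₁ : IsParabolicHom (Gamma0 N) φ₁) (hpar₂ : IsParabolicHom (Gamma0 N) φ₂)
    (heig : ∀ (l : ℕ) [Fact l.Prime] (hl : ¬ l ∣ N * q), W.IsGoodPrimeFor l → l ≠ p →
      ∃ u : Additive (Gamma0 N) →+ ℤ,
        h30_heckeT N l (fun h => hl (Dvd.dvd.mul_right h q)) φ₁ - W.apOfModel l • φ₁ = p • u)
    (hker : ∃ z : Additive (Gamma0 (N * q)) →+ ℤ,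
      h30_res N q φ₁ + h30_W N q hqN (h30_res N q φ₂) = p • z) :
    (∃ ψ₁ : Additive (Gamma0 N) →+ ℤ, IsParabolicHom (Gamma0 N) ψ₁ ∧ φ₁ = p • ψ₁) ∧
      (∃ ψ₂ : Additive (Gamma0 N) →+ ℤ, IsParabolicHom (Gamma0 N) ψ₂ ∧ φ₂ = p • ψ₂) := by
  have hq : q.Prime := Fact.out
  have : Fact p.Prime := ⟨hp⟩
  have key := h45_ihara_out_int (N := N) hq hqN (p := p) (φ₁ := φ₁) (φ₂ := φ₂)
    (h45_parabolic_upper hpar₁ 1) (h45_parabolic_upper hpar₂ 1)
    (h30_K_red_of_ker hqN p φ₁ φ₂ hker)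
    (fun l => W.IsGoodPrimeFor l ∧ l ≠ q ∧ l ≠ p) (fun l => W.apOfModel l)
    (by
      intro l _ hlN hgood
      have hl : l.Prime := Fact.out
      have hlNq : ¬ l ∣ N * q := by
        intro h
        rcases (Nat.Prime.dvd_mul hl).mp h with h | h
        · exact hlN h
        · exact hgood.2.1 ((Nat.prime_dvd_prime_iff_eq hl hq).mp h)
      exact heig l hlNq hgood.1 hgood.2.2)
    (h45_exists_notEis E hW hp hp2 hq hN hirr)
  obtain ⟨⟨ψ₁, h1⟩, ⟨ψ₂, h2⟩⟩ := key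
  refine ⟨⟨ψ₁, ?_, h1⟩, ⟨ψ₂, ?_, h2⟩⟩
  · exact h30_parabolic_of_nsmul hp.ne_zero ψ₁ (h1 ▸ hpar₁)
  · exact h30_parabolic_of_nsmul hp.ne_zero ψ₂ (h2 ▸ hpar₂)

end Fermat.Agent.S41
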