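import Fermat.Agent.S41.h30_LRKer
import Fermat.Agent.S41.h66_LRI2
import Fermat.Agent.S41.h7_LRI5b

/-!
# S41, block (B), row B-HECKE: wiring of the duality to `res`, `tr`, `W`, `T_ℓ`

* (H1) a primitive of `h30_tr ψ` from a primitive of `ψ` (the potential of the transfer is the
  push-forward of the potential), and the fibre bijection behind it;
* (H2) `W` as a conjugation isomorphism of `Γ₀(N q)` by an integral matrix of determinant `q`;
* (H3) the formal deduction of `hadj₂` and `hsa` of `h43_ribet_alg` from antisymmetry, the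
  adjunction `res`/`tr` and the `W`-invariance of the pairing (all levels).
-/

set_option autoImplicit false

namespace Fermat.Agent.S41

open CongruenceSubgroup Matrix.SpecialLinearGroup ModularCurve.Period
open scoped MatrixGroups
open Fermat.Agent.S16

/-! ### (H1) primitives of the restriction and of the transfer -/

section Prim

variable (N q : ℕ) [Fact q.Prime] (hqN : ¬ q ∣ N) {A : Type*} [AddCommGroup A]

/-- The transition of the transfer representatives inside `SL(2, ℤ)`. -/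
theorem h49_rep_step (γ : Gamma0 N) (γ' : OnePoint (ZMod q) → Gamma0 (N * q))
    (y : OnePoint (ZMod q) → OnePoint (ZMod q))
    (h : ∀ x, h30_repGL N q hqN x * mapGL ℝ (γ : SL(2, ℤ)) =
      mapGL ℝ (γ' x : SL(2, ℤ)) * h30_repGL N q hqN (y x)) (x : OnePoint (ZMod q)) :
    (γ : SL(2, ℤ)) * ((h30_rep N q hqN (y x) : Gamma0 N) : SL(2, ℤ))⁻¹ =
      ((h30_rep N q hqN x : Gamma0 N) : SL(2, ℤ))⁻¹ * (γ' x : SL(2, ℤ)) := by
  have h1 := h x
  rw [h30_repGL, h30_repGL, ← map_mul, ← map_mul] at h1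
  have h2 := mapGL_injective h1
  rw [eq_inv_mul_iff_mul_eq, ← mul_assoc, h2, mul_inv_cancel_right]

/-- The candidate primitive of the transfer: `g ↦ ∑ x, F' (g * r_x⁻¹)`. -/
noncomputable def h49_trPrim (F' : SL(2, ℤ) → A) : SL(2, ℤ) → A :=
  fun g => ∑ x : OnePoint (ZMod q), F' (g * ((h30_rep N q hqN x : Gamma0 N) : SL(2, ℤ))⁻¹)

theorem h49_trPrim_apply (F' : SL(2, ℤ) → A) (g : SL(2, ℤ)) :
    h49_trPrim N q hqN F' g =
      ∑ x : OnePoint (ZMod q), F' (g * ((h30_rep N q hqN x : Gamma0 N) : SL(2, ℤ))⁻¹) := rfl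

/-- (H1) If `F'` is a primitive of `ψ` on `Γ₀(N q)`, then `h49_trPrim F'` is a primitive of
the transfer `h30_tr ψ` on `Γ₀(N)`. -/
theorem h49_trPrim_mul (ψ : Additive (Gamma0 (N * q)) →+ A) (F' : SL(2, ℤ) → A)
    (hF' : ∀ (g : SL(2, ℤ)) (γ : Gamma0 (N * q)),
      F' (g * (γ : SL(2, ℤ))) = F' g + ψ (Additive.ofMul γ))
    (g : SL(2, ℤ)) (γ : Gamma0 N) :
    h49_trPrim N q hqN F' (g * (γ : SL(2, ℤ))) =
      h49_trPrim N q hqN F' g + h30_tr N q hqN ψ (Additive.ofMul γ) := by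
  obtain ⟨γ', y, hdec, hval⟩ := h30_tr_exists N q hqN γ
  rw [hval A ψ, h49_trPrim_apply, h49_trPrim_apply, ← Finset.sum_add_distrib,
    ← Equiv.sum_comp y]
  refine Finset.sum_congr rfl fun x _ => ?_
  rw [mul_assoc, h49_rep_step N q hqN γ γ' y hdec x, ← mul_assoc, hF']

/-- Left invariances are inherited by `h49_trPrim`. -/
theorem h49_trPrim_left (F' : SL(2, ℤ) → A) (h : SL(2, ℤ)) (hF : ∀ g, F' (h * g) = F' g)
    (g : SL(2, ℤ)) : h49_trPrim N q hqN F' (h * g) = h49_trPrim N q hqN F' g := by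
  rw [h49_trPrim_apply, h49_trPrim_apply]
  refine Finset.sum_congr rfl fun x _ => ?_
  rw [mul_assoc, hF]

theorem h49_trPrim_neg (F' : SL(2, ℤ) → A) (hF : ∀ g, F' (-g) = F' g)
    (g : SL(2, ℤ)) : h49_trPrim N q hqN F' (-g) = h49_trPrim N q hqN F' g := by
  rw [h49_trPrim_apply, h49_trPrim_apply]
  refine Finset.sum_congr rfl fun x _ => ?_
  rw [neg_mul, hF]

theorem h49_trPrim_sub (F' P' : SL(2, ℤ) → A) (g : SL(2, ℤ)) :
    h49_trPrim N q hqN (fun g => F' g - P' g) g =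
      h49_trPrim N q hqN F' g - h49_trPrim N q hqN P' g := by
  rw [h49_trPrim_apply, h49_trPrim_apply, h49_trPrim_apply, Finset.sum_sub_distrib]

omit [Fact q.Prime] in
/-- (H1') A primitive of `φ` on `Γ₀(N)` is a primitive of `h30_res φ` on `Γ₀(N q)`. -/
theorem h49_res_prim (φ : Additive (Gamma0 N) →+ A) (F : SL(2, ℤ) → A)
    (hF : ∀ (g : SL(2, ℤ)) (γ : Gamma0 N), F (g * (γ : SL(2, ℤ))) = F g + φ (Additive.ofMul γ))
    (g : SL(2, ℤ)) (γ : Gamma0 (N * q)) :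
    F (g * (γ : SL(2, ℤ))) = F g + h30_res N q φ (Additive.ofMul γ) :=
  hF g (h30_incl N q γ)

omit [Fact q.Prime] in
theorem h49_Gamma0_le : Gamma0 (N * q) ≤ Gamma0 N :=
  fun g hg => (h30_incl N q ⟨g, hg⟩).2

/-- The fibre of `G ⧸ Γ₀(N q) → G ⧸ Γ₀(N)` over `g Γ₀(N)` is `{g r_x⁻¹ Γ₀(N q)}`, bijectively. -/
theorem h49_fibre_bijective (g : SL(2, ℤ)) :
    Function.Bijective (fun x : OnePoint (ZMod q) =>
      (⟨((g * ((h30_rep N q hqN x : Gamma0 N) : SL(2, ℤ))⁻¹ : SL(2, ℤ)) :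
          SL(2, ℤ) ⧸ Gamma0 (N * q)), by
        rw [Subgroup.quotientMapOfLE_apply_mk, QuotientGroup.eq, mul_inv_rev, inv_inv,
          inv_mul_cancel_right]
        exact (h30_rep N q hqN x).2⟩ :
        {x' : SL(2, ℤ) ⧸ Gamma0 (N * q) //
          Subgroup.quotientMapOfLE (h49_Gamma0_le N q) x' = (g : SL(2, ℤ) ⧸ Gamma0 N)})) := by
  constructor
  · intro x y hxy
    have h1 := congrArg Subtype.val hxy
    simp only at h1
    rw [QuotientGroup.eq, mul_inv_rev, inv_inv, mul_assoc, inv_mul_cancel_left] at h1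
    -- `r_x * r_y⁻¹ ∈ Γ₀(N q)`
    exact h30_rep_inj N q hqN x y ⟨_, h1⟩ (by rw [inv_mul_cancel_right])
  · rintro ⟨x', hx'⟩
    induction x' using QuotientGroup.induction_on with
    | H g' =>
      rw [Subgroup.quotientMapOfLE_apply_mk, QuotientGroup.eq] at hx'
      -- `g'⁻¹ * g ∈ Γ₀(N)`
      obtain ⟨δ, y, hy⟩ := h30_rep_complete N q hqN ⟨g'⁻¹ * g, hx'⟩
      refine ⟨y, Subtype.ext ?_⟩
      simp only
      rw [QuotientGroup.eq]
      have h2 : (g * ((h30_rep N q hqN y : Gamma0 N) : SL(2, ℤ))⁻¹)⁻¹ * g' =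
          ((δ : SL(2, ℤ)))⁻¹ := by
        have h3 : g'⁻¹ * g = (δ : SL(2, ℤ)) * ((h30_rep N q hqN y : Gamma0 N) : SL(2, ℤ)) := hy
        have h4 : g = g' * ((δ : SL(2, ℤ)) * ((h30_rep N q hqN y : Gamma0 N) : SL(2, ℤ))) := by
          rw [← h3, mul_inv_cancel_left]
        rw [h4]
        group
      rw [h2]
      exact inv_mem δ.2

end Prim

/-! ### (H2) `W` as a conjugation isomorphism by an integral matrix of determinant `q` -/

section WEquiv

variable (N q : ℕ) [Fact q.Prime] (hqN : ¬ q ∣ N)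

/-- `γ ↦ w γ w⁻¹` as a monoid homomorphism. -/
noncomputable def h49_wHom : Gamma0 (N * q) →* Gamma0 (N * q) where
  toFun := h30_wc N q (h30_coprime hqN)
  map_one' := by
    apply Subtype.ext
    apply mapGL_injective (S := ℝ)
    have h := h30_wc_spec (h30_coprime hqN) (1 : Gamma0 (N * q))
    rw [OneMemClass.coe_one, map_one, mul_one] at h
    rw [OneMemClass.coe_one, map_one]
    exact (mul_right_cancel (h.symm.trans (one_mul _).symm))
  map_mul' γ δ := by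
    apply Subtype.ext
    apply mapGL_injective (S := ℝ)
    have h1 := h30_wc_spec (h30_coprime hqN) γ
    have h2 := h30_wc_spec (h30_coprime hqN) δ
    have h3 := h30_wc_spec (h30_coprime hqN) (γ * δ)
    rw [Subgroup.coe_mul, map_mul, ← mul_assoc, h1, mul_assoc, h2, ← mul_assoc] at h3
    rw [Subgroup.coe_mul, map_mul]
    exact (mul_right_cancel h3).symm

/-- The Atkin-Lehner conjugation as an automorphism of `Γ₀(N q)`. -/
noncomputable def h49_wEquiv : Gamma0 (N * q) ≃* Gamma0 (N * q) :=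
  MulEquiv.ofBijective (h49_wHom N q hqN) (by
    constructor
    · intro γ δ h
      have h1 := h30_wc_spec (h30_coprime hqN) γ
      have h2 := h30_wc_spec (h30_coprime hqN) δ
      have h' : h30_wc N q (h30_coprime hqN) γ = h30_wc N q (h30_coprime hqN) δ := h
      rw [h'] at h1
      have h3 := mul_left_cancel (h1.trans h2.symm)
      exact Subtype.ext (mapGL_injective h3)
    · exact fun δ => h7_wc_surj hqN δ)

theorem h49_wEquiv_apply (γ : Gamma0 (N * q)) :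
    h49_wEquiv N q hqN γ = h30_wc N q (h30_coprime hqN) γ := rfl

/-- `h30_W ψ = ψ ∘ h49_wEquiv`. -/
theorem h49_W_eq_comp {A : Type*} [AddCommGroup A] (ψ : Additive (Gamma0 (N * q)) →+ A) :
    h30_W N q hqN ψ = ψ.comp (MonoidHom.toAdditive (h49_wEquiv N q hqN).toMonoidHom) := by
  refine AddMonoidHom.ext fun γa => ?_
  obtain ⟨γ, rfl⟩ : ∃ γ : Gamma0 (N * q), Additive.ofMul γ = γa := ⟨Additive.toMul γa, rfl⟩
  rw [h30_W_apply]
  rfl

/-- The integral Atkin-Lehner matrix `[q, b; N q, q d]`. -/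
def h49_wMat : Matrix (Fin 2) (Fin 2) ℤ :=
  !![(q : ℤ), h30_bb N q; (N : ℤ) * q, q * h30_dd N q]

include hqN in
theorem h49_wMat_det : (h49_wMat N q).det = q := by
  rw [h49_wMat, Matrix.det_fin_two_of]
  have h := h30_bez (h30_coprime hqN)
  linear_combination (q : ℤ) * h

include hqN in
theorem h49_wMat_det_pos : 0 < (h49_wMat N q).det := by
  rw [h49_wMat_det N q hqN]
  exact_mod_cast (Fact.out : q.Prime).pos

/-- `δ_w * γ = (w γ w⁻¹) * δ_w` as integer matrices. -/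
theorem h49_wMat_mul (γ : Gamma0 (N * q)) :
    h49_wMat N q * ((γ : SL(2, ℤ)) : Matrix (Fin 2) (Fin 2) ℤ) =
      ((h49_wEquiv N q hqN γ : SL(2, ℤ)) : Matrix (Fin 2) (Fin 2) ℤ) * h49_wMat N q := by
  have hq : q ≠ 0 := (Fact.out : q.Prime).ne_zero
  have h := congrArg (fun a : GL (Fin 2) ℝ => (a : Matrix (Fin 2) (Fin 2) ℝ))
    (h30_wc_spec (h30_coprime hqN) γ)
  simp only [Matrix.GeneralLinearGroup.coe_mul, h7_coe_w N q hq (h30_coprime hqN),
    h30_coe_mapGL] at h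
  have hinj : Function.Injective (Int.cast : ℤ → ℝ) := Int.cast_injective
  have e := fun i j => congrFun (congrFun h i) j
  rw [h49_wEquiv_apply]
  ext i j
  apply hinj
  have := e i j
  fin_cases i <;> fin_cases j <;>
    simp [h49_wMat, Matrix.mul_apply, Fin.sum_univ_two] at this ⊢ <;>
    linarith

end WEquiv

/-! ### (H3) formal wiring: `hadj₂` and `hsa` from antisymmetry, `res`/`tr` adjunction and
`W`-invariance -/

section Wiring

variable {R : Type*} [AddCommGroup R]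
  (Bf : ∀ M : ℕ, (Additive (Gamma0 M) →+ ℤ) → (Additive (Gamma0 M) →+ ℤ) → R)

omit [AddCommGroup R] in
/-- `hadj₂`: `B_{Nq}(W res φ, ψ) = B_N(φ, tr W ψ)`. -/
theorem h49_hadj2 {N q : ℕ} [Fact q.Prime] (hqN : ¬ q ∣ N)
    (hadj1 : ∀ (φ : Additive (Gamma0 N) →+ ℤ) (ψ : Additive (Gamma0 (N * q)) →+ ℤ),
      IsParabolicHom (Gamma0 N) φ → IsParabolicHom (Gamma0 (N * q)) ψ →
        Bf (N * q) (h30_res N q φ) ψ = Bf N φ (h30_tr N q hqN ψ))
    (hW : ∀ ψ ψ' : Additive (Gamma0 (N * q)) →+ ℤ,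
      IsParabolicHom (Gamma0 (N * q)) ψ → IsParabolicHom (Gamma0 (N * q)) ψ' →
        Bf (N * q) (h30_W N q hqN ψ) (h30_W N q hqN ψ') = Bf (N * q) ψ ψ')
    (φ : Additive (Gamma0 N) →+ ℤ) (ψ : Additive (Gamma0 (N * q)) →+ ℤ)
    (hφ : IsParabolicHom (Gamma0 N) φ) (hψ : IsParabolicHom (Gamma0 (N * q)) ψ) :
    Bf (N * q) (h30_W N q hqN (h30_res N q φ)) ψ =
      Bf N φ (h30_tr N q hqN (h30_W N q hqN ψ)) := by
  have h1 := hW (h30_W N q hqN (h30_res N q φ)) ψ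
    (h30_W_parabolic N q hqN _ (h30_res_parabolic q φ hφ)) hψ
  rw [h30_W_W] at h1
  rw [← h1]
  exact hadj1 φ (h30_W N q hqN ψ) hφ (h30_W_parabolic N q hqN ψ hψ)

/-- `hsa`: `B_N(T_ℓ φ, ψ) = B_N(φ, T_ℓ ψ)` for every prime `ℓ ∤ N`, from the `res`/`tr`
adjunction and the `W`-invariance at the pair `(N, N ℓ)`, antisymmetry at both levels and the
landed identity `tr ∘ W ∘ res = T_ℓ` (D-I2). -/
theorem h49_hsa {N l : ℕ} [Fact l.Prime] (hlN : ¬ l ∣ N)
    (hanti : ∀ φ ψ : Additive (Gamma0 N) →+ ℤ,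
      IsParabolicHom (Gamma0 N) φ → IsParabolicHom (Gamma0 N) ψ → Bf N ψ φ = -Bf N φ ψ)
    (hanti' : ∀ φ ψ : Additive (Gamma0 (N * l)) →+ ℤ,
      IsParabolicHom (Gamma0 (N * l)) φ → IsParabolicHom (Gamma0 (N * l)) ψ →
        Bf (N * l) ψ φ = -Bf (N * l) φ ψ)
    (hadj1 : ∀ (φ : Additive (Gamma0 N) →+ ℤ) (ψ : Additive (Gamma0 (N * l)) →+ ℤ),
      IsParabolicHom (Gamma0 N) φ → IsParabolicHom (Gamma0 (N * l)) ψ →
        Bf (N * l) (h30_res N l φ) ψ = Bf N φ (h30_tr N l hlN ψ))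
    (hW : ∀ ψ ψ' : Additive (Gamma0 (N * l)) →+ ℤ,
      IsParabolicHom (Gamma0 (N * l)) ψ → IsParabolicHom (Gamma0 (N * l)) ψ' →
        Bf (N * l) (h30_W N l hlN ψ) (h30_W N l hlN ψ') = Bf (N * l) ψ ψ')
    (φ ψ : Additive (Gamma0 N) →+ ℤ)
    (hφ : IsParabolicHom (Gamma0 N) φ) (hψ : IsParabolicHom (Gamma0 N) ψ) :
    Bf N (h30_heckeT N l hlN φ) ψ = Bf N φ (h30_heckeT N l hlN ψ) := by
  have hx : IsParabolicHom (Gamma0 (N * l)) (h30_W N l hlN (h30_res N l φ)) :=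
    h30_W_parabolic N l hlN _ (h30_res_parabolic l φ hφ)
  have hrψ : IsParabolicHom (Gamma0 (N * l)) (h30_res N l ψ) := h30_res_parabolic l ψ hψ
  rw [← h66_tr_W_res hlN φ, ← h66_tr_W_res hlN ψ,
    hanti ψ _ hψ (h30_tr_parabolic N l hlN _ hx), ← hadj1 ψ _ hψ hx,
    ← hanti' _ _ hrψ hx]
  exact h49_hadj2 Bf hlN hadj1 hW φ (h30_res N l ψ) hφ hrψ

end Wiring

end Fermat.Agent.S41
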