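import Fermat.Agent.S41.h49_BHecke2
import Fermat.Agent.S41.h42_Cusp

/-!
# S41, block (B), row B-W: `(B3)`, `hadj₂`, `hsa` for `h8_B` from INTR alone

COUNT and EXISTS-R (`h42_Cusp.lean`) are plugged in; the only remaining inputs are the
`m`-form cusp formula INTR (`h49_Intr`, verbatim the statement of row B-INTR at `Γ = Γ₀(M)`)
and the `res`/`tr` adjunction (row B-RESTR).
-/

set_option autoImplicit false

namespace Fermat.Agent.S41

open CongruenceSubgroup Matrix.SpecialLinearGroup ModularCurve.Period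
open scoped MatrixGroups
open ModularGroup
open Fermat.Agent.S16

/-- The statement of row B-INTR at `Γ = Γ₀(M)` (for the `Fintype` instance `Fintype.ofFinite`).
-/
def h49_Intr (M : ℕ) [NeZero M] : Prop :=
  letI : Fintype (SL(2, ℤ) ⧸ Gamma0 M) := Fintype.ofFinite _
  ∀ (φ ψ : Additive (Gamma0 M) →+ ℤ), IsParabolicHom (Gamma0 M) φ → IsParabolicHom (Gamma0 M) ψ →
    ∀ (e : Gamma0 M → ℤ),
      (∀ g h : Gamma0 M, e (g * h) = e g + e h + φ (Additive.ofMul g) * ψ (Additive.ofMul h)) →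
      ∀ (m : ℕ) (hm : ∀ g : SL(2, ℤ), g⁻¹ * T ^ m * g ∈ Gamma0 M)
        (r : SL(2, ℤ) ⧸ Gamma0 M → SL(2, ℤ)),
        (∀ x, (QuotientGroup.mk (r x) : SL(2, ℤ) ⧸ Gamma0 M) = x) →
          2 * ∑ x : SL(2, ℤ) ⧸ Gamma0 M, e ⟨(r x)⁻¹ * T ^ m * r x, hm (r x)⟩ =
            -(m : ℤ) * h8_B (Gamma0 M) φ ψ

set_option linter.style.haveILetI false in
/-- INTR + COUNT: the cusp formula with `c = -m`, `d = 2 m`. -/
theorem h49_cuspFormula_of_intr (M : ℕ) [NeZero M] (hintr : h49_Intr M) :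
    ∃ c d : ℤ, c ≠ 0 ∧ h49_CuspFormula M c d := by
  letI : Fintype (SL(2, ℤ) ⧸ Gamma0 M) := Fintype.ofFinite _
  obtain ⟨m, hm0, hm⟩ := h42_exists_m (Gamma0 M)
  refine ⟨-(m : ℤ), 2 * (m : ℤ), ?_, ?_⟩
  · simpa using hm0.ne'
  · intro φ ψ hφ hψ e R he hR
    have h1 := hintr φ ψ hφ hψ e he m hm (fun x => Quotient.out x) (fun x => Quotient.out_eq' x)
    have h2 := h42_count_heis (Gamma0 M) (h49_neg_one_mem M) φ ψ hφ hψ e he R hR m hm0 hm
      (fun x => Quotient.out x) (fun x => Quotient.out_eq' x)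
    rw [← h1, h2]
    ring

theorem h49_exists_cuspSystem (M : ℕ) [NeZero M] :
    ∃ R : Finset (Gamma0 M), h42_IsCuspSystem (Gamma0 M) R :=
  h42_exists_cuspSystem (Gamma0 M) (h49_neg_one_mem M)

/-- **(B3)** from INTR: `h8_B` at level `N q` is `W`-invariant. -/
theorem h49_B_W_of_intr (N q : ℕ) [NeZero N] [Fact q.Prime] (hqN : ¬ q ∣ N)
    (hintr : h49_Intr (N * q))
    (ψ ψ' : Additive (Gamma0 (N * q)) →+ ℤ)
    (hψ : IsParabolicHom (Gamma0 (N * q)) ψ) (hψ' : IsParabolicHom (Gamma0 (N * q)) ψ') :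
    h8_B (Gamma0 (N * q)) (h30_W N q hqN ψ) (h30_W N q hqN ψ') = h8_B (Gamma0 (N * q)) ψ ψ' := by
  obtain ⟨c, d, hc, hcf⟩ := h49_cuspFormula_of_intr (N * q) hintr
  exact h49_B3_of_cuspFormula hqN c d hc (h49_exists_cuspSystem (N * q)) hcf ψ ψ' hψ hψ'

/-- **`hadj₂`** from INTR and the `res`/`tr` adjunction. -/
theorem h49_B_hadj2_of_intr (N q : ℕ) [NeZero N] [Fact q.Prime] (hqN : ¬ q ∣ N)
    (hintr : h49_Intr (N * q))
    (hadj1 : ∀ (φ : Additive (Gamma0 N) →+ ℤ) (ψ : Additive (Gamma0 (N * q)) →+ ℤ),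
      IsParabolicHom (Gamma0 N) φ → IsParabolicHom (Gamma0 (N * q)) ψ →
        h8_B (Gamma0 (N * q)) (h30_res N q φ) ψ = h8_B (Gamma0 N) φ (h30_tr N q hqN ψ))
    (φ : Additive (Gamma0 N) →+ ℤ) (ψ : Additive (Gamma0 (N * q)) →+ ℤ)
    (hφ : IsParabolicHom (Gamma0 N) φ) (hψ : IsParabolicHom (Gamma0 (N * q)) ψ) :
    h8_B (Gamma0 (N * q)) (h30_W N q hqN (h30_res N q φ)) ψ =
      h8_B (Gamma0 N) φ (h30_tr N q hqN (h30_W N q hqN ψ)) := by
  obtain ⟨c, d, hc, hcf⟩ := h49_cuspFormula_of_intr (N * q) hintr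
  exact h49_B_hadj2 hqN c d hc (h49_exists_cuspSystem (N * q)) hcf hadj1 φ ψ hφ hψ

/-- **`hsa`** from INTR (at level `N ℓ`) and the `res`/`tr` adjunction for `(N, N ℓ)`. -/
theorem h49_B_hsa_of_intr (N l : ℕ) [NeZero N] [Fact l.Prime] (hlN : ¬ l ∣ N)
    (hintr : h49_Intr (N * l))
    (hadj1 : ∀ (φ : Additive (Gamma0 N) →+ ℤ) (ψ : Additive (Gamma0 (N * l)) →+ ℤ),
      IsParabolicHom (Gamma0 N) φ → IsParabolicHom (Gamma0 (N * l)) ψ →
        h8_B (Gamma0 (N * l)) (h30_res N l φ) ψ = h8_B (Gamma0 N) φ (h30_tr N l hlN ψ))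
    (φ ψ : Additive (Gamma0 N) →+ ℤ)
    (hφ : IsParabolicHom (Gamma0 N) φ) (hψ : IsParabolicHom (Gamma0 N) ψ) :
    h8_B (Gamma0 N) (h30_heckeT N l hlN φ) ψ = h8_B (Gamma0 N) φ (h30_heckeT N l hlN ψ) := by
  obtain ⟨c, d, hc, hcf⟩ := h49_cuspFormula_of_intr (N * l) hintr
  exact h49_B_hsa hlN c d hc (h49_exists_cuspSystem (N * l)) hcf hadj1 φ ψ hφ hψ

end Fermat.Agent.S41
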