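import Fermat.Agent.S41.h92_BSurj
import Fermat.Agent.S41.h42_Cusp

/-!
# S41, block (B): the `m`-form cusp formula INTR from a `U`-invariant Heisenberg primitive

For parabolic `φ`, `ψ` with potentials `v`, `v'`, a Heisenberg cochain `e` for `(φ, ψ)` and a
`T * S`-invariant Heisenberg primitive `H` (`H (g γ) = H g + e γ + F g * ψ γ`):

`2 * ∑_{x ∈ G/Γ} e (g_x⁻¹ T^m g_x) = - m * B(φ, ψ)`.

(Insurance copy of row B-INTR; the existence of `H` — row B-HPRIM — is a hypothesis.)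
-/

set_option autoImplicit false

namespace Fermat.Agent.S41

open scoped MatrixGroups
open ModularGroup ModularCurve.Period Fermat.Agent.S16

section Intr

variable {Γ : Subgroup SL(2, ℤ)}

theorem h49_heis_one' {φ ψ : Additive Γ →+ ℤ} {e : Γ → ℤ}
    (he : ∀ g h : Γ, e (g * h) = e g + e h + φ (Additive.ofMul g) * ψ (Additive.ofMul h)) :
    e 1 = 0 := by
  have h := he 1 1
  rw [mul_one, ofMul_one, map_zero, zero_mul, add_zero] at h
  linarith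

theorem h49_heis_neg_one (hneg : (-1 : SL(2, ℤ)) ∈ Γ) {φ ψ : Additive Γ →+ ℤ} {e : Γ → ℤ}
    (he : ∀ g h : Γ, e (g * h) = e g + e h + φ (Additive.ofMul g) * ψ (Additive.ofMul h)) :
    e ⟨-1, hneg⟩ = 0 := by
  have h := he ⟨-1, hneg⟩ ⟨-1, hneg⟩
  have h1 : (⟨-1, hneg⟩ : Γ) * ⟨-1, hneg⟩ = 1 := by
    apply Subtype.ext
    show (-1 : SL(2, ℤ)) * -1 = 1
    simp
  rw [h1, h49_heis_one' he, h92_map_neg_one hneg φ, zero_mul, add_zero] at h
  omega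

/-- **INTR (core)**: the `m`-form cusp formula, given potentials with their primitives and a
`T * S`-invariant Heisenberg primitive. -/
theorem h49_intr_core [Fintype (SL(2, ℤ) ⧸ Γ)] (hneg : (-1 : SL(2, ℤ)) ∈ Γ)
    (φ ψ : Additive Γ →+ ℤ) (hφ : IsParabolicHom Γ φ) (hψ : IsParabolicHom Γ ψ)
    (e : Γ → ℤ)
    (he : ∀ g h : Γ, e (g * h) = e g + e h + φ (Additive.ofMul g) * ψ (Additive.ofMul h))
    (v v' : SL(2, ℤ) ⧸ Γ → ℤ) (F P F' P' : SL(2, ℤ) → ℤ)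
    (hF : h8_IsPrim Γ φ F) (hP : h8_IsPrim Γ φ P) (hFU : ∀ g, F (T * S * g) = F g)
    (hPT : ∀ g, P (T * g) = P g) (hvF : ∀ g : SL(2, ℤ), v (g : SL(2, ℤ) ⧸ Γ) = F g - P g)
    (hF' : h8_IsPrim Γ ψ F') (hP' : h8_IsPrim Γ ψ P') (hFU' : ∀ g, F' (T * S * g) = F' g)
    (hPT' : ∀ g, P' (T * g) = P' g) (hvF' : ∀ g : SL(2, ℤ), v' (g : SL(2, ℤ) ⧸ Γ) = F' g - P' g)
    (H : SL(2, ℤ) → ℤ)
    (hH : ∀ (g : SL(2, ℤ)) (γ : Γ), H (g * γ) = H g + e γ + F g * ψ (Additive.ofMul γ))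
    (hHU : ∀ g, H (T * S * g) = H g)
    (m : ℕ) (hm : ∀ g : SL(2, ℤ), g⁻¹ * T ^ m * g ∈ Γ)
    (r : SL(2, ℤ) ⧸ Γ → SL(2, ℤ)) (hr : ∀ x, (QuotientGroup.mk (r x) : SL(2, ℤ) ⧸ Γ) = x) :
    2 * ∑ x : SL(2, ℤ) ⧸ Γ, e ⟨(r x)⁻¹ * T ^ m * r x, hm (r x)⟩ =
      -(m : ℤ) * h8_B2 (fun x : SL(2, ℤ) ⧸ Γ => T • x) v v' := by
  have hpotv : h8_IsPot Γ φ v := ⟨F, P, hF, hP, hFU, hPT, hvF⟩
  -- evenness
  have hHneg : ∀ g, H (-g) = H g := by
    intro g
    have h := hH g ⟨-1, hneg⟩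
    rw [h49_heis_neg_one hneg he, h92_map_neg_one hneg ψ, mul_zero, add_zero, add_zero] at h
    have e1 : g * ((⟨-1, hneg⟩ : Γ) : SL(2, ℤ)) = -g := by
      show g * (-1 : SL(2, ℤ)) = -g
      rw [mul_neg, mul_one]
    rw [e1] at h
    exact h
  have hFneg := h92_prim_neg hneg hF
  have hF'neg := h92_prim_neg hneg hF'
  -- `T g` versus `S g`
  have hHT : ∀ g, H (T * g) = H (S * g) := fun g => by rw [h92_T_mul g, hHU, hHneg]
  have hFT : ∀ g, F (T * g) = F (S * g) := fun g => by rw [h92_T_mul g, hFU, hFneg]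
  have hF'T : ∀ g, F' (T * g) = F' (S * g) := fun g => by rw [h92_T_mul g, hFU', hF'neg]
  -- the `Γ`-invariant function `k`
  have hkinv : ∀ (g : SL(2, ℤ)) (γ : Γ),
      H (T * (g * (γ : SL(2, ℤ)))) - H (g * (γ : SL(2, ℤ))) -
          (F (T * (g * (γ : SL(2, ℤ)))) - F (g * (γ : SL(2, ℤ)))) * P' (g * (γ : SL(2, ℤ))) =
        H (T * g) - H g - (F (T * g) - F g) * P' g := by
    intro g γ
    rw [← mul_assoc, hH, hH, hF, hF, hP']
    ring
  obtain ⟨kX, hkX⟩ := h92_exists_desc (Γ := Γ)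
    (fun g => H (T * g) - H g - (F (T * g) - F g) * P' g) hkinv
  -- `P'` is invariant under powers of `T`
  have hP'pow : ∀ (j : ℕ) (g : SL(2, ℤ)), P' (T ^ j * g) = P' g := by
    intro j
    induction j with
    | zero => intro g; rw [pow_zero, one_mul]
    | succ j ih => intro g; rw [pow_succ', mul_assoc, hPT', ih]
  -- telescoping
  have htel : ∀ (j : ℕ) (g : SL(2, ℤ)), H (T ^ j * g) - H g =
      ∑ i ∈ Finset.range j, kX ((T ^ i * g : SL(2, ℤ)) : SL(2, ℤ) ⧸ Γ) +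
        (F (T ^ j * g) - F g) * P' g := by
    intro j g
    induction j with
    | zero => simp
    | succ j ih =>
      rw [Finset.sum_range_succ, hkX]
      have e1 : T ^ (j + 1) * g = T * (T ^ j * g) := by rw [pow_succ', mul_assoc]
      rw [e1, hP'pow j g]
      linear_combination ih
  -- each term of the sum
  have hterm : ∀ x : SL(2, ℤ) ⧸ Γ, e ⟨(r x)⁻¹ * T ^ m * r x, hm (r x)⟩ =
      ∑ i ∈ Finset.range m, kX (T ^ i • x) := by
    intro x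
    have hgγ : r x * ((⟨(r x)⁻¹ * T ^ m * r x, hm (r x)⟩ : Γ) : SL(2, ℤ)) = T ^ m * r x := by
      show r x * ((r x)⁻¹ * T ^ m * r x) = T ^ m * r x
      group
    have htr : (((⟨(r x)⁻¹ * T ^ m * r x, hm (r x)⟩ : Γ) : SL(2, ℤ)) :
        Matrix (Fin 2) (Fin 2) ℤ).trace ^ 2 = 4 := by
      have h := h42_cj_trace (r x) (m : ℤ)
      rw [h42_cj, zpow_natCast] at h
      show (((r x)⁻¹ * T ^ m * r x : SL(2, ℤ)) : Matrix (Fin 2) (Fin 2) ℤ).trace ^ 2 = 4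
      rw [h]
      norm_num
    have h1 := hH (r x) ⟨(r x)⁻¹ * T ^ m * r x, hm (r x)⟩
    rw [hgγ, hψ _ htr, mul_zero, add_zero] at h1
    have h2 := hF (r x) ⟨(r x)⁻¹ * T ^ m * r x, hm (r x)⟩
    rw [hgγ, hφ _ htr, add_zero] at h2
    have h3 := htel m (r x)
    rw [h2, sub_self, zero_mul, add_zero] at h3
    have h4 : e ⟨(r x)⁻¹ * T ^ m * r x, hm (r x)⟩ =
        ∑ i ∈ Finset.range m, kX ((T ^ i * r x : SL(2, ℤ)) : SL(2, ℤ) ⧸ Γ) := by
      rw [← h3, h1]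
      ring
    rw [h4]
    refine Finset.sum_congr rfl fun i _ => ?_
    conv_rhs => rw [← hr x]
    rfl
  -- the sum over `x`
  have hsum : ∑ x : SL(2, ℤ) ⧸ Γ, e ⟨(r x)⁻¹ * T ^ m * r x, hm (r x)⟩ = m * ∑ x, kX x := by
    rw [Finset.sum_congr rfl (fun x _ => hterm x), Finset.sum_comm]
    have h : ∀ i ∈ Finset.range m, ∑ x : SL(2, ℤ) ⧸ Γ, kX (T ^ i • x) = ∑ x, kX x := by
      intro i _
      exact Equiv.sum_comp (MulAction.toPerm (T ^ i)) kX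
    rw [Finset.sum_congr rfl h, Finset.sum_const, Finset.card_range, nsmul_eq_mul]
  -- `S` is an involution of `G ⧸ Γ`
  have hS2 : ∀ x : SL(2, ℤ) ⧸ Γ, S • S • x = x := by
    intro x
    induction x using QuotientGroup.induction_on with
    | H g =>
      show ((S * (S * g) : SL(2, ℤ)) : SL(2, ℤ) ⧸ Γ) = g
      rw [h92_S_mul_S, h92_mk_neg hneg]
  -- pairing `x` with `S x`
  have hpair : ∀ x : SL(2, ℤ) ⧸ Γ,
      kX (S • x) + kX x = (v (T • x) - v x) * (v' (T • x) - v' (S • x)) := by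
    intro x
    induction x using QuotientGroup.induction_on with
    | H g =>
      have a1 : kX (S • (g : SL(2, ℤ) ⧸ Γ)) =
          H (T * (S * g)) - H (S * g) - (F (T * (S * g)) - F (S * g)) * P' (S * g) := hkX (S * g)
      have b1 : v (T • (g : SL(2, ℤ) ⧸ Γ)) = F (T * g) - P (T * g) := hvF (T * g)
      have b2 : v' (T • (g : SL(2, ℤ) ⧸ Γ)) = F' (T * g) - P' (T * g) := hvF' (T * g)
      have b3 : v' (S • (g : SL(2, ℤ) ⧸ Γ)) = F' (S * g) - P' (S * g) := hvF' (S * g)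
      rw [a1, hkX g, b1, b2, b3, hvF g, hPT, hPT', ← mul_assoc T S g, hHU g, hFU g, hHT g, hFT g,
        hF'T g]
      ring
  have h2k : 2 * ∑ x, kX x =
      ∑ x : SL(2, ℤ) ⧸ Γ, (v (T • x) - v x) * (v' (T • x) - v' (S • x)) := by
    have e1 : ∑ x : SL(2, ℤ) ⧸ Γ, kX (S • x) = ∑ x, kX x :=
      Equiv.sum_comp (MulAction.toPerm S) kX
    rw [← Finset.sum_congr rfl (fun x _ => hpair x), Finset.sum_add_distrib, e1]
    ring
  -- the final identity, using condition (C)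
  have hC := h92_pot_C hneg hpotv
  have r4 : ∀ x : SL(2, ℤ) ⧸ Γ, v (T • S • x) = v (S • x) - v (T • x) + v x := by
    intro x
    have := hC x
    linarith
  have r1 : ∑ x : SL(2, ℤ) ⧸ Γ, v (T • x) * v' (T • x) = ∑ x, v x * v' x :=
    Equiv.sum_comp (MulAction.toPerm T) (fun x => v x * v' x)
  have r2 : ∑ x : SL(2, ℤ) ⧸ Γ, v (T • x) * v' (S • x) = ∑ x, v (T • S • x) * v' x := by
    rw [← Equiv.sum_comp (MulAction.toPerm S) (fun x => v (T • x) * v' (S • x))]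
    refine Finset.sum_congr rfl fun x _ => ?_
    show v (T • S • x) * v' (S • S • x) = _
    rw [hS2]
  have r3 : ∑ x : SL(2, ℤ) ⧸ Γ, v x * v' (S • x) = ∑ x, v (S • x) * v' x := by
    rw [← Equiv.sum_comp (MulAction.toPerm S) (fun x => v x * v' (S • x))]
    refine Finset.sum_congr rfl fun x _ => ?_
    show v (S • x) * v' (S • S • x) = _
    rw [hS2]
  have hfin : ∑ x : SL(2, ℤ) ⧸ Γ, (v (T • x) - v x) * (v' (T • x) - v' (S • x)) =
      -h8_B2 (fun x : SL(2, ℤ) ⧸ Γ => T • x) v v' := by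
    unfold h8_B2
    calc ∑ x : SL(2, ℤ) ⧸ Γ, (v (T • x) - v x) * (v' (T • x) - v' (S • x))
        = ∑ x, v (T • x) * v' (T • x) - ∑ x, v (T • x) * v' (S • x) - ∑ x, v x * v' (T • x) +
            ∑ x, v x * v' (S • x) := by
          rw [← Finset.sum_sub_distrib, ← Finset.sum_sub_distrib, ← Finset.sum_add_distrib]
          exact Finset.sum_congr rfl fun x _ => by ring
      _ = ∑ x, v x * v' x - ∑ x, (v (S • x) - v (T • x) + v x) * v' x - ∑ x, v x * v' (T • x) +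
            ∑ x, v (S • x) * v' x := by
          rw [r1, r2, r3]
          simp only [r4]
      _ = -∑ x, (v x * v' (T • x) - v (T • x) * v' x) := by
          rw [← Finset.sum_sub_distrib, ← Finset.sum_sub_distrib, ← Finset.sum_add_distrib,
            ← Finset.sum_neg_distrib]
          exact Finset.sum_congr rfl fun x _ => by ring
  rw [hsum, ← mul_assoc, mul_comm 2 (m : ℤ), mul_assoc, h2k, hfin]
  ring

/-- **INTR** (statement of row B-INTR) from the existence of potentials (B-PRIM) and of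
`T * S`-invariant Heisenberg primitives (B-HPRIM), both given for the data at hand. -/
theorem h49_intr_of [Fintype (SL(2, ℤ) ⧸ Γ)] (hneg : (-1 : SL(2, ℤ)) ∈ Γ)
    (φ ψ : Additive Γ →+ ℤ) (hφ : IsParabolicHom Γ φ) (hψ : IsParabolicHom Γ ψ)
    (hpotφ : ∃ v, h8_IsPot Γ φ v) (hpotψ : ∃ v, h8_IsPot Γ ψ v)
    (e : Γ → ℤ)
    (he : ∀ g h : Γ, e (g * h) = e g + e h + φ (Additive.ofMul g) * ψ (Additive.ofMul h))
    (hprim : ∀ F : SL(2, ℤ) → ℤ, h8_IsPrim Γ φ F → (∀ g, F (T * S * g) = F g) →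
      ∃ H : SL(2, ℤ) → ℤ,
        (∀ (g : SL(2, ℤ)) (γ : Γ), H (g * γ) = H g + e γ + F g * ψ (Additive.ofMul γ)) ∧
          ∀ g, H (T * S * g) = H g)
    (m : ℕ) (hm : ∀ g : SL(2, ℤ), g⁻¹ * T ^ m * g ∈ Γ)
    (r : SL(2, ℤ) ⧸ Γ → SL(2, ℤ)) (hr : ∀ x, (QuotientGroup.mk (r x) : SL(2, ℤ) ⧸ Γ) = x) :
    2 * ∑ x : SL(2, ℤ) ⧸ Γ, e ⟨(r x)⁻¹ * T ^ m * r x, hm (r x)⟩ = -(m : ℤ) * h8_B Γ φ ψ := by
  obtain ⟨v, hv⟩ := hpotφ
  obtain ⟨v', hv'⟩ := hpotψ
  rw [h92_B_eq hneg hv hv']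
  obtain ⟨F, P, hF, hP, hFU, hPT, hvF⟩ := hv
  obtain ⟨F', P', hF', hP', hFU', hPT', hvF'⟩ := hv'
  obtain ⟨H, hH, hHU⟩ := hprim F hF hFU
  exact h49_intr_core hneg φ ψ hφ hψ e he v v' F P F' P' hF hP hFU hPT hvF hF' hP' hFU' hPT'
    hvF' H hH hHU m hm r hr

end Intr

end Fermat.Agent.S41
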