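import Fermat.Agent.S41.h49_Intr
import Fermat.Agent.S41.h92_BPrim
import Fermat.Agent.S41.h24_BHPrim
import Fermat.Agent.S41.h84_BConj
import Fermat.Agent.S41.h99_BPack

/-!
# S41, block (B): INTR, unconditional

`h49_intr` is the statement of row B-INTR (`sk_intr`), in the three shapes used by the
consumers: verbatim, `h84_Intr Γ` and `h99_Intr (Gamma0 M)`.
-/

set_option autoImplicit false

namespace Fermat.Agent.S41

open scoped MatrixGroups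
open ModularGroup ModularCurve.Period CongruenceSubgroup Fermat.Agent.S16

/-- **B-INTR** (`sk_intr` verbatim). -/
theorem h49_intr (Γ : Subgroup SL(2, ℤ)) [Fintype (SL(2, ℤ) ⧸ Γ)] (hneg : (-1 : SL(2, ℤ)) ∈ Γ)
    (φ ψ : Additive Γ →+ ℤ) (hφ : IsParabolicHom Γ φ) (hψ : IsParabolicHom Γ ψ) (e : Γ → ℤ)
    (he : ∀ g h : Γ, e (g * h) = e g + e h + φ (Additive.ofMul g) * ψ (Additive.ofMul h))
    (m : ℕ) (hm : ∀ g : SL(2, ℤ), g⁻¹ * T ^ m * g ∈ Γ) (r : SL(2, ℤ) ⧸ Γ → SL(2, ℤ))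
    (hr : ∀ x, (QuotientGroup.mk (r x) : SL(2, ℤ) ⧸ Γ) = x) :
    2 * ∑ x : SL(2, ℤ) ⧸ Γ, e ⟨(r x)⁻¹ * T ^ m * r x, hm (r x)⟩ = -(m : ℤ) * h8_B Γ φ ψ :=
  h49_intr_of hneg φ ψ hφ hψ (h92_exists_isPot Γ hneg φ hφ) (h92_exists_isPot Γ hneg ψ hψ) e he
    (fun F hF hFU => h24_exists_heis_prim Γ hneg φ ψ e he F hF hFU) m hm r hr

/-- INTR in helper84's shape. -/
theorem h49_intr84 (Γ : Subgroup SL(2, ℤ)) (hneg : (-1 : SL(2, ℤ)) ∈ Γ) : h84_Intr Γ :=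
  fun φ ψ hφ hψ e he m hm r hr => h49_intr Γ hneg φ ψ hφ hψ e he m hm r hr

/-- INTR in helper99's shape, at every level. -/
theorem h49_intr99 (M : ℕ) [NeZero M] : h99_Intr (Gamma0 M) :=
  fun φ ψ hφ hψ e he m hm r hr =>
    @h49_intr (Gamma0 M) (Fintype.ofFinite _) (h49_neg_one_mem M) φ ψ hφ hψ e he m hm r hr

end Fermat.Agent.S41
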