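import Fermat.Agent.S41.h8_BDefs
import Fermat.Agent.S41.h44_HeisFacts

/-!
# S41 block (B): B-HPRIM, the `U`-invariant Heisenberg primitive

`Γ ≤ SL(2, ℤ)`, `φ ψ : Γ → ℤ` homomorphisms, `e : Γ → ℤ` a Heisenberg lift
(`e (g * h) = e g + e h + φ g * ψ h`), `F` a `U`-invariant primitive of `φ` (`U = T * S`).
Then there is `H : SL(2, ℤ) → ℤ` with `H (g * γ) = H g + e γ + F g * ψ γ` and `H (U * g) = H g`.

The proof is a point-dependent version of the potential lemma: a cocycle of a group action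
which vanishes on the stabilisers is a coboundary.
-/

set_option autoImplicit false

namespace Fermat.Agent.S41

open scoped MatrixGroups
open ModularGroup ModularCurve.Period

/-- A cocycle of a group action (with values in an abelian group) which vanishes on all
stabilisers is a coboundary. -/
theorem h52_exists_cocycle_potential {H Y A : Type*} [Group H] [AddCommGroup A]
    (act : H → Y → Y) (hone : ∀ y, act 1 y = y)
    (hmul : ∀ a b y, act (a * b) y = act a (act b y))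
    (c : H → Y → A) (hc : ∀ a b y, c (a * b) y = c a (act b y) + c b y)
    (hstab : ∀ a y, act a y = y → c a y = 0) :
    ∃ f : Y → A, ∀ a y, f (act a y) = c a y + f y := by
  classical
  let r : Setoid Y :=
    { r := fun y y' => ∃ a, act a y = y'
      iseqv := ⟨fun y => ⟨1, hone y⟩,
        fun {y y'} ⟨a, ha⟩ => ⟨a⁻¹, by rw [← ha, ← hmul, inv_mul_cancel, hone]⟩,
        fun {y y' y''} ⟨a, ha⟩ ⟨b, hb⟩ => ⟨b * a, by rw [hmul, ha, hb]⟩⟩ }
  have hrep : ∀ y : Y, ∃ a, act a (Quotient.out (Quotient.mk r y)) = y := fun y =>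
    Quotient.exact (Quotient.out_eq (Quotient.mk r y))
  choose h hh using hrep
  refine ⟨fun y => c (h y) (Quotient.out (Quotient.mk r y)), fun a y => ?_⟩
  have hq : Quotient.mk r (act a y) = Quotient.mk r y :=
    Quotient.sound ⟨a⁻¹, by rw [← hmul, inv_mul_cancel, hone]⟩
  show c (h (act a y)) (Quotient.out (Quotient.mk r (act a y)))
    = c a y + c (h y) (Quotient.out (Quotient.mk r y))
  have h1 := hh (act a y)
  rw [hq] at h1 ⊢
  set y₀ := Quotient.out (Quotient.mk r y) with hy₀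
  have h2 : act (h y) y₀ = y := hh y
  -- `b := h (act a y)` and `b' := a * h y` both send `y₀` to `act a y`
  have e1 : act (a * h y) y₀ = act a y := by rw [hmul, h2]
  have h3 : act ((a * h y)⁻¹ * h (act a y)) y₀ = y₀ := by
    rw [hmul, h1, ← e1, ← hmul, inv_mul_cancel, hone]
  have h4 := hstab _ _ h3
  have h5 : c (h (act a y)) y₀ = c (a * h y) y₀ := by
    have h6 := hc (a * h y) ((a * h y)⁻¹ * h (act a y)) y₀
    rw [mul_inv_cancel_left, h3, h4, add_zero] at h6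
    exact h6
  rw [h5, hc, h2]

/-- `U`-invariance of a function on `SL(2, ℤ)` extends to all integer powers of `U = T * S`. -/
theorem h52_inv_zpow {A : Type*} (F : SL(2, ℤ) → A) (hFU : ∀ g, F (T * S * g) = F g)
    (k : ℤ) (g : SL(2, ℤ)) : F ((T * S) ^ k * g) = F g := by
  have hnat : ∀ (n : ℕ) (g : SL(2, ℤ)), F ((T * S) ^ n * g) = F g := by
    intro n
    induction n with
    | zero => intro g; rw [pow_zero, one_mul]
    | succ n ih => intro g; rw [pow_succ, mul_assoc, ih, hFU]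
  obtain ⟨n, rfl | rfl⟩ := Int.eq_nat_or_neg k
  · rw [zpow_natCast]
    exact hnat n g
  · rw [zpow_neg, zpow_natCast]
    have h := hnat n (((T * S : SL(2, ℤ)) ^ n)⁻¹ * g)
    rw [mul_inv_cancel_left] at h
    exact h.symm

theorem h52_TS_pow_six : (T * S : SL(2, ℤ)) ^ 6 = 1 := by decide

/-- **B-HPRIM** (board #1942, `sk_exists_heis_prim` verbatim): the `U`-invariant Heisenberg
primitive. -/
theorem h52_exists_heis_prim (Γ : Subgroup SL(2, ℤ)) (hneg : (-1 : SL(2, ℤ)) ∈ Γ)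
    (φ ψ : Additive Γ →+ ℤ) (e : Γ → ℤ)
    (he : ∀ g h : Γ, e (g * h) = e g + e h + φ (Additive.ofMul g) * ψ (Additive.ofMul h))
    (F : SL(2, ℤ) → ℤ) (hF : h8_IsPrim Γ φ F) (hFU : ∀ g, F (T * S * g) = F g) :
    ∃ H : SL(2, ℤ) → ℤ,
      (∀ (g : SL(2, ℤ)) (γ : Γ), H (g * γ) = H g + e γ + F g * ψ (Additive.ofMul γ)) ∧
      ∀ g, H (T * S * g) = H g := by
  have _ := hneg
  obtain ⟨f, hf⟩ := h52_exists_cocycle_potential (H := Multiplicative ℤ × Γ) (Y := SL(2, ℤ))
    (A := ℤ)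
    (fun h g => (T * S) ^ (Multiplicative.toAdd h.1) * g * (((h.2 : Γ) : SL(2, ℤ)))⁻¹)
    (fun g => by
      show (T * S) ^ (Multiplicative.toAdd (1 : Multiplicative ℤ)) * g
        * ((((1 : Γ)) : SL(2, ℤ)))⁻¹ = g
      rw [toAdd_one, zpow_zero, one_mul, Subgroup.coe_one, inv_one, mul_one])
    (fun h h' g => by
      show (T * S) ^ (Multiplicative.toAdd (h.1 * h'.1)) * g
          * ((((h.2 * h'.2 : Γ)) : SL(2, ℤ)))⁻¹
        = (T * S) ^ (Multiplicative.toAdd h.1)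
          * ((T * S) ^ (Multiplicative.toAdd h'.1) * g * (((h'.2 : Γ) : SL(2, ℤ)))⁻¹)
          * (((h.2 : Γ) : SL(2, ℤ)))⁻¹
      rw [toAdd_mul, zpow_add, Subgroup.coe_mul, mul_inv_rev]
      group)
    (fun h g => e (h.2⁻¹) + F g * ψ (Additive.ofMul (h.2⁻¹)))
    (fun h h' g => by
      show e ((h.2 * h'.2)⁻¹) + F g * ψ (Additive.ofMul ((h.2 * h'.2)⁻¹))
        = e (h.2⁻¹) + F ((T * S) ^ (Multiplicative.toAdd h'.1) * g
              * (((h'.2 : Γ) : SL(2, ℤ)))⁻¹) * ψ (Additive.ofMul (h.2⁻¹))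
          + (e (h'.2⁻¹) + F g * ψ (Additive.ofMul (h'.2⁻¹)))
      have hF1 : F ((T * S) ^ (Multiplicative.toAdd h'.1) * g * (((h'.2 : Γ) : SL(2, ℤ)))⁻¹)
          = F g + φ (Additive.ofMul (h'.2⁻¹)) := by
        have h1 := hF ((T * S) ^ (Multiplicative.toAdd h'.1) * g) (h'.2⁻¹)
        rw [Subgroup.coe_inv] at h1
        rw [h1, h52_inv_zpow F hFU]
      rw [hF1, mul_inv_rev, he, ofMul_mul, map_add]
      ring)
    (fun h g hg => by
      show e (h.2⁻¹) + F g * ψ (Additive.ofMul (h.2⁻¹)) = 0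
      have h0 : (T * S) ^ (Multiplicative.toAdd h.1) * g = g * ((h.2 : Γ) : SL(2, ℤ)) :=
        mul_inv_eq_iff_eq_mul.mp hg
      have h1 : ((h.2 : Γ) : SL(2, ℤ)) = g⁻¹ * (T * S) ^ (Multiplicative.toAdd h.1) * g⁻¹⁻¹ := by
        rw [inv_inv, mul_assoc]
        exact eq_inv_mul_iff_mul_eq.mpr h0.symm
      have hx : ((T * S : SL(2, ℤ)) ^ (Multiplicative.toAdd h.1)) ^ 6 = 1 := by
        rw [← zpow_natCast, ← zpow_mul, mul_comm, zpow_mul, zpow_natCast, h52_TS_pow_six,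
          one_zpow]
      have h2 : ((h.2 : Γ) : SL(2, ℤ)) ^ 6 = 1 := by
        rw [h1, conj_pow, hx, mul_one, mul_inv_cancel]
      have h3 : (h.2⁻¹ : Γ) ^ 6 = 1 := by
        rw [inv_pow, inv_eq_one]
        exact Subtype.ext h2
      have hfin : IsOfFinOrder (h.2⁻¹ : Γ) :=
        isOfFinOrder_iff_pow_eq_one.mpr ⟨6, by norm_num, h3⟩
      rw [h44_heis_finOrder he _ hfin, h44_hom_finOrder ψ _ hfin]
      ring)
  refine ⟨f, fun g γ => ?_, fun g => ?_⟩
  · have h1 := hf ((1 : Multiplicative ℤ), γ⁻¹) g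
    have h2 : (T * S) ^ (Multiplicative.toAdd (1 : Multiplicative ℤ)) * g
        * ((((γ⁻¹ : Γ)) : SL(2, ℤ)))⁻¹ = g * (γ : SL(2, ℤ)) := by
      rw [toAdd_one, zpow_zero, one_mul, Subgroup.coe_inv, inv_inv]
    have h3 : f (g * (γ : SL(2, ℤ)))
        = e ((γ⁻¹ : Γ)⁻¹) + F g * ψ (Additive.ofMul ((γ⁻¹ : Γ)⁻¹)) + f g := by
      rw [← h2]
      exact h1
    rw [h3, inv_inv]
    ring
  · have h1 := hf (Multiplicative.ofAdd (1 : ℤ), (1 : Γ)) g
    have h2 : (T * S) ^ (Multiplicative.toAdd (Multiplicative.ofAdd (1 : ℤ))) * g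
        * ((((1 : Γ)) : SL(2, ℤ)))⁻¹ = T * S * g := by
      rw [toAdd_ofAdd, zpow_one, Subgroup.coe_one, inv_one, mul_one]
    have h3 : f (T * S * g)
        = e ((1 : Γ)⁻¹) + F g * ψ (Additive.ofMul ((1 : Γ)⁻¹)) + f g := by
      rw [← h2]
      exact h1
    rw [h3, inv_one, h44_heis_one he, ofMul_one, map_zero]
    ring

end Fermat.Agent.S41
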