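/-
S41 block (C'), row C-E0 (helper61): an abstract criterion for a "reduction map" to be a group
homomorphism.

`E₁` plays the role of the kernel of reduction, `r` of the reduction map.  The hypotheses are
* `h0`   : `r P = 0 ↔ P ∈ E₁`;
* `hneg` : `r (-P) = - r P`;
* `hinj` : two points outside `E₁` with the same reduction differ by an element of `E₁`;
* `hadd` : the generic chord: `r (P + Q) = r P + r Q` when `r P ≠ ± r Q`;
* `hdbl` : the generic tangent: `r (P + P) = r P + r P` when `r P + r P ≠ 0`.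
-/
import Mathlib

set_option autoImplicit false

namespace Fermat.Agent.S41

section

variable {𝔼 Ebar : Type*} [AddCommGroup 𝔼] [AddCommGroup Ebar] (E₁ : AddSubgroup 𝔼) (r : 𝔼 → Ebar)

/-- Two points outside `E₁` whose difference lies in `E₁` have the same reduction. -/
theorem h61_red_eq_of_sub_mem
    (h0 : ∀ P, r P = 0 ↔ P ∈ E₁)
    (hneg : ∀ P, r (-P) = -r P)
    (hinj : ∀ P P', P ∉ E₁ → P' ∉ E₁ → r P = r P' → P - P' ∈ E₁)
    (hadd : ∀ P Q, P ∉ E₁ → Q ∉ E₁ → r P ≠ r Q → r P ≠ -r Q → r (P + Q) = r P + r Q)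
    (hdbl : ∀ P, P ∉ E₁ → r P + r P ≠ 0 → r (P + P) = r P + r P)
    {P P' : 𝔼} (hP : P ∉ E₁) (hP' : P' ∉ E₁) (h : P' - P ∈ E₁) : r P' = r P := by
  have hnP : -P ∉ E₁ := fun hm => hP (by simpa using E₁.neg_mem hm)
  by_cases h1 : r P' = r P
  · exact h1
  by_cases h2 : r P' = -r P
  · -- then `P' + P ∈ E₁`, so `2P ∈ E₁`, so `2 r P = 0`
    have h3 : P' - (-P) ∈ E₁ := hinj P' (-P) hP' hnP (by rw [hneg, h2])
    have h4 : P + P ∈ E₁ := by
      have := E₁.sub_mem h3 h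
      have e : P' - -P - (P' - P) = P + P := by abel
      rwa [e] at this
    have h5 : r P + r P = 0 := by
      by_contra h5
      have h6 := hdbl P hP h5
      rw [(h0 (P + P)).mpr h4] at h6
      exact h5 h6.symm
    rw [h2]
    exact (eq_neg_of_add_eq_zero_left h5).symm
  · -- generic chord for `P'` and `-P`
    have h3 := hadd P' (-P) hP' hnP (by rw [hneg]; exact h2) (by rw [hneg, neg_neg]; exact h1)
    have h4 : r (P' + -P) = 0 := (h0 _).mpr (by simpa [sub_eq_add_neg] using h)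
    rw [h4, hneg] at h3
    exact absurd (sub_eq_zero.mp (by rw [sub_eq_add_neg]; exact h3.symm)) h1

/-- The reduction map is additive. -/
theorem h61_red_additive
    (h0 : ∀ P, r P = 0 ↔ P ∈ E₁)
    (hneg : ∀ P, r (-P) = -r P)
    (hinj : ∀ P P', P ∉ E₁ → P' ∉ E₁ → r P = r P' → P - P' ∈ E₁)
    (hadd : ∀ P Q, P ∉ E₁ → Q ∉ E₁ → r P ≠ r Q → r P ≠ -r Q → r (P + Q) = r P + r Q)
    (hdbl : ∀ P, P ∉ E₁ → r P + r P ≠ 0 → r (P + P) = r P + r P) :
    ∀ P Q, r (P + Q) = r P + r Q := by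
  -- translation by `E₁` does not change the reduction
  have htr : ∀ U R, U ∈ E₁ → R ∉ E₁ → r (U + R) = r R := by
    intro U R hU hR
    have hUR : U + R ∉ E₁ := fun hm => hR (by simpa using E₁.sub_mem hm hU)
    exact h61_red_eq_of_sub_mem E₁ r h0 hneg hinj hadd hdbl hR hUR (by simpa using hU)
  intro P Q
  by_cases hP : P ∈ E₁
  · by_cases hQ : Q ∈ E₁
    · rw [(h0 P).mpr hP, (h0 Q).mpr hQ, (h0 _).mpr (E₁.add_mem hP hQ), add_zero]
    · rw [htr P Q hP hQ, (h0 P).mpr hP, zero_add]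
  · by_cases hQ : Q ∈ E₁
    · rw [add_comm, htr Q P hQ hP, (h0 Q).mpr hQ, add_zero]
    · by_cases h1 : r P = -r Q
      · -- `P + Q ∈ E₁`
        have hnQ : -Q ∉ E₁ := fun hm => hQ (by simpa using E₁.neg_mem hm)
        have h3 : P - (-Q) ∈ E₁ := hinj P (-Q) hP hnQ (by rw [hneg, h1])
        rw [sub_neg_eq_add] at h3
        rw [(h0 _).mpr h3, h1, neg_add_cancel]
      · by_cases h2 : r P = r Q
        · -- `Q = P + U` with `U ∈ E₁`, and `2 r P ≠ 0`
          have hU : Q - P ∈ E₁ := hinj Q P hQ hP h2.symm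
          have h5 : r P + r P ≠ 0 := by
            intro h5
            exact h1 (by rw [← h2]; exact eq_neg_of_add_eq_zero_left h5)
          have h6 := hdbl P hP h5
          have h7 : P + P ∉ E₁ := fun hm => h5 (by rw [← h6]; exact (h0 _).mpr hm)
          have h8 := htr (Q - P) (P + P) hU h7
          have e : Q - P + (P + P) = P + Q := by abel
          rw [e] at h8
          rw [h8, h6, ← h2]
        · exact hadd P Q hP hQ h2 h1

/-- Bundled form. -/
noncomputable def h61_redHom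
    (h0 : ∀ P, r P = 0 ↔ P ∈ E₁)
    (hneg : ∀ P, r (-P) = -r P)
    (hinj : ∀ P P', P ∉ E₁ → P' ∉ E₁ → r P = r P' → P - P' ∈ E₁)
    (hadd : ∀ P Q, P ∉ E₁ → Q ∉ E₁ → r P ≠ r Q → r P ≠ -r Q → r (P + Q) = r P + r Q)
    (hdbl : ∀ P, P ∉ E₁ → r P + r P ≠ 0 → r (P + P) = r P + r P) : 𝔼 →+ Ebar :=
  AddMonoidHom.mk' r (h61_red_additive E₁ r h0 hneg hinj hadd hdbl)

@[simp] theorem h61_redHom_apply
    (h0 : ∀ P, r P = 0 ↔ P ∈ E₁)
    (hneg : ∀ P, r (-P) = -r P)
    (hinj : ∀ P P', P ∉ E₁ → P' ∉ E₁ → r P = r P' → P - P' ∈ E₁)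
    (hadd : ∀ P Q, P ∉ E₁ → Q ∉ E₁ → r P ≠ r Q → r P ≠ -r Q → r (P + Q) = r P + r Q)
    (hdbl : ∀ P, P ∉ E₁ → r P + r P ≠ 0 → r (P + P) = r P + r P) (P : 𝔼) :
    h61_redHom E₁ r h0 hneg hinj hadd hdbl P = r P := rfl

end

end Fermat.Agent.S41
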