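import Fermat.Agent.S41.h62_BRestrFinal
import Fermat.Agent.S41.h92_BPrim

/-!
# S41 block (B), row 471 B-RESTR (B2), final statement (helper62)

`h8_B (Γ₀(N q)) (res φ) ψ = h8_B (Γ₀(N)) φ (tr ψ)` for parabolic `φ`, `ψ` — the hypothesis
`hadj1` of the level-raising algebra.
-/

set_option autoImplicit false

open scoped MatrixGroups
open ModularGroup ModularCurve.Period CongruenceSubgroup

namespace Fermat.Agent.S41

/-- **(B2)** adjointness of restriction and transfer for the pairing `h8_B`. -/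
theorem h62_B_res_tr (N q : ℕ) [NeZero N] [Fact q.Prime] (hqN : ¬ q ∣ N) (φ : Additive (Gamma0 N) →+ ℤ) (hφ : IsParabolicHom (Gamma0 N) φ) (ψ : Additive (Gamma0 (N * q)) →+ ℤ) (hψ : IsParabolicHom (Gamma0 (N * q)) ψ) : h8_B (Gamma0 (N * q)) (h30_res N q φ) ψ = h8_B (Gamma0 N) φ (h30_tr N q hqN ψ) :=
  h62_B_res_tr_of (fun Γ hneg φ hφ => h92_exists_isPot Γ hneg φ hφ)
    (fun Γ _ hneg φ ψ v v' hv hv' => h92_B_eq' Γ hneg φ ψ v v' hv hv') N q hqN φ hφ ψ hψ

end Fermat.Agent.S41
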