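import Fermat.Agent.S41.h89_BModel

/-!
# S41 block (B), row B-RESTR, model half (helper62): functoriality of the two-permutation model

`π : X' → X` a map of finite sets commuting with the permutations (`π ∘ σ' = σ ∘ π`,
`π ∘ υ' = υ ∘ π`).  Pull-back `v ↦ v ∘ π` and push-forward `(π_* w) x = ∑_{π x' = x} w x'` are
adjoint for the pairing `h89_B2` and preserve `h89_C`, `h89_VU`, `h89_VT`.
(Pull-back = potential of `res φ`, push-forward = potential of `tr ψ`.)
-/

set_option autoImplicit false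
set_option linter.unusedSectionVars false

namespace Fermat.Agent.S41

section Push

variable {X X' : Type*} [Fintype X] [Fintype X'] [DecidableEq X] {A : Type*} [CommRing A]

/-- push-forward along `π`: sum over the fibres. -/
def h62_push (π : X' → X) (w : X' → A) : X → A :=
  fun x => ∑ x' ∈ Finset.univ.filter (fun x' => π x' = x), w x'

theorem h62_push_apply (π : X' → X) (w : X' → A) (x : X) :
    h62_push π w x = ∑ x' ∈ Finset.univ.filter (fun x' => π x' = x), w x' := rfl

theorem h62_push_add (π : X' → X) (w w' : X' → A) :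
    h62_push π (w + w') = h62_push π w + h62_push π w' := by
  funext x
  simp only [h62_push_apply, Pi.add_apply, Finset.sum_add_distrib]

theorem h62_push_smul (π : X' → X) (c : A) (w : X' → A) :
    h62_push π (c • w) = c • h62_push π w := by
  funext x
  simp only [h62_push_apply, Pi.smul_apply, smul_eq_mul, Finset.mul_sum]

/-- projection formula: `⟨g, π_* w⟩ = ⟨g ∘ π, w⟩`. -/
theorem h62_sum_mul_push (π : X' → X) (g : X → A) (w : X' → A) :
    ∑ x, g x * h62_push π w x = ∑ x', g (π x') * w x' := by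
  rw [← Finset.sum_fiberwise (Finset.univ : Finset X') π (fun x' => g (π x') * w x')]
  refine Finset.sum_congr rfl fun x _ => ?_
  rw [h62_push_apply, Finset.mul_sum]
  refine Finset.sum_congr rfl fun x' hx' => ?_
  rw [(Finset.mem_filter.mp hx').2]

theorem h62_sum_push_mul (π : X' → X) (g : X → A) (w : X' → A) :
    ∑ x, h62_push π w x * g x = ∑ x', w x' * g (π x') := by
  rw [Finset.sum_congr rfl fun x _ => mul_comm (h62_push π w x) (g x), h62_sum_mul_push]
  exact Finset.sum_congr rfl fun x' _ => mul_comm _ _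

/-- push-forward commutes with equivariant permutations. -/
theorem h62_push_comp_perm (π : X' → X) (ρ : Equiv.Perm X) (ρ' : Equiv.Perm X')
    (hρ : ∀ x', π (ρ' x') = ρ (π x')) (w : X' → A) (x : X) :
    h62_push π w (ρ x) = h62_push π (fun x' => w (ρ' x')) x := by
  rw [h62_push_apply, h62_push_apply]
  refine Finset.sum_bij' (fun x' _ => ρ'.symm x') (fun x' _ => ρ' x') ?_ ?_ ?_ ?_ ?_
  · intro x' hx'
    rw [Finset.mem_filter] at hx' ⊢
    refine ⟨Finset.mem_univ _, ?_⟩
    apply ρ.injective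
    rw [← hρ, Equiv.apply_symm_apply]
    exact hx'.2
  · intro x' hx'
    rw [Finset.mem_filter] at hx' ⊢
    exact ⟨Finset.mem_univ _, by rw [hρ, hx'.2]⟩
  · intro x' _
    exact Equiv.apply_symm_apply _ _
  · intro x' _
    exact Equiv.symm_apply_apply _ _
  · intro x' _
    rw [Equiv.apply_symm_apply]

end Push

section Model

variable {X X' : Type*} [Fintype X] [Fintype X'] [DecidableEq X] {A : Type*} [CommRing A]
  {σ υ : Equiv.Perm X} {σ' υ' : Equiv.Perm X'} {π : X' → X}

/-- **(B2), model form**: `B2 (v, π_* w) = B2 (v ∘ π, w)`. -/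
theorem h62_B2_push_right (hσ : ∀ x', π (σ' x') = σ (π x')) (hυ : ∀ x', π (υ' x') = υ (π x'))
    (v : X → A) (w : X' → A) :
    h89_B2 A σ υ v (h62_push π w) = h89_B2 A σ' υ' (fun x' => v (π x')) w := by
  rw [h89_B2_eq, h89_B2_eq]
  have hτ : ∀ x', π ((σ'.trans υ') x') = (σ.trans υ) (π x') := by
    intro x'
    show π (υ' (σ' x')) = υ (σ (π x'))
    rw [hυ, hσ]
  congr 1
  · -- first sum
    have h1 : ∑ x, v x * h62_push π w (υ (σ x)) =
        ∑ x, v x * h62_push π (fun x' => w (υ' (σ' x'))) x := by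
      refine Finset.sum_congr rfl fun x _ => ?_
      rw [show υ (σ x) = (σ.trans υ) x from rfl,
        h62_push_comp_perm π (σ.trans υ) (σ'.trans υ') hτ w x]
      rfl
    rw [h1, h62_sum_mul_push]
  · -- second sum
    rw [h62_sum_mul_push]
    refine Finset.sum_congr rfl fun x' _ => ?_
    rw [hυ, hσ]

/-- `B2 (π_* w, v) = B2 (w, v ∘ π)`. -/
theorem h62_B2_push_left (hσ : ∀ x', π (σ' x') = σ (π x')) (hυ : ∀ x', π (υ' x') = υ (π x'))
    (w : X' → A) (v : X → A) :
    h89_B2 A σ υ (h62_push π w) v = h89_B2 A σ' υ' w (fun x' => v (π x')) := by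
  rw [h89_B2_antisymm, h62_B2_push_right hσ hυ, ← h89_B2_antisymm]

/-- pull-back preserves `C`. -/
theorem h62_comp_mem_C (hσσ : σ * σ = 1) (hσσ' : σ' * σ' = 1)
    (hσ : ∀ x', π (σ' x') = σ (π x')) (hυ : ∀ x', π (υ' x') = υ (π x'))
    {v : X → A} (hv : v ∈ h89_C A σ υ) : (fun x' => v (π x')) ∈ h89_C A σ' υ' := by
  rw [h89_mem_C_iff hσσ] at hv
  rw [h89_mem_C_iff hσσ']
  intro x'
  show v (π (υ' (σ' x'))) + v (π (υ' x')) = v (π x') + v (π (σ' x'))
  rw [hυ, hσ, hυ]
  exact hv (π x')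

/-- push-forward preserves `C`. -/
theorem h62_push_mem_C (hσσ : σ * σ = 1) (hσσ' : σ' * σ' = 1)
    (hσ : ∀ x', π (σ' x') = σ (π x')) (hυ : ∀ x', π (υ' x') = υ (π x'))
    {w : X' → A} (hw : w ∈ h89_C A σ' υ') : h62_push π w ∈ h89_C A σ υ := by
  rw [h89_mem_C_iff hσσ'] at hw
  rw [h89_mem_C_iff hσσ]
  intro x
  have hτ : ∀ x', π ((σ'.trans υ') x') = (σ.trans υ) (π x') := by
    intro x'
    show π (υ' (σ' x')) = υ (σ (π x'))
    rw [hυ, hσ]
  rw [show υ (σ x) = (σ.trans υ) x from rfl,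
    h62_push_comp_perm π (σ.trans υ) (σ'.trans υ') hτ w x,
    h62_push_comp_perm π υ υ' hυ w x, h62_push_comp_perm π σ σ' hσ w x]
  simp only [h62_push_apply]
  rw [← Finset.sum_add_distrib, ← Finset.sum_add_distrib]
  exact Finset.sum_congr rfl fun x' _ => hw x'

/-- pull-back preserves the `U`-fixed vectors. -/
theorem h62_comp_mem_VU (hυ : ∀ x', π (υ' x') = υ (π x'))
    {v : X → A} (hv : v ∈ h89_VU A υ) : (fun x' => v (π x')) ∈ h89_VU A υ' := by
  rw [h89_mem_VU_iff] at hv ⊢
  intro x'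
  show v (π (υ' x')) = v (π x')
  rw [hυ]
  exact hv (π x')

/-- pull-back preserves the `T`-fixed vectors. -/
theorem h62_comp_mem_VT (hσ : ∀ x', π (σ' x') = σ (π x')) (hυ : ∀ x', π (υ' x') = υ (π x'))
    {v : X → A} (hv : v ∈ h89_VT A σ υ) : (fun x' => v (π x')) ∈ h89_VT A σ' υ' := by
  rw [h89_mem_VT_iff] at hv ⊢
  intro x'
  show v (π (υ' (σ' x'))) = v (π x')
  rw [hυ, hσ]
  exact hv (π x')

/-- push-forward preserves the `U`-fixed vectors. -/
theorem h62_push_mem_VU (hυ : ∀ x', π (υ' x') = υ (π x'))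
    {w : X' → A} (hw : w ∈ h89_VU A υ') : h62_push π w ∈ h89_VU A υ := by
  rw [h89_mem_VU_iff] at hw ⊢
  intro x
  rw [h62_push_comp_perm π υ υ' hυ w x]
  simp only [h62_push_apply]
  exact Finset.sum_congr rfl fun x' _ => hw x'

/-- push-forward preserves the `T`-fixed vectors. -/
theorem h62_push_mem_VT (hσ : ∀ x', π (σ' x') = σ (π x')) (hυ : ∀ x', π (υ' x') = υ (π x'))
    {w : X' → A} (hw : w ∈ h89_VT A σ' υ') : h62_push π w ∈ h89_VT A σ υ := by
  rw [h89_mem_VT_iff] at hw ⊢
  intro x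
  have hτ : ∀ x', π ((σ'.trans υ') x') = (σ.trans υ) (π x') := by
    intro x'
    show π (υ' (σ' x')) = υ (σ (π x'))
    rw [hυ, hσ]
  rw [show υ (σ x) = (σ.trans υ) x from rfl,
    h62_push_comp_perm π (σ.trans υ) (σ'.trans υ') hτ w x]
  simp only [h62_push_apply]
  exact Finset.sum_congr rfl fun x' _ => hw x'

end Model

end Fermat.Agent.S41
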