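import Fermat.Agent.S41.h62_BRestr
import Fermat.Agent.S41.h30_LRDefs

/-!
# S41 block (B), row B-RESTR, group half (helper62): primitives of `res φ` and `tr ψ`

`Γ' ≤ Γ ≤ G`, `r : ι → G` a complete system of representatives of `Γ' \ Γ`
(`Γ = ⊔ Γ' r_x`).  A *primitive* of `ψ : Γ' → A` is `F' : G → A` with
`F' (g γ') = F' g + ψ γ'`.

* `h62_sum_primitive_tr`: `g ↦ ∑_x F' (g r_x⁻¹)` is a primitive of the transfer of `ψ`;
* `h62_push_mk`: the push-forward along `G ⧸ Γ' → G ⧸ Γ` is `(π_* w) (g Γ) = ∑_x w (g r_x⁻¹ Γ')`;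
* the specialisations to `Γ₀(N q) ≤ Γ₀(N)` with the representatives `h30_rep` and the transfer
  `h30_tr` (`h62_tr_primitive`, `h62_push_mk_Gamma0`), and restriction (`h62_res_primitive`).
-/

set_option autoImplicit false
set_option linter.unusedSectionVars false

namespace Fermat.Agent.S41

section General

variable {G : Type*} [Group G] {Γ Γ' : Subgroup G} {ι : Type*} [Fintype ι] (r : ι → G)

/-- `g ↦ ∑_x F' (g r_x⁻¹)` is a primitive of the transfer: for a decomposition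
`r_x γ = γ'_x r_{y x}` the increment along `γ` is `∑_x ψ (γ'_x)`. -/
theorem h62_sum_primitive_tr {A : Type*} [AddCommGroup A] (ψ : Additive Γ' →+ A) (F' : G → A)
    (hF' : ∀ (g : G) (γ' : Γ'), F' (g * γ') = F' g + ψ (Additive.ofMul γ'))
    (γ : G) (γ' : ι → Γ') (y : Equiv.Perm ι)
    (hdec : ∀ x, r x * γ = (γ' x : G) * r (y x)) (g : G) :
    ∑ x, F' (g * γ * (r x)⁻¹) = ∑ x, F' (g * (r x)⁻¹) + ∑ x, ψ (Additive.ofMul (γ' x)) := by
  rw [← Equiv.sum_comp y (fun x => F' (g * γ * (r x)⁻¹)), ← Finset.sum_add_distrib]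
  refine Finset.sum_congr rfl fun x _ => ?_
  rw [← hF']
  congr 1
  have h1 : γ * (r (y x))⁻¹ = (r x)⁻¹ * (γ' x : G) := by
    rw [mul_inv_eq_iff_eq_mul, mul_assoc, ← hdec x, inv_mul_cancel_left]
  rw [mul_assoc, h1, mul_assoc]

/-- invariance under left translation is inherited by `g ↦ ∑_x F' (g r_x⁻¹)`. -/
theorem h62_sum_primitive_inv {A : Type*} [AddCommGroup A] (F' : G → A) (u : G)
    (hu : ∀ g, F' (u * g) = F' g) (g : G) :
    ∑ x, F' (u * g * (r x)⁻¹) = ∑ x, F' (g * (r x)⁻¹) :=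
  Finset.sum_congr rfl fun x _ => by rw [mul_assoc, hu]

variable [Fintype (G ⧸ Γ)] [Fintype (G ⧸ Γ')] [DecidableEq (G ⧸ Γ)]

/-- the push-forward along `G ⧸ Γ' → G ⧸ Γ` in terms of representatives of `Γ' \ Γ`. -/
theorem h62_push_mk {A : Type*} [CommRing A] (hle : Γ' ≤ Γ) (hmem : ∀ x, r x ∈ Γ)
    (hcomplete : ∀ γ ∈ Γ, ∃ γ' ∈ Γ', ∃ y, γ = γ' * r y)
    (hinj : ∀ x y, r x * (r y)⁻¹ ∈ Γ' → x = y)
    (w : G ⧸ Γ' → A) (g : G) :
    h62_push (Subgroup.quotientMapOfLE hle) w (g : G ⧸ Γ) =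
      ∑ x, w ((g * (r x)⁻¹ : G) : G ⧸ Γ') := by
  rw [h62_push_apply]
  symm
  refine Finset.sum_bij (fun x _ => ((g * (r x)⁻¹ : G) : G ⧸ Γ')) ?_ ?_ ?_ ?_
  · intro x _
    rw [Finset.mem_filter]
    refine ⟨Finset.mem_univ _, ?_⟩
    rw [Subgroup.quotientMapOfLE_apply_mk, QuotientGroup.eq]
    have : (g * (r x)⁻¹)⁻¹ * g = r x := by group
    rw [this]
    exact hmem x
  · intro x _ y _ hxy
    rw [QuotientGroup.eq] at hxy
    apply hinj
    have : (g * (r x)⁻¹)⁻¹ * (g * (r y)⁻¹) = r x * (r y)⁻¹ := by group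
    rw [this] at hxy
    exact hxy
  · intro x' hx'
    rw [Finset.mem_filter] at hx'
    obtain ⟨g', rfl⟩ := QuotientGroup.mk_surjective x'
    have h1 := hx'.2
    rw [Subgroup.quotientMapOfLE_apply_mk, QuotientGroup.eq] at h1
    obtain ⟨γ', hγ', y, hy⟩ := hcomplete _ h1
    refine ⟨y, Finset.mem_univ _, ?_⟩
    rw [QuotientGroup.eq]
    have h2 : (g * (r y)⁻¹)⁻¹ * g' = γ'⁻¹ := by
      have h3 : g = g' * (γ' * r y) := by rw [← hy]; group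
      rw [h3]
      group
    rw [h2]
    exact Γ'.inv_mem hγ'
  · intro x _
    rfl

end General

section Gamma0

open CongruenceSubgroup Matrix.SpecialLinearGroup ModularCurve.Period
open scoped MatrixGroups
open Fermat.Agent.S16

variable {N q : ℕ} [Fact q.Prime] (hqN : ¬ q ∣ N)

/-- `Γ₀(N q) ≤ Γ₀(N)`. -/
theorem h62_Gamma0_le (N q : ℕ) : Gamma0 (N * q) ≤ Gamma0 N := fun g hg =>
  h30_mem_Gamma0_iff.mpr (h30_N_dvd ⟨g, hg⟩)

/-- restriction: a primitive of `φ` is a primitive of `res φ`. -/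
theorem h62_res_primitive {A : Type*} [AddCommGroup A] (φ : Additive (Gamma0 N) →+ A)
    (F : SL(2, ℤ) → A)
    (hF : ∀ (g : SL(2, ℤ)) (γ : Gamma0 N), F (g * γ) = F g + φ (Additive.ofMul γ))
    (g : SL(2, ℤ)) (γ' : Gamma0 (N * q)) :
    F (g * γ') = F g + h30_res N q φ (Additive.ofMul γ') := by
  rw [h30_res_apply, ← hF]
  rfl

/-- transfer: `g ↦ ∑_x F' (g r_x⁻¹)` is a primitive of `tr ψ`. -/
theorem h62_tr_primitive {A : Type*} [AddCommGroup A] (ψ : Additive (Gamma0 (N * q)) →+ A)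
    (F' : SL(2, ℤ) → A)
    (hF' : ∀ (g : SL(2, ℤ)) (γ' : Gamma0 (N * q)), F' (g * γ') = F' g + ψ (Additive.ofMul γ'))
    (g : SL(2, ℤ)) (γ : Gamma0 N) :
    ∑ x, F' (g * γ * ((h30_rep N q hqN x : Gamma0 N) : SL(2, ℤ))⁻¹) =
      ∑ x, F' (g * ((h30_rep N q hqN x : Gamma0 N) : SL(2, ℤ))⁻¹) +
        h30_tr N q hqN ψ (Additive.ofMul γ) := by
  obtain ⟨γ', y, hdec, hval⟩ := h30_tr_exists N q hqN γ
  rw [hval A ψ]
  refine h62_sum_primitive_tr (fun x => ((h30_rep N q hqN x : Gamma0 N) : SL(2, ℤ))) ψ F' hF'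
    (γ : SL(2, ℤ)) γ' y (fun x => ?_) g
  apply mapGL_injective (S := ℝ)
  rw [map_mul, map_mul]
  exact hdec x

variable [Fintype (SL(2, ℤ) ⧸ Gamma0 N)] [Fintype (SL(2, ℤ) ⧸ Gamma0 (N * q))]
  [DecidableEq (SL(2, ℤ) ⧸ Gamma0 N)]

/-- the push-forward along `SL₂(ℤ) ⧸ Γ₀(N q) → SL₂(ℤ) ⧸ Γ₀(N)` via the representatives
`h30_rep`. -/
theorem h62_push_mk_Gamma0 {A : Type*} [CommRing A] (w : SL(2, ℤ) ⧸ Gamma0 (N * q) → A)
    (g : SL(2, ℤ)) :
    h62_push (Subgroup.quotientMapOfLE (h62_Gamma0_le N q)) w (g : SL(2, ℤ) ⧸ Gamma0 N) =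
      ∑ x, w ((g * ((h30_rep N q hqN x : Gamma0 N) : SL(2, ℤ))⁻¹ : SL(2, ℤ)) :
        SL(2, ℤ) ⧸ Gamma0 (N * q)) := by
  refine h62_push_mk (fun x => ((h30_rep N q hqN x : Gamma0 N) : SL(2, ℤ)))
    (h62_Gamma0_le N q) (fun x => (h30_rep N q hqN x).2) ?_ ?_ w g
  · intro γ hγ
    obtain ⟨γ', y, hy⟩ := h30_rep_complete N q hqN ⟨γ, hγ⟩
    exact ⟨γ', γ'.2, y, hy⟩
  · intro x y hxy
    refine h30_rep_inj N q hqN x y ⟨_, hxy⟩ ?_
    rw [inv_mul_cancel_right]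

end Gamma0

end Fermat.Agent.S41
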