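import Fermat.Agent.S41.h8_BDefs
import Fermat.Agent.S41.h62_BRestrG

/-!
# S41 block (B), row B-RESTR (B2), final form on `h8_BDefs` (helper62)

`B_{N q}(res φ, ψ) = B_N(φ, tr ψ)`: the potential of `res φ` is the pull-back of a potential of
`φ` along `π : G ⧸ Γ₀(N q) → G ⧸ Γ₀(N)`, the potential of `tr ψ` is the push-forward of a
potential of `ψ`, and pull-back / push-forward are adjoint for the model pairing.

`h62_B_res_tr_of` takes the two B-PRIM statements (existence of potentials; the pairing may be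
computed with any potentials) as hypotheses.
-/

set_option autoImplicit false
set_option linter.unusedSectionVars false

open scoped MatrixGroups
open ModularGroup ModularCurve.Period CongruenceSubgroup

namespace Fermat.Agent.S41

section Model

variable {X X' : Type*} [Fintype X] [Fintype X'] {R : Type*} [CommRing R]

/-- `h8_B2` is helper89's `h89_B2` with `σ = 1`. -/
theorem h62_B2_eq_h89 (τ : Equiv.Perm X) (v v' : X → R) :
    h8_B2 (fun x => τ x) v v' = h89_B2 R 1 τ v v' := by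
  rw [h89_B2_eq]
  unfold h8_B2
  rw [Finset.sum_sub_distrib]
  rfl

/-- model (B2) for `h8_B2`: `B2 (v, π_* w) = B2 (v ∘ π, w)`. -/
theorem h62_B2K_push_right [DecidableEq X] (τ : Equiv.Perm X) (τ' : Equiv.Perm X') (π : X' → X)
    (hτ : ∀ x', π (τ' x') = τ (π x')) (v : X → R) (w : X' → R) :
    h8_B2 (fun x => τ x) v (h62_push π w) = h8_B2 (fun x' => τ' x') (fun x' => v (π x')) w := by
  rw [h62_B2_eq_h89, h62_B2_eq_h89]
  exact h62_B2_push_right (σ := 1) (υ := τ) (σ' := 1) (υ' := τ') (π := π) (fun _ => rfl) hτ v w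

end Model

section Gamma0

variable {N q : ℕ} [Fact q.Prime] (hqN : ¬ q ∣ N)

/-- the pull-back of a potential of `φ` is a potential of `res φ`. -/
theorem h62_isPot_res (φ : Additive (Gamma0 N) →+ ℤ) (v : SL(2, ℤ) ⧸ Gamma0 N → ℤ)
    (hv : h8_IsPot (Gamma0 N) φ v) :
    h8_IsPot (Gamma0 (N * q)) (h30_res N q φ)
      (fun x' => v (Subgroup.quotientMapOfLE (h62_Gamma0_le N q) x')) := by
  obtain ⟨F, P, hF, hP, hFU, hPT, hval⟩ := hv
  refine ⟨F, P, fun g γ' => h62_res_primitive φ F hF g γ',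
    fun g γ' => h62_res_primitive φ P hP g γ', hFU, hPT, fun g => ?_⟩
  show v (Subgroup.quotientMapOfLE (h62_Gamma0_le N q) (g : SL(2, ℤ) ⧸ Gamma0 (N * q))) = _
  rw [Subgroup.quotientMapOfLE_apply_mk]
  exact hval g

variable [Fintype (SL(2, ℤ) ⧸ Gamma0 N)] [Fintype (SL(2, ℤ) ⧸ Gamma0 (N * q))]
  [DecidableEq (SL(2, ℤ) ⧸ Gamma0 N)]

/-- the push-forward of a potential of `ψ` is a potential of `tr ψ`. -/
theorem h62_isPot_tr (ψ : Additive (Gamma0 (N * q)) →+ ℤ)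
    (v' : SL(2, ℤ) ⧸ Gamma0 (N * q) → ℤ) (hv' : h8_IsPot (Gamma0 (N * q)) ψ v') :
    h8_IsPot (Gamma0 N) (h30_tr N q hqN ψ)
      (h62_push (Subgroup.quotientMapOfLE (h62_Gamma0_le N q)) v') := by
  obtain ⟨F', P', hF', hP', hFU, hPT, hval⟩ := hv'
  refine ⟨fun g => ∑ x, F' (g * ((h30_rep N q hqN x : Gamma0 N) : SL(2, ℤ))⁻¹),
    fun g => ∑ x, P' (g * ((h30_rep N q hqN x : Gamma0 N) : SL(2, ℤ))⁻¹), ?_, ?_, ?_, ?_, ?_⟩
  · intro g γ
    exact h62_tr_primitive hqN ψ F' hF' g γ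
  · intro g γ
    exact h62_tr_primitive hqN ψ P' hP' g γ
  · intro g
    exact h62_sum_primitive_inv _ F' (T * S) hFU g
  · intro g
    exact h62_sum_primitive_inv _ P' T hPT g
  · intro g
    rw [h62_push_mk_Gamma0 hqN v' g, ← Finset.sum_sub_distrib]
    exact Finset.sum_congr rfl fun x _ => hval _

end Gamma0

theorem h62_neg_one_mem_Gamma0 (M : ℕ) : (-1 : SL(2, ℤ)) ∈ Gamma0 M := by
  rw [Gamma0_mem]
  simp

/-- **(B2)** from the two B-PRIM statements. -/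
theorem h62_B_res_tr_of
    (hpot : ∀ (Γ : Subgroup SL(2, ℤ)), (-1 : SL(2, ℤ)) ∈ Γ → ∀ (φ : Additive Γ →+ ℤ),
      IsParabolicHom Γ φ → ∃ v, h8_IsPot Γ φ v)
    (hBeq : ∀ (Γ : Subgroup SL(2, ℤ)) [Fintype (SL(2, ℤ) ⧸ Γ)], (-1 : SL(2, ℤ)) ∈ Γ →
      ∀ (φ ψ : Additive Γ →+ ℤ) (v v' : SL(2, ℤ) ⧸ Γ → ℤ), h8_IsPot Γ φ v → h8_IsPot Γ ψ v' →
        h8_B Γ φ ψ = h8_B2 (fun x : SL(2, ℤ) ⧸ Γ => T • x) v v')
    (N q : ℕ) [NeZero N] [Fact q.Prime] (hqN : ¬ q ∣ N)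
    (φ : Additive (Gamma0 N) →+ ℤ) (hφ : IsParabolicHom (Gamma0 N) φ)
    (ψ : Additive (Gamma0 (N * q)) →+ ℤ) (hψ : IsParabolicHom (Gamma0 (N * q)) ψ) :
    h8_B (Gamma0 (N * q)) (h30_res N q φ) ψ = h8_B (Gamma0 N) φ (h30_tr N q hqN ψ) := by
  classical
  have : NeZero (N * q) := ⟨Nat.mul_ne_zero (NeZero.ne N) (Fact.out : q.Prime).ne_zero⟩
  let _ : Fintype (SL(2, ℤ) ⧸ Gamma0 N) := Fintype.ofFinite _
  let _ : Fintype (SL(2, ℤ) ⧸ Gamma0 (N * q)) := Fintype.ofFinite _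
  obtain ⟨v, hv⟩ := hpot (Gamma0 N) (h62_neg_one_mem_Gamma0 N) φ hφ
  obtain ⟨v', hv'⟩ := hpot (Gamma0 (N * q)) (h62_neg_one_mem_Gamma0 _) ψ hψ
  rw [hBeq (Gamma0 (N * q)) (h62_neg_one_mem_Gamma0 _) _ ψ _ v' (h62_isPot_res φ v hv) hv',
    hBeq (Gamma0 N) (h62_neg_one_mem_Gamma0 N) φ _ v _ hv (h62_isPot_tr hqN ψ v' hv')]
  refine (h62_B2K_push_right (MulAction.toPerm (T : SL(2, ℤ)))
    (MulAction.toPerm (T : SL(2, ℤ))) _ (fun x' => ?_) v v').symm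
  induction x' using QuotientGroup.induction_on with
  | H g => rfl

end Fermat.Agent.S41
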