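import Fermat.Agent.S41.h30_LRDefs

/-!
# S41, block (D): the `Γ₀(M) · heckeRep` decomposition of integral matrices of determinant `l`

Every integral matrix `[a, b; c, d]` of determinant a prime `l ∤ M` with `M ∣ c` is of the form
`γ * heckeRep l x` with `γ ∈ Γ₀(M)` and `x ∈ P¹(𝔽_l)`.
-/

set_option autoImplicit false

namespace Fermat.Agent.S41

open CongruenceSubgroup Matrix.SpecialLinearGroup ModularCurve.Period
open scoped MatrixGroups
open Fermat.Agent.S16
open P2MW.S_ModularForm_heckeT_slash_eq_self_of_mem_Gamma0.ModularForm.HeckeSlashInvariance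

/-- Entrywise equality of `2 × 2` matrices. -/
theorem h7_mat_eq {R : Type*} {a b c d a' b' c' d' : R} (h00 : a = a') (h01 : b = b')
    (h10 : c = c') (h11 : d = d') : !![a, b; c, d] = !![a', b'; c', d'] := by
  subst h00 h01 h10 h11
  rfl

/-- Linear dependence mod `l`: if `a d ≡ b c` and `(a, c) ≢ (0, 0)` then `(b, d) ≡ j (a, c)`. -/
theorem h7_exists_j (l : ℕ) [Fact l.Prime] (a b c d : ℤ) (hdet : a * d - b * c = l)
    (hac : ¬ ((l : ℤ) ∣ a ∧ (l : ℤ) ∣ c)) :
    ∃ j : ZMod l, (l : ℤ) ∣ b - a * (j.val : ℤ) ∧ (l : ℤ) ∣ d - c * (j.val : ℤ) := by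
  have hdet' : (a : ZMod l) * (d : ZMod l) - (b : ZMod l) * (c : ZMod l) = 0 := by
    have := congrArg (Int.cast : ℤ → ZMod l) hdet
    push_cast at this
    rw [this, ZMod.natCast_self]
  have key : ∃ j : ZMod l, (b : ZMod l) = (a : ZMod l) * j ∧ (d : ZMod l) = (c : ZMod l) * j := by
    by_cases ha : (a : ZMod l) = 0
    · have hc : (c : ZMod l) ≠ 0 := by
        intro hc
        exact hac ⟨(ZMod.intCast_zmod_eq_zero_iff_dvd _ _).mp ha,
          (ZMod.intCast_zmod_eq_zero_iff_dvd _ _).mp hc⟩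
      refine ⟨(d : ZMod l) * (c : ZMod l)⁻¹, ?_, ?_⟩
      · rw [ha, zero_mul]
        rw [ha, zero_mul, zero_sub, neg_eq_zero] at hdet'
        exact (mul_eq_zero.mp hdet').resolve_right hc
      · field_simp
    · refine ⟨(b : ZMod l) * (a : ZMod l)⁻¹, ?_, ?_⟩
      · field_simp
      · field_simp
        linear_combination hdet'
  obtain ⟨j, hb, hd⟩ := key
  refine ⟨j, ?_, ?_⟩
  · rw [← ZMod.intCast_zmod_eq_zero_iff_dvd]
    push_cast
    rw [ZMod.natCast_zmod_val, hb, sub_self]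
  · rw [← ZMod.intCast_zmod_eq_zero_iff_dvd]
    push_cast
    rw [ZMod.natCast_zmod_val, hd, sub_self]

/-- (D-DELTA) The `Γ₀(M) · heckeRep l` decomposition of integral matrices of determinant `l`
with lower left entry divisible by `M`. -/
theorem h7_delta_decomp {M : ℕ} (l : ℕ) [Fact l.Prime] (hlM : ¬ l ∣ M) (a b c d : ℤ)
    (hdet : a * d - b * c = l) (hc : (M : ℤ) ∣ c) (X : GL (Fin 2) ℝ)
    (hX : (X : Matrix (Fin 2) (Fin 2) ℝ) = !![(a : ℝ), (b : ℝ); (c : ℝ), (d : ℝ)]) :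
    ∃ (γ : Gamma0 M) (x : OnePoint (ZMod l)), X = mapGL ℝ (γ : SL(2, ℤ)) * heckeRep l x := by
  have hl0 : l ≠ 0 := (Fact.out : l.Prime).ne_zero
  have hl0' : (l : ℤ) ≠ 0 := Nat.cast_ne_zero.mpr hl0
  have hcop : IsCoprime (M : ℤ) (l : ℤ) :=
    Nat.isCoprime_iff_coprime.mpr ((Nat.Prime.coprime_iff_not_dvd Fact.out).mpr hlM).symm
  by_cases hac : (l : ℤ) ∣ a ∧ (l : ℤ) ∣ c
  · obtain ⟨⟨a', ha'⟩, ⟨c', hc'⟩⟩ := hac
    have hdet' : a' * d - b * c' = 1 := by
      have h1 : (l : ℤ) * (a' * d - b * c') = l * 1 := by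
        rw [mul_one]
        rw [ha', hc'] at hdet
        linear_combination hdet
      exact mul_left_cancel₀ hl0' h1
    have hMc' : (M : ℤ) ∣ c' := by
      rw [hc', mul_comm] at hc
      exact hcop.dvd_of_dvd_mul_right hc
    refine ⟨h30_mk M a' b c' d hdet' hMc', OnePoint.infty, ?_⟩
    apply Units.ext
    rw [Matrix.GeneralLinearGroup.coe_mul, h30_mapGL_mk, hX, heckeRep_infty,
      ModularForm.val_heckeDiagMatrix hl0, Matrix.mul_fin_two, ha', hc']
    refine h7_mat_eq ?_ ?_ ?_ ?_ <;> push_cast <;> ring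
  · obtain ⟨j, ⟨e, he⟩, ⟨f, hf⟩⟩ := h7_exists_j l a b c d hdet hac
    have hdet' : a * f - e * c = 1 := by
      have h1 : (l : ℤ) * (a * f - e * c) = l * 1 := by
        rw [mul_one]
        linear_combination hdet + c * he - a * hf
      exact mul_left_cancel₀ hl0' h1
    refine ⟨h30_mk M a e c f hdet' hc, (j : OnePoint (ZMod l)), ?_⟩
    have heR : (b : ℝ) = (a : ℝ) * ((j.val : ℕ) : ℝ) + (l : ℝ) * (e : ℝ) := by
      have : b = a * (j.val : ℤ) + (l : ℤ) * e := by linarith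
      exact_mod_cast this
    have hfR : (d : ℝ) = (c : ℝ) * ((j.val : ℕ) : ℝ) + (l : ℝ) * (f : ℝ) := by
      have : d = c * (j.val : ℤ) + (l : ℤ) * f := by linarith
      exact_mod_cast this
    apply Units.ext
    rw [Matrix.GeneralLinearGroup.coe_mul, h30_mapGL_mk, hX, heckeRep_coe,
      ModularForm.val_heckeMatrix hl0, Matrix.mul_fin_two, heR, hfR]
    refine h7_mat_eq ?_ ?_ ?_ ?_ <;> ring

end Fermat.Agent.S41
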