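import Mathlib
import Fermat.Agent.S41.h8_BDefs

/-!
# S41, block (B): the cusp formula (`m`-form), core computation

For a Heisenberg cochain `e` of `(φ, ψ)` on `Γ`, potentials `v = F - P`, `v' = F' - Q` and a
`T * S`-invariant Heisenberg primitive `H` (`H (g * γ) = H g + e γ + F g * ψ γ`):
`2 * ∑ x, e (g_x⁻¹ * T ^ m * g_x) = - m * B2(v, v')`.
-/

set_option autoImplicit false

open scoped MatrixGroups
open ModularGroup ModularCurve.Period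

namespace Fermat.Agent.S41

theorem h8_S_mul_S : S * S = (-1 : SL(2, ℤ)) := by decide

/-- `T * g = (T * S) * (-(S * g))`. -/
theorem h8_T_mul (g : SL(2, ℤ)) : T * g = (T * S) * (-(S * g)) := by
  rw [mul_neg, mul_assoc, ← mul_assoc S S g, h8_S_mul_S, neg_one_mul, mul_neg, neg_neg]

theorem h8_trace_neg_one :
    ((-1 : SL(2, ℤ)) : Matrix (Fin 2) (Fin 2) ℤ).trace ^ 2 = 4 := by decide

theorem h8_trace_conj_T_pow (g : SL(2, ℤ)) (m : ℕ) :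
    ((g⁻¹ * T ^ m * g : SL(2, ℤ)) : Matrix (Fin 2) (Fin 2) ℤ).trace ^ 2 = 4 := by
  have h1 : ((g⁻¹ * T ^ m * g : SL(2, ℤ)) : Matrix (Fin 2) (Fin 2) ℤ).trace =
      ((T ^ m : SL(2, ℤ)) : Matrix (Fin 2) (Fin 2) ℤ).trace := by
    rw [mul_assoc, Matrix.SpecialLinearGroup.coe_mul, Matrix.trace_mul_comm,
      ← Matrix.SpecialLinearGroup.coe_mul, mul_assoc, mul_inv_cancel, mul_one]
  rw [h1, ← zpow_natCast, coe_T_zpow]
  simp [Matrix.trace_fin_two]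

section Intr

variable (Γ : Subgroup SL(2, ℤ))

/-- **Cusp formula, core computation.** -/
theorem h8_intr_core [Fintype (SL(2, ℤ) ⧸ Γ)] (hneg : (-1 : SL(2, ℤ)) ∈ Γ)
    (φ ψ : Additive Γ →+ ℤ) (hφ : IsParabolicHom Γ φ) (hψ : IsParabolicHom Γ ψ) (e : Γ → ℤ)
    (he : ∀ g h : Γ, e (g * h) = e g + e h + φ (Additive.ofMul g) * ψ (Additive.ofMul h))
    (F P F' Q : SL(2, ℤ) → ℤ) (hF : h8_IsPrim Γ φ F) (hP : h8_IsPrim Γ φ P)
    (hFU : ∀ g, F (T * S * g) = F g) (hPT : ∀ g, P (T * g) = P g)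
    (hF' : h8_IsPrim Γ ψ F') (hQ : h8_IsPrim Γ ψ Q)
    (hF'U : ∀ g, F' (T * S * g) = F' g) (hQT : ∀ g, Q (T * g) = Q g)
    (v v' : SL(2, ℤ) ⧸ Γ → ℤ) (hv : ∀ g : SL(2, ℤ), v (g : SL(2, ℤ) ⧸ Γ) = F g - P g)
    (hv' : ∀ g : SL(2, ℤ), v' (g : SL(2, ℤ) ⧸ Γ) = F' g - Q g)
    (H : SL(2, ℤ) → ℤ)
    (hH : ∀ (g : SL(2, ℤ)) (γ : Γ), H (g * γ) = H g + e γ + F g * ψ (Additive.ofMul γ))
    (hHU : ∀ g, H (T * S * g) = H g)
    (m : ℕ) (hm : ∀ g : SL(2, ℤ), g⁻¹ * T ^ m * g ∈ Γ)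
    (r : SL(2, ℤ) ⧸ Γ → SL(2, ℤ)) (hr : ∀ x, (QuotientGroup.mk (r x) : SL(2, ℤ) ⧸ Γ) = x) :
    2 * ∑ x : SL(2, ℤ) ⧸ Γ, e ⟨(r x)⁻¹ * T ^ m * r x, hm (r x)⟩ =
      -(m : ℤ) * h8_B2 (fun x : SL(2, ℤ) ⧸ Γ => T • x) v v' := by
  classical
  -- the element `-1` of `Γ`
  have hφ1 : φ (Additive.ofMul (⟨-1, hneg⟩ : Γ)) = 0 := hφ ⟨-1, hneg⟩ h8_trace_neg_one
  have hψ1 : ψ (Additive.ofMul (⟨-1, hneg⟩ : Γ)) = 0 := hψ ⟨-1, hneg⟩ h8_trace_neg_one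
  have he1 : e 1 = 0 := by
    have h := he 1 1
    rw [mul_one, ofMul_one, map_zero, zero_mul, add_zero] at h
    linarith
  have hen : e (⟨-1, hneg⟩ : Γ) = 0 := by
    have h := he ⟨-1, hneg⟩ ⟨-1, hneg⟩
    have h2 : (⟨-1, hneg⟩ : Γ) * ⟨-1, hneg⟩ = 1 := by
      apply Subtype.ext
      show (-1 : SL(2, ℤ)) * (-1) = 1
      simp
    rw [h2, he1, hφ1, zero_mul, add_zero] at h
    linarith
  -- evenness
  have hnegmul : ∀ g : SL(2, ℤ), -g = g * ((⟨-1, hneg⟩ : Γ) : SL(2, ℤ)) := by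
    intro g
    show -g = g * (-1)
    rw [mul_neg, mul_one]
  have hFneg : ∀ g, F (-g) = F g := fun g => by rw [hnegmul, hF, hφ1, add_zero]
  have hF'neg : ∀ g, F' (-g) = F' g := fun g => by rw [hnegmul, hF', hψ1, add_zero]
  have hHneg : ∀ g, H (-g) = H g := fun g => by
    rw [hnegmul, hH, hen, hψ1, mul_zero, add_zero, add_zero]
  -- `T` versus `S`
  have hFT : ∀ g, F (T * g) = F (S * g) := fun g => by rw [h8_T_mul, hFU, hFneg]
  have hF'T : ∀ g, F' (T * g) = F' (S * g) := fun g => by rw [h8_T_mul, hF'U, hF'neg]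
  have hHT : ∀ g, H (T * g) = H (S * g) := fun g => by rw [h8_T_mul, hHU, hHneg]
  have hSS : ∀ g : SL(2, ℤ), S * (S * g) = -g := fun g => by
    rw [← mul_assoc, h8_S_mul_S, neg_one_mul]
  -- the increments
  have hn : ∀ g : SL(2, ℤ), v (T • (g : SL(2, ℤ) ⧸ Γ)) - v (g : SL(2, ℤ) ⧸ Γ) = F (S * g) - F g := by
    intro g
    have : T • (g : SL(2, ℤ) ⧸ Γ) = ((T * g : SL(2, ℤ)) : SL(2, ℤ) ⧸ Γ) := rfl
    rw [this, hv, hv, hPT, hFT]
    ring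
  have hn' : ∀ g : SL(2, ℤ), v' (T • (g : SL(2, ℤ) ⧸ Γ)) - v' (g : SL(2, ℤ) ⧸ Γ) = F' (S * g) - F' g := by
    intro g
    have : T • (g : SL(2, ℤ) ⧸ Γ) = ((T * g : SL(2, ℤ)) : SL(2, ℤ) ⧸ Γ) := rfl
    rw [this, hv', hv', hQT, hF'T]
    ring
  -- the invariant function `k`
  set k : SL(2, ℤ) → ℤ := fun g => H (S * g) - H g - (F (S * g) - F g) * F' g with hk
  have hkinv : ∀ (g : SL(2, ℤ)) (γ : Γ), k (g * γ) = k g := by
    intro g γ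
    simp only [hk]
    rw [← mul_assoc, hH, hH, hF, hF, hF']
    ring
  have hkS : ∀ g : SL(2, ℤ), k (S * g) + k g = (F (S * g) - F g) * (F' (S * g) - F' g) := by
    intro g
    simp only [hk]
    rw [hSS, hHneg, hFneg]
    ring
  -- sections
  have hrep : ∀ g : SL(2, ℤ), ∃ γ : Γ, g = r (g : SL(2, ℤ) ⧸ Γ) * γ := by
    intro g
    have h1 := hr (g : SL(2, ℤ) ⧸ Γ)
    rw [QuotientGroup.eq] at h1
    exact ⟨⟨_, h1⟩, by simp⟩
  have hkX : ∀ g : SL(2, ℤ), k g = k (r (g : SL(2, ℤ) ⧸ Γ)) := by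
    intro g
    obtain ⟨γ, hγ⟩ := hrep g
    conv_lhs => rw [hγ]
    exact hkinv _ γ
  -- telescoping along `T`
  have hQpow : ∀ (i : ℕ) (g : SL(2, ℤ)), Q (T ^ i * g) = Q g := by
    intro i g
    induction i with
    | zero => simp
    | succ i ih => rw [pow_succ', mul_assoc, hQT, ih]
  have hkey : ∀ g : SL(2, ℤ), e ⟨g⁻¹ * T ^ m * g, hm g⟩ =
      ∑ i ∈ Finset.range m, (k (T ^ i * g) +
        (v (T • ((T ^ i * g : SL(2, ℤ)) : SL(2, ℤ) ⧸ Γ)) -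
          v ((T ^ i * g : SL(2, ℤ)) : SL(2, ℤ) ⧸ Γ)) *
          v' ((T ^ i * g : SL(2, ℤ)) : SL(2, ℤ) ⧸ Γ)) := by
    intro g
    have hπ : T ^ m * g = g * ((⟨g⁻¹ * T ^ m * g, hm g⟩ : Γ) : SL(2, ℤ)) := by
      show T ^ m * g = g * (g⁻¹ * T ^ m * g)
      group
    have hψπ : ψ (Additive.ofMul (⟨g⁻¹ * T ^ m * g, hm g⟩ : Γ)) = 0 :=
      hψ _ (h8_trace_conj_T_pow g m)
    have hφπ : φ (Additive.ofMul (⟨g⁻¹ * T ^ m * g, hm g⟩ : Γ)) = 0 :=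
      hφ _ (h8_trace_conj_T_pow g m)
    have h1 : e ⟨g⁻¹ * T ^ m * g, hm g⟩ = H (T ^ m * g) - H g := by
      rw [hπ, hH, hψπ]; ring
    have h2 : F (T ^ m * g) = F g := by rw [hπ, hF, hφπ, add_zero]
    have h3 : H (T ^ m * g) - H g =
        ∑ i ∈ Finset.range m, (H (T ^ (i + 1) * g) - H (T ^ i * g)) := by
      rw [Finset.sum_range_sub (fun i => H (T ^ i * g))]; simp
    have h4 : ∑ i ∈ Finset.range m, (F (T ^ (i + 1) * g) - F (T ^ i * g)) = 0 := by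
      rw [Finset.sum_range_sub (fun i => F (T ^ i * g))]; simp [h2]
    have h5 : ∀ i, H (T ^ (i + 1) * g) - H (T ^ i * g) =
        (k (T ^ i * g) + (F (T ^ (i + 1) * g) - F (T ^ i * g)) *
          v' ((T ^ i * g : SL(2, ℤ)) : SL(2, ℤ) ⧸ Γ))
          + (F (T ^ (i + 1) * g) - F (T ^ i * g)) * Q g := by
      intro i
      rw [pow_succ', mul_assoc, hHT, hFT, hv', hQpow]
      simp only [hk]
      ring
    have h6 : ∀ i, F (T ^ (i + 1) * g) - F (T ^ i * g) =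
        v (T • ((T ^ i * g : SL(2, ℤ)) : SL(2, ℤ) ⧸ Γ)) -
          v ((T ^ i * g : SL(2, ℤ)) : SL(2, ℤ) ⧸ Γ) := by
      intro i
      rw [hn, pow_succ', mul_assoc, hFT]
    rw [h1, h3]
    simp_rw [h5]
    rw [Finset.sum_add_distrib, ← Finset.sum_mul, h4, zero_mul, add_zero]
    refine Finset.sum_congr rfl fun i _ => ?_
    rw [h6]
  -- the functions on `X`
  set kX : SL(2, ℤ) ⧸ Γ → ℤ := fun x => k (r x) with hkXdef
  set f : SL(2, ℤ) ⧸ Γ → ℤ := fun x => kX x + (v (T • x) - v x) * v' x with hf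
  have hterm : ∀ x : SL(2, ℤ) ⧸ Γ, e ⟨(r x)⁻¹ * T ^ m * r x, hm (r x)⟩ =
      ∑ i ∈ Finset.range m, f (T ^ i • x) := by
    intro x
    rw [hkey (r x)]
    refine Finset.sum_congr rfl fun i _ => ?_
    have hx : ((T ^ i * r x : SL(2, ℤ)) : SL(2, ℤ) ⧸ Γ) = T ^ i • x := by
      conv_rhs => rw [← hr x]
      rfl
    rw [hx, hkX (T ^ i * r x), hx]
  have hsumT : ∀ (i : ℕ) (h : SL(2, ℤ) ⧸ Γ → ℤ), ∑ x, h (T ^ i • x) = ∑ x, h x := by
    intro i h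
    exact Equiv.sum_comp (MulAction.toPerm (T ^ i)) h
  have hsum1 : ∑ x : SL(2, ℤ) ⧸ Γ, e ⟨(r x)⁻¹ * T ^ m * r x, hm (r x)⟩ = m * ∑ x, f x := by
    simp_rw [hterm]
    rw [Finset.sum_comm]
    simp_rw [hsumT]
    simp
  have hkXS : ∀ x : SL(2, ℤ) ⧸ Γ,
      kX (S • x) + kX x = (v (T • x) - v x) * (v' (T • x) - v' x) := by
    intro x
    have h1 := hkS (r x)
    have hx : ((S * r x : SL(2, ℤ)) : SL(2, ℤ) ⧸ Γ) = S • x := by
      conv_rhs => rw [← hr x]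
      rfl
    rw [hkX (S * r x), hx] at h1
    have h2 := hn (r x)
    have h3 := hn' (r x)
    rw [hr x] at h2 h3
    rw [h2, h3]
    exact h1
  have hsumS : ∑ x, kX (S • x) = ∑ x, kX x := Equiv.sum_comp (MulAction.toPerm S) kX
  have h2k : 2 * ∑ x, kX x = ∑ x, (v (T • x) - v x) * (v' (T • x) - v' x) := by
    rw [← Finset.sum_congr rfl (fun x _ => hkXS x), Finset.sum_add_distrib, hsumS]
    ring
  have hvv : ∑ x, v (T • x) * v' (T • x) = ∑ x, v x * v' x :=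
    Equiv.sum_comp (MulAction.toPerm T) (fun x => v x * v' x)
  have e1 : 2 * ∑ x, f x = 2 * ∑ x, kX x + ∑ x, 2 * ((v (T • x) - v x) * v' x) := by
    simp only [hf]
    rw [Finset.sum_add_distrib, mul_add]
    congr 1
    rw [Finset.mul_sum]
  have e2 : ∀ x : SL(2, ℤ) ⧸ Γ,
      (v (T • x) - v x) * (v' (T • x) - v' x) + 2 * ((v (T • x) - v x) * v' x) =
        (v (T • x) * v' (T • x) - v x * v' x) - (v x * v' (T • x) - v (T • x) * v' x) :=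
    fun x => by ring
  have e3 : 2 * ∑ x, f x = - ∑ x, (v x * v' (T • x) - v (T • x) * v' x) := by
    rw [e1, h2k, ← Finset.sum_add_distrib]
    simp_rw [e2]
    rw [Finset.sum_sub_distrib, Finset.sum_sub_distrib, hvv, sub_self, zero_sub]
  rw [hsum1]
  unfold h8_B2
  calc 2 * ((m : ℤ) * ∑ x, f x) = (m : ℤ) * (2 * ∑ x, f x) := by ring
    _ = -(m : ℤ) * ∑ x, (v x * v' (T • x) - v (T • x) * v' x) := by rw [e3]; ring

end Intr

end Fermat.Agent.S41
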