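import Fermat.Agent.S41.h84_BConj
import Fermat.Agent.S41.h8_BIntr
import Fermat.Agent.S41.h92_BPrim
import Fermat.Agent.S41.h24_BHPrim

/-!
# S41 block (B): INTR, the cusp formula and conjugation invariance (CI), unconditional

* `h84_intr`   : `2 * ∑ x, e (g_x⁻¹ T^m g_x) = - m * h8_B Γ φ ψ` (core `h8_intr_core` + potentials
  `h92_exists_isPot` + Heisenberg primitive `h24_exists_heis_prim` + `h92_B_eq'`);
* `h84_cusp_formula` : `h8_B Γ φ ψ = -2 * ∑ ρ ∈ R, e ρ`;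
* `h84_B_conj` : conjugation invariance of `h8_B` (row B-CI, `sk_B_conj` verbatim);
* `h84_cuspFormula49`, `h84_B_W` : the inputs of the B-HECKE wiring, and (B3).
-/

set_option autoImplicit false

namespace Fermat.Agent.S41

open scoped MatrixGroups
open ModularGroup ModularCurve.Period CongruenceSubgroup

/-- **INTR** (the interior cusp formula, `m`-form). -/
theorem h84_intr (Γ : Subgroup SL(2, ℤ)) [Fintype (SL(2, ℤ) ⧸ Γ)] (hneg : (-1 : SL(2, ℤ)) ∈ Γ)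
    (φ ψ : Additive Γ →+ ℤ) (hφ : IsParabolicHom Γ φ) (hψ : IsParabolicHom Γ ψ) (e : Γ → ℤ)
    (he : ∀ g h : Γ, e (g * h) = e g + e h + φ (Additive.ofMul g) * ψ (Additive.ofMul h))
    (m : ℕ) (hm : ∀ g : SL(2, ℤ), g⁻¹ * T ^ m * g ∈ Γ)
    (r : SL(2, ℤ) ⧸ Γ → SL(2, ℤ)) (hr : ∀ x, (QuotientGroup.mk (r x) : SL(2, ℤ) ⧸ Γ) = x) :
    2 * ∑ x : SL(2, ℤ) ⧸ Γ, e ⟨(r x)⁻¹ * T ^ m * r x, hm (r x)⟩ = -(m : ℤ) * h8_B Γ φ ψ := by
  obtain ⟨v, hv⟩ := h92_exists_isPot Γ hneg φ hφ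
  obtain ⟨v', hv'⟩ := h92_exists_isPot Γ hneg ψ hψ
  rw [h92_B_eq' Γ hneg φ ψ v v' hv hv']
  obtain ⟨F, P, hF, hP, hFU, hPT, hvF⟩ := hv
  obtain ⟨F', Q, hF', hQ, hF'U, hQT, hvF'⟩ := hv'
  obtain ⟨H, hH, hHU⟩ := h24_exists_heis_prim Γ hneg φ ψ e he F hF hFU
  exact h8_intr_core Γ hneg φ ψ hφ hψ e he F P F' Q hF hP hFU hPT hF' hQ hF'U hQT v v' hvF hvF'
    H hH hHU m hm r hr

/-- INTR in the packaged form `h84_Intr`. -/
theorem h84_intr_all (Γ : Subgroup SL(2, ℤ)) (hneg : (-1 : SL(2, ℤ)) ∈ Γ) : h84_Intr Γ := by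
  intro _ φ ψ hφ hψ e he m hm r hr
  exact h84_intr Γ hneg φ ψ hφ hψ e he m hm r hr

/-- **The cusp formula**: `h8_B Γ φ ψ = -2 ∑_{ρ ∈ R} e ρ` for every Heisenberg lift `e` of the
parabolic homomorphisms `(φ, ψ)` and every cusp system `R`. -/
theorem h84_cusp_formula (Γ : Subgroup SL(2, ℤ)) [Γ.FiniteIndex] (hneg : (-1 : SL(2, ℤ)) ∈ Γ)
    (φ ψ : Additive Γ →+ ℤ) (hφ : IsParabolicHom Γ φ) (hψ : IsParabolicHom Γ ψ) (e : Γ → ℤ)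
    (he : ∀ g h : Γ, e (g * h) = e g + e h + φ (Additive.ofMul g) * ψ (Additive.ofMul h))
    (R : Finset Γ) (hR : h42_IsCuspSystem Γ R) :
    h8_B Γ φ ψ = -2 * ∑ ρ ∈ R, e ρ := by
  have := h84_cusp_formula_of_intr Γ hneg (h84_intr_all Γ hneg) φ ψ hφ hψ e he R hR
  rwa [one_mul] at this

/-- **(CI)**: conjugation invariance of the pairing `h8_B` under an isomorphism induced by an
integral matrix of positive determinant. -/
theorem h84_B_conj (Γ Γ' : Subgroup SL(2, ℤ)) [Γ.FiniteIndex] [Γ'.FiniteIndex]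
    (hneg : (-1 : SL(2, ℤ)) ∈ Γ) (hneg' : (-1 : SL(2, ℤ)) ∈ Γ')
    (δ : Matrix (Fin 2) (Fin 2) ℤ) (hδ : 0 < δ.det) (κ : Γ' ≃* Γ)
    (hκ : ∀ g' : Γ', δ * ((g' : SL(2, ℤ)) : Matrix (Fin 2) (Fin 2) ℤ)
      = ((κ g' : SL(2, ℤ)) : Matrix (Fin 2) (Fin 2) ℤ) * δ)
    (φ ψ : Additive Γ →+ ℤ) (hφ : IsParabolicHom Γ φ) (hψ : IsParabolicHom Γ ψ)
    (φ' ψ' : Additive Γ' →+ ℤ) (hφ' : IsParabolicHom Γ' φ') (hψ' : IsParabolicHom Γ' ψ')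
    (h1 : ∀ g' : Γ', φ' (Additive.ofMul g') = φ (Additive.ofMul (κ g')))
    (h2 : ∀ g' : Γ', ψ' (Additive.ofMul g') = ψ (Additive.ofMul (κ g'))) :
    h8_B Γ' φ' ψ' = h8_B Γ φ ψ :=
  h84_B_conj_of_intr Γ Γ' hneg hneg' (h84_intr_all Γ hneg) (h84_intr_all Γ' hneg') δ hδ κ hκ
    φ ψ hφ hψ φ' ψ' hφ' hψ' h1 h2

/-- The cusp formula in the packaged shape of the B-HECKE wiring, at every level. -/
theorem h84_cuspFormula49 (M : ℕ) [NeZero M] : h49_CuspFormula M 1 (-2) :=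
  h84_cuspFormula49_of_intr M (h84_intr_all _ (h49_neg_one_mem M))

/-- **(B3)**: the pairing at level `N q` is invariant under the Atkin-Lehner conjugation `W`. -/
theorem h84_B_W (N q : ℕ) [NeZero N] [Fact q.Prime] (hqN : ¬ q ∣ N)
    (ψ ψ' : Additive (Gamma0 (N * q)) →+ ℤ) (hψ : IsParabolicHom (Gamma0 (N * q)) ψ)
    (hψ' : IsParabolicHom (Gamma0 (N * q)) ψ') :
    h8_B (Gamma0 (N * q)) (Fermat.Agent.S41.h30_W N q hqN ψ) (Fermat.Agent.S41.h30_W N q hqN ψ')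
      = h8_B (Gamma0 (N * q)) ψ ψ' := by
  have : NeZero q := ⟨(Fact.out : q.Prime).ne_zero⟩
  have : NeZero (N * q) := ⟨mul_ne_zero (NeZero.ne N) (NeZero.ne q)⟩
  exact h49_B3_of_cuspFormula hqN 1 (-2) one_ne_zero (h84_exists_cuspSystem_Gamma0 (N * q))
    (h84_cuspFormula49 (N * q)) ψ ψ' hψ hψ'

end Fermat.Agent.S41
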