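import Mathlib
import Fermat.Agent.S41.h42_CuspDefs
import Fermat.Agent.S41.h84_BTransport2
import Fermat.Agent.S16.h18_Parab

/-!
# S41 block (B), B-CUSP: existence of cusp systems (EXISTS-R) and the orbit dictionary

`G = SL(2, ℤ)`, `Γ ≤ G` of finite index with `-1 ∈ Γ`, `X = G ⧸ Γ` (left cosets, left action).
For `g : G` let `w(g)` be the period of `g Γ` under `T` and `ρ(g) := g⁻¹ T^w(g) g ∈ Γ`.

* (F1) `ρ(g)` is a primitive positive parabolic element of `Γ`;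
* (F2) if `g' Γ = T^l • g Γ` then `ρ(g')` is `Γ`-conjugate to `ρ(g)`;
* (F3) if `ρ(g)`, `ρ(g')` are `Γ`-conjugate then `g' Γ` lies in the `⟨T⟩`-orbit of `g Γ`;
* (F4) every primitive positive parabolic element of `Γ` is some `ρ(b)`;
* (F5) `g⁻¹ T^k g ∈ Γ ↔ w(g) ∣ k`, and `g⁻¹ T^(w(g) n) g = ρ(g)^n`.

Hence a cusp system exists (one `ρ` per `⟨T⟩`-orbit on `X`).
-/

set_option autoImplicit false

namespace Fermat.Agent.S41

open scoped MatrixGroups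
open ModularGroup
open Fermat.Agent.S16

/-! ### Matrix layer -/

theorem h84_T_zpow_entries (k : ℤ) :
    (T ^ k : SL(2, ℤ)) 0 0 = 1 ∧ (T ^ k : SL(2, ℤ)) 0 1 = k ∧ (T ^ k : SL(2, ℤ)) 1 0 = 0 ∧
      (T ^ k : SL(2, ℤ)) 1 1 = 1 := by
  have h := coe_T_zpow k
  refine ⟨?_, ?_, ?_, ?_⟩
  · show (T ^ k).1 0 0 = 1
    rw [h]; rfl
  · show (T ^ k).1 0 1 = k
    rw [h]; rfl
  · show (T ^ k).1 1 0 = 0
    rw [h]; rfl
  · show (T ^ k).1 1 1 = 1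
    rw [h]; rfl

theorem h84_T_zpow_inj {a b : ℤ} (h : (T ^ a : SL(2, ℤ)) = T ^ b) : a = b := by
  have h1 : (T ^ a : SL(2, ℤ)) 0 1 = (T ^ b : SL(2, ℤ)) 0 1 := by rw [h]
  rwa [(h84_T_zpow_entries a).2.1, (h84_T_zpow_entries b).2.1] at h1

theorem h84_isPosPar_T_zpow (k : ℤ) : h84_IsPosPar (T ^ k) ↔ 0 < k := by
  obtain ⟨h00, h01, h10, h11⟩ := h84_T_zpow_entries k
  unfold h84_IsPosPar
  rw [h00, h01, h10, h11]
  constructor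
  · rintro ⟨-, h⟩; linarith
  · intro h; exact ⟨by norm_num, by linarith⟩

/-- The centraliser of a nontrivial power of `T`: if `T^k h = h T^k'` with `k ≠ 0` then
`k = k'` and `h = ± T^l`. -/
theorem h84_comm_T_zpow (h : SL(2, ℤ)) (k k' : ℤ) (hk : k ≠ 0) (hc : T ^ k * h = h * T ^ k') :
    k = k' ∧ ∃ l : ℤ, h = T ^ l ∨ h = -T ^ l := by
  have E := congrArg (fun g : SL(2, ℤ) => (g : Matrix (Fin 2) (Fin 2) ℤ)) hc
  simp only [Matrix.SpecialLinearGroup.coe_mul, coe_T_zpow] at E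
  have E00 := congrFun (congrFun E 0) 0
  have E01 := congrFun (congrFun E 0) 1
  simp only [Matrix.mul_apply, Fin.sum_univ_two, Matrix.of_apply, Matrix.cons_val_zero,
    Matrix.cons_val_one, Matrix.cons_val', Matrix.cons_val_fin_one] at E00 E01
  have hdet := Matrix.SpecialLinearGroup.det_coe h
  rw [Matrix.det_fin_two] at hdet
  have hdet' : h 0 0 * h 1 1 - h 0 1 * h 1 0 = 1 := hdet
  have hE00 : 1 * h 0 0 + k * h 1 0 = h 0 0 * 1 + h 0 1 * 0 := E00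
  have hE01 : 1 * h 0 1 + k * h 1 1 = h 0 0 * k' + h 0 1 * 1 := E01
  have h10 : h 1 0 = 0 := by
    have : k * h 1 0 = 0 := by linarith
    rcases mul_eq_zero.mp this with h' | h'
    · exact absurd h' hk
    · exact h'
  have had : h 0 0 * h 1 1 = 1 := by rw [h10] at hdet'; linarith
  rcases Int.eq_one_or_neg_one_of_mul_eq_one' had with ⟨ha, hd⟩ | ⟨ha, hd⟩
  · refine ⟨by rw [ha, hd] at hE01; linarith, h 0 1, Or.inl ?_⟩
    exact h18_eq_T_zpow h h10 (by rw [ha, hd]; norm_num)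
  · refine ⟨by rw [ha, hd] at hE01; linarith, (-h) 0 1, Or.inr ?_⟩
    have hneg : ∀ i j, (-h) i j = -(h i j) := fun i j => by
      show ((-h : SL(2, ℤ)) : Matrix (Fin 2) (Fin 2) ℤ) i j = _
      rw [Matrix.SpecialLinearGroup.coe_neg]; rfl
    have := h18_eq_T_zpow (-h) (by rw [hneg, h10, neg_zero]) (by rw [hneg, hneg, ha, hd]; norm_num)
    rw [← this, neg_neg]

theorem h84_conj_pow' (g x : SL(2, ℤ)) (n : ℕ) : (g⁻¹ * x * g) ^ n = g⁻¹ * x ^ n * g := by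
  have := conj_pow (i := n) (a := g⁻¹) (b := x)
  rwa [inv_inv] at this

/-! ### The orbit dictionary -/

section Orbits

variable (Γ : Subgroup SL(2, ℤ))

/-- `g⁻¹ T^k g ∈ Γ` iff `T^k` fixes the coset `g Γ`. -/
theorem h84_conj_mem_iff (g : SL(2, ℤ)) (k : ℤ) :
    g⁻¹ * T ^ k * g ∈ Γ ↔ T ^ k • (g : SL(2, ℤ) ⧸ Γ) = (g : SL(2, ℤ) ⧸ Γ) := by
  have : T ^ k • (g : SL(2, ℤ) ⧸ Γ) = ((T ^ k * g : SL(2, ℤ)) : SL(2, ℤ) ⧸ Γ) := rfl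
  rw [this, eq_comm, QuotientGroup.eq, mul_assoc]

/-- The width of the cusp `g⁻¹ ∞` of `Γ`: the period of the coset `g Γ` under `T`. -/
noncomputable def h84_width (g : SL(2, ℤ)) : ℕ := MulAction.period T (g : SL(2, ℤ) ⧸ Γ)

theorem h84_width_pos [Γ.FiniteIndex] (g : SL(2, ℤ)) : 0 < h84_width Γ g := by
  have hfo : IsOfFinOrder (MulAction.toPermHom SL(2, ℤ) (SL(2, ℤ) ⧸ Γ) T) :=
    isOfFinOrder_of_finite _
  obtain ⟨n, hn, hn1⟩ := isOfFinOrder_iff_pow_eq_one.mp hfo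
  refine MulAction.period_pos_of_fixed hn ?_
  have h2 := congrArg (fun σ : Equiv.Perm (SL(2, ℤ) ⧸ Γ) => σ (g : SL(2, ℤ) ⧸ Γ)) hn1
  rw [← map_pow] at h2
  simpa using h2

/-- (F5) `g⁻¹ T^k g ∈ Γ ↔ w(g) ∣ k`. -/
theorem h84_conj_mem_iff_dvd (g : SL(2, ℤ)) (k : ℤ) :
    g⁻¹ * T ^ k * g ∈ Γ ↔ (h84_width Γ g : ℤ) ∣ k := by
  rw [h84_conj_mem_iff, MulAction.zpow_smul_eq_iff_period_dvd]; rfl

/-- `ρ(g) = g⁻¹ T^w(g) g ∈ Γ`. -/
noncomputable def h84_rho (g : SL(2, ℤ)) : Γ :=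
  ⟨g⁻¹ * T ^ (h84_width Γ g : ℤ) * g, (h84_conj_mem_iff_dvd Γ g _).mpr dvd_rfl⟩

theorem h84_coe_rho (g : SL(2, ℤ)) :
    (h84_rho Γ g : SL(2, ℤ)) = g⁻¹ * T ^ (h84_width Γ g : ℤ) * g := rfl

/-- The width is constant along `⟨T⟩`-orbits. -/
theorem h84_width_eq_of_coset (g g' : SL(2, ℤ)) (l : ℤ)
    (h : (g' : SL(2, ℤ) ⧸ Γ) = T ^ l • (g : SL(2, ℤ) ⧸ Γ)) : h84_width Γ g' = h84_width Γ g := by
  have key : ∀ n : ℕ, h84_width Γ g' ∣ n ↔ h84_width Γ g ∣ n := by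
    intro n
    unfold h84_width
    rw [← MulAction.pow_smul_eq_iff_period_dvd, ← MulAction.pow_smul_eq_iff_period_dvd, h]
    have hcomm : (T : SL(2, ℤ)) ^ n * T ^ l = T ^ l * T ^ n := by
      rw [← zpow_natCast, ← zpow_add, ← zpow_add, add_comm]
    rw [← mul_smul, hcomm, mul_smul, smul_left_cancel_iff]
  exact Nat.dvd_antisymm ((key _).mpr dvd_rfl) ((key _).mp dvd_rfl)

/-- (F5) `g⁻¹ T^(w(g) n) g = ρ(g)^n`. -/
theorem h84_rho_pow (g : SL(2, ℤ)) (n : ℕ) :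
    ((h84_rho Γ g ^ n : Γ) : SL(2, ℤ)) = g⁻¹ * T ^ ((h84_width Γ g : ℤ) * n) * g := by
  rw [Subgroup.coe_pow, h84_coe_rho, h84_conj_pow', zpow_mul, zpow_natCast (T ^ (h84_width Γ g : ℤ))]

/-- (F1) `ρ(g)` is a primitive positive parabolic element of `Γ`. -/
theorem h84_rho_isPosPar [Γ.FiniteIndex] (hneg : (-1 : SL(2, ℤ)) ∈ Γ) (g : SL(2, ℤ)) :
    h42_IsPosPar Γ (h84_rho Γ g) := by
  rw [h84_isPosPar42_iff]
  have hw := h84_width_pos Γ g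
  have hw' : (0 : ℤ) < (h84_width Γ g : ℤ) := by exact_mod_cast hw
  refine ⟨?_, ?_⟩
  · have := h84_isPosPar_conj g⁻¹ (T ^ (h84_width Γ g : ℤ))
    rw [inv_inv] at this
    exact this.mpr ((h84_isPosPar_T_zpow _).mpr hw')
  · intro h k hk
    set w : ℤ := (h84_width Γ g : ℤ) with hwdef
    -- `h₀ = g h g⁻¹` satisfies `h₀ ^ k = T ^ w`
    set h₀ : SL(2, ℤ) := g * (h : SL(2, ℤ)) * g⁻¹ with hh₀
    have hpow : h₀ ^ k = T ^ w := by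
      rw [hh₀, conj_pow, ← Subgroup.coe_pow, hk, h84_coe_rho, ← hwdef]
      group
    have hcomm : T ^ w * h₀ = h₀ * T ^ w := by
      rw [← hpow, ← pow_succ, ← pow_succ']
    obtain ⟨-, l, hl⟩ := h84_comm_T_zpow h₀ w w hw'.ne' hcomm
    -- `h₀ * h₀ = T ^ (2 l)` and `g⁻¹ T^l g ∈ Γ`
    have hsq : h₀ * h₀ = T ^ (2 * l) := by
      rcases hl with hl | hl
      · rw [hl, ← zpow_add]; congr 1; ring
      · rw [hl, neg_mul_neg, ← zpow_add]; congr 1; ring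
    have hh : (h : SL(2, ℤ)) = g⁻¹ * h₀ * g := by rw [hh₀]; group
    have hmem : g⁻¹ * T ^ l * g ∈ Γ := by
      rcases hl with hl | hl
      · rw [← hl, ← hh]; exact h.2
      · have h1 : g⁻¹ * T ^ l * g = (-1 : SL(2, ℤ)) * (h : SL(2, ℤ)) := by
          rw [hh, hl]
          simp only [mul_neg, neg_mul, one_mul, neg_neg]
        rw [h1]
        exact mul_mem hneg h.2
    obtain ⟨j, hj⟩ := (h84_conj_mem_iff_dvd Γ g l).mp hmem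
    -- compare `(h₀ * h₀) ^ k`
    have h2 : (h₀ * h₀) ^ k = T ^ (2 * w) := by
      rw [← pow_two, ← pow_mul, mul_comm, pow_mul, hpow, pow_two, ← zpow_add]; congr 1; ring
    rw [hsq, ← zpow_natCast, ← zpow_mul] at h2
    have h3 : 2 * l * (k : ℤ) = 2 * w := h84_T_zpow_inj h2
    rw [hj] at h3
    have h4 : j * (k : ℤ) = 1 := by
      have : w * (j * (k : ℤ)) = w * 1 := by rw [← hwdef] at h3; linarith
      exact mul_left_cancel₀ hw'.ne' this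
    rcases Int.eq_one_or_neg_one_of_mul_eq_one' h4 with ⟨-, hk1⟩ | ⟨-, hk1⟩
    · exact_mod_cast hk1
    · have : (0 : ℤ) ≤ (k : ℤ) := Int.natCast_nonneg k
      omega

/-- (F4) every primitive positive parabolic element of `Γ` is some `ρ(b)`. -/
theorem h84_exists_eq_rho [Γ.FiniteIndex] (t : Γ) (ht : h42_IsPosPar Γ t) :
    ∃ b : SL(2, ℤ), t = h84_rho Γ b := by
  obtain ⟨⟨htr, hpos⟩, hprim⟩ := (h84_isPosPar42_iff Γ t).mp ht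
  obtain ⟨a, k, hak⟩ := h18_exists_conj_T_zpow (t : SL(2, ℤ)) htr
  have hk : 0 < k := by
    have h1 : h84_IsPosPar (t : SL(2, ℤ)) := ⟨htr, hpos⟩
    rw [hak, h84_isPosPar_conj] at h1
    exact (h84_isPosPar_T_zpow k).mp h1
  refine ⟨a⁻¹, ?_⟩
  have ht' : (t : SL(2, ℤ)) = (a⁻¹)⁻¹ * T ^ k * a⁻¹ := by rw [inv_inv]; exact hak
  have hmem : (a⁻¹)⁻¹ * T ^ k * a⁻¹ ∈ Γ := ht' ▸ t.2
  obtain ⟨n, hn⟩ := (h84_conj_mem_iff_dvd Γ a⁻¹ k).mp hmem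
  have hw := h84_width_pos Γ a⁻¹
  have hw' : (0 : ℤ) < (h84_width Γ a⁻¹ : ℤ) := by exact_mod_cast hw
  have hn0 : 0 < n := by
    by_contra hcon
    push Not at hcon
    have : (h84_width Γ a⁻¹ : ℤ) * n ≤ 0 := mul_nonpos_of_nonneg_of_nonpos hw'.le hcon
    omega
  obtain ⟨m, rfl⟩ := Int.eq_ofNat_of_zero_le hn0.le
  have hpow : h84_rho Γ a⁻¹ ^ m = t := by
    apply Subtype.ext
    rw [h84_rho_pow, ht', hn]
  have hm : m = 1 := hprim _ _ hpow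
  subst hm
  rw [pow_one] at hpow
  exact hpow.symm

/-- (F2) `ρ` of two cosets in the same `⟨T⟩`-orbit are `Γ`-conjugate. -/
theorem h84_rho_conj_of_coset (g g' : SL(2, ℤ)) (l : ℤ)
    (h : (g' : SL(2, ℤ) ⧸ Γ) = T ^ l • (g : SL(2, ℤ) ⧸ Γ)) :
    ∃ γ : Γ, γ * h84_rho Γ g' * γ⁻¹ = h84_rho Γ g := by
  have hw := h84_width_eq_of_coset Γ g g' l h
  have h' : ((T ^ l * g : SL(2, ℤ)) : SL(2, ℤ) ⧸ Γ) = (g' : SL(2, ℤ) ⧸ Γ) := h.symm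
  have hγ : (T ^ l * g)⁻¹ * g' ∈ Γ := QuotientGroup.eq.mp h'
  refine ⟨⟨(T ^ l * g)⁻¹ * g', hγ⟩, ?_⟩
  apply Subtype.ext
  show (T ^ l * g)⁻¹ * g' * (g'⁻¹ * T ^ (h84_width Γ g' : ℤ) * g') * ((T ^ l * g)⁻¹ * g')⁻¹
    = g⁻¹ * T ^ (h84_width Γ g : ℤ) * g
  rw [hw]
  group

/-- (F3) if `ρ(g)` and `ρ(g')` are `Γ`-conjugate, then `g' Γ` is in the `⟨T⟩`-orbit of `g Γ`. -/
theorem h84_coset_of_rho_conj [Γ.FiniteIndex] (hneg : (-1 : SL(2, ℤ)) ∈ Γ) (g g' : SL(2, ℤ))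
    (γ : Γ) (h : γ * h84_rho Γ g * γ⁻¹ = h84_rho Γ g') :
    ∃ l : ℤ, (g' : SL(2, ℤ) ⧸ Γ) = T ^ l • (g : SL(2, ℤ) ⧸ Γ) := by
  have h1 : (γ : SL(2, ℤ)) * (g⁻¹ * T ^ (h84_width Γ g : ℤ) * g) * (γ : SL(2, ℤ))⁻¹
      = g'⁻¹ * T ^ (h84_width Γ g' : ℤ) * g' := congrArg Subtype.val h
  have hw' : (h84_width Γ g' : ℤ) ≠ 0 := by
    have := h84_width_pos Γ g'
    exact_mod_cast this.ne'
  have hcomm : T ^ (h84_width Γ g' : ℤ) * (g' * (γ : SL(2, ℤ)) * g⁻¹)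
      = (g' * (γ : SL(2, ℤ)) * g⁻¹) * T ^ (h84_width Γ g : ℤ) := by
    have : T ^ (h84_width Γ g' : ℤ) = g' * (g'⁻¹ * T ^ (h84_width Γ g' : ℤ) * g') * g'⁻¹ := by
      group
    rw [this, ← h1]
    group
  obtain ⟨-, l, hl⟩ := h84_comm_T_zpow _ _ _ hw' hcomm
  refine ⟨l, ?_⟩
  show (g' : SL(2, ℤ) ⧸ Γ) = ((T ^ l * g : SL(2, ℤ)) : SL(2, ℤ) ⧸ Γ)
  rw [QuotientGroup.eq]
  rcases hl with hl | hl
  · have : g'⁻¹ * (T ^ l * g) = (γ : SL(2, ℤ)) := by rw [← hl]; group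
    rw [this]; exact γ.2
  · have h2 : T ^ l = -(g' * (γ : SL(2, ℤ)) * g⁻¹) := by rw [hl, neg_neg]
    have : g'⁻¹ * (T ^ l * g) = (-1 : SL(2, ℤ)) * (γ : SL(2, ℤ)) := by
      rw [h2]
      simp only [mul_neg, neg_mul, one_mul, neg_inj]
      group
    rw [this]; exact mul_mem hneg γ.2

/-- The `⟨T⟩`-orbit relation on `SL(2, ℤ) ⧸ Γ`. -/
def h84_orbSetoid : Setoid (SL(2, ℤ) ⧸ Γ) where
  r x y := ∃ l : ℤ, y = T ^ l • x
  iseqv :=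
    ⟨fun x => ⟨0, by simp⟩,
      fun {x y} ⟨l, hl⟩ => ⟨-l, by rw [hl, ← mul_smul, ← zpow_add]; simp⟩,
      fun {x y z} ⟨l, hl⟩ ⟨l', hl'⟩ => ⟨l' + l, by rw [hl', hl, ← mul_smul, ← zpow_add]⟩⟩

/-- **EXISTS-R.**  A finite-index subgroup of `SL(2, ℤ)` containing `-1` has a cusp system. -/
theorem h84_exists_cuspSystem [Γ.FiniteIndex] (hneg : (-1 : SL(2, ℤ)) ∈ Γ) :
    ∃ R : Finset Γ, h42_IsCuspSystem Γ R := by
  classical
  let s := h84_orbSetoid Γ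
  let rep : Quotient s → SL(2, ℤ) := fun ω => Quotient.out (Quotient.out ω : SL(2, ℤ) ⧸ Γ)
  have hrep : ∀ ω : Quotient s, Quotient.mk s ((rep ω : SL(2, ℤ)) : SL(2, ℤ) ⧸ Γ) = ω := by
    intro ω
    have h1 : ((rep ω : SL(2, ℤ)) : SL(2, ℤ) ⧸ Γ) = Quotient.out ω := QuotientGroup.out_eq' _
    rw [h1]; exact Quotient.out_eq ω
  have hfin : (Set.range fun ω : Quotient s => h84_rho Γ (rep ω)).Finite := Set.finite_range _
  refine ⟨hfin.toFinset, ?_, ?_, ?_⟩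
  · intro ρ hρ
    obtain ⟨ω, rfl⟩ := hfin.mem_toFinset.mp hρ
    exact h84_rho_isPosPar Γ hneg _
  · intro t ht
    obtain ⟨b, rfl⟩ := h84_exists_eq_rho Γ t ht
    set ω : Quotient s := Quotient.mk s (b : SL(2, ℤ) ⧸ Γ) with hω
    have hrel : s.r ((rep ω : SL(2, ℤ)) : SL(2, ℤ) ⧸ Γ) (b : SL(2, ℤ) ⧸ Γ) :=
      Quotient.exact (hrep ω)
    obtain ⟨l, hl⟩ := hrel
    obtain ⟨γ, hγ⟩ := h84_rho_conj_of_coset Γ (rep ω) b l hl
    refine ⟨h84_rho Γ (rep ω), hfin.mem_toFinset.mpr ⟨ω, rfl⟩, γ⁻¹, ?_⟩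
    rw [← hγ]; group
  · intro ρ hρ ρ' hρ' γ hγ
    obtain ⟨ω, rfl⟩ := hfin.mem_toFinset.mp hρ
    obtain ⟨ω', rfl⟩ := hfin.mem_toFinset.mp hρ'
    obtain ⟨l, hl⟩ := h84_coset_of_rho_conj Γ hneg (rep ω) (rep ω') γ hγ
    have : ω = ω' := by
      rw [← hrep ω, ← hrep ω']
      exact Quotient.sound ⟨l, hl⟩
    rw [this]

end Orbits

end Fermat.Agent.S41
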