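import Mathlib

/-!
# S41 block (B): the two-permutation model of the intersection pairing (linear algebra)

`X` a finite set with two permutations `σ`, `υ`, `σ² = 1`, `υ³ = 1` (right multiplication by
`S`, `U` on `Γ \ SL₂(ℤ)`).  For a commutative ring `A` let `V = (X → A)` with the operators
`S v = v ∘ σ`, `U v = v ∘ υ`, `T = S ∘ U` (`(T v) x = v (υ (σ x))`) and the standard pairing.

* `h89_C A σ υ = ker ((1 + S)(T - 1))`, `h89_VU`, `h89_VT` the fixed vectors of `U`, `T`;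
* `h89_B2 v w = ⟨v, T w⟩ - ⟨T v, w⟩` (twice the intersection pairing);
* (M1) `VU, VT ≤ C` and `B2` vanishes on `(VU ⊔ VT) × C`;
* (M2) over a field with `2 ≠ 0` the radical of `B2` on `C` is `VU ⊔ VT`;
* (M3) for odd `p` every element of `C` over `ZMod p` lifts to `C` over `ℤ`
  (the cokernel of `(1 + S)(T - 1)` on `ℤ[X]` has no odd torsion);
* (M4) integral nondegeneracy mod an odd prime `p`.
-/

set_option autoImplicit false
set_option linter.unusedSectionVars false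

namespace Fermat.Agent.S41

open Matrix

section Defs

variable {X : Type*} [Fintype X] (A : Type*) [CommRing A]

/-- the operator `v ↦ v ∘ π` on `X → A`. -/
def h89_P (π : Equiv.Perm X) : (X → A) →ₗ[A] (X → A) where
  toFun v := fun x => v (π x)
  map_add' _ _ := rfl
  map_smul' _ _ := rfl

@[simp]
theorem h89_P_apply (π : Equiv.Perm X) (v : X → A) (x : X) : h89_P A π v x = v (π x) := rfl

variable (σ υ : Equiv.Perm X)

/-- `T = S ∘ U`: `(T v) x = v (υ (σ x))`. -/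
def h89_T : (X → A) →ₗ[A] (X → A) := h89_P A σ ∘ₗ h89_P A υ

@[simp]
theorem h89_T_apply (v : X → A) (x : X) : h89_T A σ υ v x = v (υ (σ x)) := rfl

/-- `f = (1 + S)(T - 1)`. -/
def h89_f : (X → A) →ₗ[A] (X → A) := (1 + h89_P A σ) ∘ₗ (h89_T A σ υ - 1)

/-- `C = ker ((1 + S)(T - 1))`. -/
def h89_C : Submodule A (X → A) := LinearMap.ker (h89_f A σ υ)

/-- the `U`-fixed vectors. -/
def h89_VU : Submodule A (X → A) := LinearMap.ker (h89_P A υ - 1)

/-- the `T`-fixed vectors. -/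
def h89_VT : Submodule A (X → A) := LinearMap.ker (h89_T A σ υ - 1)

/-- `B2 v w = ⟨v, T w⟩ - ⟨T v, w⟩`. -/
def h89_B2 (v w : X → A) : A := v ⬝ᵥ h89_T A σ υ w - h89_T A σ υ v ⬝ᵥ w

end Defs

section Basic

variable {X : Type*} [Fintype X] {A : Type*} [CommRing A] {σ υ : Equiv.Perm X}

theorem h89_sq_apply (hσ : σ * σ = 1) (x : X) : σ (σ x) = x := by
  have := congrArg (fun π : Equiv.Perm X => π x) hσ
  simpa using this

theorem h89_f_apply (hσ : σ * σ = 1) (v : X → A) (x : X) :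
    h89_f A σ υ v x = v (υ (σ x)) - v x + (v (υ x) - v (σ x)) := by
  show (v (υ (σ x)) - v x) + (v (υ (σ (σ x))) - v (σ x)) = _
  rw [h89_sq_apply hσ]

theorem h89_mem_C_iff (hσ : σ * σ = 1) {v : X → A} :
    v ∈ h89_C A σ υ ↔ ∀ x, v (υ (σ x)) + v (υ x) = v x + v (σ x) := by
  rw [h89_C, LinearMap.mem_ker]
  constructor
  · intro h x
    have h1 := congrFun h x
    rw [h89_f_apply hσ] at h1
    have h2 : (0 : X → A) x = 0 := rfl
    rw [h2] at h1
    linear_combination h1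
  · intro h
    funext x
    rw [h89_f_apply hσ]
    show _ = (0 : A)
    linear_combination h x

theorem h89_mem_VU_iff {v : X → A} : v ∈ h89_VU A υ ↔ ∀ x, v (υ x) = v x := by
  rw [h89_VU, LinearMap.mem_ker]
  constructor
  · intro h x
    have h1 := congrFun h x
    exact sub_eq_zero.mp h1
  · intro h
    funext x
    exact sub_eq_zero.mpr (h x)

theorem h89_mem_VT_iff {v : X → A} : v ∈ h89_VT A σ υ ↔ ∀ x, v (υ (σ x)) = v x := by
  rw [h89_VT, LinearMap.mem_ker]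
  constructor
  · intro h x
    have h1 := congrFun h x
    exact sub_eq_zero.mp h1
  · intro h
    funext x
    exact sub_eq_zero.mpr (h x)

theorem h89_B2_eq (v w : X → A) :
    h89_B2 A σ υ v w = ∑ x, v x * w (υ (σ x)) - ∑ x, v (υ (σ x)) * w x := rfl

/-- `B2` is antisymmetric. -/
theorem h89_B2_antisymm (v w : X → A) : h89_B2 A σ υ w v = -h89_B2 A σ υ v w := by
  rw [h89_B2_eq, h89_B2_eq, neg_sub]
  congr 1
  · exact Finset.sum_congr rfl fun x _ => mul_comm _ _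
  · exact Finset.sum_congr rfl fun x _ => mul_comm _ _

theorem h89_B2_add_left (v v' w : X → A) :
    h89_B2 A σ υ (v + v') w = h89_B2 A σ υ v w + h89_B2 A σ υ v' w := by
  simp only [h89_B2, map_add, add_dotProduct]
  ring

theorem h89_B2_add_right (v w w' : X → A) :
    h89_B2 A σ υ v (w + w') = h89_B2 A σ υ v w + h89_B2 A σ υ v w' := by
  simp only [h89_B2, map_add, dotProduct_add]
  ring

theorem h89_B2_smul_left (c : A) (v w : X → A) :
    h89_B2 A σ υ (c • v) w = c * h89_B2 A σ υ v w := by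
  simp only [h89_B2, map_smul, smul_dotProduct, smul_eq_mul]
  ring

theorem h89_B2_smul_right (c : A) (v w : X → A) :
    h89_B2 A σ υ v (c • w) = c * h89_B2 A σ υ v w := by
  simp only [h89_B2, map_smul, dotProduct_smul, smul_eq_mul]
  ring

/-- (M1a) `U`-fixed vectors lie in `C`. -/
theorem h89_VU_le_C (hσ : σ * σ = 1) : h89_VU A υ ≤ h89_C A σ υ := by
  intro v hv
  rw [h89_mem_VU_iff] at hv
  rw [h89_mem_C_iff hσ]
  intro x
  rw [hv, hv, add_comm]

/-- (M1a) `T`-fixed vectors lie in `C`. -/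
theorem h89_VT_le_C (hσ : σ * σ = 1) : h89_VT A σ υ ≤ h89_C A σ υ := by
  intro v hv
  rw [h89_mem_VT_iff] at hv
  rw [h89_mem_C_iff hσ]
  intro x
  have h1 := hv (σ x)
  rw [h89_sq_apply hσ] at h1
  rw [hv, h1]

/-- (M1b) `B2 t w = 0` for `T`-fixed `t`. -/
theorem h89_B2_VT_left {t : X → A} (ht : t ∈ h89_VT A σ υ) (w : X → A) :
    h89_B2 A σ υ t w = 0 := by
  rw [h89_mem_VT_iff] at ht
  rw [h89_B2_eq, sub_eq_zero]
  have h1 : ∑ x, t x * w (υ (σ x)) = ∑ x, t (υ (σ x)) * w (υ (σ x)) :=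
    Finset.sum_congr rfl fun x _ => by rw [ht]
  have h2 : ∑ x, t (υ (σ x)) * w (υ (σ x)) = ∑ x, t x * w x :=
    Equiv.sum_comp (σ.trans υ) (fun y => t y * w y)
  rw [h1, h2]
  exact Finset.sum_congr rfl fun x _ => by rw [ht]

/-- (M1b) `B2 u w = 0` for `U`-fixed `u` and `w ∈ C`. -/
theorem h89_B2_VU_left (hσ : σ * σ = 1) {u : X → A} (hu : u ∈ h89_VU A υ) {w : X → A}
    (hw : w ∈ h89_C A σ υ) : h89_B2 A σ υ u w = 0 := by
  rw [h89_mem_VU_iff] at hu
  rw [h89_mem_C_iff hσ] at hw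
  rw [h89_B2_eq]
  have h1 : ∑ x, u (υ (σ x)) * w x = ∑ x, u x * w (σ x) := by
    have h4 : ∑ x, u (υ (σ (σ x))) * w (σ x) = ∑ x, u (υ (σ x)) * w x :=
      Equiv.sum_comp σ (fun x => u (υ (σ x)) * w x)
    rw [← h4]
    exact Finset.sum_congr rfl fun x _ => by rw [h89_sq_apply hσ, hu]
  have h2 : ∑ x, u x * w (υ x) = ∑ x, u x * w x := by
    have h4 : ∑ x, u (υ x) * w (υ x) = ∑ x, u x * w x :=
      Equiv.sum_comp υ (fun x => u x * w x)
    rw [← h4]
    exact Finset.sum_congr rfl fun x _ => by rw [hu]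
  rw [h1, ← Finset.sum_sub_distrib]
  have h3 : ∑ x, (u x * w (υ (σ x)) - u x * w (σ x)) = ∑ x, (u x * w x - u x * w (υ x)) :=
    Finset.sum_congr rfl fun x _ => by linear_combination u x * hw x
  rw [h3, Finset.sum_sub_distrib, h2, sub_self]

/-- (M1) `B2` vanishes on `(VU ⊔ VT) × C`. -/
theorem h89_B2_eq_zero_left (hσ : σ * σ = 1) {u : X → A} (hu : u ∈ h89_VU A υ ⊔ h89_VT A σ υ)
    {w : X → A} (hw : w ∈ h89_C A σ υ) : h89_B2 A σ υ u w = 0 := by
  obtain ⟨a, ha, b, hb, rfl⟩ := Submodule.mem_sup.mp hu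
  rw [h89_B2_add_left, h89_B2_VU_left hσ ha hw, h89_B2_VT_left hb, add_zero]

/-- (M1) `B2` vanishes on `C × (VU ⊔ VT)`. -/
theorem h89_B2_eq_zero_right (hσ : σ * σ = 1) {u : X → A} (hu : u ∈ h89_VU A υ ⊔ h89_VT A σ υ)
    {w : X → A} (hw : w ∈ h89_C A σ υ) : h89_B2 A σ υ w u = 0 := by
  rw [h89_B2_antisymm, h89_B2_eq_zero_left hσ hu hw, neg_zero]

theorem h89_sup_le_C (hσ : σ * σ = 1) : h89_VU A υ ⊔ h89_VT A σ υ ≤ h89_C A σ υ :=
  sup_le (h89_VU_le_C hσ) (h89_VT_le_C hσ)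

end Basic

section Field

variable {X : Type*} [Fintype X] {F : Type*} [Field F] {σ υ : Equiv.Perm X}

/-- a vector orthogonal to `ker g` is of the form `gᵀ a`. -/
theorem h89_exists_of_ker (g : (X → F) →ₗ[F] (X → F)) (y : X → F)
    (h : ∀ w, g w = 0 → y ⬝ᵥ w = 0) : ∃ a : X → F, ∀ w, y ⬝ᵥ w = a ⬝ᵥ g w := by
  classical
  let φ : Module.Dual F (X → F) :=
    { toFun := fun w => y ⬝ᵥ w
      map_add' := dotProduct_add y
      map_smul' := fun c w => by simp [dotProduct_smul] }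
  have hφ : φ ∈ (LinearMap.ker g).dualAnnihilator := by
    rw [Submodule.mem_dualAnnihilator]
    intro w hw
    exact h w (LinearMap.mem_ker.mp hw)
  rw [← LinearMap.range_dualMap_eq_dualAnnihilator_ker] at hφ
  obtain ⟨ψ, hψ⟩ := hφ
  refine ⟨fun x => ψ (fun j => if x = j then 1 else 0), fun w => ?_⟩
  have h1 : y ⬝ᵥ w = ψ (g w) := by
    have := congrArg (fun θ : Module.Dual F (X → F) => θ w) hψ
    exact this.symm
  rw [h1, LinearMap.pi_apply_eq_sum_univ ψ (g w)]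
  simp only [dotProduct, smul_eq_mul]
  exact Finset.sum_congr rfl fun x _ => mul_comm _ _

/-- (M2) over a field with `2 ≠ 0` the radical of `B2` on `C` is `VU ⊔ VT`. -/
theorem h89_radical_field (h2 : (2 : F) ≠ 0) (hσ : σ * σ = 1) {v : X → F}
    (hv : v ∈ h89_C F σ υ) (h : ∀ w ∈ h89_C F σ υ, h89_B2 F σ υ v w = 0) :
    v ∈ h89_VU F υ ⊔ h89_VT F σ υ := by
  classical
  have hσσ := h89_sq_apply hσ
  let τ : Equiv.Perm X := σ.trans υ
  have hτ : ∀ x, τ x = υ (σ x) := fun x => rfl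
  let y : X → F := fun x => v (τ.symm x) - v (τ x)
  have hB : ∀ w, h89_B2 F σ υ v w = y ⬝ᵥ w := by
    intro w
    rw [h89_B2_eq]
    have h1 : ∑ x, v x * w (υ (σ x)) = ∑ x, v (τ.symm x) * w x := by
      have h4 : ∑ x, v (τ.symm (τ x)) * w (τ x) = ∑ x, v (τ.symm x) * w x :=
        Equiv.sum_comp τ (fun x => v (τ.symm x) * w x)
      rw [← h4]
      exact Finset.sum_congr rfl fun x _ => by rw [Equiv.symm_apply_apply, hτ]
    rw [h1, ← Finset.sum_sub_distrib]
    exact Finset.sum_congr rfl fun x _ => by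
      show _ = (v (τ.symm x) - v (τ x)) * w x
      rw [sub_mul, hτ]
  obtain ⟨a, ha⟩ := h89_exists_of_ker (h89_f F σ υ) y (fun w hw => by
    rw [← hB]
    exact h w (LinearMap.mem_ker.mpr hw))
  let b : X → F := fun x => a x + a (σ x)
  have hbσ : ∀ x, b (σ x) = b x := fun x => by
    show a (σ x) + a (σ (σ x)) = a x + a (σ x)
    rw [hσσ, add_comm]
  have hyb : ∀ x, y x = b (τ.symm x) - b x := by
    have h3 : ∀ w, y ⬝ᵥ w = (fun x => b (τ.symm x) - b x) ⬝ᵥ w := by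
      intro w
      rw [ha w]
      have e1 : ∑ x, b (τ.symm x) * w x = ∑ x, b x * w (τ x) := by
        have h4 : ∑ x, b (τ.symm (τ x)) * w (τ x) = ∑ x, b (τ.symm x) * w x :=
          Equiv.sum_comp τ (fun x => b (τ.symm x) * w x)
        rw [← h4]
        exact Finset.sum_congr rfl fun x _ => by rw [Equiv.symm_apply_apply]
      have e2 : ∑ x, a (σ x) * w (υ (σ x)) = ∑ x, a x * w (υ x) :=
        Equiv.sum_comp σ (fun x => a x * w (υ x))
      have e3 : ∑ x, a (σ x) * w x = ∑ x, a x * w (σ x) := by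
        have h4 : ∑ x, a (σ (σ x)) * w (σ x) = ∑ x, a (σ x) * w x :=
          Equiv.sum_comp σ (fun x => a (σ x) * w x)
        rw [← h4]
        exact Finset.sum_congr rfl fun x _ => by rw [hσσ]
      have lhs : a ⬝ᵥ h89_f F σ υ w =
          ∑ x, a x * w (υ (σ x)) - ∑ x, a x * w x + (∑ x, a x * w (υ x) - ∑ x, a x * w (σ x)) := by
        simp only [dotProduct, h89_f_apply hσ, mul_add, mul_sub, Finset.sum_add_distrib,
          Finset.sum_sub_distrib]
      have rhs : (fun x => b (τ.symm x) - b x) ⬝ᵥ w =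
          ∑ x, b (τ.symm x) * w x - ∑ x, b x * w x := by
        simp only [dotProduct, sub_mul, Finset.sum_sub_distrib]
      have e4 : ∑ x, b x * w (τ x) = ∑ x, a x * w (υ (σ x)) + ∑ x, a (σ x) * w (υ (σ x)) := by
        rw [← Finset.sum_add_distrib]
        exact Finset.sum_congr rfl fun x _ => by
          show (a x + a (σ x)) * w (τ x) = _
          rw [hτ, add_mul]
      have e5 : ∑ x, b x * w x = ∑ x, a x * w x + ∑ x, a (σ x) * w x := by
        rw [← Finset.sum_add_distrib]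
        exact Finset.sum_congr rfl fun x _ => by
          show (a x + a (σ x)) * w x = _
          rw [add_mul]
      rw [lhs, rhs, e1, e4, e5, e2, e3]
      ring
    exact fun x => congrFun (dotProduct_eq _ _ h3) x
  -- the relation `v - T² v = b - T b`
  have hrel : ∀ x, v x - v (τ (τ x)) = b x - b (τ x) := by
    intro x
    have h5 : v (τ.symm (τ x)) - v (τ (τ x)) = b (τ.symm (τ x)) - b (τ x) := hyb (τ x)
    rwa [Equiv.symm_apply_apply] at h5
  let z : X → F := fun x => v x + v (τ x) - b x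
  have hzT : ∀ x, z (τ x) = z x := by
    intro x
    show v (τ x) + v (τ (τ x)) - b (τ x) = v x + v (τ x) - b x
    linear_combination -hrel x
  let t : X → F := fun x => z x / 2
  let v₁ : X → F := fun x => v x - t x
  have ht : t ∈ h89_VT F σ υ := by
    rw [h89_mem_VT_iff]
    intro x
    show z (υ (σ x)) / 2 = z x / 2
    rw [← hτ, hzT]
  have hv₁ : v₁ ∈ h89_VU F υ := by
    rw [h89_mem_VU_iff]
    intro x
    have hC := (h89_mem_C_iff hσ).mp hv x
    -- (i) v₁ + T v₁ = b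
    have hi : ∀ x', v₁ x' + v₁ (τ x') = b x' := by
      intro x'
      show v x' - z x' / 2 + (v (τ x') - z (τ x') / 2) = b x'
      rw [hzT]
      show v x' - (v x' + v (τ x') - b x') / 2 + (v (τ x') - (v x' + v (τ x') - b x') / 2) = b x'
      field_simp
      ring
    have hi1 := hi x
    have hi2 := hi (σ x)
    rw [hbσ, hτ, hσσ] at hi2
    rw [hτ] at hi1
    -- (ii) v₁ ∈ C at x
    have htx : t (υ (σ x)) = t x := (h89_mem_VT_iff.mp ht) x
    have htx' : t (υ x) = t (σ x) := by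
      have := (h89_mem_VT_iff.mp ht) (σ x)
      rwa [hσσ] at this
    have hii : v₁ (υ (σ x)) + v₁ (υ x) = v₁ x + v₁ (σ x) := by
      show v (υ (σ x)) - t (υ (σ x)) + (v (υ x) - t (υ x)) = v x - t x + (v (σ x) - t (σ x))
      rw [htx, htx']
      linear_combination hC
    have h6 : (2 : F) * (v₁ (υ x) - v₁ x) = 0 := by
      linear_combination hii + hi2 - hi1
    have h7 := (mul_eq_zero.mp h6).resolve_left h2
    exact sub_eq_zero.mp h7
  have hsum : v = v₁ + t := by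
    funext x
    show v x = v x - t x + t x
    ring
  rw [hsum]
  exact Submodule.add_mem_sup hv₁ ht

end Field

section Int

variable {X : Type*} [Fintype X] {σ υ : Equiv.Perm X}

/-- `I = range (U - 1) + range (1 - S)` inside `ℤ[X]`. -/
def h89_I (σ υ : Equiv.Perm X) : Submodule ℤ (X → ℤ) :=
  LinearMap.range (h89_P ℤ υ - 1) ⊔ LinearMap.range (1 - h89_P ℤ σ)

theorem h89_dot_eq_zero_of_mem_I {z : X → ℤ} (hz : z ∈ h89_I σ υ) {φ : X → ℤ}
    (hφσ : ∀ x, φ (σ x) = φ x) (hφυ : ∀ x, φ (υ x) = φ x) : φ ⬝ᵥ z = 0 := by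
  obtain ⟨_, ⟨c, rfl⟩, _, ⟨d, rfl⟩, rfl⟩ := Submodule.mem_sup.mp hz
  have e1 : ∑ x, φ x * c (υ x) = ∑ x, φ x * c x := by
    have h4 : ∑ x, φ (υ x) * c (υ x) = ∑ x, φ x * c x :=
      Equiv.sum_comp υ (fun x => φ x * c x)
    rw [← h4]
    exact Finset.sum_congr rfl fun x _ => by rw [hφυ]
  have e2 : ∑ x, φ x * d (σ x) = ∑ x, φ x * d x := by
    have h4 : ∑ x, φ (σ x) * d (σ x) = ∑ x, φ x * d x :=
      Equiv.sum_comp σ (fun x => φ x * d x)
    rw [← h4]
    exact Finset.sum_congr rfl fun x _ => by rw [hφσ]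
  have e3 : φ ⬝ᵥ ((h89_P ℤ υ - 1) c + (1 - h89_P ℤ σ) d) =
      ∑ x, φ x * c (υ x) - ∑ x, φ x * c x + (∑ x, φ x * d x - ∑ x, φ x * d (σ x)) := by
    rw [← Finset.sum_sub_distrib, ← Finset.sum_sub_distrib, ← Finset.sum_add_distrib]
    refine Finset.sum_congr rfl fun x _ => ?_
    show φ x * ((c (υ x) - c x) + (d x - d (σ x))) = _
    ring
  rw [e3, e1, e2]
  ring

theorem h89_single_sub_mem_I [DecidableEq X] {x y : X}
    (h : Relation.EqvGen (fun x y : X => y = σ x ∨ y = υ x) x y) :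
    (Pi.single x 1 - Pi.single y 1 : X → ℤ) ∈ h89_I σ υ := by
  induction h with
  | rel x y hxy =>
    rcases hxy with rfl | rfl
    · refine Submodule.mem_sup_right ⟨-(Pi.single (σ x) 1 : X → ℤ), ?_⟩
      funext x'
      show -((Pi.single (σ x) 1 : X → ℤ) x') - -((Pi.single (σ x) 1 : X → ℤ) (σ x')) = _
      simp only [Pi.sub_apply, Pi.single_apply, EmbeddingLike.apply_eq_iff_eq]
      ring
    · refine Submodule.mem_sup_left ⟨(Pi.single (υ x) 1 : X → ℤ), ?_⟩
      funext x'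
      show (Pi.single (υ x) 1 : X → ℤ) (υ x') - (Pi.single (υ x) 1 : X → ℤ) x' = _
      simp only [Pi.sub_apply, Pi.single_apply, EmbeddingLike.apply_eq_iff_eq]
  | refl x =>
    rw [sub_self]
    exact Submodule.zero_mem _
  | symm x y _ ih =>
    have := Submodule.neg_mem _ ih
    rwa [neg_sub] at this
  | trans x y z _ _ ih1 ih2 =>
    have := Submodule.add_mem _ ih1 ih2
    rwa [sub_add_sub_cancel] at this

theorem h89_mem_I_of_dot (z : X → ℤ)
    (h : ∀ φ : X → ℤ, (∀ x, φ (σ x) = φ x) → (∀ x, φ (υ x) = φ x) → φ ⬝ᵥ z = 0) :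
    z ∈ h89_I σ υ := by
  classical
  let r : X → X → Prop := fun x y => y = σ x ∨ y = υ x
  let s : Setoid X := Relation.EqvGen.setoid r
  let rep : X → X := fun x => (Quotient.mk s x).out
  have hrep : ∀ x, Relation.EqvGen r x (rep x) := fun x =>
    Relation.EqvGen.symm _ _ (Quotient.exact (Quotient.out_eq (Quotient.mk s x)))
  have hrepσ : ∀ x, rep (σ x) = rep x := fun x =>
    congrArg Quotient.out (Quotient.sound (s := s)
      (Relation.EqvGen.symm _ _ (Relation.EqvGen.rel x (σ x) (Or.inl rfl))))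
  have hrepυ : ∀ x, rep (υ x) = rep x := fun x =>
    congrArg Quotient.out (Quotient.sound (s := s)
      (Relation.EqvGen.symm _ _ (Relation.EqvGen.rel x (υ x) (Or.inr rfl))))
  have hzero : ∀ y, ∑ x, (if y = rep x then z x else 0) = 0 := by
    intro y
    have := h (fun x => if y = rep x then 1 else 0) (fun x => by simp only [hrepσ])
      (fun x => by simp only [hrepυ])
    simp only [dotProduct, ite_mul, one_mul, zero_mul] at this
    exact this
  have key : z = ∑ x, z x • (Pi.single x 1 - Pi.single (rep x) 1 : X → ℤ) := by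
    funext y
    rw [Finset.sum_apply]
    simp only [Pi.smul_apply, Pi.sub_apply, Pi.single_apply, smul_eq_mul, mul_sub, mul_ite,
      mul_one, mul_zero]
    rw [Finset.sum_sub_distrib, hzero y, sub_zero, Finset.sum_ite_eq]
    simp
  rw [key]
  exact Submodule.sum_mem _ fun x _ => Submodule.smul_mem _ _ (h89_single_sub_mem_I (hrep x))

/-- `ℤ[X] / I` is torsion-free. -/
theorem h89_I_saturated {n : ℤ} (hn : n ≠ 0) {z : X → ℤ} (h : n • z ∈ h89_I σ υ) :
    z ∈ h89_I σ υ := by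
  refine h89_mem_I_of_dot z fun φ hφσ hφυ => ?_
  have h1 := h89_dot_eq_zero_of_mem_I h hφσ hφυ
  rw [dotProduct_smul, smul_eq_mul] at h1
  exact (mul_eq_zero.mp h1).resolve_left hn

/-- (KL) the cokernel of `(1 + S)(T - 1)` on `ℤ[X]` has no odd torsion. -/
theorem h89_range_f_saturated (hσ : σ * σ = 1) {p : ℕ} (hp : Odd p) {z : X → ℤ}
    (h : (p : ℤ) • z ∈ LinearMap.range (h89_f ℤ σ υ)) : z ∈ LinearMap.range (h89_f ℤ σ υ) := by
  have hσσ := h89_sq_apply hσ
  obtain ⟨a, ha⟩ := h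
  have hp0 : (p : ℤ) ≠ 0 := by
    have := hp.pos
    exact_mod_cast this.ne'
  have ha' : ∀ x, (p : ℤ) * z x = a (υ (σ x)) - a x + (a (υ x) - a (σ x)) := by
    intro x
    have := congrFun ha x
    rw [h89_f_apply hσ, Pi.smul_apply, smul_eq_mul] at this
    exact this.symm
  -- `p z ∈ I`
  have hI : (p : ℤ) • z ∈ h89_I σ υ := by
    rw [← ha]
    have : h89_f ℤ σ υ a = (h89_P ℤ υ - 1) ((2 : ℤ) • a) +
        (1 - h89_P ℤ σ) (-((h89_P ℤ υ - 1) a)) := by
      funext x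
      rw [h89_f_apply hσ]
      show _ = ((2 : ℤ) * a (υ x) - (2 : ℤ) * a x) +
        (-(a (υ x) - a x) - -(a (υ (σ x)) - a (σ x)))
      ring
    rw [this]
    exact Submodule.add_mem_sup ⟨_, rfl⟩ ⟨_, rfl⟩
  have hzI := h89_I_saturated hp0 hI
  obtain ⟨_, ⟨c, rfl⟩, _, ⟨d, rfl⟩, hz⟩ := Submodule.mem_sup.mp hzI
  have hz' : ∀ x, z x = c (υ x) - c x + (d x - d (σ x)) := fun x => by
    rw [← hz]
    rfl
  -- `S z = z`
  have hS : ∀ x, z (σ x) = z x := by
    intro x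
    have h1 := ha' (σ x)
    rw [hσσ] at h1
    have h2 := ha' x
    have h3 : (p : ℤ) * z (σ x) = (p : ℤ) * z x := by rw [h1, h2]; ring
    exact mul_left_cancel₀ hp0 h3
  -- `2 z = f c`
  have h2z : ∀ x, 2 * z x = h89_f ℤ σ υ c x := by
    intro x
    rw [h89_f_apply hσ]
    have h1 := hz' x
    have h2 := hz' (σ x)
    rw [hσσ, hS] at h2
    linear_combination h1 + h2
  obtain ⟨k, hk⟩ := hp
  refine ⟨a - (k : ℤ) • c, ?_⟩
  rw [map_sub, map_smul]
  funext x
  show h89_f ℤ σ υ a x - (k : ℤ) * h89_f ℤ σ υ c x = z x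
  rw [← h2z x, h89_f_apply hσ, ← ha' x, hk]
  push_cast
  ring

/-- (M3) elements of `C` over `ZMod p` lift to `C` over `ℤ` (`p` an odd prime). -/
theorem h89_lift (hσ : σ * σ = 1) {p : ℕ} [Fact p.Prime] (hp2 : p ≠ 2) {w' : X → ZMod p}
    (hw' : w' ∈ h89_C (ZMod p) σ υ) :
    ∃ w ∈ h89_C ℤ σ υ, ∀ x, ((w x : ℤ) : ZMod p) = w' x := by
  have hp : p.Prime := Fact.out
  have hodd : Odd p := hp.odd_of_ne_two hp2
  let w₀ : X → ℤ := fun x => ((w' x).val : ℤ)
  have hw₀ : ∀ x, ((w₀ x : ℤ) : ZMod p) = w' x := fun x => by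
    show (((w' x).val : ℤ) : ZMod p) = w' x
    rw [Int.cast_natCast, ZMod.natCast_zmod_val]
  have hC := (h89_mem_C_iff hσ).mp hw'
  have hdvd : ∀ x, (p : ℤ) ∣ h89_f ℤ σ υ w₀ x := by
    intro x
    rw [← ZMod.intCast_zmod_eq_zero_iff_dvd, h89_f_apply hσ]
    push_cast
    rw [hw₀, hw₀, hw₀, hw₀]
    linear_combination hC x
  choose z hz using hdvd
  have hz' : (p : ℤ) • z ∈ LinearMap.range (h89_f ℤ σ υ) :=
    ⟨w₀, by funext x; rw [hz x]; rfl⟩
  obtain ⟨a, ha⟩ := h89_range_f_saturated hσ hodd hz'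
  refine ⟨w₀ - (p : ℤ) • a, ?_, fun x => ?_⟩
  · rw [h89_C, LinearMap.mem_ker, map_sub, map_smul, ha]
    funext x
    show h89_f ℤ σ υ w₀ x - (p : ℤ) * z x = 0
    rw [hz x, sub_self]
  · show (((w₀ x - (p : ℤ) * a x : ℤ)) : ZMod p) = w' x
    push_cast
    rw [hw₀, ZMod.natCast_self, zero_mul, sub_zero]

theorem h89_two_ne_zero {p : ℕ} [Fact p.Prime] (hp2 : p ≠ 2) : (2 : ZMod p) ≠ 0 := by
  have hp : p.Prime := Fact.out
  intro h
  have h1 : ((2 : ℕ) : ZMod p) = 0 := by exact_mod_cast h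
  rw [ZMod.natCast_eq_zero_iff] at h1
  exact hp2 ((Nat.prime_dvd_prime_iff_eq hp Nat.prime_two).mp h1)

/-- the reduction of an element of `C` over `ℤ` lies in `C` over `ZMod p`. -/
theorem h89_cast_mem_C (hσ : σ * σ = 1) (p : ℕ) {v : X → ℤ} (hv : v ∈ h89_C ℤ σ υ) :
    (fun x => ((v x : ℤ) : ZMod p)) ∈ h89_C (ZMod p) σ υ := by
  rw [h89_mem_C_iff hσ] at hv ⊢
  intro x
  have := congrArg (Int.cast : ℤ → ZMod p) (hv x)
  push_cast at this
  exact this

/-- `B2` commutes with reduction mod `p`. -/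
theorem h89_B2_cast (p : ℕ) (v w : X → ℤ) :
    h89_B2 (ZMod p) σ υ (fun x => ((v x : ℤ) : ZMod p)) (fun x => ((w x : ℤ) : ZMod p)) =
      ((h89_B2 ℤ σ υ v w : ℤ) : ZMod p) := by
  rw [h89_B2_eq, h89_B2_eq]
  push_cast
  rfl

/-- `C` over `ℤ` is saturated. -/
theorem h89_C_saturated (hσ : σ * σ = 1) {n : ℤ} (hn : n ≠ 0) {c : X → ℤ}
    (h : n • c ∈ h89_C ℤ σ υ) : c ∈ h89_C ℤ σ υ := by
  rw [h89_mem_C_iff hσ] at h ⊢
  intro x
  have h1 : n * (c (υ (σ x)) + c (υ x)) = n * (c x + c (σ x)) := by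
    have := h x
    simp only [Pi.smul_apply, smul_eq_mul] at this
    linear_combination this
  exact mul_left_cancel₀ hn h1

/-- (M4) integral nondegeneracy of `B2` on `C / (VU + VT)` modulo an odd prime `p`. -/
theorem h89_B1_int (hσ : σ * σ = 1) {p : ℕ} [Fact p.Prime] (hp2 : p ≠ 2) {v : X → ℤ}
    (hv : v ∈ h89_C ℤ σ υ) (h : ∀ w ∈ h89_C ℤ σ υ, (p : ℤ) ∣ h89_B2 ℤ σ υ v w) :
    ∃ u ∈ h89_VU ℤ υ, ∃ t ∈ h89_VT ℤ σ υ, ∃ c ∈ h89_C ℤ σ υ, v = u + t + (p : ℤ) • c := by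
  have hp : p.Prime := Fact.out
  have hp0 : (p : ℤ) ≠ 0 := by exact_mod_cast hp.ne_zero
  have hrad : ∀ w' ∈ h89_C (ZMod p) σ υ,
      h89_B2 (ZMod p) σ υ (fun x => ((v x : ℤ) : ZMod p)) w' = 0 := by
    intro w' hw'
    obtain ⟨w, hw, hww'⟩ := h89_lift hσ hp2 hw'
    have h1 : w' = fun x => ((w x : ℤ) : ZMod p) := funext fun x => (hww' x).symm
    rw [h1, h89_B2_cast, ZMod.intCast_zmod_eq_zero_iff_dvd]
    exact h w hw
  have hmem := h89_radical_field (h89_two_ne_zero hp2) hσ (h89_cast_mem_C hσ p hv) hrad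
  obtain ⟨u', hu', t', ht', hut⟩ := Submodule.mem_sup.mp hmem
  rw [h89_mem_VU_iff] at hu'
  rw [h89_mem_VT_iff] at ht'
  let u : X → ℤ := fun x => ((u' x).val : ℤ)
  let t : X → ℤ := fun x => ((t' x).val : ℤ)
  have hu : u ∈ h89_VU ℤ υ := by
    rw [h89_mem_VU_iff]
    intro x
    show ((u' (υ x)).val : ℤ) = ((u' x).val : ℤ)
    rw [hu']
  have ht : t ∈ h89_VT ℤ σ υ := by
    rw [h89_mem_VT_iff]
    intro x
    show ((t' (υ (σ x))).val : ℤ) = ((t' x).val : ℤ)
    rw [ht']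
  have hdvd : ∀ x, (p : ℤ) ∣ v x - u x - t x := by
    intro x
    rw [← ZMod.intCast_zmod_eq_zero_iff_dvd]
    have h1 := congrFun hut x
    show ((v x - ((u' x).val : ℤ) - ((t' x).val : ℤ) : ℤ) : ZMod p) = 0
    push_cast
    rw [ZMod.natCast_zmod_val, ZMod.natCast_zmod_val]
    show _ = (0 : ZMod p)
    have h2 : u' x + t' x = ((v x : ℤ) : ZMod p) := h1
    rw [← h2]
    ring
  choose c hc using hdvd
  have hvut : v = u + t + (p : ℤ) • c := by
    funext x
    show v x = u x + t x + (p : ℤ) * c x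
    rw [← hc x]
    ring
  refine ⟨u, hu, t, ht, c, ?_, hvut⟩
  refine h89_C_saturated hσ hp0 ?_
  have h3 : (p : ℤ) • c = v - u - t := by
    rw [hvut]
    abel
  rw [h3]
  exact Submodule.sub_mem _ (Submodule.sub_mem _ hv (h89_VU_le_C hσ hu)) (h89_VT_le_C hσ ht)

end Int

end Fermat.Agent.S41
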