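import Mathlib
import Fermat.Agent.S16.h18_PingPong

/-!
# S41 block (B), row B-POT: potentials on `SL(2, ℤ)` from the universal property

`κ : SL(2, ℤ) → A` with `κ (S g) = -κ g` and `κ (-g) = κ g`.  Then there is
`H : SL(2, ℤ) → A` with `H (S g) = H g + κ g` and `H (T S g) = H g`.
(The only use of the free product structure `PSL(2, ℤ) = C₂ * C₃`, via `h18_SL2Z_lift`.)
-/

set_option autoImplicit false

namespace Fermat.Agent.S41

open scoped MatrixGroups
open ModularGroup Fermat.Agent.S16

/-- the subgroup `{1, -1}` of `SL(2, ℤ)`. -/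
def h89_pm : Subgroup SL(2, ℤ) where
  carrier := {g | g = 1 ∨ g = -1}
  one_mem' := Or.inl rfl
  mul_mem' := by
    rintro a b (rfl | rfl) (rfl | rfl)
    · left; simp
    · right; simp
    · right; simp
    · left; simp
  inv_mem' := by
    rintro a (rfl | rfl)
    · left; simp
    · right
      exact inv_eq_of_mul_eq_one_left (by simp)

theorem h89_mem_pm {g : SL(2, ℤ)} : g ∈ h89_pm ↔ g = 1 ∨ g = -1 := Iff.rfl

theorem h89_mk_neg (g : SL(2, ℤ)) :
    ((-g : SL(2, ℤ)) : SL(2, ℤ) ⧸ h89_pm) = (g : SL(2, ℤ) ⧸ h89_pm) := by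
  rw [eq_comm, QuotientGroup.eq, h89_mem_pm]
  right
  simp

theorem h89_S_mul_S : (S * S : SL(2, ℤ)) = -1 := by decide

theorem h89_U_cube : ((T * S) * (T * S) * (T * S) : SL(2, ℤ)) = -1 := by decide

/-- (B-POT). -/
theorem h89_pot {A : Type*} [AddCommGroup A] (κ : SL(2, ℤ) → A)
    (hS : ∀ g, κ (S * g) = -κ g) (hneg : ∀ g, κ (-g) = κ g) :
    ∃ H : SL(2, ℤ) → A, (∀ g, H (S * g) = H g + κ g) ∧ (∀ g, H (T * S * g) = H g) := by
  classical
  -- `κ` on the quotient by `±1`
  let Q := SL(2, ℤ) ⧸ h89_pm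
  let κq : Q → A := fun x => Quotient.liftOn' x κ (by
    intro g h hgh
    rw [QuotientGroup.leftRel_apply, h89_mem_pm] at hgh
    rcases hgh with h1 | h1
    · have : h = g := by
        have := congrArg (fun t => g * t) h1
        simpa using this
      rw [this]
    · have : h = -g := by
        have := congrArg (fun t => g * t) h1
        simpa using this
      rw [this, hneg])
  have hκq : ∀ g : SL(2, ℤ), κq (g : Q) = κ g := fun g => rfl
  have hκS : ∀ x : Q, κq (S • x) = -κq x := by
    intro x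
    induction x using QuotientGroup.induction_on with
    | _ g => exact hS g
  have hneg1 : ∀ x : Q, (-1 : SL(2, ℤ)) • x = x := by
    intro x
    induction x using QuotientGroup.induction_on with
    | _ g =>
      show (((-1 : SL(2, ℤ)) * g : SL(2, ℤ)) : Q) = (g : Q)
      rw [neg_one_mul]
      exact h89_mk_neg g
  -- the two permutations
  let a : Equiv.Perm (Q × A) :=
    { toFun := fun y => (S • y.1, y.2 + κq y.1)
      invFun := fun y => (S⁻¹ • y.1, y.2 - κq (S⁻¹ • y.1))
      left_inv := by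
        intro y
        simp
      right_inv := by
        intro y
        simp }
  let b : Equiv.Perm (Q × A) :=
    { toFun := fun y => ((T * S) • y.1, y.2)
      invFun := fun y => ((T * S)⁻¹ • y.1, y.2)
      left_inv := by
        intro y
        exact Prod.ext (inv_smul_smul _ _) rfl
      right_inv := by
        intro y
        exact Prod.ext (smul_inv_smul _ _) rfl }
  have ha : a ^ 2 = 1 := by
    ext y
    · show S • S • y.1 = y.1
      rw [← mul_smul, h89_S_mul_S, hneg1]
    · show y.2 + κq y.1 + κq (S • y.1) = y.2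
      rw [hκS]
      abel
  have hb : b ^ 3 = 1 := by
    ext y
    · show (T * S) • (T * S) • (T * S) • y.1 = y.1
      rw [← mul_smul, ← mul_smul, h89_U_cube, hneg1]
    · rfl
  obtain ⟨Φ, hΦS, hΦU⟩ := h18_SL2Z_lift a b ha hb
  have hΦT : Φ T = b * a⁻¹ := by
    have : Φ T = Φ (T * S) * (Φ S)⁻¹ := by rw [map_mul, mul_inv_cancel_right]
    rw [this, hΦS, hΦU]
  -- first coordinates
  have hfst : ∀ (g : SL(2, ℤ)) (y : Q × A), (Φ g y).1 = g • y.1 := by
    intro g
    have hg : g ∈ Subgroup.closure ({S, T} : Set SL(2, ℤ)) := by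
      rw [SpecialLinearGroup.SL2Z_generators]
      exact Subgroup.mem_top g
    induction hg using Subgroup.closure_induction with
    | mem x hx =>
      rcases hx with rfl | rfl
      · intro y
        rw [hΦS]
        rfl
      · intro y
        rw [hΦT]
        show (T * S) • (S⁻¹ • y.1) = T • y.1
        rw [← mul_smul, mul_inv_cancel_right]
    | one =>
      intro y
      rw [map_one, one_smul]
      rfl
    | mul x x' _ _ ih ih' =>
      intro y
      rw [map_mul, mul_smul, ← ih', ← ih]
      rfl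
    | inv x _ ih =>
      intro y
      have h1 := ih (Φ x⁻¹ y)
      have h2 : Φ x (Φ x⁻¹ y) = y := by
        rw [← Equiv.Perm.mul_apply, ← map_mul, mul_inv_cancel, map_one]
        rfl
      rw [h2] at h1
      rw [h1, inv_smul_smul]
  let y₀ : Q × A := (((1 : SL(2, ℤ)) : Q), 0)
  have hy : ∀ g : SL(2, ℤ), Φ g y₀ = ((g : Q), (Φ g y₀).2) := by
    intro g
    refine Prod.ext ?_ rfl
    rw [hfst]
    show (((g * 1 : SL(2, ℤ))) : Q) = (g : Q)
    rw [mul_one]
  refine ⟨fun g => (Φ g y₀).2, fun g => ?_, fun g => ?_⟩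
  · show (Φ (S * g) y₀).2 = (Φ g y₀).2 + κ g
    rw [map_mul, Equiv.Perm.mul_apply, hΦS, hy g]
    rfl
  · show (Φ (T * S * g) y₀).2 = (Φ g y₀).2
    rw [map_mul, Equiv.Perm.mul_apply, hΦU]
    rfl

end Fermat.Agent.S41
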