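import Fermat.Agent.S41.h8_BIntr
import Fermat.Agent.S41.h92_BPrim
import Fermat.Agent.S41.h19_HeisPrim
import Fermat.Agent.S41.h49_BW

/-!
# S41, block (B): the cusp formula INTR (final form) and `(B3)` unconditionally

`h8_intr` : for every Heisenberg cochain `e` of a pair of parabolic homomorphisms `(φ, ψ)` of
`Γ` (finite index, `-1 ∈ Γ`) and every `m` with `T ^ m` in all conjugates of `Γ`,
`2 * ∑ x, e (g_x⁻¹ * T ^ m * g_x) = - m * h8_B Γ φ ψ`.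
Consequently `h49_Intr M` holds for every level, and the pairing is `W`-invariant.
-/

set_option autoImplicit false

open scoped MatrixGroups
open ModularGroup ModularCurve.Period CongruenceSubgroup

namespace Fermat.Agent.S41

/-- **INTR**: the cusp formula, `m`-form. -/
theorem h8_intr (Γ : Subgroup SL(2, ℤ)) [Fintype (SL(2, ℤ) ⧸ Γ)] (hneg : (-1 : SL(2, ℤ)) ∈ Γ)
    (φ ψ : Additive Γ →+ ℤ) (hφ : IsParabolicHom Γ φ) (hψ : IsParabolicHom Γ ψ) (e : Γ → ℤ)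
    (he : ∀ g h : Γ, e (g * h) = e g + e h + φ (Additive.ofMul g) * ψ (Additive.ofMul h))
    (m : ℕ) (hm : ∀ g : SL(2, ℤ), g⁻¹ * T ^ m * g ∈ Γ)
    (r : SL(2, ℤ) ⧸ Γ → SL(2, ℤ)) (hr : ∀ x, (QuotientGroup.mk (r x) : SL(2, ℤ) ⧸ Γ) = x) :
    2 * ∑ x : SL(2, ℤ) ⧸ Γ, e ⟨(r x)⁻¹ * T ^ m * r x, hm (r x)⟩ = -(m : ℤ) * h8_B Γ φ ψ := by
  obtain ⟨v, hv⟩ := h92_exists_isPot Γ hneg φ hφ
  obtain ⟨v', hv'⟩ := h92_exists_isPot Γ hneg ψ hψ
  rw [h92_B_eq' Γ hneg φ ψ v v' hv hv']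
  obtain ⟨F, P, hF, hP, hFU, hPT, hvF⟩ := hv
  obtain ⟨F', Q, hF', hQ, hF'U, hQT, hv'F⟩ := hv'
  obtain ⟨H, hH, hHU⟩ := h19_exists_heis_prim Γ hneg φ ψ e he F hF hFU
  exact h8_intr_core Γ hneg φ ψ hφ hψ e he F P F' Q hF hP hFU hPT hF' hQ hF'U hQT v v' hvF hv'F
    H hH hHU m hm r hr

/-- INTR at every level `Γ₀(M)`, in helper49's packaged form. -/
theorem h8_Intr (M : ℕ) [NeZero M] : h49_Intr M := by
  unfold h49_Intr
  intro φ ψ hφ hψ e he m hm r hr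
  exact @h8_intr (Gamma0 M) (Fintype.ofFinite _) (h49_neg_one_mem M) φ ψ hφ hψ e he m hm r hr

/-- **(B3)**: the pairing at level `N q` is invariant under the Atkin–Lehner conjugation. -/
theorem h8_B_W (N q : ℕ) [NeZero N] [Fact q.Prime] (hqN : ¬ q ∣ N)
    (ψ ψ' : Additive (Gamma0 (N * q)) →+ ℤ) (hψ : IsParabolicHom (Gamma0 (N * q)) ψ)
    (hψ' : IsParabolicHom (Gamma0 (N * q)) ψ') :
    h8_B (Gamma0 (N * q)) (h30_W N q hqN ψ) (h30_W N q hqN ψ') = h8_B (Gamma0 (N * q)) ψ ψ' :=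
  h49_B_W_of_intr N q hqN (h8_Intr (N * q)) ψ ψ' hψ hψ'

end Fermat.Agent.S41
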