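import Fermat.Agent.S41.h92_BIntr
import Fermat.Agent.S41.h84_BConj

/-!
# S41 block (B): INTR in helper84's packaged form `h84_Intr Γ`
-/

set_option autoImplicit false

namespace Fermat.Agent.S41

open scoped MatrixGroups
open ModularGroup ModularCurve.Period

/-- The interior formula in the packaged form consumed by `h84_BConj` (CI, cusp formula). -/
theorem h92_intr84 (Γ : Subgroup SL(2, ℤ)) (hneg : (-1 : SL(2, ℤ)) ∈ Γ) : h84_Intr Γ := by
  intro _ φ ψ hφ hψ e he m hm r hr
  exact h92_intr Γ hneg φ ψ hφ hψ e he m hm r hr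

end Fermat.Agent.S41
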