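import Mathlib
import Fermat.Prelude.Def_ModularCurve_PeriodMap
import Fermat.Agent.S16.h18_Parab
import Fermat.Agent.S41.h89_BModelK
import Fermat.Agent.S41.h8_BDefs
import Fermat.Agent.S41.h18_BPot2

/-!
# S41 block (B): B-SURJ + (B1)  (design: board #1870 (1), (5))

`G = SL(2, ℤ)`, `Γ ≤ G` with `-1 ∈ Γ`, `X = G ⧸ Γ` (left cosets), `σ`, `τ` the permutations of
`X` given by left multiplication by `S`, `T`; `U = T * S`.  Definitions `h8_IsPrim`, `h8_IsPot`,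
`h8_C`, `h8_B2`, `h8_B` are helper8's (`h8_BDefs`); (POT) is helper18's `h18_pot'`; the abstract
model (K1)–(K4) is helper89's (`h89_BModelK`).

* `h92_pot_CK` / `h92_pot_C` : potentials satisfy condition (C) of the model;
* `h92_surj` (SURJ) : every `v : X → ℤ` with (C) is the potential of a parabolic homomorphism;
* `h92_pot_unique` : two potentials of the same `φ` differ by `w + t`, `w` `U`-invariant and
  `t` `T`-invariant; `h92_B2_indep_left/right`, `h92_B_eq` : the pairing `h8_B` can be computed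
  with any potentials;
* `h92_B1_of`, `h92_B1` (B1) : if `φ` is parabolic (with a potential) and `p ∣ B(φ, ψ)` for all
  parabolic `ψ`, then `φ = p • φ'` with `φ'` parabolic (`p` an odd prime).
-/

set_option autoImplicit false

namespace Fermat.Agent.S41

open scoped MatrixGroups
open ModularGroup ModularCurve.Period Fermat.Agent.S16

section Const

/-- A function on `SL(2, ℤ)` that is left-invariant under `S` and `T` is left-invariant. -/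
theorem h92_const_of_ST {A : Type*} (f : SL(2, ℤ) → A) (hS : ∀ g, f (S * g) = f g)
    (hT : ∀ g, f (T * g) = f g) : ∀ h g, f (h * g) = f g := by
  let K : Subgroup SL(2, ℤ) :=
    { carrier := {h | ∀ g, f (h * g) = f g}
      mul_mem' := fun {a b} ha hb g => by
        show f (a * b * g) = f g
        rw [mul_assoc, ha, hb]
      one_mem' := fun g => by
        show f (1 * g) = f g
        rw [one_mul]
      inv_mem' := fun {a} ha g => by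
        show f (a⁻¹ * g) = f g
        have := ha (a⁻¹ * g)
        rw [mul_inv_cancel_left] at this
        exact this.symm }
  have hK : K = ⊤ := by
    rw [eq_top_iff, ← SpecialLinearGroup.SL2Z_generators, Subgroup.closure_le]
    rintro x (rfl | rfl)
    · exact hS
    · exact hT
  intro h g
  have hh : h ∈ K := by rw [hK]; trivial
  exact hh g

/-- Left invariance under one element gives left invariance under its integer powers. -/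
theorem h92_zpow_inv {A : Type*} (f : SL(2, ℤ) → A) (a : SL(2, ℤ))
    (ha : ∀ g, f (a * g) = f g) (k : ℤ) : ∀ g, f (a ^ k * g) = f g := by
  let K : Subgroup SL(2, ℤ) :=
    { carrier := {h | ∀ g, f (h * g) = f g}
      mul_mem' := fun {a b} ha hb g => by
        show f (a * b * g) = f g
        rw [mul_assoc, ha, hb]
      one_mem' := fun g => by
        show f (1 * g) = f g
        rw [one_mul]
      inv_mem' := fun {a} ha g => by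
        show f (a⁻¹ * g) = f g
        have := ha (a⁻¹ * g)
        rw [mul_inv_cancel_left] at this
        exact this.symm }
  have h1 : a ∈ K := ha
  exact K.zpow_mem h1 k

end Const

section Defs

variable (Γ : Subgroup SL(2, ℤ))

/-- Left multiplication by `a` on `SL(2, ℤ) ⧸ Γ`. -/
noncomputable def h92_perm (a : SL(2, ℤ)) : Equiv.Perm (SL(2, ℤ) ⧸ Γ) := MulAction.toPerm a

theorem h92_perm_mk (a g : SL(2, ℤ)) :
    h92_perm Γ a (g : SL(2, ℤ) ⧸ Γ) = ((a * g : SL(2, ℤ)) : SL(2, ℤ) ⧸ Γ) := rfl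

variable {Γ}

theorem h92_mk_mul_mem (g : SL(2, ℤ)) (γ : Γ) :
    ((g * (γ : SL(2, ℤ)) : SL(2, ℤ)) : SL(2, ℤ) ⧸ Γ) = (g : SL(2, ℤ) ⧸ Γ) := by
  rw [QuotientGroup.eq]
  have : (g * (γ : SL(2, ℤ)))⁻¹ * g = ((γ : SL(2, ℤ)))⁻¹ := by group
  rw [this]
  exact Γ.inv_mem γ.2

theorem h92_mk_neg (hneg : (-1 : SL(2, ℤ)) ∈ Γ) (g : SL(2, ℤ)) :
    ((-g : SL(2, ℤ)) : SL(2, ℤ) ⧸ Γ) = (g : SL(2, ℤ) ⧸ Γ) := by
  have h := h92_mk_mul_mem g (⟨-1, hneg⟩ : Γ)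
  have e : g * ((⟨-1, hneg⟩ : Γ) : SL(2, ℤ)) = -g := by
    show g * (-1 : SL(2, ℤ)) = -g
    rw [mul_neg, mul_one]
  rw [e] at h
  exact h

theorem h92_S_sq : S * S = (-1 : SL(2, ℤ)) := by decide

theorem h92_S_mul_S (g : SL(2, ℤ)) : S * (S * g) = -g := by
  rw [← mul_assoc, h92_S_sq, neg_mul, one_mul]

theorem h92_perm_S_sq (hneg : (-1 : SL(2, ℤ)) ∈ Γ) : h92_perm Γ S * h92_perm Γ S = 1 := by
  ext x
  induction x using QuotientGroup.induction_on with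
  | H g =>
    show h92_perm Γ S (h92_perm Γ S (g : SL(2, ℤ) ⧸ Γ)) = (g : SL(2, ℤ) ⧸ Γ)
    rw [h92_perm_mk, h92_perm_mk, h92_S_mul_S, h92_mk_neg hneg]

end Defs

section Pot

variable {Γ : Subgroup SL(2, ℤ)}

/-- an additive map to `ℤ` kills `-1`. -/
theorem h92_map_neg_one (hneg : (-1 : SL(2, ℤ)) ∈ Γ) (φ : Additive Γ →+ ℤ) :
    φ (Additive.ofMul (⟨-1, hneg⟩ : Γ)) = 0 := by
  have h1 : φ (Additive.ofMul (⟨-1, hneg⟩ : Γ)) + φ (Additive.ofMul (⟨-1, hneg⟩ : Γ)) = 0 := by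
    rw [← map_add, ← ofMul_mul]
    have : (⟨-1, hneg⟩ : Γ) * ⟨-1, hneg⟩ = 1 := by
      apply Subtype.ext
      show (-1 : SL(2, ℤ)) * -1 = 1
      simp
    rw [this]
    exact map_zero φ
  omega

/-- a primitive is even. -/
theorem h92_prim_neg (hneg : (-1 : SL(2, ℤ)) ∈ Γ) {φ : Additive Γ →+ ℤ} {F : SL(2, ℤ) → ℤ}
    (hF : h8_IsPrim Γ φ F) (g : SL(2, ℤ)) : F (-g) = F g := by
  have h := hF g (⟨-1, hneg⟩ : Γ)
  rw [h92_map_neg_one hneg φ, add_zero] at h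
  have e : g * ((⟨-1, hneg⟩ : Γ) : SL(2, ℤ)) = -g := by
    show g * (-1 : SL(2, ℤ)) = -g
    rw [mul_neg, mul_one]
  rw [e] at h
  exact h

/-- `T g = (T S) (-(S g))`. -/
theorem h92_T_mul (g : SL(2, ℤ)) : T * g = T * S * (-(S * g)) := by
  rw [mul_assoc, mul_neg, h92_S_mul_S, neg_neg]

/-- **Potentials satisfy condition (C) of the model.** -/
theorem h92_pot_CK (hneg : (-1 : SL(2, ℤ)) ∈ Γ) {φ : Additive Γ →+ ℤ}
    {v : SL(2, ℤ) ⧸ Γ → ℤ} (hv : h8_IsPot Γ φ v) :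
    h89_CK (h92_perm Γ S) (h92_perm Γ T) v := by
  obtain ⟨F, P, hF, hP, hFU, hPT, hv⟩ := hv
  intro x
  induction x using QuotientGroup.induction_on with
  | H g =>
    rw [h92_perm_mk, h92_perm_mk, h92_perm_mk, hv, hv, hv, hv, hPT, hPT]
    -- F (T S g) = F g,  F (T g) = F (S g)
    have h1 : F (T * g) = F (S * g) := by
      rw [h92_T_mul, hFU, h92_prim_neg hneg hF]
    have h2 : F (T * (S * g)) = F g := by
      rw [← mul_assoc, hFU]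
    rw [h1, h2]
    ring

end Pot

section Surj

variable {Γ : Subgroup SL(2, ℤ)}

/-- **(SURJ)**, permutation form: every `v` satisfying (C) is the potential of a parabolic
homomorphism. -/
theorem h92_surj_perm (hneg : (-1 : SL(2, ℤ)) ∈ Γ)
    (v : SL(2, ℤ) ⧸ Γ → ℤ) (hv : h89_CK (h92_perm Γ S) (h92_perm Γ T) v) :
    ∃ ψ : Additive Γ →+ ℤ, ψ ∈ parabolicHoms ℤ Γ ℤ ∧ h8_IsPot Γ ψ v := by
  -- κ
  set κ : SL(2, ℤ) → ℤ := fun g =>
    v ((T * g : SL(2, ℤ)) : SL(2, ℤ) ⧸ Γ) - v (g : SL(2, ℤ) ⧸ Γ) with hκ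
  have hκS : ∀ g, κ (S * g) = -κ g := by
    intro g
    have h := hv (g : SL(2, ℤ) ⧸ Γ)
    rw [h92_perm_mk, h92_perm_mk, h92_perm_mk] at h
    show v ((T * (S * g) : SL(2, ℤ)) : SL(2, ℤ) ⧸ Γ) - v ((S * g : SL(2, ℤ)) : SL(2, ℤ) ⧸ Γ)
      = -(v ((T * g : SL(2, ℤ)) : SL(2, ℤ) ⧸ Γ) - v (g : SL(2, ℤ) ⧸ Γ))
    linarith
  have hκΓ : ∀ (g : SL(2, ℤ)) (γ : Γ), κ (g * (γ : SL(2, ℤ))) = κ g := by
    intro g γ
    show v ((T * (g * (γ : SL(2, ℤ))) : SL(2, ℤ)) : SL(2, ℤ) ⧸ Γ)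
      - v ((g * (γ : SL(2, ℤ)) : SL(2, ℤ)) : SL(2, ℤ) ⧸ Γ) = _
    rw [← mul_assoc, h92_mk_mul_mem, h92_mk_mul_mem]
  obtain ⟨F, hFS, hFU, hFneg⟩ := h18_pot' κ hκS
  -- F (T g) = F g + κ g
  have hFT : ∀ g, F (T * g) = F g + κ g := by
    intro g
    rw [h92_T_mul, hFU, hFneg, hFS]
  -- the difference `F (g γ) - F g` is independent of `g`
  have hD : ∀ (γ : Γ) (h : SL(2, ℤ)),
      F (h * (γ : SL(2, ℤ))) - F h = F ((γ : SL(2, ℤ))) - F 1 := by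
    intro γ h
    have hc := h92_const_of_ST (fun g => F (g * (γ : SL(2, ℤ))) - F g)
      (fun g => by
        show F (S * g * (γ : SL(2, ℤ))) - F (S * g) = F (g * (γ : SL(2, ℤ))) - F g
        rw [mul_assoc, hFS, hFS, hκΓ]
        ring)
      (fun g => by
        show F (T * g * (γ : SL(2, ℤ))) - F (T * g) = F (g * (γ : SL(2, ℤ))) - F g
        rw [mul_assoc, hFT, hFT, hκΓ]
        ring) h 1
    simp only [mul_one, one_mul] at hc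
    exact hc
  -- the homomorphism
  let ψ : Additive Γ →+ ℤ := AddMonoidHom.mk'
    (fun γ => F ((Additive.toMul γ : Γ) : SL(2, ℤ)) - F 1)
    (fun a b => by
      show F (((Additive.toMul a * Additive.toMul b : Γ)) : SL(2, ℤ)) - F 1 = _
      have h1 := hD (Additive.toMul b) ((Additive.toMul a : Γ) : SL(2, ℤ))
      rw [Subgroup.coe_mul]
      linarith)
  have hψ : ∀ γ : Γ, ψ (Additive.ofMul γ) = F ((γ : SL(2, ℤ))) - F 1 := fun γ => rfl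
  have hF : h8_IsPrim Γ ψ F := by
    intro g γ
    rw [hψ]
    have := hD γ g
    linarith
  -- P
  set P : SL(2, ℤ) → ℤ := fun g => F g - v (g : SL(2, ℤ) ⧸ Γ) with hPdef
  have hP : h8_IsPrim Γ ψ P := by
    intro g γ
    show F (g * (γ : SL(2, ℤ))) - v ((g * (γ : SL(2, ℤ)) : SL(2, ℤ)) : SL(2, ℤ) ⧸ Γ)
      = F g - v (g : SL(2, ℤ) ⧸ Γ) + ψ (Additive.ofMul γ)
    rw [h92_mk_mul_mem, hF g γ]
    ring
  have hPT : ∀ g, P (T * g) = P g := by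
    intro g
    show F (T * g) - v ((T * g : SL(2, ℤ)) : SL(2, ℤ) ⧸ Γ) = F g - v (g : SL(2, ℤ) ⧸ Γ)
    rw [hFT]
    show F g + (v ((T * g : SL(2, ℤ)) : SL(2, ℤ) ⧸ Γ) - v (g : SL(2, ℤ) ⧸ Γ))
      - v ((T * g : SL(2, ℤ)) : SL(2, ℤ) ⧸ Γ) = F g - v (g : SL(2, ℤ) ⧸ Γ)
    ring
  refine ⟨ψ, ?_, F, P, hF, hP, hFU, hPT, fun g => ?_⟩
  · -- parabolicity
    rw [mem_parabolicHoms_iff]
    -- trace 2
    have key : ∀ γ : Γ, (γ : SL(2, ℤ)) 0 0 + (γ : SL(2, ℤ)) 1 1 = 2 →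
        ψ (Additive.ofMul γ) = 0 := by
      intro γ htr
      obtain ⟨g, k, hgk⟩ := h18_exists_conj_T_zpow (γ : SL(2, ℤ)) htr
      have h1 := hP g⁻¹ γ
      have h2 : g⁻¹ * (γ : SL(2, ℤ)) = T ^ k * g⁻¹ := by
        rw [hgk]
        group
      rw [h2, h92_zpow_inv P T hPT k] at h1
      linarith
    have hψneg : ψ (Additive.ofMul (⟨-1, hneg⟩ : Γ)) = 0 := h92_map_neg_one hneg ψ
    intro γ htr
    rw [Matrix.trace_fin_two] at htr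
    have hcases : (γ : SL(2, ℤ)) 0 0 + (γ : SL(2, ℤ)) 1 1 = 2 ∨
        (γ : SL(2, ℤ)) 0 0 + (γ : SL(2, ℤ)) 1 1 = -2 := by
      have h3 : ((γ : SL(2, ℤ)) 0 0 + (γ : SL(2, ℤ)) 1 1 - 2) *
          ((γ : SL(2, ℤ)) 0 0 + (γ : SL(2, ℤ)) 1 1 + 2) = 0 := by
        have h4 : ((γ : SL(2, ℤ)) 0 0 + (γ : SL(2, ℤ)) 1 1) ^ 2 = 4 := htr
        linear_combination h4
      rcases mul_eq_zero.mp h3 with h | h
      · left; linarith
      · right; linarith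
    rcases hcases with h | h
    · exact key γ h
    · -- `-γ` has trace 2
      have hmem : -(γ : SL(2, ℤ)) ∈ Γ := by
        have : -(γ : SL(2, ℤ)) = (-1 : SL(2, ℤ)) * (γ : SL(2, ℤ)) := by rw [neg_mul, one_mul]
        rw [this]
        exact Γ.mul_mem hneg γ.2
      have h5 := key ⟨-(γ : SL(2, ℤ)), hmem⟩ (by
        show (-(γ : SL(2, ℤ))) 0 0 + (-(γ : SL(2, ℤ))) 1 1 = 2
        rw [Matrix.SpecialLinearGroup.coe_neg]
        simp only [Matrix.neg_apply]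
        linarith)
      have h6 : (⟨-(γ : SL(2, ℤ)), hmem⟩ : Γ) = ⟨-1, hneg⟩ * γ := by
        apply Subtype.ext
        show -(γ : SL(2, ℤ)) = (-1 : SL(2, ℤ)) * (γ : SL(2, ℤ))
        rw [neg_mul, one_mul]
      rw [h6, ofMul_mul, map_add, hψneg, zero_add] at h5
      exact h5
  · show v (g : SL(2, ℤ) ⧸ Γ) = F g - (F g - v (g : SL(2, ℤ) ⧸ Γ))
    ring

end Surj

section B1

variable {Γ : Subgroup SL(2, ℤ)} [Fintype (SL(2, ℤ) ⧸ Γ)]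

/-- **(B1)** integral nondegeneracy modulo an odd prime `p`: if the potential `v` of a parabolic
`φ` pairs into `p ℤ` with the potentials of all parabolic homomorphisms, then `φ ∈ p L`. -/
theorem h92_B1_of (hneg : (-1 : SL(2, ℤ)) ∈ Γ)
    {p : ℕ} [Fact p.Prime] (hp2 : p ≠ 2)
    {φ : Additive Γ →+ ℤ} (hφ : φ ∈ parabolicHoms ℤ Γ ℤ)
    {v : SL(2, ℤ) ⧸ Γ → ℤ} (hv : h8_IsPot Γ φ v)
    (h : ∀ ψ ∈ parabolicHoms ℤ Γ ℤ, ∀ v' : SL(2, ℤ) ⧸ Γ → ℤ, h8_IsPot Γ ψ v' →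
      (p : ℤ) ∣ h89_B2K (h92_perm Γ T) v v') :
    ∃ φ' ∈ parabolicHoms ℤ Γ ℤ, φ = p • φ' := by
  have hp : p.Prime := Fact.out
  have hp0 : (p : ℤ) ≠ 0 := by exact_mod_cast hp.ne_zero
  obtain ⟨w, t, u, hw, ht, -, hsum⟩ := h89_K4 (h92_perm_S_sq hneg) hp2 (h92_pot_CK hneg hv)
    (fun v' hv' => by
      obtain ⟨ψ, hψ, hpot'⟩ := h92_surj_perm hneg v' hv'
      exact h ψ hψ v' hpot')
  obtain ⟨F, P, hF, hP, hFU, hPT, hvFP⟩ := hv
  -- `F - w` modulo `p`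
  set f : SL(2, ℤ) → ZMod p := fun g => ((F g - w (g : SL(2, ℤ) ⧸ Γ) : ℤ) : ZMod p) with hf
  have hfU : ∀ g, f (T * S * g) = f g := by
    intro g
    show ((F (T * S * g) - w ((T * S * g : SL(2, ℤ)) : SL(2, ℤ) ⧸ Γ) : ℤ) : ZMod p) = _
    have h1 := hw (g : SL(2, ℤ) ⧸ Γ)
    rw [h92_perm_mk, h92_perm_mk, ← mul_assoc] at h1
    rw [hFU, h1]
  have hfP : ∀ g, f g = ((P g + t (g : SL(2, ℤ) ⧸ Γ) : ℤ) : ZMod p) := by
    intro g
    have h1 : v (g : SL(2, ℤ) ⧸ Γ) = w (g : SL(2, ℤ) ⧸ Γ) + t (g : SL(2, ℤ) ⧸ Γ)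
        + (p : ℤ) * u (g : SL(2, ℤ) ⧸ Γ) := by
      rw [hsum]
      rfl
    have h2 := hvFP g
    have h3 : F g - w (g : SL(2, ℤ) ⧸ Γ)
        = P g + t (g : SL(2, ℤ) ⧸ Γ) + (p : ℤ) * u (g : SL(2, ℤ) ⧸ Γ) := by linarith
    show ((F g - w (g : SL(2, ℤ) ⧸ Γ) : ℤ) : ZMod p) = _
    rw [h3]
    push_cast
    rw [ZMod.natCast_self, zero_mul, add_zero]
  have hfT : ∀ g, f (T * g) = f g := by
    intro g
    have h1 := ht (g : SL(2, ℤ) ⧸ Γ)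
    rw [h92_perm_mk] at h1
    rw [hfP, hfP, hPT, h1]
  have hfS : ∀ g, f (S * g) = f g := by
    intro g
    have h1 : f (T * (S * g)) = f (S * g) := hfT (S * g)
    rw [← h1, ← mul_assoc, hfU]
  have hconst := h92_const_of_ST f hfS hfT
  -- `p ∣ φ γ`
  have hdvd : ∀ γ : Γ, (p : ℤ) ∣ φ (Additive.ofMul γ) := by
    intro γ
    have h1 := hconst (γ : SL(2, ℤ)) 1
    rw [mul_one] at h1
    have h2 := hF 1 γ
    rw [one_mul] at h2
    have h3 : (((γ : SL(2, ℤ)) : SL(2, ℤ)) : SL(2, ℤ) ⧸ Γ)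
        = ((1 : SL(2, ℤ)) : SL(2, ℤ) ⧸ Γ) := by
      have := h92_mk_mul_mem (1 : SL(2, ℤ)) γ
      rwa [one_mul] at this
    have h4 : ((F (γ : SL(2, ℤ)) - w (((γ : SL(2, ℤ)) : SL(2, ℤ)) : SL(2, ℤ) ⧸ Γ) : ℤ) : ZMod p)
        = ((F 1 - w ((1 : SL(2, ℤ)) : SL(2, ℤ) ⧸ Γ) : ℤ) : ZMod p) := h1
    rw [h3, h2] at h4
    rw [← ZMod.intCast_zmod_eq_zero_iff_dvd]
    have h5 : ((φ (Additive.ofMul γ) : ℤ) : ZMod p)
        = ((F 1 + φ (Additive.ofMul γ) - w ((1 : SL(2, ℤ)) : SL(2, ℤ) ⧸ Γ) : ℤ) : ZMod p)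
          - ((F 1 - w ((1 : SL(2, ℤ)) : SL(2, ℤ) ⧸ Γ) : ℤ) : ZMod p) := by
      push_cast
      ring
    rw [h5, h4, sub_self]
  -- the quotient homomorphism
  let φ' : Additive Γ →+ ℤ := AddMonoidHom.mk' (fun γ => φ γ / (p : ℤ))
    (fun a b => by
      show φ (a + b) / (p : ℤ) = φ a / (p : ℤ) + φ b / (p : ℤ)
      rw [map_add]
      exact Int.add_ediv_of_dvd_left (hdvd (Additive.toMul a)))
  have hφ' : ∀ γ : Additive Γ, φ' γ = φ γ / (p : ℤ) := fun γ => rfl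
  refine ⟨φ', ?_, ?_⟩
  · rw [mem_parabolicHoms_iff] at hφ ⊢
    intro γ htr
    rw [hφ', hφ γ htr, Int.zero_ediv]
  · refine AddMonoidHom.ext fun γ => ?_
    rw [AddMonoidHom.smul_apply, hφ', nsmul_eq_mul]
    exact (Int.mul_ediv_cancel' (hdvd (Additive.toMul γ))).symm

end B1

section Lang

variable {Γ : Subgroup SL(2, ℤ)}

/-- Potentials satisfy (C), in helper8's spelling. -/
theorem h92_pot_C (hneg : (-1 : SL(2, ℤ)) ∈ Γ) {φ : Additive Γ →+ ℤ}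
    {v : SL(2, ℤ) ⧸ Γ → ℤ} (hv : h8_IsPot Γ φ v) :
    h8_C (fun x : SL(2, ℤ) ⧸ Γ => S • x) (fun x : SL(2, ℤ) ⧸ Γ => T • x) v :=
  h92_pot_CK hneg hv

/-- **(SURJ)** every `v : G ⧸ Γ → ℤ` satisfying (C) is the potential of a parabolic
homomorphism. -/
theorem h92_surj (hneg : (-1 : SL(2, ℤ)) ∈ Γ) (v : SL(2, ℤ) ⧸ Γ → ℤ)
    (hv : h8_C (fun x : SL(2, ℤ) ⧸ Γ => S • x) (fun x : SL(2, ℤ) ⧸ Γ => T • x) v) :
    ∃ ψ : Additive Γ →+ ℤ, ψ ∈ parabolicHoms ℤ Γ ℤ ∧ h8_IsPot Γ ψ v :=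
  h92_surj_perm hneg v hv

/-- Descent of a right-`Γ`-invariant function to `G ⧸ Γ`. -/
theorem h92_exists_desc {A : Type*} (f : SL(2, ℤ) → A)
    (hf : ∀ (g : SL(2, ℤ)) (γ : Γ), f (g * (γ : SL(2, ℤ))) = f g) :
    ∃ fb : SL(2, ℤ) ⧸ Γ → A, ∀ g : SL(2, ℤ), fb (g : SL(2, ℤ) ⧸ Γ) = f g :=
  ⟨fun x => Quotient.liftOn' x f (fun a b hab => by
      have h1 : a⁻¹ * b ∈ Γ := QuotientGroup.leftRel_apply.mp hab
      have h2 := hf a ⟨a⁻¹ * b, h1⟩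
      have h3 : a * ((⟨a⁻¹ * b, h1⟩ : Γ) : SL(2, ℤ)) = b := mul_inv_cancel_left a b
      rw [h3] at h2
      exact h2.symm), fun g => rfl⟩

/-- Two potentials of the same `φ` differ by `w + t` with `w` `U`-invariant, `t` `T`-invariant. -/
theorem h92_pot_unique {φ : Additive Γ →+ ℤ} {v₁ v₂ : SL(2, ℤ) ⧸ Γ → ℤ}
    (h₁ : h8_IsPot Γ φ v₁) (h₂ : h8_IsPot Γ φ v₂) :
    ∃ w t : SL(2, ℤ) ⧸ Γ → ℤ, (∀ x, w (h92_perm Γ T (h92_perm Γ S x)) = w x) ∧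
      (∀ x, t (h92_perm Γ T x) = t x) ∧ v₁ = v₂ + w + t := by
  obtain ⟨F₁, P₁, hF₁, hP₁, hF₁U, hP₁T, hv₁⟩ := h₁
  obtain ⟨F₂, P₂, hF₂, hP₂, hF₂U, hP₂T, hv₂⟩ := h₂
  obtain ⟨w, hw⟩ := h92_exists_desc (Γ := Γ) (fun g => F₁ g - F₂ g) (fun g γ => by
    show F₁ (g * (γ : SL(2, ℤ))) - F₂ (g * (γ : SL(2, ℤ))) = F₁ g - F₂ g
    rw [hF₁, hF₂]
    ring)
  obtain ⟨t, ht⟩ := h92_exists_desc (Γ := Γ) (fun g => P₂ g - P₁ g) (fun g γ => by
    show P₂ (g * (γ : SL(2, ℤ))) - P₁ (g * (γ : SL(2, ℤ))) = P₂ g - P₁ g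
    rw [hP₁, hP₂]
    ring)
  refine ⟨w, t, fun x => ?_, fun x => ?_, ?_⟩
  · induction x using QuotientGroup.induction_on with
    | H g =>
      rw [h92_perm_mk, h92_perm_mk, hw, hw, ← mul_assoc, hF₁U, hF₂U]
  · induction x using QuotientGroup.induction_on with
    | H g =>
      rw [h92_perm_mk, ht, ht, hP₁T, hP₂T]
  · funext x
    induction x using QuotientGroup.induction_on with
    | H g =>
      show v₁ (g : SL(2, ℤ) ⧸ Γ) = v₂ (g : SL(2, ℤ) ⧸ Γ) + w (g : SL(2, ℤ) ⧸ Γ)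
        + t (g : SL(2, ℤ) ⧸ Γ)
      rw [hv₁, hv₂, hw, ht]
      ring

variable [Fintype (SL(2, ℤ) ⧸ Γ)]

/-- The model pairing does not depend on the potential in the left argument. -/
theorem h92_B2_indep_left (hneg : (-1 : SL(2, ℤ)) ∈ Γ) {φ : Additive Γ →+ ℤ}
    {v₁ v₂ : SL(2, ℤ) ⧸ Γ → ℤ} (h₁ : h8_IsPot Γ φ v₁) (h₂ : h8_IsPot Γ φ v₂)
    {v' : SL(2, ℤ) ⧸ Γ → ℤ} (hv' : h89_CK (h92_perm Γ S) (h92_perm Γ T) v') :
    h89_B2K (h92_perm Γ T) v₁ v' = h89_B2K (h92_perm Γ T) v₂ v' := by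
  obtain ⟨w, t, hw, ht, hsum⟩ := h92_pot_unique h₁ h₂
  have e1 : h89_B2K (h92_perm Γ T) (v₂ + w + t) v'
      = h89_B2K (h92_perm Γ T) v₂ v' + h89_B2K (h92_perm Γ T) w v'
        + h89_B2K (h92_perm Γ T) t v' := by
    have h1 := h8_B2_add_left (⇑(h92_perm Γ T)) (v₂ + w) t v'
    have h2 := h8_B2_add_left (⇑(h92_perm Γ T)) v₂ w v'
    rw [h2] at h1
    exact h1
  rw [hsum, e1, (h89_K1_U (h92_perm_S_sq hneg) hw).2 v' hv',
    (h89_K1_T (h92_perm_S_sq hneg) ht).2 v', add_zero, add_zero]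

/-- The model pairing does not depend on the potential in the right argument. -/
theorem h92_B2_indep_right (hneg : (-1 : SL(2, ℤ)) ∈ Γ) {φ : Additive Γ →+ ℤ}
    {v₁ v₂ : SL(2, ℤ) ⧸ Γ → ℤ} (h₁ : h8_IsPot Γ φ v₁) (h₂ : h8_IsPot Γ φ v₂)
    {v' : SL(2, ℤ) ⧸ Γ → ℤ} (hv' : h89_CK (h92_perm Γ S) (h92_perm Γ T) v') :
    h89_B2K (h92_perm Γ T) v' v₁ = h89_B2K (h92_perm Γ T) v' v₂ := by
  rw [h89_B2K_antisymm v₁ v', h89_B2K_antisymm v₂ v', h92_B2_indep_left hneg h₁ h₂ hv']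

/-- **The pairing `h8_B` computed with arbitrary potentials.** -/
theorem h92_B_eq (hneg : (-1 : SL(2, ℤ)) ∈ Γ) {φ ψ : Additive Γ →+ ℤ}
    {v v' : SL(2, ℤ) ⧸ Γ → ℤ} (hv : h8_IsPot Γ φ v) (hv' : h8_IsPot Γ ψ v') :
    h8_B Γ φ ψ = h8_B2 (fun x : SL(2, ℤ) ⧸ Γ => T • x) v v' := by
  rw [h8_B_eq_B2]
  have h1 := h8_pot_spec Γ φ ⟨v, hv⟩
  have h2 := h8_pot_spec Γ ψ ⟨v', hv'⟩
  have e1 := h92_B2_indep_left hneg h1 hv (h92_pot_CK hneg h2)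
  have e2 := h92_B2_indep_right hneg h2 hv' (h92_pot_CK hneg hv)
  exact e1.trans e2

/-- **(B1)** nondegeneracy of `h8_B` modulo an odd prime `p` on parabolic homomorphisms (the
hypothesis `hB_nd` of `h43_ribet_alg`), given a potential of `φ`. -/
theorem h92_B1 (hneg : (-1 : SL(2, ℤ)) ∈ Γ) {p : ℕ} [Fact p.Prime] (hp2 : p ≠ 2)
    {φ : Additive Γ →+ ℤ} (hφ : φ ∈ parabolicHoms ℤ Γ ℤ) (hφpot : ∃ v, h8_IsPot Γ φ v)
    (h : ∀ ψ ∈ parabolicHoms ℤ Γ ℤ, ((h8_B Γ φ ψ : ℤ) : ZMod p) = 0) :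
    ∃ φ' ∈ parabolicHoms ℤ Γ ℤ, φ = p • φ' := by
  obtain ⟨v, hv⟩ := hφpot
  refine h92_B1_of hneg hp2 hφ hv fun ψ hψ v' hv' => ?_
  rw [← ZMod.intCast_zmod_eq_zero_iff_dvd]
  have h1 := h ψ hψ
  rw [h92_B_eq hneg hv hv'] at h1
  exact h1

end Lang

end Fermat.Agent.S41
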