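import Mathlib
import Fermat.Prelude.Def_ModularCurve_PeriodMap
import Fermat.Agent.S16.h9_Lift
import Fermat.Agent.S41.h30_LRDefs

/-!
# S41, block (B): shared definitions for the duality pairing on parabolic homomorphisms

`X M = SL(2, ℤ) ⧸ Γ₀(M)` with the left action of `SL(2, ℤ)`; `S`, `T` the standard generators,
`U = T * S` (order `3` on `X`), so that `T = U * S⁻¹` acts on `X` as `U ∘ S`.

* `h99_InC M v`        : `v : X → A` lies in the model space `C = ker ((1 + S)(T - 1))`;
* `h99_B2 M v w`       : the model pairing `∑ x, (v x * w (T • x) - v (T • x) * w x)`;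
* `h99_Rel M v φ`      : the homomorphism `φ : Γ₀(M) → A` is attached to the model vector `v`
  (the coset cocycle of `φ`, corrected by a coboundary `u`, vanishes on `T * S` and equals
  `(T - 1) v` on `S`);
* `h99_IsLift φ ψ e`   : `e` is a Heisenberg lift of `(φ, ψ)`;
* `h99_par M x`, `h99_CS M e` : the parabolic element attached to the `T`-orbit of `x`, and the
  cusp sum of a function `e` on `Γ₀(M)`;
* `h99_proj`, `h99_push` : the projection `X (N q) → X N` and the push-forward of functions.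
-/

set_option autoImplicit false

namespace Fermat.Agent.S41

open CongruenceSubgroup Matrix.SpecialLinearGroup ModularGroup ModularCurve.Period
open scoped MatrixGroups
open Fermat.Agent.S16 Fermat.Agent.S20

noncomputable section

/-- The coset space `SL(2, ℤ) ⧸ Γ₀(M)`. -/
abbrev h99_X (M : ℕ) : Type := SL(2, ℤ) ⧸ Gamma0 M

instance h99_finiteX (M : ℕ) [NeZero M] : Finite (h99_X M) :=
  Subgroup.finite_quotient_of_finiteIndex

instance h99_fintypeX (M : ℕ) [NeZero M] : Fintype (h99_X M) := Fintype.ofFinite _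

instance h99_fintypeOrb (M : ℕ) [NeZero M] :
    Fintype (Quotient (MulAction.orbitRel (Subgroup.zpowers (T : SL(2, ℤ))) (h99_X M))) :=
  Fintype.ofFinite _

/-- The base coset. -/
def h99_x0 (M : ℕ) : h99_X M := ((1 : SL(2, ℤ)) : SL(2, ℤ) ⧸ Gamma0 M)

/-- The model space `C`: `(1 + S)(T - 1) v = 0`. -/
def h99_InC (M : ℕ) {A : Type*} [AddCommGroup A] (v : h99_X M → A) : Prop :=
  ∀ x : h99_X M, (v ((T : SL(2, ℤ)) • x) - v x) +
    (v ((T : SL(2, ℤ)) • (S : SL(2, ℤ)) • x) - v ((S : SL(2, ℤ)) • x)) = 0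

/-- The model pairing `⟨v, T w⟩ - ⟨T v, w⟩`. -/
def h99_B2 (M : ℕ) [NeZero M] {A : Type*} [CommRing A] (v w : h99_X M → A) : A :=
  ∑ x : h99_X M, (v x * w ((T : SL(2, ℤ)) • x) - v ((T : SL(2, ℤ)) • x) * w x)

/-- `φ` is the homomorphism attached to the model vector `v`: for some `u`, the cocycle
`c g x = φ (coc g x) + u (g • x) - u x` satisfies `c (T * S) = 0` and `c S = (T - 1) v`. -/
def h99_Rel (M : ℕ) {A : Type*} [AddCommGroup A] (v : h99_X M → A)
    (φ : Additive (Gamma0 M) →+ A) : Prop :=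
  ∃ u : h99_X M → A,
    (∀ x, h9_totA (Gamma0 M) φ (T * S) x + u ((T * S : SL(2, ℤ)) • x) - u x = 0) ∧
    (∀ x, h9_totA (Gamma0 M) φ S x + u ((S : SL(2, ℤ)) • x) - u x
      = v ((T : SL(2, ℤ)) • x) - v x)

/-- `e` is a Heisenberg lift of the pair `(φ, ψ)`. -/
def h99_IsLift {Γ : Type*} [Group Γ] {A : Type*} [Ring A] (φ ψ : Additive Γ →+ A)
    (e : Γ → A) : Prop :=
  ∀ g h : Γ, e (g * h) = e g + e h + φ (Additive.ofMul g) * ψ (Additive.ofMul h)

/-- The parabolic element of `Γ₀(M)` attached to (the `T`-orbit of) the coset `x`: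
`(out x)⁻¹ * T ^ (period of x) * out x`. -/
def h99_par (M : ℕ) (x : h99_X M) : Gamma0 M :=
  ⟨(Quotient.out x)⁻¹ * T ^ Function.minimalPeriod ((T : SL(2, ℤ)) • ·) x * Quotient.out x,
    QuotientGroup.out_conj_pow_minimalPeriod_mem (Gamma0 M) T x⟩

/-- The cusp sum of a function on `Γ₀(M)`: the sum over the `T`-orbits on `X`. -/
def h99_CS (M : ℕ) [NeZero M] {A : Type*} [AddCommMonoid A] (e : Gamma0 M → A) : A :=
  ∑ o : Quotient (MulAction.orbitRel (Subgroup.zpowers (T : SL(2, ℤ))) (h99_X M)),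
    e (h99_par M (Quotient.out o))

/-- The projection `X (N q) → X N`. -/
def h99_proj (N q : ℕ) : h99_X (N * q) → h99_X N :=
  Quotient.map' id (fun a b hab => by
    rw [QuotientGroup.leftRel_apply] at hab ⊢
    exact h30_mem_Gamma0_iff.mpr
      ((Dvd.intro (q : ℤ) (by push_cast; ring)).trans (h30_mem_Gamma0_iff.mp hab)))

/-- Push-forward of functions along `h99_proj` (sum over the fibres). -/
def h99_push (N q : ℕ) [NeZero (N * q)] {A : Type*} [AddCommMonoid A]
    (w : h99_X (N * q) → A) (x : h99_X N) : A := by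
  classical
  exact ∑ y ∈ Finset.univ.filter (fun y : h99_X (N * q) => h99_proj N q y = x), w y

end

end Fermat.Agent.S41
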